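/-
S28 shared definitions (helper26, lead).  Definitions only; the lemmas about them are in the
packages.  `import Fermat.Agent.S28.Defs`, namespace `Fermat.Agent.S28`.
-/
import Mathlib
import Fermat.Prelude.Def_ModularCurve_IgusaScheme
import Fermat.Prelude.Def_ModularCurve_X0ModL

set_option autoImplicit false

noncomputable section

namespace Fermat.Agent.S28

open ModularCurve

section Subst

variable (R : Type*) [CommRing R]

/-- `f(q) ↦ f(q^m)` for every `m : ℕ` (the identity for `m = 0`, a junk value);
equal to the Prelude `qExpand R m` when `m ≠ 0`. -/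
def expand (m : ℕ) : LaurentSeries R →+* LaurentSeries R :=
  if h : m = 0 then RingHom.id _ else @qExpand R _ m ⟨h⟩

variable {R}

/-- The underlying function of `scale`. -/
def scaleFun (ζ : Rˣ) (f : LaurentSeries R) : LaurentSeries R where
  coeff := fun n => ((ζ ^ n : Rˣ) : R) * f.coeff n
  isPWO_support' := f.isPWO_support.mono fun n hn => by
    simp only [Function.mem_support, ne_eq, HahnSeries.mem_support] at hn ⊢
    intro h
    exact hn (by rw [h, mul_zero])

@[simp]
theorem scaleFun_coeff (ζ : Rˣ) (f : LaurentSeries R) (n : ℤ) :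
    (scaleFun ζ f).coeff n = ((ζ ^ n : Rˣ) : R) * f.coeff n := rfl

theorem support_scaleFun (ζ : Rˣ) (f : LaurentSeries R) :
    (scaleFun ζ f).support = f.support := by
  ext n
  simp only [HahnSeries.mem_support, scaleFun_coeff, ne_eq]
  exact not_congr (Units.mul_right_eq_zero _)

/-- `f(t) ↦ f(ζ t)`: the coefficient of `t^n` is multiplied by `ζ^n`. -/
def scale (ζ : Rˣ) : LaurentSeries R →+* LaurentSeries R where
  toFun := scaleFun ζ
  map_zero' := by
    ext n
    simp
  map_one' := by
    ext n
    by_cases hn : n = 0
    · subst hn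
      simp
    · simp [HahnSeries.coeff_one, hn]
  map_add' f g := by
    ext n
    simp [mul_add]
  map_mul' f g := by
    ext n
    simp only [HahnSeries.coeff_mul, scaleFun_coeff, Finset.mul_sum]
    have hS : Finset.antidiagonal (scaleFun ζ f).isPWO_support (scaleFun ζ g).isPWO_support n
        = Finset.antidiagonal f.isPWO_support g.isPWO_support n := by
      ext ⟨i, j⟩
      simp only [Finset.mem_antidiagonal, support_scaleFun]
    rw [hS]
    refine Finset.sum_congr rfl ?_
    rintro ⟨i, j⟩ hij
    have hn : i + j = n := (Finset.mem_antidiagonal.mp hij).2.2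
    subst hn
    simp only [zpow_add, Units.val_mul]
    ring

variable (R)

/-- `yS R ξ m = j(ξ t^m)`, the `q`-expansion of `j` with `q` replaced by `ξ t^m`. -/
def yS (ξ : Rˣ) (m : ℕ) : LaurentSeries R := expand R m (scale ξ (jqModC R))

/-- the formal discriminant `Δ = q ∏ (1 - q^n)^24`. -/
def deltaS : LaurentSeries R :=
  HahnSeries.single (1 : ℤ) 1 *
    HahnSeries.ofPowerSeries ℤ R (dedekindEtaUnit.map (Int.castRingHom R))

/-- `θ = q d/dq` on Laurent series, as an additive map (it is a derivation: package [Theta]). -/
def theta : LaurentSeries R →+ LaurentSeries R where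
  toFun f :=
    { coeff := fun n => (n : R) * f.coeff n
      isPWO_support' := f.isPWO_support.mono fun n hn => by
        simp only [Function.mem_support, ne_eq, HahnSeries.mem_support] at hn ⊢
        intro h
        exact hn (by rw [h, mul_zero]) }
  map_zero' := by
    ext n
    simp
  map_add' f g := by
    ext n
    simp [mul_add]

end Subst

/-- The modular equation of prime level `p` over the field `k`, w.r.t. the `p`-th root of unity
`ζ`: `Φ(X, j(s^p)) = (X - j(s^{p²})) ∏_{b<p} (X - j(ζ^b s))` in `k((s))[X]`. -/
structure ModEq (k : Type*) [Field k] (p : ℕ) (ζ : kˣ) where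
  /-- the modular polynomial; the outer variable is `X`, the inner one is `j` -/
  Φ : Polynomial (Polynomial k)
  monic : Φ.Monic
  natDegree_eq : Φ.natDegree = p + 1
  factor : Φ.map (Polynomial.aeval (expand k p (jqModC k))).toRingHom =
    (Polynomial.X - Polynomial.C (expand k (p ^ 2) (jqModC k))) *
      ∏ b ∈ Finset.range p, (Polynomial.X - Polynomial.C (scale (ζ ^ b) (jqModC k)))

/-- Laurent series over `ℚ` all of whose coefficients are `ℓ`-integral: the image of
`ℤ_(ℓ)((q))`. -/
def intLaurent (ℓ : ℕ) : Subring (LaurentSeries ℚ) :=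
  (coeffMap (GaloisRep.ratLocalizedAt ℓ).subtype).range

section TowerDefs

variable (k : Type*) [Field k]

/-- `k(j(q^d))` inside `k((q))`. -/
def jField (d : ℕ) : IntermediateField k (LaurentSeries k) :=
  IntermediateField.adjoin k {expand k d (jqModC k)}

/-- `k(j(q^d) : d ∣ M)` inside `k((q))`; for `M ≠ 0` this is the Prelude
`modularFunctionFieldFullC k M`. -/
def fullField (M : ℕ) : IntermediateField k (LaurentSeries k) :=
  IntermediateField.adjoin k {x | ∃ d : ℕ, d ∣ M ∧ x = expand k d (jqModC k)}

end TowerDefs

end Fermat.Agent.S28
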