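/-
S28 — abstract irreducibility lemma (owner: helper6).

Pure algebra in `LaurentSeries k` (`k` a field).  Given
* a transcendental element `J`,
* pairwise distinct "conjugates" `Jc c` (`c : C`) such that `∏ c, (X - Jc c)` has coefficients in
  `k[J]`,
* "units" `H i c`, with inverses `H' i c`, whose characteristic polynomials `∏ c, (X - H i c)` have
  coefficients in `k[J]` and which are interpolated by polynomials over `k[J]`
  (`∑ c, H i c * ∏ c' ≠ c, (X - Jc c')` has coefficients in `k[J]`),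
* integer weights `w i` such that `∑ i, w i * order (H i c) < 0` for every `c ≠ c₀`,
the powers `1, Jc c₀, …, (Jc c₀) ^ (|C| - 1)` are linearly independent over `k[J]`: a polynomial
with coefficients in `k[J]` of degree `< |C|` that vanishes at `Jc c₀` is zero.
-/
import Mathlib

set_option autoImplicit false

noncomputable section

namespace Fermat.Agent.S28.AbstractIrred

open Polynomial IntermediateField
open scoped IntermediateField.algebraAdjoinAdjoin

variable {k : Type*} [Field k]

section Lift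

variable (J : LaurentSeries k)

/-- A polynomial with coefficients in `k[J]` lifts to a polynomial over the field `k(J)`. -/
theorem exists_lift_field {T : (LaurentSeries k)[X]}
    (hT : ∀ n, T.coeff n ∈ Algebra.adjoin k {J}) :
    ∃ T' : (k⟮J⟯)[X], T'.map (algebraMap k⟮J⟯ (LaurentSeries k)) = T ∧
      T'.natDegree = T.natDegree := by
  have hmem : T ∈ Polynomial.lifts (algebraMap k⟮J⟯ (LaurentSeries k)) :=
    (Polynomial.lifts_iff_coeff_lifts T).mpr fun n =>
      ⟨⟨T.coeff n, algebra_adjoin_le_adjoin k {J} (hT n)⟩, rfl⟩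
  obtain ⟨T', hT', hdeg⟩ := Polynomial.exists_degree_eq_of_mem_lifts hmem
  exact ⟨T', hT', natDegree_eq_of_degree_eq hdeg⟩

/-- A monic polynomial with coefficients in `k[J]` lifts to a monic polynomial over `k[J]`. -/
theorem exists_lift_adjoin {T : (LaurentSeries k)[X]} (hm : T.Monic)
    (hT : ∀ n, T.coeff n ∈ Algebra.adjoin k {J}) :
    ∃ T' : (Algebra.adjoin k {J})[X], T'.map (algebraMap (Algebra.adjoin k {J}) (LaurentSeries k)) = T
      ∧ T'.Monic := by
  have hmem : T ∈ Polynomial.lifts (algebraMap (Algebra.adjoin k {J}) (LaurentSeries k)) :=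
    (Polynomial.lifts_iff_coeff_lifts T).mpr fun n => ⟨⟨T.coeff n, hT n⟩, rfl⟩
  obtain ⟨T', hT', -, hmon⟩ := Polynomial.lifts_and_natDegree_eq_and_monic hmem hm
  exact ⟨T', hT', hmon⟩

/-- A root of a monic polynomial with coefficients in `k[J]` is integral over `k[J]`. -/
theorem isIntegral_of_root {T : (LaurentSeries k)[X]} (hm : T.Monic)
    (hT : ∀ n, T.coeff n ∈ Algebra.adjoin k {J}) {x : LaurentSeries k} (hx : T.eval x = 0) :
    IsIntegral (Algebra.adjoin k {J}) x := by
  obtain ⟨T', hT', hmon⟩ := exists_lift_adjoin J hm hT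
  refine ⟨T', hmon, ?_⟩
  rw [← Polynomial.eval_map, hT', hx]

end Lift

section Closed

variable (J : LaurentSeries k) (hJ : Transcendental k J)
include hJ

theorem isIntegrallyClosed_adjoin : IsIntegrallyClosed (Algebra.adjoin k {J}) :=
  IsIntegrallyClosed.of_equiv (Polynomial.algEquivOfTranscendental k J hJ).toRingEquiv

/-- An element of `k(J)` that is integral over `k[J]` lies in `k[J]`. -/
theorem mem_adjoin_of_isIntegral {x : LaurentSeries k} (hx : x ∈ k⟮J⟯)
    (hint : IsIntegral (Algebra.adjoin k {J}) x) : x ∈ Algebra.adjoin k {J} := by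
  have := isIntegrallyClosed_adjoin J hJ
  have h1 : IsIntegral (Algebra.adjoin k {J}) (⟨x, hx⟩ : k⟮J⟯) := by
    have : IsIntegral (Algebra.adjoin k {J})
        (algebraMap k⟮J⟯ (LaurentSeries k) (⟨x, hx⟩ : k⟮J⟯)) := hint
    exact (isIntegral_algebraMap_iff (FaithfulSMul.algebraMap_injective _ _)).mp this
  obtain ⟨y, hy⟩ := (IsIntegrallyClosed.isIntegral_iff (R := Algebra.adjoin k {J})
    (K := k⟮J⟯)).mp h1
  have : (y : LaurentSeries k) = x := congrArg Subtype.val hy
  rw [← this]
  exact y.2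

/-- Two elements of `k[J]` with product one have order zero. -/
theorem order_eq_zero_of_mul_eq_one {x y : LaurentSeries k} (hx : x ∈ Algebra.adjoin k {J})
    (hy : y ∈ Algebra.adjoin k {J}) (hxy : x * y = 1) : x.order = 0 := by
  set e := Polynomial.algEquivOfTranscendental k J hJ
  have hu : IsUnit (e.symm ⟨x, hx⟩) := by
    refine IsUnit.of_mul_eq_one (e.symm ⟨y, hy⟩) ?_
    rw [← map_mul]
    have : (⟨x, hx⟩ * ⟨y, hy⟩ : Algebra.adjoin k {J}) = 1 := Subtype.ext hxy
    rw [this, map_one]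
  obtain ⟨c, hc, hce⟩ := Polynomial.isUnit_iff.mp hu
  have hx' : (⟨x, hx⟩ : Algebra.adjoin k {J}) = e (C c) := by
    rw [hce, AlgEquiv.apply_symm_apply]
  have hx'' : x = algebraMap k (LaurentSeries k) c := by
    have := congrArg Subtype.val hx'
    simpa [e, Polynomial.algEquivOfTranscendental_apply] using this
  rw [hx'', LaurentSeries.algebraMap_apply]
  exact HahnSeries.order_C

end Closed

section Order

/-- The order of a finite product of nonzero Laurent series is the sum of the orders. -/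
theorem order_prod {α : Type*} (s : Finset α) (f : α → LaurentSeries k) (hf : ∀ a ∈ s, f a ≠ 0) :
    (∏ a ∈ s, f a).order = ∑ a ∈ s, (f a).order := by
  classical
  induction s using Finset.induction_on with
  | empty => simp
  | insert a s ha ih =>
    rw [Finset.prod_insert ha, Finset.sum_insert ha]
    have h1 : f a ≠ 0 := hf a (Finset.mem_insert_self a s)
    have h2 : ∏ b ∈ s, f b ≠ 0 :=
      Finset.prod_ne_zero_iff.mpr fun b hb => hf b (Finset.mem_insert_of_mem hb)
    rw [HahnSeries.order_mul_of_ne_zero, ih fun b hb => hf b (Finset.mem_insert_of_mem hb)]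
    exact mul_ne_zero (HahnSeries.leadingCoeff_ne_zero.mpr h1)
      (HahnSeries.leadingCoeff_ne_zero.mpr h2)

/-- The order of a power of a nonzero Laurent series. -/
theorem order_pow' (x : LaurentSeries k) (hx : x ≠ 0) (n : ℕ) : (x ^ n).order = n * x.order := by
  have := order_prod (Finset.range n) (fun _ => x) fun _ _ => hx
  rw [Finset.prod_const, Finset.sum_const, Finset.card_range, nsmul_eq_mul] at this
  exact this

theorem coeff_algebraMap_mul (c : k) (x : LaurentSeries k) (n : ℤ) :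
    (algebraMap k (LaurentSeries k) c * x).coeff n = c * x.coeff n := by
  rw [LaurentSeries.algebraMap_apply, HahnSeries.C_mul_eq_smul]
  rfl

/-- A Laurent series of negative order is transcendental over the coefficient field. -/
theorem transcendental_of_order_neg (J : LaurentSeries k) (hJ : J.order < 0) :
    Transcendental k J := by
  rintro ⟨p, hp, hp0⟩
  have hJ0 : J ≠ 0 := by
    rintro rfl
    simp at hJ
  have hcoeff : (aeval J p).coeff (p.natDegree * J.order) ≠ 0 := by
    rw [aeval_eq_sum_range, HahnSeries.coeff_sum, Finset.sum_eq_single p.natDegree]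
    · rw [Algebra.smul_def, coeff_algebraMap_mul, ← order_pow' J hJ0]
      exact mul_ne_zero (leadingCoeff_ne_zero.mpr hp)
        (fun h => pow_ne_zero _ hJ0 (HahnSeries.coeff_order_eq_zero.mp h))
    · intro i hi hne
      have hlt : i < p.natDegree := lt_of_le_of_ne (Nat.lt_succ_iff.mp (Finset.mem_range.mp hi)) hne
      rw [Algebra.smul_def, coeff_algebraMap_mul, HahnSeries.coeff_eq_zero_of_lt_order, mul_zero]
      rw [order_pow' J hJ0]
      have : (i : ℤ) < p.natDegree := by exact_mod_cast hlt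
      nlinarith
    · intro h
      exact absurd (Finset.mem_range.mpr (Nat.lt_succ_self _)) h
  rw [hp0] at hcoeff
  exact hcoeff rfl

end Order

section Main

variable (J : LaurentSeries k)

/-- Norm-type lemma: if `Q` is a monic polynomial over `k(J)` whose image splits, and `T` has
coefficients in `k[J]`, then the product of the values of `T` at the roots of `Q` lies in
`k(J)`. -/
theorem prod_eval_roots_mem {Q : (k⟮J⟯)[X]} (hQ : Q.Monic)
    (hsplit : (Q.map (algebraMap k⟮J⟯ (LaurentSeries k))).Splits)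
    {T : (LaurentSeries k)[X]} (hT : ∀ n, T.coeff n ∈ Algebra.adjoin k {J}) :
    ((Q.map (algebraMap k⟮J⟯ (LaurentSeries k))).roots.map T.eval).prod ∈ k⟮J⟯ := by
  obtain ⟨T', hT', -⟩ := exists_lift_field J hT
  have h := Polynomial.resultant_eq_prod_eval (Q.map (algebraMap k⟮J⟯ (LaurentSeries k))) T
    T.natDegree le_rfl hsplit
  rw [(hQ.map _).leadingCoeff, one_pow, one_mul] at h
  rw [← h, ← hT', resultant_map_map]
  exact SetLike.coe_mem _

variable {Cu : Type*} [Fintype Cu] [DecidableEq Cu]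

/-- The derivative-type polynomial `∑ c, ∏ c' ≠ c, (X - Jc c')`. -/
def dPoly (Jc : Cu → LaurentSeries k) : (LaurentSeries k)[X] :=
  ∑ c, ∏ c' ∈ Finset.univ.erase c, (X - C (Jc c'))

theorem dPoly_eq_derivative (Jc : Cu → LaurentSeries k) :
    dPoly Jc = derivative (∏ c, (X - C (Jc c))) := by
  rw [dPoly, derivative_prod_finset]
  refine Finset.sum_congr rfl fun c _ => ?_
  simp

theorem eval_dPoly (Jc : Cu → LaurentSeries k) (c : Cu) :
    (dPoly Jc).eval (Jc c) = ∏ c' ∈ Finset.univ.erase c, (Jc c - Jc c') := by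
  rw [dPoly, eval_finsetSum, Finset.sum_eq_single c]
  · simp [eval_prod]
  · intro b _ hb
    rw [eval_prod]
    exact Finset.prod_eq_zero (Finset.mem_erase.mpr ⟨Ne.symm hb, Finset.mem_univ c⟩) (by simp)
  · intro h; exact absurd (Finset.mem_univ c) h

theorem eval_dPoly_ne_zero (Jc : Cu → LaurentSeries k) (hinj : Function.Injective Jc) (c : Cu) :
    (dPoly Jc).eval (Jc c) ≠ 0 := by
  rw [eval_dPoly]
  refine Finset.prod_ne_zero_iff.mpr fun c' hc' => ?_
  exact sub_ne_zero.mpr fun h => (Finset.mem_erase.mp hc').1 (hinj h).symm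

/-- The interpolation polynomial `∑ c, h c * ∏ c' ≠ c, (X - Jc c')`. -/
def gPoly (Jc h : Cu → LaurentSeries k) : (LaurentSeries k)[X] :=
  ∑ c, C (h c) * ∏ c' ∈ Finset.univ.erase c, (X - C (Jc c'))

theorem eval_gPoly (Jc h : Cu → LaurentSeries k) (c : Cu) :
    (gPoly Jc h).eval (Jc c) = h c * (dPoly Jc).eval (Jc c) := by
  rw [eval_dPoly, gPoly, eval_finsetSum, Finset.sum_eq_single c]
  · simp [eval_prod]
  · intro b _ hb
    rw [eval_mul, eval_prod,
      Finset.prod_eq_zero (Finset.mem_erase.mpr ⟨Ne.symm hb, Finset.mem_univ c⟩) (by simp),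
      mul_zero]
  · intro h; exact absurd (Finset.mem_univ c) h

/-- Key step: for a monic factor `Q` (over `k(J)`) of `∏ c, (X - Jc c)`, the set `O` of roots
has `|O| = deg Q` and every unit has total order zero on `O`. -/
theorem exists_rootSet_sum_order_eq_zero (hJ : Transcendental k J)
    (Jc : Cu → LaurentSeries k) (hinj : Function.Injective Jc)
    (hΦ : ∀ n, (∏ c, (X - C (Jc c))).coeff n ∈ Algebra.adjoin k {J})
    {ι : Type*} (H H' : ι → Cu → LaurentSeries k)
    (hHH' : ∀ i c, H i c * H' i c = 1)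
    (hχ : ∀ i n, (∏ c, (X - C (H i c))).coeff n ∈ Algebra.adjoin k {J})
    (hχ' : ∀ i n, (∏ c, (X - C (H' i c))).coeff n ∈ Algebra.adjoin k {J})
    (hG : ∀ i n, (gPoly Jc (H i)).coeff n ∈ Algebra.adjoin k {J})
    {Q : (k⟮J⟯)[X]} (hQ : Q.Monic)
    (hdvd : Q.map (algebraMap k⟮J⟯ (LaurentSeries k)) ∣ ∏ c, (X - C (Jc c))) :
    ∃ O : Finset Cu, (∀ c, c ∈ O ↔ (Q.map (algebraMap k⟮J⟯ (LaurentSeries k))).IsRoot (Jc c)) ∧
      O.card = Q.natDegree ∧ ∀ i, ∑ c ∈ O, (H i c).order = 0 := by
  classical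
  set φ := algebraMap k⟮J⟯ (LaurentSeries k) with hφ
  set Φ : (LaurentSeries k)[X] := ∏ c, (X - C (Jc c)) with hΦdef
  set Qm := Q.map φ with hQm
  have hQm_monic : Qm.Monic := hQ.map φ
  have hΦ_monic : Φ.Monic := monic_prod_of_monic _ _ fun c _ => monic_X_sub_C _
  have hΦ_ne : Φ ≠ 0 := hΦ_monic.ne_zero
  have hΦ_eq : Φ = ((Finset.univ.val.map Jc).map (fun a => X - C a)).prod := by
    rw [Multiset.map_map]; rfl
  have hΦ_roots : Φ.roots = Finset.univ.val.map Jc := by
    rw [hΦ_eq, roots_multiset_prod_X_sub_C]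
  have hΦ_split : Φ.Splits := Splits.prod fun c _ => Splits.X_sub_C _
  have hQsplit : Qm.Splits := hΦ_split.of_dvd hΦ_ne hdvd
  have hle : Qm.roots ≤ Φ.roots := roots.le_of_dvd hΦ_ne hdvd
  have hnd : Φ.roots.Nodup := by
    rw [hΦ_roots]; exact (Multiset.nodup_map_iff_of_injective hinj).mpr Finset.univ.nodup
  have hQnd : Qm.roots.Nodup := Multiset.nodup_of_le hle hnd
  set O : Finset Cu := Finset.univ.filter (fun c => Qm.IsRoot (Jc c)) with hO
  have hmemO : ∀ c, c ∈ O ↔ Qm.IsRoot (Jc c) := fun c => by simp [hO]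
  have hroots : Qm.roots = O.val.map Jc := by
    refine (Multiset.Nodup.ext hQnd
      ((Multiset.nodup_map_iff_of_injective hinj).mpr O.nodup)).mpr fun a => ?_
    rw [mem_roots hQm_monic.ne_zero, Multiset.mem_map]
    constructor
    · intro ha
      have : a ∈ Φ.roots := Multiset.mem_of_le hle ((mem_roots hQm_monic.ne_zero).mpr ha)
      rw [hΦ_roots, Multiset.mem_map] at this
      obtain ⟨c, -, rfl⟩ := this
      exact ⟨c, (hmemO c).mpr ha, rfl⟩
    · rintro ⟨c, hc, rfl⟩
      exact (hmemO c).mp hc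
  have hcard : O.card = Q.natDegree := by
    have h1 : Qm.natDegree = Multiset.card Qm.roots := hQsplit.natDegree_eq_card_roots
    rw [hroots, Multiset.card_map] at h1
    rw [← hQ.natDegree_map φ]
    exact h1.symm
  refine ⟨O, hmemO, hcard, fun i => ?_⟩
  -- products over `O` of values of polynomials over `k[J]` lie in `k(J)`
  have hprod : ∀ T : (LaurentSeries k)[X], (∀ n, T.coeff n ∈ Algebra.adjoin k {J}) →
      ∏ c ∈ O, T.eval (Jc c) ∈ k⟮J⟯ := by
    intro T hT
    have := prod_eval_roots_mem J hQ hQsplit hT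
    rw [← hQm, hroots, Multiset.map_map] at this
    exact this
  have hDcoeff : ∀ n, (dPoly Jc).coeff n ∈ Algebra.adjoin k {J} := by
    intro n
    rw [dPoly_eq_derivative, coeff_derivative]
    refine Subalgebra.mul_mem _ (hΦ _) ?_
    exact_mod_cast Subalgebra.natCast_mem _ (n + 1)
  have hDne : ∀ c, (dPoly Jc).eval (Jc c) ≠ 0 := eval_dPoly_ne_zero Jc hinj
  have hHne : ∀ c, H i c ≠ 0 := fun c h => by
    have := hHH' i c; rw [h, zero_mul] at this; exact zero_ne_one this
  have hH'ne : ∀ c, H' i c ≠ 0 := fun c h => by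
    have := hHH' i c; rw [h, mul_zero] at this; exact zero_ne_one this
  have hone : (∏ c ∈ O, H i c) * (∏ c ∈ O, H' i c) = 1 := by
    rw [← Finset.prod_mul_distrib]; exact Finset.prod_eq_one fun c _ => hHH' i c
  have hη : ∏ c ∈ O, H i c ∈ k⟮J⟯ := by
    have h1 := hprod (gPoly Jc (H i)) (hG i)
    have h2 := hprod (dPoly Jc) hDcoeff
    have : ∏ c ∈ O, H i c =
        (∏ c ∈ O, (gPoly Jc (H i)).eval (Jc c)) / (∏ c ∈ O, (dPoly Jc).eval (Jc c)) := by
      rw [eq_div_iff (Finset.prod_ne_zero_iff.mpr fun c _ => hDne c), ← Finset.prod_mul_distrib]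
      exact Finset.prod_congr rfl fun c _ => (eval_gPoly Jc (H i) c).symm
    rw [this]
    exact div_mem h1 h2
  have hη' : ∏ c ∈ O, H' i c ∈ k⟮J⟯ := by
    have : ∏ c ∈ O, H' i c = (∏ c ∈ O, H i c)⁻¹ := eq_inv_of_mul_eq_one_right hone
    rw [this]
    exact inv_mem hη
  have hmonic : ∀ h : Cu → LaurentSeries k, (∏ c, (X - C (h c))).Monic := fun h =>
    monic_prod_of_monic _ _ fun c _ => monic_X_sub_C _
  have hev : ∀ (h : Cu → LaurentSeries k) (c : Cu), (∏ c', (X - C (h c'))).eval (h c) = 0 := by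
    intro h c
    rw [eval_prod]
    exact Finset.prod_eq_zero (Finset.mem_univ c) (by simp)
  have hint : IsIntegral (Algebra.adjoin k {J}) (∏ c ∈ O, H i c) :=
    IsIntegral.prod _ fun c _ => isIntegral_of_root J (hmonic _) (hχ i) (hev (H i) c)
  have hint' : IsIntegral (Algebra.adjoin k {J}) (∏ c ∈ O, H' i c) :=
    IsIntegral.prod _ fun c _ => isIntegral_of_root J (hmonic _) (hχ' i) (hev (H' i) c)
  have hA := mem_adjoin_of_isIntegral J hJ hη hint
  have hA' := mem_adjoin_of_isIntegral J hJ hη' hint'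
  have hord := order_eq_zero_of_mul_eq_one J hJ hA hA' hone
  rw [← hord, order_prod O (H i) fun c _ => hHne c]

/-- **Abstract irreducibility lemma.**  Under the hypotheses described in the file header, a
polynomial with coefficients in `k[J]` of degree `< |Cu|` vanishing at `Jc c₀` is zero, i.e. the
minimal polynomial of `Jc c₀` over `k(J)` is `∏ c, (X - Jc c)`. -/
theorem eq_zero_of_eval_eq_zero (hJ : Transcendental k J) (c₀ : Cu)
    (Jc : Cu → LaurentSeries k) (hinj : Function.Injective Jc)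
    (hΦ : ∀ n, (∏ c, (X - C (Jc c))).coeff n ∈ Algebra.adjoin k {J})
    {ι : Type*} [Fintype ι] (H H' : ι → Cu → LaurentSeries k)
    (hHH' : ∀ i c, H i c * H' i c = 1)
    (hχ : ∀ i n, (∏ c, (X - C (H i c))).coeff n ∈ Algebra.adjoin k {J})
    (hχ' : ∀ i n, (∏ c, (X - C (H' i c))).coeff n ∈ Algebra.adjoin k {J})
    (hG : ∀ i n, (gPoly Jc (H i)).coeff n ∈ Algebra.adjoin k {J})
    (w : ι → ℤ) (hw : ∀ c, c ≠ c₀ → ∑ i, w i * (H i c).order < 0)
    (P : (LaurentSeries k)[X]) (hP : ∀ n, P.coeff n ∈ Algebra.adjoin k {J})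
    (hdeg : P.natDegree < Fintype.card Cu) (hroot : P.eval (Jc c₀) = 0) : P = 0 := by
  classical
  by_contra hP0
  set φ := algebraMap k⟮J⟯ (LaurentSeries k) with hφ
  obtain ⟨P', hP', hPdeg⟩ := exists_lift_field J hP
  have hP'0 : P' ≠ 0 := by
    rintro rfl
    exact hP0 (by rw [← hP', Polynomial.map_zero])
  set Φ : (LaurentSeries k)[X] := ∏ c, (X - C (Jc c)) with hΦdef
  have hΦ_monic : Φ.Monic := monic_prod_of_monic _ _ fun c _ => monic_X_sub_C _
  have hmemΦ : Φ ∈ Polynomial.lifts φ :=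
    (Polynomial.lifts_iff_coeff_lifts Φ).mpr fun n =>
      ⟨⟨Φ.coeff n, algebra_adjoin_le_adjoin k {J} (hΦ n)⟩, rfl⟩
  obtain ⟨Φ', hΦ', -, hΦ'monic⟩ := Polynomial.lifts_and_natDegree_eq_and_monic hmemΦ hΦ_monic
  have hΦroot : ∀ c, Φ.eval (Jc c) = 0 := by
    intro c
    rw [hΦdef, eval_prod]
    exact Finset.prod_eq_zero (Finset.mem_univ c) (by simp)
  have haΦ : aeval (Jc c₀) Φ' = 0 := by
    rw [aeval_def, ← eval_map, hΦ']; exact hΦroot c₀
  have hint : IsIntegral k⟮J⟯ (Jc c₀) := ⟨Φ', hΦ'monic, haΦ⟩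
  set Q := minpoly k⟮J⟯ (Jc c₀) with hQdef
  have hQmonic : Q.Monic := minpoly.monic hint
  have hQΦ : Q ∣ Φ' := minpoly.dvd _ _ haΦ
  have hQP : Q ∣ P' := minpoly.dvd _ _ (by rw [aeval_def, ← eval_map, hP']; exact hroot)
  have hdvd : Q.map φ ∣ Φ := by rw [← hΦ']; exact Polynomial.map_dvd φ hQΦ
  have hdvdΦ : Φ'.map φ ∣ Φ := by rw [hΦ']
  obtain ⟨O, hO, hcard, hsum⟩ := exists_rootSet_sum_order_eq_zero J hJ Jc hinj hΦ H H' hHH' hχ hχ'
    hG hQmonic hdvd
  obtain ⟨O', hO', -, hsum'⟩ := exists_rootSet_sum_order_eq_zero J hJ Jc hinj hΦ H H' hHH' hχ hχ'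
    hG hΦ'monic hdvdΦ
  have hO'univ : O' = Finset.univ := by
    ext c
    simp only [Finset.mem_univ, iff_true]
    rw [hO', hΦ']
    exact hΦroot c
  have hc₀ : c₀ ∈ O := by
    rw [hO, IsRoot, eval_map, ← aeval_def]
    exact minpoly.aeval _ _
  have key : ∑ c ∈ Finset.univ \ O, ∑ i, w i * (H i c).order = 0 := by
    rw [Finset.sum_comm]
    refine Finset.sum_eq_zero fun i _ => ?_
    rw [← Finset.mul_sum]
    have h1 := hsum i
    have h2 := hsum' i
    rw [hO'univ] at h2
    have h3 : ∑ c ∈ Finset.univ \ O, (H i c).order + ∑ c ∈ O, (H i c).order =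
        ∑ c, (H i c).order := Finset.sum_sdiff (Finset.subset_univ O)
    rw [h1, h2, add_zero] at h3
    rw [h3, mul_zero]
  have hempty : Finset.univ \ O = ∅ := by
    by_contra hne
    have hlt : ∑ c ∈ Finset.univ \ O, ∑ i, w i * (H i c).order < 0 :=
      Finset.sum_neg (fun c hc => hw c (by
        rintro rfl
        exact (Finset.mem_sdiff.mp hc).2 hc₀)) (Finset.nonempty_iff_ne_empty.mpr hne)
    exact absurd key hlt.ne
  have hOuniv : O = Finset.univ := by
    refine Finset.eq_univ_of_forall fun c => ?_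
    by_contra hc
    have : c ∈ Finset.univ \ O := Finset.mem_sdiff.mpr ⟨Finset.mem_univ c, hc⟩
    rw [hempty] at this
    exact absurd this (Finset.notMem_empty c)
  have h1 : Q.natDegree ≤ P'.natDegree := natDegree_le_of_dvd hQP hP'0
  rw [← hcard, hOuniv, Finset.card_univ, hPdeg] at h1
  omega

end Main

end Fermat.Agent.S28.AbstractIrred
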