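/-
S28 — the two formal ends of the MAIN crux line (helper59).

* (R) `exists_residue_hom` : a subring `A ⊆ ℤ̄[1/N]` of `ℂ` containing a primitive `N`-th root
  of unity `ζ` has, for every prime `ℓ ∤ N`, a ring hom `φ : A →+* k` onto a field of
  characteristic `ℓ` with `φ ζ` still a primitive `N`-th root of unity.
* (D) `hasIndepLifts_of_indep` : if `1, J₀, …, J₀^(ψ(N)-1)` are independent over `k[J]` in
  `k((u))` (`J = j(u^N)`, `J₀ = j(u^(N²))`, `k` any field of characteristic `ℓ`), then the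
  integral lifts `j(q^N)^i ∈ ℤ((q))` have `𝔽_ℓ(j)`-linearly independent reductions.
-/
import Mathlib
import Fermat.Prelude.Def_ModularCurve_X0
import Fermat.Prelude.Def_ModularCurve_JqCoeff
import Fermat.Prelude.Def_ModularCurve_LaurentCoeff
import Fermat.Prelude.Thm_ModularCurve_coeffMap_qExpand
import Fermat.Prelude.Thm_ModularCurve_coeff_jqModC_pow_self
import Fermat.Prelude.Thm_ModularCurve_coeff_jqModC_pow_of_lt

set_option autoImplicit false

noncomputable section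

namespace Fermat.Agent.S28.CruxDescent

open ModularCurve Polynomial

/-! ### (R) the residue field -/

section Residue

/-- Elements of `ℂ` that become integral over `ℤ` after multiplication by a power of `N`. -/
def IsNIntegral (N : ℕ) (x : ℂ) : Prop := ∃ m : ℕ, IsIntegral ℤ ((N : ℂ) ^ m * x)

theorem isIntegral_natCast_pow (N m : ℕ) : IsIntegral ℤ ((N : ℂ) ^ m) := by
  have h : IsIntegral ℤ ((N : ℂ)) := by
    have := isIntegral_algebraMap (R := ℤ) (A := ℂ) (x := (N : ℤ))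
    simpa using this
  exact h.pow m

theorem isNIntegral_add {N : ℕ} {x y : ℂ} (hx : IsNIntegral N x) (hy : IsNIntegral N y) :
    IsNIntegral N (x + y) := by
  obtain ⟨a, ha⟩ := hx
  obtain ⟨b, hb⟩ := hy
  refine ⟨a + b, ?_⟩
  have : (N : ℂ) ^ (a + b) * (x + y) =
      (N : ℂ) ^ b * ((N : ℂ) ^ a * x) + (N : ℂ) ^ a * ((N : ℂ) ^ b * y) := by ring
  rw [this]
  exact ((isIntegral_natCast_pow N b).mul ha).add ((isIntegral_natCast_pow N a).mul hb)

theorem isNIntegral_mul {N : ℕ} {x y : ℂ} (hx : IsNIntegral N x) (hy : IsNIntegral N y) :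
    IsNIntegral N (x * y) := by
  obtain ⟨a, ha⟩ := hx
  obtain ⟨b, hb⟩ := hy
  refine ⟨a + b, ?_⟩
  have : (N : ℂ) ^ (a + b) * (x * y) = ((N : ℂ) ^ a * x) * ((N : ℂ) ^ b * y) := by ring
  rw [this]
  exact ha.mul hb

theorem isNIntegral_of_isIntegral {N : ℕ} {x : ℂ} (hx : IsIntegral ℤ x) : IsNIntegral N x :=
  ⟨0, by simpa using hx⟩

theorem isNIntegral_neg {N : ℕ} {x : ℂ} (hx : IsNIntegral N x) : IsNIntegral N (-x) := by
  obtain ⟨a, ha⟩ := hx
  exact ⟨a, by rw [mul_neg]; exact ha.neg⟩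

theorem isNIntegral_inv_natCast (N : ℕ) [NeZero N] : IsNIntegral N ((N : ℂ)⁻¹) := by
  refine ⟨1, ?_⟩
  have hN : (N : ℂ) ≠ 0 := Nat.cast_ne_zero.mpr (NeZero.ne N)
  rw [pow_one, mul_inv_cancel₀ hN]
  exact isIntegral_one

/-- The subring `ℤ[ζ, 1/N]` of `ℂ` consists of `N`-integral numbers. -/
theorem isNIntegral_of_mem_closure (N : ℕ) [NeZero N] {ζ : ℂ} (hζ : IsPrimitiveRoot ζ N)
    {x : ℂ} (hx : x ∈ Subring.closure ({ζ, (N : ℂ)⁻¹} : Set ℂ)) : IsNIntegral N x := by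
  induction hx using Subring.closure_induction with
  | mem y hy =>
    rcases hy with rfl | hy
    · exact isNIntegral_of_isIntegral (hζ.isIntegral (Nat.pos_of_ne_zero (NeZero.ne N)))
    · rw [Set.mem_singleton_iff] at hy
      rw [hy]
      exact isNIntegral_inv_natCast N
  | zero => exact isNIntegral_of_isIntegral isIntegral_zero
  | one => exact isNIntegral_of_isIntegral isIntegral_one
  | add y z _ _ hy hz => exact isNIntegral_add hy hz
  | neg y _ hy => exact isNIntegral_neg hy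
  | mul y z _ _ hy hz => exact isNIntegral_mul hy hz

/-- A prime `ℓ ∤ N` has no `N`-integral inverse. -/
theorem not_isNIntegral_inv_prime (N ℓ : ℕ) [Fact ℓ.Prime] (hℓN : ¬ ℓ ∣ N) :
    ¬ IsNIntegral N ((ℓ : ℂ)⁻¹) := by
  rintro ⟨m, hm⟩
  have hℓ : ℓ.Prime := Fact.out
  have hℓ0 : (ℓ : ℚ) ≠ 0 := Nat.cast_ne_zero.mpr hℓ.ne_zero
  have h1 : (N : ℂ) ^ m * ((ℓ : ℂ)⁻¹) = algebraMap ℚ ℂ ((N : ℚ) ^ m / ℓ) := by
    simp [div_eq_mul_inv]
  rw [h1, isIntegral_algebraMap_iff (algebraMap ℚ ℂ).injective] at hm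
  obtain ⟨z, hz⟩ := IsIntegrallyClosed.isIntegral_iff.mp hm
  have h2 : ((ℓ : ℤ) * z : ℚ) = ((N : ℤ) ^ m : ℤ) := by
    have : (z : ℚ) = (N : ℚ) ^ m / ℓ := by simpa using hz
    rw [this]
    push_cast
    field_simp
  have h3 : (ℓ : ℤ) * z = (N : ℤ) ^ m := by exact_mod_cast h2
  have h4 : (ℓ : ℤ) ∣ (N : ℤ) ^ m := ⟨z, h3.symm⟩
  have h5 : ℓ ∣ N ^ m := by exact_mod_cast h4
  exact hℓN (hℓ.dvd_of_dvd_pow h5)

/-- The subring `ℤ̄[1/N] ∩ ℂ` of `N`-integral complex numbers. -/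
def nInt (N : ℕ) : Subring ℂ where
  carrier := {x | IsNIntegral N x}
  mul_mem' := isNIntegral_mul
  one_mem' := isNIntegral_of_isIntegral isIntegral_one
  add_mem' := isNIntegral_add
  zero_mem' := isNIntegral_of_isIntegral isIntegral_zero
  neg_mem' := isNIntegral_neg

theorem mem_nInt {N : ℕ} {x : ℂ} : x ∈ nInt N ↔ ∃ m : ℕ, IsIntegral ℤ ((N : ℂ) ^ m * x) :=
  Iff.rfl

theorem mem_nInt_of_isIntegral {N : ℕ} {x : ℂ} (hx : IsIntegral ℤ x) : x ∈ nInt N :=
  isNIntegral_of_isIntegral hx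

theorem inv_natCast_mem_nInt (N : ℕ) [NeZero N] : (N : ℂ)⁻¹ ∈ nInt N :=
  isNIntegral_inv_natCast N

theorem primitiveRoot_mem_nInt (N : ℕ) {n : ℕ} (hn : n ≠ 0) {ζ : ℂ} (hζ : IsPrimitiveRoot ζ n) :
    ζ ∈ nInt N :=
  mem_nInt_of_isIntegral (hζ.isIntegral (Nat.pos_of_ne_zero hn))

/-- `ℤ[ζ, 1/N] ≤ ℤ̄[1/N]`. -/
theorem closure_le_nInt (N : ℕ) [NeZero N] {ζ : ℂ} (hζ : IsPrimitiveRoot ζ N) :
    Subring.closure ({ζ, (N : ℂ)⁻¹} : Set ℂ) ≤ nInt N :=
  fun _ hx => isNIntegral_of_mem_closure N hζ hx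

/-- **Residue field, general form.**  Let `A ⊆ ℂ` be a subring of `N`-integral numbers and
`ℓ ∤ N` a prime.  Then there are a field `k` of characteristic `ℓ` and a ring hom
`φ : A →+* k` which maps primitive `n`-th roots of unity, `n ∣ N`, to primitive `n`-th roots
of unity. -/
theorem exists_residue_hom_all (N ℓ : ℕ) [NeZero N] [Fact ℓ.Prime] (hℓN : ¬ ℓ ∣ N)
    (A : Subring ℂ) (hint : ∀ x ∈ A, ∃ m : ℕ, IsIntegral ℤ ((N : ℂ) ^ m * x)) :
    ∃ (k : Type) (_ : Field k) (_ : CharP k ℓ) (φ : ↥A →+* k),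
      ∀ (ζ : ↥A) (n : ℕ), n ∣ N → IsPrimitiveRoot (ζ : ℂ) n → IsPrimitiveRoot (φ ζ) n := by
  have hℓ : ℓ.Prime := Fact.out
  -- `ℓ` is not a unit of `A`
  have hnu : ¬ IsUnit ((ℓ : ℕ) : ↥A) := by
    rintro ⟨u, hu⟩
    have h1 : ((ℓ : ↥A) : ℂ) * ((u⁻¹ : (↥A)ˣ) : ↥A) = 1 := by
      have : ((ℓ : ↥A)) * ((u⁻¹ : (↥A)ˣ) : ↥A) = 1 := by rw [← hu]; exact u.mul_inv
      have := congrArg (Subtype.val) this
      simpa using this
    have hℓ0 : (ℓ : ℂ) ≠ 0 := Nat.cast_ne_zero.mpr hℓ.ne_zero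
    have h2 : (((u⁻¹ : (↥A)ˣ) : ↥A) : ℂ) = (ℓ : ℂ)⁻¹ := by
      have h1' : (ℓ : ℂ) * (((u⁻¹ : (↥A)ˣ) : ↥A) : ℂ) = 1 := by simpa using h1
      field_simp
      rw [mul_comm]
      exact h1'
    exact not_isNIntegral_inv_prime N ℓ hℓN (h2 ▸ hint _ ((u⁻¹ : (↥A)ˣ) : ↥A).2)
  have hne : Ideal.span ({((ℓ : ℕ) : ↥A)} : Set ↥A) ≠ ⊤ := by
    rw [Ne, Ideal.span_singleton_eq_top]
    exact hnu
  obtain ⟨m, hm, hle⟩ := Ideal.exists_le_maximal _ hne
  have := hm
  let _ : Field (↥A ⧸ m) := Ideal.Quotient.field m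
  have hℓk : ((ℓ : ℕ) : ↥A ⧸ m) = 0 := by
    have : (Ideal.Quotient.mk m) ((ℓ : ℕ) : ↥A) = 0 :=
      Ideal.Quotient.eq_zero_iff_mem.mpr (hle (Ideal.subset_span rfl))
    simpa using this
  have hchar : CharP (↥A ⧸ m) ℓ := by
    obtain ⟨c, hc⟩ := CharP.exists (↥A ⧸ m)
    have hdvd : c ∣ ℓ := (CharP.cast_eq_zero_iff (↥A ⧸ m) c ℓ).mp hℓk
    rcases (Nat.dvd_prime hℓ).mp hdvd with h1 | h1
    · exact absurd h1 (CharP.char_ne_one (↥A ⧸ m) c)
    · exact h1 ▸ hc
  refine ⟨↥A ⧸ m, inferInstance, hchar, Ideal.Quotient.mk m, ?_⟩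
  intro ζ n hnN hζ
  have hn0 : n ≠ 0 := fun h => NeZero.ne N (by rw [h] at hnN; exact zero_dvd_iff.mp hnN)
  have : NeZero ((n : ℕ) : ↥A ⧸ m) :=
    ⟨fun h => hℓN (((CharP.cast_eq_zero_iff (↥A ⧸ m) ℓ n).mp h).trans hnN)⟩
  rw [← Polynomial.isRoot_cyclotomic_iff]
  have hC : (cyclotomic n ℂ).IsRoot (ζ : ℂ) := by
    have : NeZero ((n : ℕ) : ℂ) := ⟨Nat.cast_ne_zero.mpr hn0⟩
    exact Polynomial.isRoot_cyclotomic_iff.mpr hζ
  have hA : (cyclotomic n ↥A).eval ζ = 0 := by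
    apply Subtype.val_injective
    have h := Polynomial.eval₂_at_apply (p := cyclotomic n ↥A) A.subtype ζ
    rw [← Polynomial.eval_map, map_cyclotomic] at h
    have h' : A.subtype ((cyclotomic n ↥A).eval ζ) = 0 := by
      rw [← h]
      exact hC
    simpa using h'
  have hk := Polynomial.eval₂_at_apply (p := cyclotomic n ↥A) (Ideal.Quotient.mk m) ζ
  rw [← Polynomial.eval_map, map_cyclotomic, hA, map_zero] at hk
  exact hk

/-- **Residue field.**  Let `A ⊆ ℂ` be a subring of `N`-integral numbers containing a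
primitive `N`-th root of unity `ζ`, and `ℓ ∤ N` a prime.  Then there are a field `k` of
characteristic `ℓ` and a ring hom `φ : A →+* k` with `φ ζ` a primitive `N`-th root of unity. -/
theorem exists_residue_hom (N ℓ : ℕ) [NeZero N] [Fact ℓ.Prime] (hℓN : ¬ ℓ ∣ N)
    (A : Subring ℂ) (ζ : ℂ) (hζ : IsPrimitiveRoot ζ N) (hζA : ζ ∈ A)
    (hint : ∀ x ∈ A, ∃ m : ℕ, IsIntegral ℤ ((N : ℂ) ^ m * x)) :
    ∃ (k : Type) (_ : Field k) (_ : CharP k ℓ) (φ : ↥A →+* k),
      IsPrimitiveRoot (φ ⟨ζ, hζA⟩) N := by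
  obtain ⟨k, hk, hc, φ, hφ⟩ := exists_residue_hom_all N ℓ hℓN A hint
  exact ⟨k, hk, hc, φ, hφ ⟨ζ, hζA⟩ N dvd_rfl hζ⟩

/-- The same for `A = ℤ[ζ, 1/N]`. -/
theorem exists_residue_hom_closure (N ℓ : ℕ) [NeZero N] [Fact ℓ.Prime] (hℓN : ¬ ℓ ∣ N)
    (ζ : ℂ) (hζ : IsPrimitiveRoot ζ N) :
    ∃ (k : Type) (_ : Field k) (_ : CharP k ℓ)
      (φ : ↥(Subring.closure ({ζ, (N : ℂ)⁻¹} : Set ℂ)) →+* k),
      IsPrimitiveRoot (φ ⟨ζ, Subring.subset_closure (Set.mem_insert _ _)⟩) N :=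
  exists_residue_hom N ℓ hℓN _ ζ hζ _ fun _ hx => isNIntegral_of_mem_closure N hζ hx

/-- **Residue field of `ℤ̄[1/N]`.** -/
theorem exists_residue_field (N ℓ : ℕ) [NeZero N] [Fact ℓ.Prime] (hℓN : ¬ ℓ ∣ N) :
    ∃ (k : Type) (_ : Field k) (_ : CharP k ℓ) (φ : ↥(nInt N) →+* k),
      ∀ (ζ : ↥(nInt N)) (n : ℕ), n ∣ N → IsPrimitiveRoot (ζ : ℂ) n → IsPrimitiveRoot (φ ζ) n :=
  exists_residue_hom_all N ℓ hℓN (nInt N) fun _ hx => hx

/-- **Order preservation.**  A Laurent series whose lowest coefficient is a unit keeps its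
order (and a nonzero lowest coefficient) under any coefficient hom into a field. -/
theorem order_coeffMap_of_isUnit {A k : Type*} [CommRing A] [Field k] (φ : A →+* k)
    (x : LaurentSeries A) (n₀ : ℤ) (hu : IsUnit (x.coeff n₀)) (hlt : ∀ n < n₀, x.coeff n = 0) :
    (coeffMap φ x).order = n₀ ∧ (coeffMap φ x).coeff n₀ ≠ 0 := by
  have hc : (coeffMap φ x).coeff n₀ ≠ 0 := by
    rw [coeffMap_coeff]
    exact (hu.map φ).ne_zero
  have hx0 : coeffMap φ x ≠ 0 := fun h => hc (by rw [h]; rfl)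
  refine ⟨le_antisymm (HahnSeries.order_le_of_coeff_ne_zero hc) ?_, hc⟩
  by_contra hlt'
  push Not at hlt'
  have h1 : (coeffMap φ x).coeff (coeffMap φ x).order = 0 := by
    rw [coeffMap_coeff, hlt _ hlt', map_zero]
  exact hx0 (HahnSeries.coeff_order_eq_zero.mp h1)

end Residue

/-! ### (D) the descent from `k((u))` to `𝔽_ℓ((q))` -/

section Descent

theorem algebraMap_eq_C (k : Type*) [Field k] :
    algebraMap k (LaurentSeries k) = HahnSeries.C := by
  ext1 c
  rw [ModularCurve.algebraMap_laurentSeries_eq_single, HahnSeries.C_apply]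

/-- **Generic transfer of independence.**  Let `θ : 𝔽_ℓ((q)) → k((u))` be a ring hom.  If the
images `θ (v i)` are independent over the ring `k[θ x]`, then the `v i` are linearly independent
over the field `𝔽_ℓ(x)`. -/
theorem linearIndependent_adjoin_of_ringHom_adjoin (ℓ : ℕ) [Fact ℓ.Prime] {k : Type*} [Field k]
    [CharP k ℓ] (θ : LaurentSeries (ZMod ℓ) →+* LaurentSeries k) (x : LaurentSeries (ZMod ℓ))
    {n : ℕ} (v : Fin n → LaurentSeries (ZMod ℓ))
    (hind : ∀ c : Fin n → LaurentSeries k, (∀ i, c i ∈ Algebra.adjoin k {θ x}) →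
      ∑ i, c i * θ (v i) = 0 → ∀ i, c i = 0) :
    LinearIndependent (IntermediateField.adjoin (ZMod ℓ) {x}) v := by
  classical
  rw [Fintype.linearIndependent_iff]
  intro g hg i₀
  -- write every coefficient as a quotient of polynomials in `x`
  have hfrac : ∀ i, ∃ r s : Polynomial (ZMod ℓ), Polynomial.aeval x s ≠ 0 ∧
      ((g i : IntermediateField.adjoin (ZMod ℓ) {x}) : LaurentSeries (ZMod ℓ)) *
        Polynomial.aeval x s = Polynomial.aeval x r := by
    intro i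
    obtain ⟨r, s, hrs⟩ := (IntermediateField.mem_adjoin_simple_iff (ZMod ℓ) _).mp (g i).2
    by_cases hs : Polynomial.aeval x s = 0
    · refine ⟨0, 1, by simp, ?_⟩
      rw [hrs, hs, div_zero]
      simp
    · exact ⟨r, s, hs, by rw [hrs, div_mul_cancel₀ _ hs]⟩
  choose r s hs hrs using hfrac
  set Q : Fin n → Polynomial (ZMod ℓ) := fun i => r i * ∏ j ∈ Finset.univ.erase i, s j with hQ
  have hsum : ∑ i, Polynomial.aeval x (Q i) * v i = 0 := by
    have h0 : ∑ i, ((g i : IntermediateField.adjoin (ZMod ℓ) {x}) : LaurentSeries (ZMod ℓ)) *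
        v i = 0 := hg
    have h1 : ∀ i, Polynomial.aeval x (Q i) * v i =
        (∏ j, Polynomial.aeval x (s j)) *
          (((g i : IntermediateField.adjoin (ZMod ℓ) {x}) : LaurentSeries (ZMod ℓ)) * v i) := by
      intro i
      rw [hQ]
      simp only [map_mul, map_prod]
      rw [← hrs i, ← Finset.mul_prod_erase Finset.univ (fun j => Polynomial.aeval x (s j))
        (Finset.mem_univ i)]
      ring
    rw [Finset.sum_congr rfl fun i _ => h1 i, ← Finset.mul_sum, h0, mul_zero]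
  -- transport along `θ`
  have hθ : ∀ q : Polynomial (ZMod ℓ), θ (Polynomial.aeval x q) =
      Polynomial.aeval (θ x) (q.map (ZMod.castHom (dvd_refl ℓ) k)) := by
    intro q
    rw [Polynomial.aeval_def, Polynomial.hom_eval₂, Polynomial.aeval_def, Polynomial.eval₂_map]
    congr 1
    exact Subsingleton.elim _ _
  have hc := hind (fun i => θ (Polynomial.aeval x (Q i)))
    (fun i => by
      rw [hθ]
      exact Polynomial.aeval_mem_adjoin_singleton _ _)
    (by
      have := congrArg θ hsum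
      rw [map_sum, map_zero] at this
      rw [← this]
      exact Finset.sum_congr rfl fun i _ => (map_mul θ _ _).symm)
  have hQ0 : Polynomial.aeval x (Q i₀) = 0 := θ.injective (by rw [hc i₀, map_zero])
  have hr0 : Polynomial.aeval x (r i₀) = 0 := by
    rw [hQ, map_mul, map_prod] at hQ0
    rcases mul_eq_zero.mp hQ0 with h | h
    · exact h
    · exact absurd h (Finset.prod_ne_zero_iff.mpr fun j _ => hs j)
  have := hrs i₀
  rw [hr0] at this
  rcases mul_eq_zero.mp this with h | h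
  · exact Subtype.ext h
  · exact absurd h (hs i₀)

/-- Polynomial form of the hypothesis. -/
theorem linearIndependent_adjoin_of_ringHom (ℓ : ℕ) [Fact ℓ.Prime] {k : Type*} [Field k]
    [CharP k ℓ] (θ : LaurentSeries (ZMod ℓ) →+* LaurentSeries k) (x : LaurentSeries (ZMod ℓ))
    {n : ℕ} (v : Fin n → LaurentSeries (ZMod ℓ))
    (hind : ∀ P : Fin n → Polynomial k,
      ∑ i, Polynomial.eval₂ HahnSeries.C (θ x) (P i) * θ (v i) = 0 → ∀ i, P i = 0) :
    LinearIndependent (IntermediateField.adjoin (ZMod ℓ) {x}) v := by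
  refine linearIndependent_adjoin_of_ringHom_adjoin ℓ θ x v fun c hc hsum i => ?_
  have hP : ∀ i, ∃ P : Polynomial k, Polynomial.eval₂ HahnSeries.C (θ x) P = c i := by
    intro i
    have := hc i
    rw [Algebra.adjoin_singleton_eq_range_aeval] at this
    obtain ⟨P, hP⟩ := this
    refine ⟨P, ?_⟩
    rw [← hP, ← algebraMap_eq_C]
    rfl
  choose P hP using hP
  have h0 := hind P (by
    rw [← hsum]
    exact Finset.sum_congr rfl fun i _ => by rw [hP])
  rw [← hP i, h0 i, Polynomial.eval₂_zero]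

/-- Polynomial-over-`k((u))` form of the hypothesis (the shape of the conclusion of
`Fermat.Agent.S28.AbstractIrred.eq_zero_of_eval_eq_zero`). -/
theorem linearIndependent_adjoin_of_ringHom_poly (ℓ : ℕ) [Fact ℓ.Prime] {k : Type*} [Field k]
    [CharP k ℓ] (θ : LaurentSeries (ZMod ℓ) →+* LaurentSeries k) (x y : LaurentSeries (ZMod ℓ))
    (n : ℕ)
    (hind : ∀ T : Polynomial (LaurentSeries k), (∀ m, T.coeff m ∈ Algebra.adjoin k {θ x}) →
      T.natDegree < n → T.eval (θ y) = 0 → T = 0) :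
    LinearIndependent (IntermediateField.adjoin (ZMod ℓ) {x}) (fun i : Fin n => y ^ (i : ℕ)) := by
  classical
  refine linearIndependent_adjoin_of_ringHom_adjoin ℓ θ x _ fun c hc hsum i => ?_
  set T : Polynomial (LaurentSeries k) := ∑ i : Fin n, Polynomial.C (c i) * Polynomial.X ^ (i : ℕ)
    with hT
  have hcoeff : ∀ m, T.coeff m = if h : m < n then c ⟨m, h⟩ else 0 := by
    intro m
    rw [hT, Polynomial.finsetSum_coeff]
    simp only [Polynomial.coeff_C_mul, Polynomial.coeff_X_pow]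
    split_ifs with h
    · rw [Finset.sum_eq_single ⟨m, h⟩]
      · simp
      · intro b _ hb
        have : m ≠ (b : ℕ) := fun h' => hb (Fin.ext h'.symm)
        simp [this]
      · intro h'
        exact absurd (Finset.mem_univ _) h'
    · refine Finset.sum_eq_zero fun b _ => ?_
      have : m ≠ (b : ℕ) := fun h' => h (h' ▸ b.2)
      simp [this]
  have hT0 : T = 0 := by
    refine hind T (fun m => ?_) ?_ ?_
    · rw [hcoeff]
      split_ifs with h
      · exact hc _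
      · exact Subalgebra.zero_mem _
    · by_contra hge
      push Not at hge
      have h1 : T.coeff T.natDegree = 0 := by
        rw [hcoeff, dif_neg (not_lt.mpr hge)]
      have h2 : T = 0 := Polynomial.leadingCoeff_eq_zero.mp h1
      rw [h2, Polynomial.natDegree_zero] at hge
      have := i.2
      omega
    · rw [hT, Polynomial.eval_finsetSum, ← hsum]
      refine Finset.sum_congr rfl fun j _ => ?_
      rw [Polynomial.eval_mul, Polynomial.eval_C, Polynomial.eval_pow, Polynomial.eval_X, map_pow]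
  have := hcoeff i
  rw [hT0, Polynomial.coeff_zero, dif_pos i.2] at this
  exact this.symm

/-- The comparison map `𝔽_ℓ((q)) → k((u))`, `q ↦ u^N`. -/
def descentHom (N ℓ : ℕ) [NeZero N] [Fact ℓ.Prime] (k : Type*) [Field k] [CharP k ℓ] :
    LaurentSeries (ZMod ℓ) →+* LaurentSeries k :=
  (qExpand k N).comp (coeffMap (ZMod.castHom (dvd_refl ℓ) k))

theorem coeffMap_jqModC {K K' : Type*} [CommRing K] [CommRing K'] (f : K →+* K') :
    coeffMap f (jqModC K) = jqModC K' :=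
  map_jqModC f

theorem descentHom_jqModC (N ℓ : ℕ) [NeZero N] [Fact ℓ.Prime] (k : Type*) [Field k]
    [CharP k ℓ] : descentHom N ℓ k (jqModC (ZMod ℓ)) = qExpand k N (jqModC k) := by
  rw [descentHom, RingHom.comp_apply, coeffMap_jqModC]

theorem descentHom_lift (N ℓ : ℕ) [NeZero N] [Fact ℓ.Prime] (k : Type*) [Field k]
    [CharP k ℓ] (d : ℕ) [NeZero d] :
    descentHom N ℓ k (coeffMap (Int.castRingHom (ZMod ℓ)) (qExpand ℤ d (jqModC ℤ))) =
      qExpand k N (qExpand k d (jqModC k)) := by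
  rw [descentHom, RingHom.comp_apply, coeffMap_coeffMap, coeffMap_qExpand, coeffMap_jqModC]

theorem coeffMap_lift_pow (N ℓ : ℕ) [NeZero N] (i : ℕ) :
    coeffMap (Int.castRingHom (ZMod ℓ)) (qExpand ℤ N (jqModC ℤ) ^ i) =
      jqNModC (ZMod ℓ) N ^ i := by
  rw [map_pow, coeffMap_qExpand, coeffMap_jqModC, jqNModC]

theorem descentHom_jqNModC (N ℓ : ℕ) [NeZero N] [Fact ℓ.Prime] (k : Type*) [Field k]
    [CharP k ℓ] :
    descentHom N ℓ k (jqNModC (ZMod ℓ) N) = qExpand k (N * N) (jqModC k) := by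
  rw [jqNModC, descentHom, RingHom.comp_apply, coeffMap_qExpand, coeffMap_jqModC,
    qExpand_qExpand N N]

/-- From linear independence of the powers `j(q^N)^i` over `𝔽_ℓ(j)` to
`Reduction.HasIndepLifts N ℓ` (stated unfolded). -/
theorem hasIndepLifts_of_linearIndependent (N ℓ : ℕ) [NeZero N] [Fact ℓ.Prime]
    (h : LinearIndependent (IntermediateField.adjoin (ZMod ℓ) {jqModC (ZMod ℓ)})
      (fun i : Fin (dedekindPsi N) => jqNModC (ZMod ℓ) N ^ (i : ℕ))) :
    ∃ X : Fin (dedekindPsi N) → LaurentSeries ℤ,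
      (∀ i, X i ∈ Subring.closure
        {x | ∃ (d : ℕ) (_ : NeZero d), d ∣ N ∧ x = qExpand ℤ d (jqModC ℤ)}) ∧
      LinearIndependent (IntermediateField.adjoin (ZMod ℓ) {jqModC (ZMod ℓ)})
        (fun i => coeffMap (Int.castRingHom (ZMod ℓ)) (X i)) := by
  refine ⟨fun i => qExpand ℤ N (jqModC ℤ) ^ (i : ℕ), fun i => ?_, ?_⟩
  · exact pow_mem (Subring.subset_closure (show qExpand ℤ N (jqModC ℤ) ∈
      {x | ∃ (d : ℕ) (_ : NeZero d), d ∣ N ∧ x = qExpand ℤ d (jqModC ℤ)} from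
      ⟨N, inferInstance, dvd_refl N, rfl⟩)) _
  · have he : (fun i : Fin (dedekindPsi N) =>
        coeffMap (Int.castRingHom (ZMod ℓ)) (qExpand ℤ N (jqModC ℤ) ^ (i : ℕ))) =
        fun i : Fin (dedekindPsi N) => jqNModC (ZMod ℓ) N ^ (i : ℕ) :=
      funext fun i => coeffMap_lift_pow N ℓ i
    show LinearIndependent _ (fun i : Fin (dedekindPsi N) =>
        coeffMap (Int.castRingHom (ZMod ℓ)) (qExpand ℤ N (jqModC ℤ) ^ (i : ℕ)))
    rw [he]
    exact h

/-- `j` is transcendental over the constants. -/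
theorem transcendental_jqModC (k : Type*) [Field k] : Transcendental k (jqModC k) := by
  rintro ⟨p, hp0, hp⟩
  have h1 := congrArg (fun y : LaurentSeries k => y.coeff (-(p.natDegree : ℤ))) hp
  simp only [HahnSeries.coeff_zero] at h1
  rw [Polynomial.aeval_eq_sum_range, HahnSeries.coeff_sum] at h1
  rw [Finset.sum_eq_single p.natDegree] at h1
  · rw [Algebra.smul_def, algebraMap_eq_C, HahnSeries.C_mul_eq_smul, HahnSeries.coeff_smul,
      ModularCurve.coeff_jqModC_pow_self, smul_eq_mul, mul_one] at h1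
    exact hp0 (Polynomial.leadingCoeff_eq_zero.mp h1)
  · intro i hi hne
    have hlt : i < p.natDegree := lt_of_le_of_ne (Nat.lt_succ_iff.mp (Finset.mem_range.mp hi)) hne
    have hlt' : (-(p.natDegree : ℤ)) < -(i : ℤ) := neg_lt_neg (by exact_mod_cast hlt)
    rw [Algebra.smul_def, algebraMap_eq_C, HahnSeries.C_mul_eq_smul, HahnSeries.coeff_smul,
      ModularCurve.coeff_jqModC_pow_of_lt k hlt', smul_zero]
  · intro h
    exact absurd (Finset.mem_range.mpr (Nat.lt_succ_self _)) h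

/-- `j(u^N)` is transcendental over the constants. -/
theorem transcendental_qExpand_jqModC (N : ℕ) [NeZero N] (k : Type*) [Field k] :
    Transcendental k (qExpand k N (jqModC k)) := by
  rintro ⟨p, hp0, hp⟩
  refine transcendental_jqModC k ⟨p, hp0, qExpand_injective (R := k) N ?_⟩
  rw [map_zero, ← hp, Polynomial.aeval_def, Polynomial.aeval_def, Polynomial.hom_eval₂]
  congr 1
  ext1 c
  rw [RingHom.comp_apply, algebraMap_eq_C, qExpand_C]

/-- **Descent, `jqNModC` form, from the conclusion of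
`AbstractIrred.eq_zero_of_eval_eq_zero`**: if every polynomial of degree `< ψ(N)` with
coefficients in `k[J]`, `J = j(u^N)`, vanishing at `J₀ = j(u^(N·N))` is zero, then the powers
`j(q^N)^i`, `i < ψ(N)`, are linearly independent over `𝔽_ℓ(j)` in `𝔽_ℓ((q))`. -/
theorem jqN_pow_linearIndependent_of_eq_zero (N ℓ : ℕ) [NeZero N] [Fact ℓ.Prime] (k : Type*)
    [Field k] [CharP k ℓ]
    (hind : ∀ T : Polynomial (LaurentSeries k),
      (∀ m, T.coeff m ∈ Algebra.adjoin k {qExpand k N (jqModC k)}) →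
      T.natDegree < dedekindPsi N → T.eval (qExpand k (N * N) (jqModC k)) = 0 → T = 0) :
    LinearIndependent (IntermediateField.adjoin (ZMod ℓ) {jqModC (ZMod ℓ)})
      (fun i : Fin (dedekindPsi N) => jqNModC (ZMod ℓ) N ^ (i : ℕ)) :=
  linearIndependent_adjoin_of_ringHom_poly ℓ (descentHom N ℓ k) (jqModC (ZMod ℓ))
    (jqNModC (ZMod ℓ) N) (dedekindPsi N) fun T hT hdeg hroot => hind T
      (by rw [descentHom_jqModC] at hT; exact hT) hdeg (by
        rw [← hroot, descentHom_jqNModC])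

/-- **Descent from the conclusion of `AbstractIrred.eq_zero_of_eval_eq_zero`** to
`Reduction.HasIndepLifts N ℓ` (stated unfolded). -/
theorem hasIndepLifts_of_eq_zero (N ℓ : ℕ) [NeZero N] [Fact ℓ.Prime] (k : Type*) [Field k]
    [CharP k ℓ]
    (hind : ∀ T : Polynomial (LaurentSeries k),
      (∀ m, T.coeff m ∈ Algebra.adjoin k {qExpand k N (jqModC k)}) →
      T.natDegree < dedekindPsi N → T.eval (qExpand k (N * N) (jqModC k)) = 0 → T = 0) :
    ∃ X : Fin (dedekindPsi N) → LaurentSeries ℤ,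
      (∀ i, X i ∈ Subring.closure
        {x | ∃ (d : ℕ) (_ : NeZero d), d ∣ N ∧ x = qExpand ℤ d (jqModC ℤ)}) ∧
      LinearIndependent (IntermediateField.adjoin (ZMod ℓ) {jqModC (ZMod ℓ)})
        (fun i => coeffMap (Int.castRingHom (ZMod ℓ)) (X i)) :=
  hasIndepLifts_of_linearIndependent N ℓ (jqN_pow_linearIndependent_of_eq_zero N ℓ k hind)

/-- **Descent, `jqNModC` form, polynomial hypothesis**: if `1, J₀, …, J₀^(ψ(N)-1)` are
independent over `k[J]` in `k((u))` (`J = j(u^N)`, `J₀ = j(u^(N·N))`), then the powers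
`j(q^N)^i`, `i < ψ(N)`, are linearly independent over `𝔽_ℓ(j)` in `𝔽_ℓ((q))`. -/
theorem jqN_pow_linearIndependent_of_indep (N ℓ : ℕ) [NeZero N] [Fact ℓ.Prime] (k : Type*)
    [Field k] [CharP k ℓ]
    (hind : ∀ P : Fin (dedekindPsi N) → Polynomial k,
      ∑ i, Polynomial.eval₂ HahnSeries.C (qExpand k N (jqModC k)) (P i) *
        qExpand k (N * N) (jqModC k) ^ (i : ℕ) = 0 → ∀ i, P i = 0) :
    LinearIndependent (IntermediateField.adjoin (ZMod ℓ) {jqModC (ZMod ℓ)})
      (fun i : Fin (dedekindPsi N) => jqNModC (ZMod ℓ) N ^ (i : ℕ)) := by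
  refine linearIndependent_adjoin_of_ringHom ℓ (descentHom N ℓ k) _ _ fun P hP => hind P ?_
  rw [← hP]
  refine Finset.sum_congr rfl fun i _ => ?_
  rw [descentHom_jqModC, map_pow, descentHom_jqNModC]

/-- **Descent.**  If `1, J₀, …, J₀^(ψ(N)-1)` are independent over `k[J]` in `k((u))`, where
`J = j(u^N)` and `J₀ = j(u^(N·N))`, then the integral lifts `j(q^N)^i ∈ ℤ((q))` have
`𝔽_ℓ(j)`-linearly independent reductions modulo `ℓ`.  The conclusion is
`Reduction.HasIndepLifts N ℓ`, unfolded. -/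
theorem hasIndepLifts_of_indep (N ℓ : ℕ) [NeZero N] [Fact ℓ.Prime] (k : Type*) [Field k]
    [CharP k ℓ]
    (hind : ∀ P : Fin (dedekindPsi N) → Polynomial k,
      ∑ i, Polynomial.eval₂ HahnSeries.C (qExpand k N (jqModC k)) (P i) *
        qExpand k (N * N) (jqModC k) ^ (i : ℕ) = 0 → ∀ i, P i = 0) :
    ∃ X : Fin (dedekindPsi N) → LaurentSeries ℤ,
      (∀ i, X i ∈ Subring.closure
        {x | ∃ (d : ℕ) (_ : NeZero d), d ∣ N ∧ x = qExpand ℤ d (jqModC ℤ)}) ∧
      LinearIndependent (IntermediateField.adjoin (ZMod ℓ) {jqModC (ZMod ℓ)})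
        (fun i => coeffMap (Int.castRingHom (ZMod ℓ)) (X i)) :=
  hasIndepLifts_of_linearIndependent N ℓ (jqN_pow_linearIndependent_of_indep N ℓ k hind)

/-- The same with `J₀ = j((u^N)^N)` written as an iterated substitution. -/
theorem hasIndepLifts_of_indep' (N ℓ : ℕ) [NeZero N] [Fact ℓ.Prime] (k : Type*) [Field k]
    [CharP k ℓ]
    (hind : ∀ P : Fin (dedekindPsi N) → Polynomial k,
      ∑ i, Polynomial.eval₂ HahnSeries.C (qExpand k N (jqModC k)) (P i) *
        qExpand k N (qExpand k N (jqModC k)) ^ (i : ℕ) = 0 → ∀ i, P i = 0) :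
    ∃ X : Fin (dedekindPsi N) → LaurentSeries ℤ,
      (∀ i, X i ∈ Subring.closure
        {x | ∃ (d : ℕ) (_ : NeZero d), d ∣ N ∧ x = qExpand ℤ d (jqModC ℤ)}) ∧
      LinearIndependent (IntermediateField.adjoin (ZMod ℓ) {jqModC (ZMod ℓ)})
        (fun i => coeffMap (Int.castRingHom (ZMod ℓ)) (X i)) := by
  refine hasIndepLifts_of_indep N ℓ k fun P hP => hind P ?_
  rw [← hP]
  refine Finset.sum_congr rfl fun i _ => ?_
  rw [qExpand_qExpand N N]

end Descent

end Fermat.Agent.S28.CruxDescent
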