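import Mathlib
import Fermat.Prelude.Def_ModularCurve_IgusaScheme
import Fermat.Prelude.Def_ModularCurve_X0ModL

/-!
# S28 chart reduction — interface definitions (helper49)

The two inputs of `Fermat.Agent.S28.Reduction.isDomain_tensor_chartAlg`:
* `HasIndepLifts N ℓ` (the Igusa crux): `ψ(N)` elements of `ℤ[j(q^d) : d ∣ N]` whose reductions
  mod `ℓ` are linearly independent over `𝔽_ℓ(j̄)`;
* `DegreeLe N` (characteristic zero): `[F_N : ℚ(j)] ≤ ψ(N)`, in linear-independence form.
-/

set_option autoImplicit false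

namespace Fermat.Agent.S28.Reduction

open ModularCurve

/-- The `ℤ`-subring of `ℤ((q))` generated by the `j(q^d)`, `d ∣ N`. -/
noncomputable def jRing (N : ℕ) : Subring (LaurentSeries ℤ) :=
  Subring.closure {x | ∃ (d : ℕ) (_ : NeZero d), d ∣ N ∧ x = qExpand ℤ d (jqModC ℤ)}

/-- Crux (Igusa): `ψ(N)` elements of the integral ring whose reductions mod `ℓ` are linearly
independent over `𝔽_ℓ(j̄)`. -/
def HasIndepLifts (N ℓ : ℕ) [Fact ℓ.Prime] : Prop :=
  ∃ X : Fin (dedekindPsi N) → LaurentSeries ℤ, (∀ i, X i ∈ jRing N) ∧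
    LinearIndependent (IntermediateField.adjoin (ZMod ℓ) {jqModC (ZMod ℓ)})
      (fun i => coeffMap (Int.castRingHom (ZMod ℓ)) (X i))

/-- Characteristic zero: `[F_N : ℚ(j)] ≤ ψ(N)`, in linear-independence form. -/
def DegreeLe (N : ℕ) [NeZero N] : Prop :=
  ∀ (n : ℕ) (x : Fin n → LaurentSeries ℚ), (∀ i, x i ∈ modularFunctionFieldFull N) →
    LinearIndependent (IntermediateField.adjoin ℚ {jq}) x → n ≤ dedekindPsi N

end Fermat.Agent.S28.Reduction
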