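/-
S28 — the combinatorial identity behind the modular-unit argument (owner: helper6).

For `t ∣ N`, `t ≠ N`:  `∑_{d ∣ N} μ(N/d) * (gcd(d,t)^2 - d) = -φ(N)`.

Consequently, if a family of units `h_d` (`d ∣ N`) has `u`-order `(N/d) * (gcd(d,z)^2 - d)` at a
cusp of "denominator" `z ∣ N`, `z ≠ N`, then the weights `w_d := d * μ(N/d)` give
`∑_d w_d * ord(h_d) = -N φ(N) < 0`.
-/
import Mathlib

set_option autoImplicit false

namespace Fermat.Agent.S28.UnitCombo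

open ArithmeticFunction Finset
open scoped ArithmeticFunction.Moebius

/-- `∑_{d ∣ N} μ(N/d) * d = φ(N)`. -/
theorem sum_moebius_mul_self (N : ℕ) (hN : N ≠ 0) :
    ∑ d ∈ N.divisors, (μ (N / d) : ℤ) * (d : ℤ) = (N.totient : ℤ) := by
  have h := (sum_eq_iff_sum_mul_moebius_eq (R := ℤ) (f := fun n => (n.totient : ℤ))
    (g := fun n => (n : ℤ))).mp (fun n _ => by
      have := Nat.sum_totient n
      exact_mod_cast this) N (Nat.pos_of_ne_zero hN)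
  rw [← h]
  exact (Nat.sum_divisorsAntidiagonal' (fun a b => (μ a : ℤ) * (b : ℤ))).symm

/-- `∑_{d ∣ N} μ(N/d) * gcd(d,t)^2 = 0` for a proper divisor `t` of `N`. -/
theorem sum_moebius_mul_gcd_sq (N t : ℕ) (hN : N ≠ 0) (ht : t ∣ N) (htN : t ≠ N) :
    ∑ d ∈ N.divisors, (μ (N / d) : ℤ) * ((Nat.gcd d t : ℕ) : ℤ) ^ 2 = 0 := by
  -- `F` := Möbius inverse of `n ↦ n^2`
  set F : ℕ → ℤ := fun n => ∑ x ∈ n.divisorsAntidiagonal, (μ x.fst : ℤ) * ((x.snd : ℕ) : ℤ) ^ 2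
    with hF
  have hFsum : ∀ n > 0, ∑ i ∈ n.divisors, F i = ((n : ℕ) : ℤ) ^ 2 :=
    (sum_eq_iff_sum_mul_moebius_eq (R := ℤ) (f := F) (g := fun n => ((n : ℕ) : ℤ) ^ 2)).mpr
      fun n _ => rfl
  have ht0 : t ≠ 0 := fun h => hN (by rw [h] at ht; exact Nat.eq_zero_of_zero_dvd ht)
  have key : ∀ n > 0, ∑ i ∈ n.divisors, (if i ∣ t then F i else 0) =
      ((Nat.gcd n t : ℕ) : ℤ) ^ 2 := by
    intro n hn
    rw [← Finset.sum_filter]
    have hfil : n.divisors.filter (fun i => i ∣ t) = (Nat.gcd n t).divisors := by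
      ext i
      simp only [Finset.mem_filter, Nat.mem_divisors]
      constructor
      · rintro ⟨⟨h1, -⟩, h2⟩
        exact ⟨Nat.dvd_gcd h1 h2, Nat.gcd_ne_zero_left hn.ne'⟩
      · rintro ⟨h, -⟩
        exact ⟨⟨h.trans (Nat.gcd_dvd_left n t), hn.ne'⟩, h.trans (Nat.gcd_dvd_right n t)⟩
    rw [hfil]
    exact hFsum _ (Nat.gcd_pos_of_pos_left t hn)
  have h := (sum_eq_iff_sum_mul_moebius_eq (R := ℤ) (f := fun i => if i ∣ t then F i else 0)
    (g := fun n => ((Nat.gcd n t : ℕ) : ℤ) ^ 2)).mp key N (Nat.pos_of_ne_zero hN)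
  have hNt : ¬ N ∣ t := fun h => htN (Nat.dvd_antisymm ht h)
  rw [if_neg hNt] at h
  rw [← h]
  exact (Nat.sum_divisorsAntidiagonal' (fun a b => (μ a : ℤ) * ((Nat.gcd b t : ℕ) : ℤ) ^ 2)).symm

/-- The key identity: `∑_{d ∣ N} μ(N/d) * (gcd(d,t)^2 - d) = -φ(N)` for `t ∣ N`, `t ≠ N`. -/
theorem sum_moebius_mul_gcd_sq_sub (N t : ℕ) (hN : N ≠ 0) (ht : t ∣ N) (htN : t ≠ N) :
    ∑ d ∈ N.divisors, (μ (N / d) : ℤ) * (((Nat.gcd d t : ℕ) : ℤ) ^ 2 - (d : ℤ)) =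
      -(N.totient : ℤ) := by
  simp only [mul_sub, Finset.sum_sub_distrib]
  rw [sum_moebius_mul_gcd_sq N t hN ht htN, sum_moebius_mul_self N hN, zero_sub]

/-- Weighted form used with `AbstractIrred.eq_zero_of_eval_eq_zero`: if `ord d` is the order of
the unit `h_d` at a cusp of denominator `z ∣ N`, `z ≠ N`, then the weights `d * μ(N/d)` make the
total order negative. -/
theorem weighted_order_neg (N z : ℕ) (hN : N ≠ 0) (hz : z ∣ N) (hzN : z ≠ N) (ord : ℕ → ℤ)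
    (hord : ∀ d ∈ N.divisors, ord d = ((N / d : ℕ) : ℤ) * (((Nat.gcd d z : ℕ) : ℤ) ^ 2 - (d : ℤ))) :
    ∑ d ∈ N.divisors, ((d : ℤ) * (μ (N / d) : ℤ)) * ord d < 0 := by
  have h1 : ∑ d ∈ N.divisors, ((d : ℤ) * (μ (N / d) : ℤ)) * ord d =
      (N : ℤ) * ∑ d ∈ N.divisors, (μ (N / d) : ℤ) * (((Nat.gcd d z : ℕ) : ℤ) ^ 2 - (d : ℤ)) := by
    rw [Finset.mul_sum]
    refine Finset.sum_congr rfl fun d hd => ?_
    rw [hord d hd]
    have hdN : d ∣ N := Nat.dvd_of_mem_divisors hd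
    have : ((N / d : ℕ) : ℤ) * (d : ℤ) = (N : ℤ) := by
      exact_mod_cast Nat.div_mul_cancel hdN
    rw [← this]
    ring
  rw [h1, sum_moebius_mul_gcd_sq_sub N z hN hz hzN]
  have hφ : (0 : ℤ) < (N.totient : ℤ) := by
    exact_mod_cast Nat.totient_pos.mpr (Nat.pos_of_ne_zero hN)
  have hNpos : (0 : ℤ) < (N : ℤ) := by exact_mod_cast Nat.pos_of_ne_zero hN
  nlinarith

end Fermat.Agent.S28.UnitCombo
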