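/-
S28 analytic package (helper91): the eta quotients `h_d = Δ(dτ)/Δ(τ)` and their `SL₂(ℤ)`-conjugates
in the `intCusp` framework (`A`-integral expansions in `u = exp(2πiτ/N)`), with orders and unit
leading coefficients.
-/
import Mathlib
import Fermat.Agent.Lib.CuspInvariant
import Fermat.Agent.Lib.DeltaSlash
import Fermat.Agent.Lib.DeltaExpand
import Fermat.Prelude.Def_ModularCurve_X0ModL

set_option autoImplicit false

noncomputable section

namespace Fermat.Agent.S28.UnitCusp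

open UpperHalfPlane Filter Topology
open scoped MatrixGroups Manifold Real
open Fermat.Agent.Lib.CuspLaurent Fermat.Agent.Lib.CuspInvariant Fermat.Agent.Lib.DeltaSlash
open Fermat.Agent.Lib.DeltaLevelN

local notation "Δ" => ModularForm.discriminant

/-! ## Leading terms of Laurent series -/

section Lead

variable {R : Type*} [CommRing R]

/-- `F` has order `n` with unit leading coefficient. -/
def IsLeadAt (F : LaurentSeries R) (n : ℤ) : Prop :=
  IsUnit (F.coeff n) ∧ ∀ m < n, F.coeff m = 0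

lemma IsLeadAt.ne_zero [Nontrivial R] {F : LaurentSeries R} {n : ℤ} (h : IsLeadAt F n) :
    F ≠ 0 := HahnSeries.ne_zero_of_coeff_ne_zero h.1.ne_zero

lemma IsLeadAt.order_eq [Nontrivial R] {F : LaurentSeries R} {n : ℤ} (h : IsLeadAt F n) :
    F.order = n := by
  refine le_antisymm (HahnSeries.order_le_of_coeff_ne_zero h.1.ne_zero) ?_
  by_contra hlt
  push Not at hlt
  exact (HahnSeries.coeff_order_eq_zero.not.mpr h.ne_zero) (h.2 _ hlt)

lemma IsLeadAt.leadingCoeff_eq [Nontrivial R] {F : LaurentSeries R} {n : ℤ} (h : IsLeadAt F n) :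
    F.leadingCoeff = F.coeff n := by
  rw [HahnSeries.leadingCoeff_eq, h.order_eq]

lemma IsLeadAt.mul {F G : LaurentSeries R} {n m : ℤ} (hF : IsLeadAt F n) (hG : IsLeadAt G m) :
    IsLeadAt (F * G) (n + m) := by
  rcases subsingleton_or_nontrivial R with hR | hR
  · refine ⟨isUnit_of_subsingleton _, fun k _ => Subsingleton.elim _ _⟩
  have hlc : F.leadingCoeff * G.leadingCoeff ≠ 0 := by
    rw [hF.leadingCoeff_eq, hG.leadingCoeff_eq]
    exact (hF.1.mul hG.1).ne_zero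
  have hord := HahnSeries.order_mul_of_ne_zero hlc
  rw [hF.order_eq, hG.order_eq] at hord
  refine ⟨?_, fun k hk => ?_⟩
  · have h := HahnSeries.coeff_mul_order_add_order F G
    rw [hF.order_eq, hG.order_eq, hF.leadingCoeff_eq, hG.leadingCoeff_eq] at h
    rw [h]
    exact hF.1.mul hG.1
  · exact HahnSeries.coeff_eq_zero_of_lt_order (by rw [hord]; exact hk)

lemma isLeadAt_C {u : R} (hu : IsUnit u) : IsLeadAt (HahnSeries.C u : LaurentSeries R) 0 := by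
  refine ⟨by simpa [HahnSeries.C_apply] using hu, fun m hm => ?_⟩
  simp [HahnSeries.C_apply, HahnSeries.coeff_single_of_ne hm.ne]

lemma IsLeadAt.coeffMap {S : Type*} [CommRing S] (φ : R →+* S) {F : LaurentSeries R} {n : ℤ}
    (h : IsLeadAt F n) : IsLeadAt (ModularCurve.coeffMap φ F) n := by
  refine ⟨?_, fun m hm => ?_⟩
  · rw [ModularCurve.coeffMap_coeff]
    exact h.1.map φ
  · rw [ModularCurve.coeffMap_coeff, h.2 m hm, map_zero]

end Lead

/-! ## `1/Δ` as an element of `merCusp 1` -/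

/-- The function `1/Δ`. -/
def invΔ : ℍ → ℂ := fun τ => (Δ τ)⁻¹

lemma invΔ_apply (τ : ℍ) : invΔ τ = (Δ τ)⁻¹ := rfl

lemma invΔ_mul (τ : ℍ) : invΔ τ * Δ τ = 1 := inv_mul_cancel₀ (ModularForm.discriminant_ne_zero τ)

lemma invΔ_isMerCusp_one : IsMerCusp ((1 : ℕ) : ℝ) invΔ := by
  have hΔ := discriminant_isHolCusp_one
  refine ⟨?_, fun w => ?_, 1, ?_⟩
  · rw [UpperHalfPlane.mdifferentiable_iff]
    have h1 := UpperHalfPlane.mdifferentiable_iff.mp hΔ.holo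
    refine (h1.inv fun z hz => ?_).congr fun z hz => ?_
    · simp only [Function.comp_apply]
      exact ModularForm.discriminant_ne_zero _
    · simp [Function.comp_apply, invΔ]
  · have h1 := hΔ.per w
    simp only [Function.comp_apply, invΔ, Nat.cast_one] at h1 ⊢
    rw [h1]
  · have e : tParam ((1 : ℕ) : ℝ) ^ 1 * invΔ = fun τ : ℍ => (prodFactor τ)⁻¹ := by
      funext τ
      simp only [Pi.mul_apply, pow_one, invΔ]
      rw [← discriminant_mul_inv_tParam, mul_inv, inv_inv, mul_comm]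
    rw [e]
    have h := tendsto_prodFactor.inv₀ one_ne_zero
    exact h.isBigO_one ℝ

lemma invΔ_mem_merCusp_one : invΔ ∈ merCusp 1 := invΔ_isMerCusp_one

lemma discriminant_mem_merCusp_one : (Δ : ℍ → ℂ) ∈ merCusp 1 := by
  have h := discriminant_isHolCusp_one.isMerCusp
  show IsMerCusp ((1 : ℕ) : ℝ) Δ
  simpa using h

/-- The formal discriminant over `ℤ`. -/
def deltaZ : LaurentSeries ℤ :=
  HahnSeries.single (1 : ℤ) (1 : ℤ) * HahnSeries.ofPowerSeries ℤ ℤ ModularCurve.dedekindEtaUnit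

/-- The formal inverse discriminant over `ℤ`. -/
def deltaInvZ : LaurentSeries ℤ :=
  HahnSeries.single (-1 : ℤ) (1 : ℤ) *
    HahnSeries.ofPowerSeries ℤ ℤ ModularCurve.dedekindEtaUnitInv

lemma deltaInvZ_mul_deltaZ : deltaInvZ * deltaZ = 1 := by
  rw [deltaInvZ, deltaZ, mul_mul_mul_comm, HahnSeries.single_mul_single, ← map_mul,
    mul_comm ModularCurve.dedekindEtaUnitInv, ModularCurve.dedekindEtaUnit_mul_inv]
  simp

lemma laurent_discriminant_one :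
    laurent 1 ⟨Δ, discriminant_mem_merCusp_one⟩ =
      ModularCurve.coeffMap (Int.castRingHom ℂ) deltaZ := by
  have h := laurentFun_of_isHolCusp one_pos discriminant_isHolCusp_one
  rw [laurent_apply]
  show laurentFun ((1 : ℕ) : ℝ) Δ = _
  rw [Nat.cast_one, h, Fermat.Agent.Lib.JqAnalytic.qExpansion_discriminant_eq_X_mul, deltaZ]
  have e1 : ModularCurve.coeffMap (Int.castRingHom ℂ)
      (HahnSeries.single (1 : ℤ) (1 : ℤ) *
        HahnSeries.ofPowerSeries ℤ ℤ ModularCurve.dedekindEtaUnit) =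
      HahnSeries.single (1 : ℤ) (1 : ℂ) * HahnSeries.ofPowerSeries ℤ ℂ
        (PowerSeries.map (Int.castRingHom ℂ) ModularCurve.dedekindEtaUnit) := by
    rw [map_mul, ModularCurve.coeffMap_ofPowerSeries, ModularCurve.coeffMap_single, map_one]
  rw [e1, map_mul (PowerSeries.map (Int.castRingHom ℂ)), map_mul (HahnSeries.ofPowerSeries ℤ ℂ),
    PowerSeries.map_X, HahnSeries.ofPowerSeries_X]

lemma laurent_invΔ_one :
    laurent 1 ⟨invΔ, invΔ_mem_merCusp_one⟩ =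
      ModularCurve.coeffMap (Int.castRingHom ℂ) deltaInvZ := by
  have h1 : (⟨invΔ, invΔ_mem_merCusp_one⟩ : merCusp 1) * ⟨Δ, discriminant_mem_merCusp_one⟩ = 1 := by
    apply Subtype.ext
    funext τ
    exact invΔ_mul τ
  have h2 := congrArg (laurent 1) h1
  rw [map_mul, map_one, laurent_discriminant_one] at h2
  have h3 := congrArg (ModularCurve.coeffMap (Int.castRingHom ℂ)) deltaInvZ_mul_deltaZ
  rw [map_mul, map_one] at h3
  have h4 : ModularCurve.coeffMap (Int.castRingHom ℂ) deltaZ ≠ 0 := by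
    intro h0
    rw [h0, mul_zero] at h3
    exact zero_ne_one h3
  exact mul_right_cancel₀ h4 (h2.trans h3.symm)

lemma deltaZ_coeff_one : deltaZ.coeff 1 = 1 := by
  have h := HahnSeries.coeff_single_mul_add (r := (1 : ℤ))
    (x := HahnSeries.ofPowerSeries ℤ ℤ ModularCurve.dedekindEtaUnit) (a := (0 : ℤ)) (b := (1 : ℤ))
  rw [zero_add, one_mul] at h
  rw [deltaZ, h]
  have h2 := HahnSeries.ofPowerSeries_apply_coeff (Γ := ℤ) ModularCurve.dedekindEtaUnit 0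
  simp only [Nat.cast_zero] at h2
  rw [h2, PowerSeries.coeff_zero_eq_constantCoeff_apply, ModularCurve.constantCoeff_dedekindEtaUnit]

lemma deltaZ_coeff_of_lt {n : ℤ} (hn : n < 1) : deltaZ.coeff n = 0 := by
  rw [deltaZ, HahnSeries.coeff_single_mul, one_mul]
  exact ModularCurve.ofPowerSeries_coeff_of_neg _ (by omega)

lemma deltaInvZ_coeff_neg_one : deltaInvZ.coeff (-1) = 1 := by
  have h := HahnSeries.coeff_single_mul_add (r := (1 : ℤ))
    (x := HahnSeries.ofPowerSeries ℤ ℤ ModularCurve.dedekindEtaUnitInv) (a := (0 : ℤ))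
    (b := (-1 : ℤ))
  rw [zero_add, one_mul] at h
  rw [deltaInvZ, h]
  have h2 := HahnSeries.ofPowerSeries_apply_coeff (Γ := ℤ) ModularCurve.dedekindEtaUnitInv 0
  simp only [Nat.cast_zero] at h2
  rw [h2, PowerSeries.coeff_zero_eq_constantCoeff_apply,
    ModularCurve.constantCoeff_dedekindEtaUnitInv]

lemma deltaInvZ_coeff_of_lt {n : ℤ} (hn : n < -1) : deltaInvZ.coeff n = 0 := by
  rw [deltaInvZ, HahnSeries.coeff_single_mul, one_mul]
  exact ModularCurve.ofPowerSeries_coeff_of_neg _ (by omega)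

/-! ## Affine pull-backs of level-one functions with integral expansions -/

section Affine

variable (A : Subring ℂ) (N : ℕ) [NeZero N]

lemma intCast_mem_subring (z : ℤ) : (z : ℂ) ∈ A := by
  have : (z : ℂ) = ((z : A) : ℂ) := by simp
  rw [this]
  exact (z : A).2

lemma exp_pow_eq_one {d : ℕ} (hd : 0 < d) (hdN : d ∣ N) (b k : ℤ) :
    (Complex.exp (2 * π * Complex.I * b / (d * ((1 : ℕ) : ℝ))) ^ k) ^ N = 1 := by
  obtain ⟨c, rfl⟩ := hdN
  have hd' : (d : ℂ) ≠ 0 := by exact_mod_cast hd.ne'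
  rw [← Complex.exp_int_mul, ← Complex.exp_nat_mul]
  have e : ((d * c : ℕ) : ℂ) * ((k : ℂ) * (2 * π * Complex.I * b / (d * ((1 : ℕ) : ℝ)))) =
      ((c * k * b : ℤ) : ℂ) * (2 * π * Complex.I) := by
    push_cast
    field_simp
  rw [e]
  exact Complex.exp_int_mul_two_pi_mul_I _

variable {A N}

theorem comp_affine_mem_intCusp (hA : ∀ z : ℂ, z ^ N = 1 → z ∈ A)
    {g : ℍ → ℂ} (hg : g ∈ merCusp 1) (G : LaurentSeries ℤ)
    (hG : laurent 1 ⟨g, hg⟩ = ModularCurve.coeffMap (Int.castRingHom ℂ) G)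
    {m : ℍ → ℍ} {a d e : ℕ} {b : ℤ} (ha : 0 < a) (hd : 0 < d) (hdN : d ∣ N)
    (hm : ∀ τ : ℍ, ((m τ : ℍ) : ℂ) = ((a : ℂ) * τ + b) / d)
    (he : e * (d * 1) = a * N) : g ∘ m ∈ intCusp A N := by
  refine mem_intCusp.mpr ⟨comp_affine_mem_merCusp hg ha hd hm he, fun n => ?_⟩
  rw [laurent_comp_affine hg ha hd hm he n]
  split_ifs with hdiv
  · rw [hG, ModularCurve.coeffMap_coeff]
    exact A.mul_mem (hA _ (exp_pow_eq_one N hd hdN b _)) (intCast_mem_subring A _)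
  · exact A.zero_mem

theorem isLeadAt_comp_affine (hA : ∀ z : ℂ, z ^ N = 1 → z ∈ A)
    {g : ℍ → ℂ} (hg : g ∈ merCusp 1) (G : LaurentSeries ℤ)
    (hG : laurent 1 ⟨g, hg⟩ = ModularCurve.coeffMap (Int.castRingHom ℂ) G)
    {m : ℍ → ℍ} {a d e : ℕ} {b : ℤ} (ha : 0 < a) (hd : 0 < d) (hdN : d ∣ N)
    (hm : ∀ τ : ℍ, ((m τ : ℍ) : ℂ) = ((a : ℂ) * τ + b) / d)
    (he : e * (d * 1) = a * N) {k₀ : ℤ} (h1 : G.coeff k₀ = 1) (h0 : ∀ k < k₀, G.coeff k = 0) :
    IsLeadAt (laurentInt A N ⟨g ∘ m, comp_affine_mem_intCusp hA hg G hG ha hd hdN hm he⟩)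
      ((e : ℤ) * k₀) := by
  have he0 : e ≠ 0 := by
    rintro rfl
    have hN : 0 < N := NeZero.pos N
    have : 0 < a * N := Nat.mul_pos ha hN
    omega
  have heZ : (e : ℤ) ≠ 0 := by exact_mod_cast he0
  have hepos : (0 : ℤ) < (e : ℤ) := by exact_mod_cast Nat.pos_of_ne_zero he0
  set F : intCusp A N := ⟨g ∘ m, comp_affine_mem_intCusp hA hg G hG ha hd hdN hm he⟩ with hF
  have hcoeff : ∀ n : ℤ, (((laurentInt A N F).coeff n : A) : ℂ) =
      if (e : ℤ) ∣ n then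
        Complex.exp (2 * π * Complex.I * b / (d * ((1 : ℕ) : ℝ))) ^ (n / e) *
          ((G.coeff (n / e) : ℤ) : ℂ)
      else 0 := by
    intro n
    rw [laurentInt_coeff]
    have h := laurent_comp_affine hg ha hd hm he n
    rw [hG, ModularCurve.coeffMap_coeff] at h
    exact h
  refine ⟨?_, fun n hn => ?_⟩
  · have hc := hcoeff ((e : ℤ) * k₀)
    rw [if_pos (dvd_mul_right _ _), Int.mul_ediv_cancel_left _ heZ, h1, Int.cast_one,
      mul_one] at hc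
    set ζ := Complex.exp (2 * π * Complex.I * b / (d * ((1 : ℕ) : ℝ))) with hζ
    have hζ0 : ζ ≠ 0 := Complex.exp_ne_zero _
    have hmem : ζ ^ (-k₀) ∈ A := hA _ (exp_pow_eq_one N hd hdN b _)
    refine IsUnit.of_mul_eq_one (⟨ζ ^ (-k₀), hmem⟩ : A) ?_
    apply Subtype.ext
    rw [Subring.coe_mul, hc, Subring.coe_one]
    show ζ ^ k₀ * ζ ^ (-k₀) = 1
    rw [← zpow_add₀ hζ0]
    simp
  · apply Subtype.ext
    rw [hcoeff n]
    split_ifs with hdiv
    · obtain ⟨k, rfl⟩ := hdiv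
      rw [Int.mul_ediv_cancel_left _ heZ]
      have hk : k < k₀ := lt_of_mul_lt_mul_left hn hepos.le
      rw [h0 k hk]
      simp
    · rfl

end Affine

/-! ## The eta quotients and their conjugates -/

/-- The eta quotient `h_d(τ) = Δ(dτ)/Δ(τ)`. -/
def hD (d : ℕ) (τ : ℍ) : ℂ := deltaN d τ / Δ τ

lemma hD_ne_zero (d : ℕ) [NeZero d] (τ : ℍ) : hD d τ ≠ 0 := by
  rw [hD, deltaN]
  exact div_ne_zero (ModularForm.discriminant_ne_zero _) (ModularForm.discriminant_ne_zero _)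

/-- Explicit form of the `SL₂(ℤ)`-conjugates of `h_d`: `h_d(γτ) = d'⁻¹² Δ((aτ+b)/d')/Δ(τ)` with
`a d' = d`, `a = gcd(d, γ₁₀)`. -/
theorem hD_smul (d : ℕ) [NeZero d] (γ : SL(2, ℤ)) :
    ∃ a b d' : ℕ, a * d' = d ∧ b < d' ∧ a = Int.gcd (d : ℤ) (γ 1 0) ∧
      ∀ z : ℍ, hD d (γ • z) =
        ((d' : ℂ) ^ 12)⁻¹ * Δ (ofComplex (((a : ℂ) * z + b) / d')) / Δ z := by
  obtain ⟨a, b, d', δ, had, hbd, hd1, h00, h01, h10, h11⟩ := exists_decomp d γ
  have hd0 : d ≠ 0 := NeZero.ne d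
  have ha0 : a ≠ 0 := by rintro rfl; simp at had; exact hd0 had.symm
  have hd'0 : d' ≠ 0 := by rintro rfl; simp at had; exact hd0 had.symm
  refine ⟨a, b, d', had, hbd, ?_, fun z => ?_⟩
  · -- `a = gcd(d, γ₁₀)`
    have hdet : δ 0 0 * δ 1 1 - δ 0 1 * δ 1 0 = 1 := by
      have h := δ.det_coe
      rw [Matrix.det_fin_two] at h
      exact h
    have hadZ : (a : ℤ) * (d' : ℤ) = (d : ℤ) := by exact_mod_cast had
    have h1 : (a : ℤ) ∣ ((Int.gcd (d : ℤ) (γ 1 0) : ℕ) : ℤ) :=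
      Int.dvd_coe_gcd ⟨d', hadZ.symm⟩ ⟨δ 1 0, by rw [← h10]; ring⟩
    have h2 : ((Int.gcd (d : ℤ) (γ 1 0) : ℕ) : ℤ) ∣ (a : ℤ) := by
      have e : (a : ℤ) = δ 1 1 * ((d : ℤ) * γ 0 0) - δ 0 1 * γ 1 0 := by
        rw [← h00, ← h10]
        linear_combination (-(a : ℤ)) * hdet
      rw [e]
      exact dvd_sub (Dvd.dvd.mul_left (Dvd.dvd.mul_right (Int.gcd_dvd_left _ _) _) _)
        (Dvd.dvd.mul_left (Int.gcd_dvd_right _ _) _)
    exact Nat.dvd_antisymm (Int.natCast_dvd_natCast.mp h1) (Int.natCast_dvd_natCast.mp h2)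
  · have haC : (a : ℂ) ≠ 0 := by exact_mod_cast ha0
    have hdC : (d' : ℂ) ≠ 0 := by exact_mod_cast hd'0
    have hwim : 0 < (((a : ℂ) * z + b) / d').im := im_affine_pos ha0 hd'0 b z
    obtain ⟨w, hw⟩ : ∃ w : ℍ, (w : ℂ) = ((a : ℂ) * z + b) / d' := ⟨⟨_, hwim⟩, rfl⟩
    have hden := sl_denom_ne_zero γ z
    have c00 : (δ 0 0 : ℂ) * a = d * (γ 0 0 : ℂ) := by exact_mod_cast h00
    have c01 : (δ 0 0 : ℂ) * b + (δ 0 1 : ℂ) * d' = d * (γ 0 1 : ℂ) := by exact_mod_cast h01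
    have c10 : (δ 1 0 : ℂ) * a = (γ 1 0 : ℂ) := by exact_mod_cast h10
    have c11 : (δ 1 0 : ℂ) * b + (δ 1 1 : ℂ) * d' = (γ 1 1 : ℂ) := by exact_mod_cast h11
    have hdenrel : (δ 1 0 : ℂ) * w + (δ 1 1 : ℂ) = ((γ 1 0 : ℂ) * z + (γ 1 1 : ℂ)) / d' := by
      rw [hw]; field_simp; linear_combination (z : ℂ) * c10 + c11
    have key : ofComplex ((d : ℂ) * ((γ • z : ℍ) : ℂ)) = δ • w := by
      have him : 0 < ((d : ℂ) * ((γ • z : ℍ) : ℂ)).im := by
        have : ((d : ℂ) * ((γ • z : ℍ) : ℂ)).im = d * (γ • z : ℍ).im := by simp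
        rw [this]
        have := (γ • z : ℍ).im_pos
        have hdpos : (0 : ℝ) < d := by exact_mod_cast Nat.pos_of_ne_zero hd0
        positivity
      rw [ofComplex_apply_of_im_pos him]
      apply UpperHalfPlane.ext
      show (d : ℂ) * ((γ • z : ℍ) : ℂ) = ((δ • w : ℍ) : ℂ)
      rw [coe_sl_smul, coe_sl_smul, hdenrel]
      have hnum : (δ 0 0 : ℂ) * w + (δ 0 1 : ℂ) =
          ((d : ℂ) * ((γ 0 0 : ℂ) * z + (γ 0 1 : ℂ))) / d' := by
        rw [hw]; field_simp; linear_combination (z : ℂ) * c00 + c01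
      rw [hnum]
      field_simp
    have hw' : ofComplex (((a : ℂ) * z + b) / d') = w := by
      rw [ofComplex_apply_of_im_pos hwim]; exact UpperHalfPlane.ext hw.symm
    have hΔz := ModularForm.discriminant_ne_zero z
    rw [hD, deltaN, key, discriminant_smul δ w, discriminant_smul γ z, hdenrel, hw']
    field_simp

section Family

variable (A : Subring ℂ) (N : ℕ) [NeZero N]

lemma natCast_mem_subring (n : ℕ) : (n : ℂ) ∈ A := by
  have : (n : ℂ) = ((n : A) : ℂ) := by simp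
  rw [this]
  exact (n : A).2

/-- The order of the conjugate `h_d ∘ γ` at `i∞`, in the parameter `u = exp(2πiτ/N)`. -/
def ordH (N d : ℕ) (γ : SL(2, ℤ)) : ℤ :=
  ((N / d : ℕ) : ℤ) * ((Int.gcd (d : ℤ) (γ 1 0) : ℕ) : ℤ) ^ 2 - (N : ℤ)

variable {A N}

/-- The conjugates of the eta quotient `h_d` (`d ∣ N`) and of its inverse have `A`-integral
expansions in `u = exp(2πiτ/N)` with unit leading coefficients, of orders `± ordH N d γ`. -/
theorem exists_hD_factorization (hA : ∀ z : ℂ, z ^ N = 1 → z ∈ A) (hN : ((N : ℂ))⁻¹ ∈ A)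
    {d : ℕ} (hd : d ∣ N) (γ : SL(2, ℤ)) :
    ∃ F F' : intCusp A N, (∀ τ : ℍ, (F : ℍ → ℂ) τ = hD d (γ • τ)) ∧
      (∀ τ : ℍ, (F' : ℍ → ℂ) τ = (hD d (γ • τ))⁻¹) ∧
      IsLeadAt (laurentInt A N F) (ordH N d γ) ∧ IsLeadAt (laurentInt A N F') (-ordH N d γ) := by
  have hN0 : N ≠ 0 := NeZero.ne N
  have hd0 : d ≠ 0 := by rintro rfl; exact hN0 (Nat.eq_zero_of_zero_dvd hd)
  have : NeZero d := ⟨hd0⟩
  obtain ⟨a, b, d', had, hbd, hgcd, hform⟩ := hD_smul d γ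
  have ha0 : a ≠ 0 := by rintro rfl; simp at had; exact hd0 had.symm
  have hd'0 : d' ≠ 0 := by rintro rfl; simp at had; exact hd0 had.symm
  have hapos : 0 < a := Nat.pos_of_ne_zero ha0
  have hd'pos : 0 < d' := Nat.pos_of_ne_zero hd'0
  have hd'd : d' ∣ d := ⟨a, by rw [← had, mul_comm]⟩
  have hd'N : d' ∣ N := hd'd.trans hd
  have hdC : (d' : ℂ) ≠ 0 := by exact_mod_cast hd'0
  -- the affine map
  have hwim : ∀ z : ℍ, 0 < (((a : ℂ) * z + ((b : ℤ) : ℂ)) / d').im := fun z => by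
    have := im_affine_pos ha0 hd'0 b z
    simpa using this
  set m : ℍ → ℍ := fun z => ⟨((a : ℂ) * z + ((b : ℤ) : ℂ)) / d', hwim z⟩ with hm_def
  have hm : ∀ τ : ℍ, ((m τ : ℍ) : ℂ) = ((a : ℂ) * τ + ((b : ℤ) : ℂ)) / d' := fun τ => rfl
  have hmof : ∀ z : ℍ, ofComplex (((a : ℂ) * z + b) / d') = m z := fun z => by
    have h1 : ((a : ℂ) * z + (b : ℂ)) / d' = ((a : ℂ) * z + ((b : ℤ) : ℂ)) / d' := by simp
    rw [h1, ofComplex_apply_of_im_pos (hwim z)]
  have hid : ∀ τ : ℍ, (((id τ : ℍ)) : ℂ) = (((1 : ℕ) : ℂ) * τ + ((0 : ℤ) : ℂ)) / ((1 : ℕ) : ℂ) :=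
    fun τ => by simp
  set e : ℕ := a * (N / d') with he_def
  have he : e * (d' * 1) = a * N := by
    rw [he_def, mul_one, mul_assoc, Nat.div_mul_cancel hd'N]
  have heid : N * (1 * 1) = 1 * N := by ring
  -- constants
  have hinvd' : ((d' : ℂ))⁻¹ ∈ A := by
    obtain ⟨t, ht⟩ := hd'N
    have hNC : (N : ℂ) ≠ 0 := by exact_mod_cast hN0
    have ht0 : t ≠ 0 := by rintro rfl; exact hN0 (by rw [ht, mul_zero])
    have htC : (t : ℂ) ≠ 0 := by exact_mod_cast ht0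
    have e1 : ((d' : ℂ))⁻¹ = (t : ℂ) * (N : ℂ)⁻¹ := by
      rw [ht]; push_cast; field_simp
    rw [e1]
    exact A.mul_mem (natCast_mem_subring A t) hN
  have hc : ((d' : ℂ) ^ 12)⁻¹ ∈ A := by
    rw [← inv_pow]; exact A.pow_mem hinvd' 12
  have hc' : (d' : ℂ) ^ 12 ∈ A := A.pow_mem (natCast_mem_subring A d') 12
  set cA : A := ⟨((d' : ℂ) ^ 12)⁻¹, hc⟩ with hcA
  set cA' : A := ⟨(d' : ℂ) ^ 12, hc'⟩ with hcA'
  have hcc : cA * cA' = 1 := by
    apply Subtype.ext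
    show ((d' : ℂ) ^ 12)⁻¹ * (d' : ℂ) ^ 12 = 1
    exact inv_mul_cancel₀ (pow_ne_zero 12 hdC)
  have hcu : IsUnit cA := IsUnit.of_mul_eq_one cA' hcc
  have hcu' : IsUnit cA' := IsUnit.of_mul_eq_one cA (by rw [mul_comm]; exact hcc)
  -- the four building blocks
  set F1 : intCusp A N := ⟨Δ ∘ m, comp_affine_mem_intCusp hA discriminant_mem_merCusp_one deltaZ
    laurent_discriminant_one hapos hd'pos hd'N hm he⟩ with hF1
  set F2 : intCusp A N := ⟨invΔ ∘ id, comp_affine_mem_intCusp hA invΔ_mem_merCusp_one deltaInvZ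
    laurent_invΔ_one one_pos one_pos (one_dvd N) hid heid⟩ with hF2
  set F3 : intCusp A N := ⟨invΔ ∘ m, comp_affine_mem_intCusp hA invΔ_mem_merCusp_one deltaInvZ
    laurent_invΔ_one hapos hd'pos hd'N hm he⟩ with hF3
  set F4 : intCusp A N := ⟨Δ ∘ id, comp_affine_mem_intCusp hA discriminant_mem_merCusp_one deltaZ
    laurent_discriminant_one one_pos one_pos (one_dvd N) hid heid⟩ with hF4
  have L1 : IsLeadAt (laurentInt A N F1) ((e : ℤ) * 1) :=
    isLeadAt_comp_affine hA discriminant_mem_merCusp_one deltaZ laurent_discriminant_one hapos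
      hd'pos hd'N hm he deltaZ_coeff_one (fun k hk => deltaZ_coeff_of_lt hk)
  have L2 : IsLeadAt (laurentInt A N F2) ((N : ℤ) * (-1)) :=
    isLeadAt_comp_affine hA invΔ_mem_merCusp_one deltaInvZ laurent_invΔ_one one_pos one_pos
      (one_dvd N) hid heid deltaInvZ_coeff_neg_one (fun k hk => deltaInvZ_coeff_of_lt hk)
  have L3 : IsLeadAt (laurentInt A N F3) ((e : ℤ) * (-1)) :=
    isLeadAt_comp_affine hA invΔ_mem_merCusp_one deltaInvZ laurent_invΔ_one hapos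
      hd'pos hd'N hm he deltaInvZ_coeff_neg_one (fun k hk => deltaInvZ_coeff_of_lt hk)
  have L4 : IsLeadAt (laurentInt A N F4) ((N : ℤ) * 1) :=
    isLeadAt_comp_affine hA discriminant_mem_merCusp_one deltaZ laurent_discriminant_one one_pos
      one_pos (one_dvd N) hid heid deltaZ_coeff_one (fun k hk => deltaZ_coeff_of_lt hk)
  have Lc : IsLeadAt (laurentInt A N (constHom A N cA)) 0 := by
    rw [laurentInt_constHom]; exact isLeadAt_C hcu
  have Lc' : IsLeadAt (laurentInt A N (constHom A N cA')) 0 := by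
    rw [laurentInt_constHom]; exact isLeadAt_C hcu'
  -- the order
  have hord : ((e : ℕ) : ℤ) = ((N / d : ℕ) : ℤ) * ((Int.gcd (d : ℤ) (γ 1 0) : ℕ) : ℤ) ^ 2 := by
    rw [← hgcd]
    have h1 : N / d' = a * (N / d) := by
      obtain ⟨t, ht⟩ := hd
      rw [ht, Nat.mul_div_cancel_left t (Nat.pos_of_ne_zero hd0), ← had, mul_assoc,
        mul_comm d' t, ← mul_assoc, Nat.mul_div_cancel _ hd'pos]
    rw [he_def, h1]
    push_cast
    ring
  refine ⟨constHom A N cA * F1 * F2, constHom A N cA' * F3 * F4, fun τ => ?_, fun τ => ?_, ?_, ?_⟩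
  · show ((d' : ℂ) ^ 12)⁻¹ * Δ (m τ) * invΔ τ = hD d (γ • τ)
    rw [hform τ, hmof τ, invΔ_apply, div_eq_mul_inv]
  · show (d' : ℂ) ^ 12 * invΔ (m τ) * Δ τ = (hD d (γ • τ))⁻¹
    rw [hform τ, hmof τ, invΔ_apply]
    have h1 := ModularForm.discriminant_ne_zero (m τ)
    have h2 := ModularForm.discriminant_ne_zero τ
    field_simp
  · have h := (Lc.mul L1).mul L2
    rw [← map_mul, ← map_mul] at h
    have e1 : (0 : ℤ) + (e : ℤ) * 1 + (N : ℤ) * (-1) = ordH N d γ := by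
      rw [ordH, ← hord]; ring
    rwa [e1] at h
  · have h := (Lc'.mul L3).mul L4
    rw [← map_mul, ← map_mul] at h
    have e1 : (0 : ℤ) + (e : ℤ) * (-1) + (N : ℤ) * 1 = -ordH N d γ := by
      rw [ordH, ← hord]; ring
    rwa [e1] at h

end Family

/-! ## Exports (shapes of the S28 main-crux roster) -/

section Exports

open Fermat.Agent.Lib.DeltaExpand (zetaN)
open CongruenceSubgroup (Gamma0)

/-- The order at `i∞` (in `u = exp(2πiτ/N)`) of the conjugate `h_d ∘ γ`. -/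
def etaOrd (N d : ℕ) (γ : SL(2, ℤ)) : ℤ :=
  ((N / d : ℕ) : ℤ) * ((Nat.gcd d (γ 1 0).natAbs : ℤ) ^ 2 - (d : ℤ))

lemma etaOrd_eq_ordH {N d : ℕ} (hd : d ∣ N) (γ : SL(2, ℤ)) : etaOrd N d γ = ordH N d γ := by
  have h1 : Int.gcd (d : ℤ) (γ 1 0) = Nat.gcd d (γ 1 0).natAbs := by
    rw [Int.gcd, Int.natAbs_natCast]
  have h2 : ((N / d : ℕ) : ℤ) * (d : ℤ) = (N : ℤ) := by
    exact_mod_cast Nat.div_mul_cancel hd
  rw [etaOrd, ordH, h1, mul_sub, h2]

/-- `etaOrd` only depends on `gcd(N, γ₁₀)`. -/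
lemma etaOrd_eq_gcd {N d : ℕ} (hd : d ∣ N) (γ : SL(2, ℤ)) :
    etaOrd N d γ = ((N / d : ℕ) : ℤ) *
      (((Nat.gcd d (Nat.gcd N (γ 1 0).natAbs) : ℕ) : ℤ) ^ 2 - (d : ℤ)) := by
  rw [etaOrd, ← Nat.gcd_assoc, Nat.gcd_eq_left hd]

variable {A : Subring ℂ} {N : ℕ} [NeZero N]

lemma mem_of_pow_eq_one (hζ : zetaN N ∈ A) (z : ℂ) (hz : z ^ N = 1) : z ∈ A := by
  have hprim : IsPrimitiveRoot (zetaN N) N := Complex.isPrimitiveRoot_exp N (NeZero.ne N)
  obtain ⟨i, -, hi⟩ := hprim.eq_pow_of_pow_eq_one hz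
  rw [← hi]
  exact A.pow_mem hζ i

theorem hD_smul_mem (hζ : zetaN N ∈ A) (hNinv : ((N : ℂ))⁻¹ ∈ A) {d : ℕ} (hd : d ∣ N)
    (γ : SL(2, ℤ)) : (fun τ : ℍ => hD d (γ • τ)) ∈ intCusp A N := by
  obtain ⟨F, -, hF, -, -, -⟩ := exists_hD_factorization (mem_of_pow_eq_one hζ) hNinv hd γ
  have e : (F : ℍ → ℂ) = fun τ : ℍ => hD d (γ • τ) := funext hF
  rw [← e]
  exact F.2

theorem hD_inv_smul_mem (hζ : zetaN N ∈ A) (hNinv : ((N : ℂ))⁻¹ ∈ A) {d : ℕ} (hd : d ∣ N)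
    (γ : SL(2, ℤ)) : (fun τ : ℍ => (hD d (γ • τ))⁻¹) ∈ intCusp A N := by
  obtain ⟨-, F', -, hF', -, -⟩ := exists_hD_factorization (mem_of_pow_eq_one hζ) hNinv hd γ
  have e : (F' : ℍ → ℂ) = fun τ : ℍ => (hD d (γ • τ))⁻¹ := funext hF'
  rw [← e]
  exact F'.2

/-- The conjugate `h_d ∘ γ` has order `etaOrd N d γ` with unit lowest coefficient. -/
theorem hD_order (hζ : zetaN N ∈ A) (hNinv : ((N : ℂ))⁻¹ ∈ A) {d : ℕ} (hd : d ∣ N)
    (γ : SL(2, ℤ)) :
    IsUnit ((laurentInt A N ⟨_, hD_smul_mem hζ hNinv hd γ⟩).coeff (etaOrd N d γ)) ∧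
      ∀ n < etaOrd N d γ, (laurentInt A N ⟨_, hD_smul_mem hζ hNinv hd γ⟩).coeff n = 0 := by
  obtain ⟨F, -, hF, -, hL, -⟩ := exists_hD_factorization (mem_of_pow_eq_one hζ) hNinv hd γ
  have e : (⟨fun τ : ℍ => hD d (γ • τ), hD_smul_mem hζ hNinv hd γ⟩ : intCusp A N) = F :=
    Subtype.ext (funext fun τ => (hF τ).symm)
  rw [e, etaOrd_eq_ordH hd]
  exact hL

/-- The inverse conjugate `1/(h_d ∘ γ)` has order `-etaOrd N d γ` with unit lowest
coefficient. -/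
theorem hD_inv_order (hζ : zetaN N ∈ A) (hNinv : ((N : ℂ))⁻¹ ∈ A) {d : ℕ} (hd : d ∣ N)
    (γ : SL(2, ℤ)) :
    IsUnit ((laurentInt A N ⟨_, hD_inv_smul_mem hζ hNinv hd γ⟩).coeff (-etaOrd N d γ)) ∧
      ∀ n < -etaOrd N d γ, (laurentInt A N ⟨_, hD_inv_smul_mem hζ hNinv hd γ⟩).coeff n = 0 := by
  obtain ⟨-, F', -, hF', -, hL⟩ := exists_hD_factorization (mem_of_pow_eq_one hζ) hNinv hd γ
  have e : (⟨fun τ : ℍ => (hD d (γ • τ))⁻¹, hD_inv_smul_mem hζ hNinv hd γ⟩ : intCusp A N) = F' :=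
    Subtype.ext (funext fun τ => (hF' τ).symm)
  rw [e, etaOrd_eq_ordH hd]
  exact hL

lemma hD_ne_zero_of_dvd {d : ℕ} (hd : d ∣ N) (τ : ℍ) : hD d τ ≠ 0 := by
  have hd0 : d ≠ 0 := by rintro rfl; exact NeZero.ne N (Nat.eq_zero_of_zero_dvd hd)
  have : NeZero d := ⟨hd0⟩
  exact hD_ne_zero d τ

/-- `h_d` is `Γ₀(N)`-invariant for `d ∣ N`. -/
theorem hD_smul_of_mem_Gamma0 {d : ℕ} (hd : d ∣ N) {γ : SL(2, ℤ)} (hγ : γ ∈ Gamma0 N) (τ : ℍ) :
    hD d (γ • τ) = hD d τ := by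
  have hd0 : d ≠ 0 := by rintro rfl; exact NeZero.ne N (Nat.eq_zero_of_zero_dvd hd)
  have : NeZero d := ⟨hd0⟩
  obtain ⟨a, b, d', had, hbd, hgcd, hform⟩ := hD_smul d γ
  have hNdvd : (N : ℤ) ∣ γ 1 0 := by
    rw [CongruenceSubgroup.Gamma0_mem, ZMod.intCast_zmod_eq_zero_iff_dvd] at hγ
    exact hγ
  have hddvd : (d : ℤ) ∣ γ 1 0 := (Int.natCast_dvd_natCast.mpr hd).trans hNdvd
  have ha : a = d := by
    rw [hgcd, Int.gcd, Int.natAbs_natCast]
    exact Nat.gcd_eq_left (Int.natCast_dvd.mp hddvd)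
  have hd' : d' = 1 := by
    rw [ha] at had
    exact Nat.eq_of_mul_eq_mul_left (Nat.pos_of_ne_zero hd0) (by rw [had, mul_one])
  have hb : b = 0 := by omega
  rw [hform τ, ha, hd', hb, hD, deltaN]
  simp

end Exports

end Fermat.Agent.S28.UnitCusp
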