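import Mathlib
import Fermat.Agent.S28.AbstractIrred
import Fermat.Agent.S28.UnitCombo
import Fermat.Agent.S28.ReductionDefs
import Fermat.Agent.S28.CruxDescent
import Fermat.Agent.S28.UnitCusp
import Fermat.Agent.Lib.CuspConjPoly
import Fermat.Agent.Lib.DeltaExpand

/-!
# S28 MAIN crux — the assembly (helper6)

`hasIndepLifts N ℓ : Reduction.HasIndepLifts N ℓ` for `ℓ ∤ N`: the `ψ(N)` powers
`1, j(q^N), …, j(q^N)^(ψ(N)-1)` stay linearly independent over `𝔽_ℓ(j)`.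

Proof: work in `k((u))`, `u = q^{1/N}`, `k` a residue field of `A = ℤ[ζ_N, 1/N]` at a prime over
`ℓ`.  The conjugates `J_x` of `j(Nτ)` and `H_{d,x}` of the units `Δ(dτ)/Δ(τ)` (`d ∣ N`) over the
cosets `x ∈ SL₂(ℤ)/Γ₀(N)` have `A`-integral expansions; their symmetric functions are polynomials
in `j` over `A` (`Lib/CuspConjPoly`), the `J_x` stay pairwise distinct mod `ℓ`, and the weighted
orders `∑_d d μ(N/d) ord(H_{d,x})` are negative at every `x ≠ 1` (`S28/UnitCombo`).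
`S28/AbstractIrred` then shows that `J_1 = j(u^{N²})` has degree `ψ(N)` over `k(j(u^N))`, and
`S28/CruxDescent` descends to `𝔽_ℓ((q))`.
-/

set_option autoImplicit false

namespace Fermat.Agent.S28.CruxMain

open UpperHalfPlane ModularCurve Polynomial
open scoped MatrixGroups
open CongruenceSubgroup
open Fermat.Agent.Lib.CuspInvariant Fermat.Agent.Lib.JStab Fermat.Agent.Lib.DeltaExpand
open Fermat.Agent.Lib.CuspIntJ Fermat.Agent.Lib.CuspConjPoly
open Fermat.Agent.S28.UnitCusp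

/-! ### Formal lemmas -/

/-- Coefficients of the image in `k((u))[X]` of a polynomial over `A[j]` lie in `k[j(u^N)]`. -/
theorem coeff_map_mem_adjoin {A k : Type*} [CommRing A] [Field k] (φ : A →+* k) (N : ℕ)
    [NeZero N] (Φ : Polynomial (Polynomial A)) (n : ℕ) :
    ((Φ.map (evJq A N)).map (coeffMap φ)).coeff n ∈
      Algebra.adjoin k {qExpand k N (jqModC k)} := by
  rw [Polynomial.coeff_map, Polynomial.coeff_map, evJq_apply, Polynomial.hom_eval₂,
    ModularCurve.coeffMap_jqNModC]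
  have hcomp : (coeffMap φ).comp (HahnSeries.C : A →+* LaurentSeries A) =
      (algebraMap k (LaurentSeries k)).comp φ := by
    ext1 a
    rw [CruxDescent.algebraMap_eq_C]
    simp only [RingHom.comp_apply, HahnSeries.C_apply]
    exact coeffMap_single φ 0 a
  rw [hcomp, ← Polynomial.eval₂_map, ← Polynomial.aeval_def,
    Algebra.adjoin_singleton_eq_range_aeval]
  exact ⟨_, rfl⟩

/-! ## The assembly -/

section Assembly

variable (N : ℕ) [NeZero N] (A : Subring ℂ) (hζ : zetaN N ∈ A) (hNinv : (N : ℂ)⁻¹ ∈ A)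
  {k : Type} [Field k] (φ : ↥A →+* k)

/-- `ζ_N` as a unit of `A`. -/
noncomputable def zU : (↥A)ˣ :=
  (IsUnit.of_pow_eq_one (M := ↥A) (a := ⟨zetaN N, hζ⟩) (n := N)
    (Subtype.ext (by simpa using zetaN_pow N)) (NeZero.ne N)).unit

lemma zU_coe : (((zU N A hζ : (↥A)ˣ) : ↥A) : ℂ) = Complex.exp (2 * Real.pi * Complex.I / N) := rfl

lemma hD_invariant {d : ℕ} (hd : d ∣ N) : ∀ γ ∈ Gamma0 N, ∀ τ : ℍ, hD d (γ • τ) = hD d τ :=
  fun _ hγ τ => hD_smul_of_mem_Gamma0 hd hγ τ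

/-- The conjugates of `j(Nτ)`. -/
noncomputable def FJ (x : SL(2, ℤ) ⧸ Gamma0 N) : intCusp A N :=
  ⟨conj N (jN N) x, conj_jN_mem_intCusp (zU N A hζ) (zU_coe N A hζ) x⟩

include hζ hNinv in
lemma conj_hD_mem {d : ℕ} (hd : d ∣ N) (x : SL(2, ℤ) ⧸ Gamma0 N) :
    conj N (hD d) x ∈ intCusp A N :=
  hD_smul_mem hζ hNinv hd (Quotient.out x)⁻¹

include hζ hNinv in
lemma conj_hD_inv_mem {d : ℕ} (hd : d ∣ N) (x : SL(2, ℤ) ⧸ Gamma0 N) :
    conj N (fun τ => (hD d τ)⁻¹) x ∈ intCusp A N :=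
  hD_inv_smul_mem hζ hNinv hd (Quotient.out x)⁻¹

/-- The conjugates of the unit `Δ(dτ)/Δ(τ)`. -/
noncomputable def FH {d : ℕ} (hd : d ∣ N) (x : SL(2, ℤ) ⧸ Gamma0 N) : intCusp A N :=
  ⟨conj N (hD d) x, conj_hD_mem N A hζ hNinv hd x⟩

/-- Their inverses. -/
noncomputable def FH' {d : ℕ} (hd : d ∣ N) (x : SL(2, ℤ) ⧸ Gamma0 N) : intCusp A N :=
  ⟨conj N (fun τ => (hD d τ)⁻¹) x, conj_hD_inv_mem N A hζ hNinv hd x⟩

lemma FH_mul_FH' {d : ℕ} (hd : d ∣ N) (x : SL(2, ℤ) ⧸ Gamma0 N) :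
    FH N A hζ hNinv hd x * FH' N A hζ hNinv hd x = 1 := by
  apply Subtype.ext
  funext τ
  exact mul_inv_cancel₀ (hD_ne_zero_of_dvd hd _)

/-- Reduction of an `A`-integral expansion along `φ : A →+* k`. -/
noncomputable def red : intCusp A N →+* LaurentSeries k := (coeffMap φ).comp (laurentInt A N)

lemma red_apply (f : intCusp A N) : red N A φ f = coeffMap φ (laurentInt A N f) := rfl

lemma prod_coeff_mem {h : ℍ → ℂ} (hinv : ∀ g ∈ Gamma0 N, ∀ τ, h (g • τ) = h τ)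
    (hmem : ∀ x, conj N h x ∈ intCusp A N) [Fintype (SL(2, ℤ) ⧸ Gamma0 N)] (n : ℕ) :
    (∏ x : SL(2, ℤ) ⧸ Gamma0 N, (X - C (red N A φ ⟨conj N h x, hmem x⟩))).coeff n ∈
      Algebra.adjoin k {qExpand k N (jqModC k)} := by
  obtain ⟨Φ, -, -, hΦ⟩ := exists_conj_poly_of_invariant (A := A) hinv hmem
  have hmain := coeff_map_mem_adjoin φ N Φ n
  rw [hΦ] at hmain
  have e : (∏ x : SL(2, ℤ) ⧸ Gamma0 N,
      (X - C (laurentInt A N ⟨conj N h x, hmem x⟩))).map (coeffMap φ) =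
      ∏ x : SL(2, ℤ) ⧸ Gamma0 N, (X - C (red N A φ ⟨conj N h x, hmem x⟩)) := by
    rw [Polynomial.map_prod]
    exact Finset.prod_congr rfl fun i _ => by
      rw [Polynomial.map_sub, Polynomial.map_X, Polynomial.map_C, red_apply]
  rwa [e] at hmain

lemma gPoly_coeff_mem {h : ℍ → ℂ} (hinv : ∀ g ∈ Gamma0 N, ∀ τ, h (g • τ) = h τ)
    (hmem : ∀ x, conj N h x ∈ intCusp A N) [Fintype (SL(2, ℤ) ⧸ Gamma0 N)]
    [DecidableEq (SL(2, ℤ) ⧸ Gamma0 N)] (n : ℕ) :
    (AbstractIrred.gPoly (fun x => red N A φ (FJ N A hζ x))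
      (fun x => red N A φ ⟨conj N h x, hmem x⟩)).coeff n ∈
      Algebra.adjoin k {qExpand k N (jqModC k)} := by
  obtain ⟨Ψ, -, hΨ⟩ := exists_lagrange_of_invariant (A := A) (zU N A hζ) (zU_coe N A hζ) hinv hmem
  have hmain := coeff_map_mem_adjoin φ N Ψ n
  rw [hΨ] at hmain
  have e : (∑ x : SL(2, ℤ) ⧸ Gamma0 N, C (laurentInt A N ⟨conj N h x, hmem x⟩) *
      ∏ x' ∈ Finset.univ.erase x, (X - C (laurentInt A N
        ⟨conj N (jN N) x', conj_jN_mem_intCusp (zU N A hζ) (zU_coe N A hζ) x'⟩))).map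
        (coeffMap φ) =
      AbstractIrred.gPoly (fun x => red N A φ (FJ N A hζ x))
        (fun x => red N A φ ⟨conj N h x, hmem x⟩) := by
    rw [AbstractIrred.gPoly, Polynomial.map_sum]
    refine Finset.sum_congr rfl fun i _ => ?_
    rw [Polynomial.map_mul, Polynomial.map_C, Polynomial.map_prod, red_apply]
    congr 1
    exact Finset.prod_congr rfl fun i' _ => by
      rw [Polynomial.map_sub, Polynomial.map_X, Polynomial.map_C, red_apply]
      rfl
  rwa [e] at hmain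

lemma order_red_FH {d : ℕ} (hd : d ∣ N) (x : SL(2, ℤ) ⧸ Gamma0 N) :
    (red N A φ (FH N A hζ hNinv hd x)).order = etaOrd N d (Quotient.out x)⁻¹ := by
  obtain ⟨hu, hlt⟩ := hD_order hζ hNinv hd (Quotient.out x)⁻¹
  exact (CruxDescent.order_coeffMap_of_isUnit φ _ _ hu hlt).1

end Assembly

/-- **k-level crux.** A polynomial of degree `< ψ(N)` over `k[j(u^N)]` vanishing at
`j(u^{N²})` is zero. -/
theorem eq_zero_of_eval_eq_zero (N : ℕ) [NeZero N] (A : Subring ℂ) (hζ : zetaN N ∈ A)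
    (hNinv : (N : ℂ)⁻¹ ∈ A) {k : Type} [Field k] (φ : ↥A →+* k)
    (hφ : IsPrimitiveRoot (φ ⟨zetaN N, hζ⟩) N)
    (T : Polynomial (LaurentSeries k))
    (hT : ∀ m, T.coeff m ∈ Algebra.adjoin k {qExpand k N (jqModC k)})
    (hdeg : T.natDegree < dedekindPsi N)
    (hroot : T.eval (qExpand k (N * N) (jqModC k)) = 0) : T = 0 := by
  classical
  let _inst : Fintype (SL(2, ℤ) ⧸ Gamma0 N) := Fintype.ofFinite _
  have hcard : Fintype.card (SL(2, ℤ) ⧸ Gamma0 N) = dedekindPsi N := by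
    rw [← Nat.card_eq_fintype_card, Fermat.Agent.Lib.Gamma0Count.card_quotient]
  have hN0 : N ≠ 0 := NeZero.ne N
  -- the Hermite data of the conjugates of `j(Nτ)`
  obtain ⟨b, hb, hbinj, hL⟩ := exists_hermite_data (A := A) (N := N) (zU N A hζ) (zU_coe N A hζ)
  set zk : kˣ := Units.map (φ : ↥A →* k) (zU N A hζ) with hzk
  have hzk_prim : IsPrimitiveRoot zk N := by
    have h1 : ((zk : kˣ) : k) = φ ⟨zetaN N, hζ⟩ := rfl
    exact IsPrimitiveRoot.coe_units_iff.mp (h1 ▸ hφ)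
  have hJc : ∀ x, red N A φ (FJ N A hζ x) = jTw k (zk ^ (cuspA N x * b x)) (cuspA N x * cuspA N x) := by
    intro x
    rw [red_apply, FJ, hL x, coeffMap_jTw, map_pow]
  let ι : Type := N.divisors
  let H : ι → SL(2, ℤ) ⧸ Gamma0 N → LaurentSeries k := fun i x =>
    red N A φ (FH N A hζ hNinv (Nat.dvd_of_mem_divisors i.2) x)
  let H' : ι → SL(2, ℤ) ⧸ Gamma0 N → LaurentSeries k := fun i x =>
    red N A φ (FH' N A hζ hNinv (Nat.dvd_of_mem_divisors i.2) x)
  let w : ι → ℤ := fun i => ((i : ℕ) : ℤ) * (ArithmeticFunction.moebius (N / (i : ℕ)) : ℤ)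
  have hinvInv : ∀ {d : ℕ}, d ∣ N → ∀ g ∈ Gamma0 N, ∀ τ : ℍ, (hD d (g • τ))⁻¹ = (hD d τ)⁻¹ :=
    fun hd g hg τ => by rw [hD_invariant N hd g hg τ]
  refine AbstractIrred.eq_zero_of_eval_eq_zero (qExpand k N (jqModC k))
    (CruxDescent.transcendental_qExpand_jqModC N k) (QuotientGroup.mk 1 : SL(2, ℤ) ⧸ Gamma0 N)
    (fun x => red N A φ (FJ N A hζ x)) ?_ ?_ H H' ?_ ?_ ?_ ?_ w ?_ T hT (hcard ▸ hdeg) ?_
  · -- injectivity
    intro x y hxy
    simp only [hJc] at hxy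
    have hax : cuspA N x ≠ 0 := cuspA_ne_zero N x
    have hay : cuspA N y ≠ 0 := cuspA_ne_zero N y
    obtain ⟨hE, hz⟩ := jTw_injective (mul_ne_zero hax hax) (mul_ne_zero hay hay) hxy
    have ha : cuspA N x = cuspA N y := Nat.mul_self_inj.mp hE
    have hlt : ∀ x, cuspA N x * b x < N := fun x => by
      calc cuspA N x * b x < cuspA N x * (N / cuspA N x) :=
            Nat.mul_lt_mul_of_pos_left (hb x) (Nat.pos_of_ne_zero (cuspA_ne_zero N x))
        _ ≤ N := Nat.mul_div_le N _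
    have hbb : cuspA N x * b x = cuspA N y * b y := hzk_prim.pow_inj (hlt x) (hlt y) hz
    rw [ha] at hbb
    exact hbinj (Prod.ext ha (Nat.eq_of_mul_eq_mul_left (Nat.pos_of_ne_zero hay) hbb))
  · exact fun n => prod_coeff_mem N A φ (jN_invariant N) _ n
  · intro i x
    show red N A φ _ * red N A φ _ = 1
    rw [← map_mul, FH_mul_FH', map_one]
  · exact fun i n => prod_coeff_mem N A φ (hD_invariant N (Nat.dvd_of_mem_divisors i.2)) _ n
  · exact fun i n => prod_coeff_mem N A φ (hinvInv (Nat.dvd_of_mem_divisors i.2)) _ n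
  · exact fun i n => gPoly_coeff_mem N A hζ φ (hD_invariant N (Nat.dvd_of_mem_divisors i.2)) _ n
  · -- the weighted order sum
    intro c hc
    have hz : cuspA N c ∣ N := cuspA_dvd N c
    have hzN : cuspA N c ≠ N := fun h => hc ((cuspA_eq_iff N c).mp h)
    have key := UnitCombo.weighted_order_neg N _ hN0 hz hzN
      (fun d => etaOrd N d (Quotient.out c)⁻¹) (by
      intro d hd
      have hdN : d ∣ N := Nat.dvd_of_mem_divisors hd
      show etaOrd N d (Quotient.out c)⁻¹ = _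
      have hg : Nat.gcd d (cuspA N c) = Nat.gcd d (((Quotient.out c)⁻¹ : SL(2, ℤ)) 1 0).natAbs := by
        show Nat.gcd d (Nat.gcd (N : ℤ).natAbs _) = _
        rw [Int.natAbs_natCast, ← Nat.gcd_assoc, Nat.gcd_eq_left hdN]
      rw [etaOrd, hg])
    have e : ∑ i : ι, w i * (H i c).order =
        ∑ d ∈ N.divisors, ((d : ℤ) * (ArithmeticFunction.moebius (N / d) : ℤ)) *
          etaOrd N d (Quotient.out c)⁻¹ := by
      rw [← Finset.sum_coe_sort N.divisors
        (fun d => ((d : ℤ) * (ArithmeticFunction.moebius (N / d) : ℤ)) *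
          etaOrd N d (Quotient.out c)⁻¹)]
      exact Finset.sum_congr rfl fun i _ => by
        show w i * (red N A φ (FH N A hζ hNinv _ c)).order = _
        rw [order_red_FH]
    rw [e]
    exact key
  · -- the root is the conjugate at the trivial coset
    show T.eval (red N A φ (FJ N A hζ (QuotientGroup.mk 1))) = 0
    have h1 : cuspA N (QuotientGroup.mk 1 : SL(2, ℤ) ⧸ Gamma0 N) = N := (cuspA_eq_iff N _).mpr rfl
    have h2 : b (QuotientGroup.mk 1) = 0 := by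
      have := hb (QuotientGroup.mk 1)
      rw [h1, Nat.div_self (Nat.pos_of_ne_zero hN0)] at this
      omega
    rw [hJc, h1, h2, Nat.mul_zero, pow_zero, jTw_one_eq]
    exact hroot

/-- **The crux.** For `ℓ ∤ N` there are `ψ(N)` elements of `ℤ[j(q^d) : d ∣ N]` whose reductions
mod `ℓ` are linearly independent over `𝔽_ℓ(j)`. -/
theorem hasIndepLifts (N : ℕ) [NeZero N] (ℓ : ℕ) [Fact ℓ.Prime] (hℓN : ¬ ℓ ∣ N) :
    Reduction.HasIndepLifts N ℓ := by
  have hprim : IsPrimitiveRoot (zetaN N) N := Complex.isPrimitiveRoot_exp N (NeZero.ne N)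
  obtain ⟨k, _, _, φ, hφ⟩ := CruxDescent.exists_residue_hom_closure N ℓ hℓN (zetaN N) hprim
  have hNinv : (N : ℂ)⁻¹ ∈ Subring.closure ({zetaN N, (N : ℂ)⁻¹} : Set ℂ) :=
    Subring.subset_closure (by simp)
  exact CruxDescent.hasIndepLifts_of_eq_zero N ℓ k fun T hT hdeg hroot =>
    eq_zero_of_eval_eq_zero N _ (Subring.subset_closure (Set.mem_insert _ _)) hNinv φ hφ T hT
      hdeg hroot

end Fermat.Agent.S28.CruxMain
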