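import Mathlib
import Fermat.Agent.S28.CruxMain

/-!
# S28 field core over an arbitrary field of characteristic `ℓ` (helper26)

`CruxMain.hasIndepLifts` gives `ψ(N)` elements of `ℤ[j(q^d) : d ∣ N]` whose reductions mod `ℓ`
are linearly independent over `𝔽_ℓ(j̄)` inside `𝔽_ℓ((q))`.  Here the same elements are shown to
stay independent over `k(j̄)` inside `k((q))` for every field `k` of characteristic `ℓ`
(generic base change along a field embedding, coefficientwise on Laurent series).
-/

set_option autoImplicit false

namespace Fermat.Agent.S28.IndepOverField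

open ModularCurve Polynomial

section Generic

variable {K E : Type*} [Field K] [Field E] [Algebra K E]

/-- Independence over `K(y)` from independence over `K[y]`. -/
theorem linearIndependent_adjoin_of_poly (y : E) {n : ℕ} (w : Fin n → E)
    (h : ∀ P : Fin n → K[X], ∑ i, aeval y (P i) * w i = 0 → ∀ i, aeval y (P i) = 0) :
    LinearIndependent (IntermediateField.adjoin K {y}) w := by
  classical
  rw [Fintype.linearIndependent_iff]
  intro g hg i₀
  have hfrac : ∀ i, ∃ r s : K[X], aeval y s ≠ 0 ∧
      ((g i : IntermediateField.adjoin K {y}) : E) * aeval y s = aeval y r := by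
    intro i
    obtain ⟨r, s, hrs⟩ := (IntermediateField.mem_adjoin_simple_iff K _).mp (g i).2
    by_cases hs : aeval y s = 0
    · refine ⟨0, 1, by simp, ?_⟩
      rw [hrs, hs, div_zero]
      simp
    · exact ⟨r, s, hs, by rw [hrs, div_mul_cancel₀ _ hs]⟩
  choose r s hs hrs using hfrac
  set Q : Fin n → K[X] := fun i => r i * ∏ j ∈ Finset.univ.erase i, s j with hQ
  have hsum : ∑ i, aeval y (Q i) * w i = 0 := by
    have h0 : ∑ i, ((g i : IntermediateField.adjoin K {y}) : E) * w i = 0 := hg
    have h1 : ∀ i, aeval y (Q i) * w i =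
        (∏ j, aeval y (s j)) * (((g i : IntermediateField.adjoin K {y}) : E) * w i) := by
      intro i
      rw [hQ]
      simp only [map_mul, map_prod]
      rw [← hrs i, ← Finset.mul_prod_erase Finset.univ (fun j => aeval y (s j))
        (Finset.mem_univ i)]
      ring
    rw [Finset.sum_congr rfl fun i _ => h1 i, ← Finset.mul_sum, h0, mul_zero]
  have hQ0 : aeval y (Q i₀) = 0 := h Q hsum i₀
  have hr0 : aeval y (r i₀) = 0 := by
    rw [hQ, map_mul, map_prod] at hQ0
    rcases mul_eq_zero.mp hQ0 with h' | h'
    · exact h'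
    · exact absurd h' (Finset.prod_ne_zero_iff.mpr fun j _ => hs j)
  have := hrs i₀
  rw [hr0] at this
  rcases mul_eq_zero.mp this with h' | h'
  · exact Subtype.ext h'
  · exact absurd h' (hs i₀)

/-- Independence over `K(y)` gives independence over `K[y]`. -/
theorem aeval_eq_zero_of_linearIndependent (y : E) {n : ℕ} (w : Fin n → E)
    (h : LinearIndependent (IntermediateField.adjoin K {y}) w) (P : Fin n → K[X])
    (hP : ∑ i, aeval y (P i) * w i = 0) (i : Fin n) : aeval y (P i) = 0 := by
  have hmem : ∀ i, aeval y (P i) ∈ IntermediateField.adjoin K {y} := fun i =>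
    IntermediateField.algebra_adjoin_le_adjoin K {y} (aeval_mem_adjoin_singleton K y)
  have := Fintype.linearIndependent_iff.mp h (fun i => ⟨aeval y (P i), hmem i⟩) hP i
  exact congrArg Subtype.val this

end Generic

section BaseChange

variable {k₀ k : Type*} [Field k₀] [Field k]

/-- Coefficientwise application of an additive map. -/
noncomputable def mapCoeff (lam : k →+ k₀) : LaurentSeries k →+ LaurentSeries k₀ where
  toFun y := y.map lam
  map_zero' := by
    ext g
    simp
  map_add' y z := by
    ext g
    simp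

@[simp] theorem mapCoeff_coeff (lam : k →+ k₀) (y : LaurentSeries k) (g : ℤ) :
    (mapCoeff lam y).coeff g = lam (y.coeff g) := rfl

theorem mapCoeff_C_mul_coeffMap (φ : k₀ →+* k) (lam : k →+ k₀)
    (hlam : ∀ (a : k₀) (c : k), lam (c * φ a) = lam c * a) (c : k) (z : LaurentSeries k₀) :
    mapCoeff lam (HahnSeries.C c * coeffMap φ z) = HahnSeries.C (lam c) * z := by
  ext g
  rw [mapCoeff_coeff, HahnSeries.C_mul_eq_smul, HahnSeries.C_mul_eq_smul, HahnSeries.coeff_smul,
    HahnSeries.coeff_smul, coeffMap_coeff, smul_eq_mul, smul_eq_mul, hlam]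

/-- Separation of points of `k` by `k₀`-linear functionals. -/
theorem exists_functional (φ : k₀ →+* k) {c : k} (hc : c ≠ 0) :
    ∃ lam : k →+ k₀, (∀ (a : k₀) (c' : k), lam (c' * φ a) = lam c' * a) ∧ lam c ≠ 0 := by
  let _ : Algebra k₀ k := φ.toAlgebra
  have hne : ¬ ∀ f : Module.Dual k₀ k, f c = 0 := fun hall =>
    hc ((Module.forall_dual_apply_eq_zero_iff k₀ c).mp hall)
  push Not at hne
  obtain ⟨f, hf⟩ := hne
  refine ⟨f.toAddMonoidHom, fun a c' => ?_, hf⟩
  show f (c' * φ a) = f c' * a
  have : c' * φ a = a • c' := by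
    rw [Algebra.smul_def, mul_comm]
    rfl
  rw [this, map_smul, smul_eq_mul, mul_comm]

/-- **Base change of independence.**  If `v` is linearly independent over `k₀(x)` in `k₀((q))`
and `x` is transcendental over `k₀`, then the coefficientwise images are linearly independent
over `k(x)` in `k((q))`, for every field embedding `φ : k₀ → k`. -/
theorem linearIndependent_coeffMap (φ : k₀ →+* k) (x : LaurentSeries k₀)
    (hx : Transcendental k₀ x) {n : ℕ} (v : Fin n → LaurentSeries k₀)
    (h : LinearIndependent (IntermediateField.adjoin k₀ {x}) v) :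
    LinearIndependent (IntermediateField.adjoin k {coeffMap φ x})
      (fun i => coeffMap φ (v i)) := by
  classical
  refine linearIndependent_adjoin_of_poly _ _ fun P hP i₀ => ?_
  suffices hz : ∀ i, P i = 0 by rw [hz i₀, map_zero]
  set d : ℕ := (Finset.univ.sup fun i => (P i).natDegree) + 1 with hd
  have hdeg : ∀ i, (P i).natDegree < d := fun i =>
    Nat.lt_succ_of_le (Finset.le_sup (f := fun i => (P i).natDegree) (Finset.mem_univ i))
  -- expand the relation
  have hexp : ∑ i, ∑ m ∈ Finset.range d,
      HahnSeries.C ((P i).coeff m) * coeffMap φ (x ^ m * v i) = 0 := by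
    rw [← hP]
    refine Finset.sum_congr rfl fun i _ => ?_
    rw [aeval_eq_sum_range' (hdeg i), Finset.sum_mul]
    refine Finset.sum_congr rfl fun m _ => ?_
    rw [map_mul, map_pow, Algebra.smul_def, CruxDescent.algebraMap_eq_C, mul_assoc]
  -- for every functional, the projected relation
  have key : ∀ lam : k →+ k₀, (∀ (a : k₀) (c' : k), lam (c' * φ a) = lam c' * a) →
      ∀ i, ∀ m < d, lam ((P i).coeff m) = 0 := by
    intro lam hlam
    obtain ⟨P', hP'⟩ : ∃ P' : Fin n → k₀[X], ∀ i,
        P' i = ∑ m ∈ Finset.range d, monomial m (lam ((P i).coeff m)) := ⟨_, fun _ => rfl⟩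
    have hrel : ∑ i, aeval x (P' i) * v i = 0 := by
      have h1 := congrArg (mapCoeff lam) hexp
      rw [map_zero, map_sum] at h1
      rw [← h1]
      refine Finset.sum_congr rfl fun i _ => ?_
      rw [map_sum, hP', map_sum, Finset.sum_mul]
      refine Finset.sum_congr rfl fun m _ => ?_
      rw [mapCoeff_C_mul_coeffMap φ lam hlam, aeval_monomial, CruxDescent.algebraMap_eq_C,
        mul_assoc]
    have h0 : ∀ i, P' i = 0 := fun i =>
      (transcendental_iff.mp hx) _ (aeval_eq_zero_of_linearIndependent x v h P' hrel i)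
    intro i m hm
    have hc := congrArg (fun p => p.coeff m) (h0 i)
    simp only [hP', finsetSum_coeff, coeff_monomial, coeff_zero] at hc
    rw [Finset.sum_ite_eq' (Finset.range d) m, if_pos (Finset.mem_range.mpr hm)] at hc
    exact hc
  intro i
  ext m
  rw [coeff_zero]
  by_cases hm : m < d
  · by_contra hne
    obtain ⟨lam, hlam, hlam'⟩ := exists_functional φ hne
    exact hlam' (key lam hlam i m hm)
  · exact coeff_eq_zero_of_natDegree_lt (lt_of_lt_of_le (hdeg i) (not_lt.mp hm))

end BaseChange

section Igusa

/-- Reductions of elements of `ℤ[j(q^d) : d ∣ N]` lie in the function field over any field. -/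
theorem coeffMap_mem_fullC (N : ℕ) [NeZero N] (K : Type*) [Field K] {X : LaurentSeries ℤ}
    (hX : X ∈ Reduction.jRing N) :
    coeffMap (Int.castRingHom K) X ∈ modularFunctionFieldFullC K N := by
  induction hX using Subring.closure_induction with
  | mem y hy =>
    obtain ⟨d, hd, hdN, rfl⟩ := hy
    have := hd
    rw [coeffMap_qExpand, ModularCurve.coeffMap_jqModC]
    exact jqModCd_mem_full K N hdN
  | zero => rw [map_zero]; exact zero_mem _
  | one => rw [map_one]; exact one_mem _
  | add a b _ _ ha hb => rw [map_add]; exact add_mem ha hb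
  | neg a _ ha => rw [map_neg]; exact neg_mem ha
  | mul a b _ _ ha hb => rw [map_mul]; exact mul_mem ha hb

/-- **S28 field core over `k`.**  For `ℓ ∤ N` and every field `k` of characteristic `ℓ` there are
`ψ(N)` elements of `ℤ[j(q^d) : d ∣ N]` whose reductions are linearly independent over `k(j̄)`
inside `k((q))`. -/
theorem hasIndepLifts_over (N : ℕ) [NeZero N] (ℓ : ℕ) [Fact ℓ.Prime] (hℓN : ¬ ℓ ∣ N)
    (k : Type*) [Field k] [CharP k ℓ] :
    ∃ X : Fin (dedekindPsi N) → LaurentSeries ℤ, (∀ i, X i ∈ Reduction.jRing N) ∧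
      LinearIndependent (IntermediateField.adjoin k {jqModC k})
        (fun i => coeffMap (Int.castRingHom k) (X i)) := by
  obtain ⟨X, hX, hli⟩ := CruxMain.hasIndepLifts N ℓ hℓN
  refine ⟨X, hX, ?_⟩
  have h := linearIndependent_coeffMap (ZMod.castHom (dvd_refl ℓ) k) (jqModC (ZMod ℓ))
    (CruxDescent.transcendental_jqModC (ZMod ℓ)) _ hli
  rw [ModularCurve.coeffMap_jqModC] at h
  have hcomp : ∀ i, coeffMap (ZMod.castHom (dvd_refl ℓ) k)
      (coeffMap (Int.castRingHom (ZMod ℓ)) (X i)) = coeffMap (Int.castRingHom k) (X i) := by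
    intro i
    rw [coeffMap_coeffMap]
    exact coeffMap_congr (RingHom.ext_int _ _) _
  simpa only [hcomp] using h

end Igusa

end Fermat.Agent.S28.IndepOverField
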