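/-
S28, package `Char0Degree` (owner: helper97): the characteristic-zero degree bound
`[ℚ(j(q^d) : d ∣ N) : ℚ(j)] ≤ ψ(N)`.

Every element `f` of `ℚ[j(q^d) : d ∣ N]` is the `q`-expansion of a holomorphic `Γ₀(N)`-invariant
function `h` on the upper half plane with finite order poles at the cusps (`Realises`).  By
`Lib/ModCharPoly`, `h` is a root of `∏_{x ∈ SL₂(ℤ)/Γ₀(N)} (Y - h ∘ x⁻¹) ∈ ℂ[j][Y]`, monic of degree
`ψ(N)`; the relation is transported to `ℂ((q))` by the expansion ring hom of `Lib/CuspLaurent`,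
descended to `ℚ` by linear disjointness (`Lib/FFDegreeLD`), and the degree bound follows
(`Lib/FFDegreeLe`).
-/
import Mathlib
import Fermat.Prelude.Def_ModularCurve_X0
import Fermat.Prelude.Def_ModularCurve_LaurentCoeff
import Fermat.Agent.Lib.ModCharPoly
import Fermat.Agent.Lib.FFDegreeLe
import Fermat.Agent.Lib.Gamma0Count
import Fermat.Agent.S24.ModRing

set_option autoImplicit false

noncomputable section

namespace Fermat.Agent.S28

open UpperHalfPlane ModularCurve CongruenceSubgroup IntermediateField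
open Fermat.Agent.Lib.JStab Fermat.Agent.Lib.CuspLaurent Fermat.Agent.Lib.ModCharPoly
open scoped MatrixGroups Manifold

namespace Char0Degree

open Fermat.Agent.S24 Fermat.Agent.S24.Basic

/-- `f ∈ ℚ((q))` is the `q`-expansion at `i∞` of a modular function for `Γ₀(N)`. -/
def Realises (N : ℕ) (f : LaurentSeries ℚ) : Prop :=
  ∃ h : ℍ → ℂ, IsModFun N h ∧ ∃ hm : h ∈ merCusp 1,
    laurent 1 ⟨h, hm⟩ = coeffMap (algebraMap ℚ ℂ) f

lemma realises_algebraMap (N : ℕ) (r : ℚ) : Realises N (algebraMap ℚ (LaurentSeries ℚ) r) := by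
  refine ⟨fun _ => (r : ℂ), IsModFun.const N _, const_mem_merCusp 1 _, ?_⟩
  rw [laurent_const, algebraMap_laurentSeries_eq_single, coeffMap_single, HahnSeries.C_apply]
  rfl

lemma realises_add {N : ℕ} {f g : LaurentSeries ℚ} (hf : Realises N f) (hg : Realises N g) :
    Realises N (f + g) := by
  obtain ⟨h, hh, hm, e⟩ := hf
  obtain ⟨h', hh', hm', e'⟩ := hg
  refine ⟨h + h', hh.add hh', add_mem hm hm', ?_⟩
  rw [map_add, ← e, ← e']
  exact map_add (laurent 1) ⟨h, hm⟩ ⟨h', hm'⟩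

lemma realises_mul {N : ℕ} {f g : LaurentSeries ℚ} (hf : Realises N f) (hg : Realises N g) :
    Realises N (f * g) := by
  obtain ⟨h, hh, hm, e⟩ := hf
  obtain ⟨h', hh', hm', e'⟩ := hg
  refine ⟨h * h', hh.mul hh', mul_mem hm hm', ?_⟩
  rw [map_mul, ← e, ← e']
  exact map_mul (laurent 1) ⟨h, hm⟩ ⟨h', hm'⟩

lemma jN_eq_jM (d : ℕ) : jN d = jM d 0 1 := funext fun τ => jN_eq_affine d τ

lemma realises_jqd {N d : ℕ} [NeZero N] [NeZero d] (hd : d ∣ N) :
    Realises N (qExpand ℚ d jq) := by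
  have hd0 : d ≠ 0 := NeZero.ne d
  have hdZ : (d : ℤ) ≠ 0 := by exact_mod_cast hd0
  have hmem : jN d ∈ merCusp 1 := by
    rw [jN_eq_jM]
    exact ModRing.jM_mem_merCusp hd0 one_ne_zero (dvd_refl 1) 0
  refine ⟨jN d, isModFun_jN hd, hmem, ?_⟩
  ext n
  rw [coeffMap_coeff]
  have key : ∀ (g : ℍ → ℂ) (hg : g ∈ merCusp 1), g = jM d 0 1 →
      (laurent 1 ⟨g, hg⟩).coeff n =
        if (d : ℤ) ∣ n then ((jq.coeff (n / (d : ℤ)) : ℚ) : ℂ) else 0 := by
    intro g hg heq
    subst heq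
    have h := ModRing.laurent_jM_coeff (N := 1) hd0 one_ne_zero (dvd_refl 1) 0 n
    rw [h]
    simp
  rw [key _ hmem (jN_eq_jM d)]
  split_ifs with hdvd
  · obtain ⟨k, rfl⟩ := hdvd
    rw [qExpand_coeff_mul, Int.mul_ediv_cancel_left _ hdZ]
    rfl
  · rw [qExpand_coeff_of_not_dvd d jq hdvd, map_zero]

/-- Every element of `ℚ[j(q^d) : d ∣ N]` is the expansion of a modular function for `Γ₀(N)`. -/
theorem realises_of_mem_adjoin (N : ℕ) [NeZero N] {f : LaurentSeries ℚ}
    (hf : f ∈ Algebra.adjoin ℚ (divisorExpansions N)) : Realises N f := by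
  induction hf using Algebra.adjoin_induction with
  | mem x hx =>
    obtain ⟨d, hd0, hd, rfl⟩ := hx
    exact realises_jqd hd
  | algebraMap r => exact realises_algebraMap N r
  | add x y _ _ hx hy => exact realises_add hx hy
  | mul x y _ _ hx hy => exact realises_mul hx hy

/-- The constants, as a ring hom into the ring of functions meromorphic at the cusp. -/
def cst : ℂ →+* merCusp 1 where
  toFun c := ⟨fun _ : ℍ => c, const_mem_merCusp 1 c⟩
  map_one' := rfl
  map_mul' _ _ := rfl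
  map_zero' := rfl
  map_add' _ _ := rfl

/-- A pointwise polynomial relation `P(J, H) = 0` on `ℍ` gives the same relation between the
Laurent expansions at `i∞`. -/
theorem eval_laurent_eq_zero {J H : ℍ → ℂ} (hJ : J ∈ merCusp 1) (hH : H ∈ merCusp 1)
    (P : Polynomial (Polynomial ℂ))
    (hP : ∀ τ : ℍ, (P.map (Polynomial.evalRingHom (J τ))).eval (H τ) = 0) :
    (P.map (Polynomial.eval₂RingHom HahnSeries.C (laurent 1 ⟨J, hJ⟩))).eval
      (laurent 1 ⟨H, hH⟩) = 0 := by
  set φ : Polynomial ℂ →+* merCusp 1 := Polynomial.eval₂RingHom cst ⟨J, hJ⟩ with hφ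
  have hz : (P.map φ).eval (⟨H, hH⟩ : merCusp 1) = 0 := by
    apply Subtype.ext
    funext τ
    let evτ : merCusp 1 →+* ℂ := (Pi.evalRingHom (fun _ : ℍ => ℂ) τ).comp (merCusp 1).subtype
    have hcomp : evτ.comp φ = Polynomial.evalRingHom (J τ) := by
      refine Polynomial.ringHom_ext (fun a => ?_) ?_
      · simp only [hφ, RingHom.coe_comp, Function.comp_apply, Polynomial.coe_eval₂RingHom,
          Polynomial.eval₂_C, Polynomial.coe_evalRingHom, Polynomial.eval_C]
        rfl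
      · simp only [hφ, RingHom.coe_comp, Function.comp_apply, Polynomial.coe_eval₂RingHom,
          Polynomial.eval₂_X, Polynomial.coe_evalRingHom, Polynomial.eval_X]
        rfl
    have h1 := Polynomial.hom_eval₂ P φ evτ (⟨H, hH⟩ : merCusp 1)
    rw [hcomp] at h1
    have h2 := hP τ
    rw [Polynomial.eval_map] at h2 ⊢
    exact h1.trans h2
  have hcomp : (laurent 1).comp φ = Polynomial.eval₂RingHom HahnSeries.C (laurent 1 ⟨J, hJ⟩) := by
    refine Polynomial.ringHom_ext (fun a => ?_) ?_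
    · simp only [hφ, RingHom.coe_comp, Function.comp_apply, Polynomial.coe_eval₂RingHom,
        Polynomial.eval₂_C]
      exact laurent_const 1 a
    · simp only [hφ, RingHom.coe_comp, Function.comp_apply, Polynomial.coe_eval₂RingHom,
        Polynomial.eval₂_X]
  have h3 := Polynomial.hom_eval₂ P φ (laurent 1) (⟨H, hH⟩ : merCusp 1)
  rw [hcomp] at h3
  rw [Polynomial.eval_map] at hz ⊢
  rw [← h3, hz, map_zero]

lemma laurent_jInv :
    laurent 1 ⟨jInv, ModRing.jInv_mem_merCusp⟩ = coeffMap (algebraMap ℚ ℂ) jq := by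
  ext n
  rw [ModRing.laurent_jInv_coeff, coeffMap_coeff]
  rfl

/-- The expansion of a modular function for `Γ₀(N)` is a root of a polynomial over `ℂ[j]`, monic
of degree `[SL₂(ℤ) : Γ₀(N)]`, as an identity in `ℂ((q))`. -/
theorem exists_complex_monic (N : ℕ) [NeZero N] {f : LaurentSeries ℚ} (hf : Realises N f) :
    ∃ P : Polynomial (Polynomial ℂ), P.Monic ∧
      P.natDegree = Nat.card (SL(2, ℤ) ⧸ Gamma0 N) ∧
      (P.map (Polynomial.eval₂RingHom HahnSeries.C (coeffMap (algebraMap ℚ ℂ) jq))).eval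
        (coeffMap (algebraMap ℚ ℂ) f) = 0 := by
  obtain ⟨h, hh, hm, e⟩ := hf
  let _ : Fintype (SL(2, ℤ) ⧸ Gamma0 N) := Fintype.ofFinite _
  obtain ⟨P, hPm, hPd, hP⟩ := exists_monic_relation hh
  refine ⟨P, hPm, by rw [hPd, Nat.card_eq_fintype_card], ?_⟩
  have h0 := eval_laurent_eq_zero ModRing.jInv_mem_merCusp hm P hP
  rwa [e, laurent_jInv] at h0

lemma jq_mem_adjoin (N : ℕ) [NeZero N] : jq ∈ Algebra.adjoin ℚ (divisorExpansions N) :=
  Algebra.subset_adjoin ⟨1, inferInstance, one_dvd N, (qExpand_one_apply jq).symm⟩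

lemma jq_mem (N : ℕ) [NeZero N] : jq ∈ modularFunctionFieldFull N :=
  IntermediateField.algebra_adjoin_le_adjoin ℚ _ (jq_mem_adjoin N)

lemma dedekindPsi_ne_zero (N : ℕ) [NeZero N] : dedekindPsi N ≠ 0 := by
  rw [← Fermat.Agent.Lib.Gamma0Count.card_quotient N]
  exact Nat.card_pos.ne'

end Char0Degree

open Char0Degree

/-- Every `f ∈ ℚ[j(q^d) : d ∣ N]` is a root of a polynomial over `ℚ[j]`, monic of degree `ψ(N)`
(in particular `f` is integral over `ℚ[j]`). -/
theorem exists_monic_of_mem_adjoin (N : ℕ) [NeZero N] {f : LaurentSeries ℚ}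
    (hf : f ∈ Algebra.adjoin ℚ (divisorExpansions N)) :
    ∃ Q : Polynomial (Polynomial ℚ), Q.Monic ∧ Q.natDegree = dedekindPsi N ∧
      (Q.map (Polynomial.eval₂RingHom HahnSeries.C jq)).eval f = 0 := by
  obtain ⟨P, hPm, hPd, hP0⟩ := exists_complex_monic N (realises_of_mem_adjoin N hf)
  obtain ⟨Q, hQm, hQd, hQ0⟩ :=
    Fermat.Agent.Lib.FFDegreeLD.exists_monic_rational (algebraMap ℚ ℂ) jq f P hPm hP0
  exact ⟨Q, hQm, by rw [hQd, hPd, Fermat.Agent.Lib.Gamma0Count.card_quotient N], hQ0⟩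

/-- The complex monic relations, with the degree written as `ψ(N)`. -/
theorem exists_complex_monic_of_mem_adjoin (N : ℕ) [NeZero N] {f : LaurentSeries ℚ}
    (hf : f ∈ Algebra.adjoin ℚ (divisorExpansions N)) :
    ∃ P : Polynomial (Polynomial ℂ), P.Monic ∧ P.natDegree = dedekindPsi N ∧
      (P.map (Polynomial.eval₂RingHom HahnSeries.C (coeffMap (algebraMap ℚ ℂ) jq))).eval
        (coeffMap (algebraMap ℚ ℂ) f) = 0 := by
  obtain ⟨P, hPm, hPd, hP0⟩ := exists_complex_monic N (realises_of_mem_adjoin N hf)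
  exact ⟨P, hPm, by rw [hPd, Fermat.Agent.Lib.Gamma0Count.card_quotient N], hP0⟩

/-- `[ℚ(j(q^d) : d ∣ N) : ℚ(j)] ≤ ψ(N)` and the extension is finite, in `finrank` form
(`FinrankLe F x n` unfolds to `FiniteDimensional ℚ⟮x⟯ F ∧ Module.finrank ℚ⟮x⟯ F ≤ n`). -/
theorem finrankLe (N : ℕ) [NeZero N] :
    Fermat.Agent.Lib.FFDegreeLe.FinrankLe (modularFunctionFieldFull N)
      ⟨jq, jq_mem N⟩ (dedekindPsi N) :=
  Fermat.Agent.Lib.FFDegreeLe.finrankLe_adjoin_of_complex_monic (algebraMap ℚ ℂ)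
    (divisorExpansions N) jq (jq_mem_adjoin N) (dedekindPsi N) (dedekindPsi_ne_zero N)
    (fun _ hf => exists_complex_monic_of_mem_adjoin N hf)

/-- `[ℚ(j(q^d) : d ∣ N) : ℚ(j)] ≤ ψ(N)`: a family of elements of the function field of `X₀(N)`
over `ℚ` which is linearly independent over `ℚ(j)` has at most `ψ(N)` members. -/
theorem degreeLe (N : ℕ) [NeZero N] (n : ℕ) (x : Fin n → LaurentSeries ℚ)
    (hx : ∀ i, x i ∈ modularFunctionFieldFull N)
    (hli : LinearIndependent (IntermediateField.adjoin ℚ {jq}) x) : n ≤ dedekindPsi N :=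
  Fermat.Agent.Lib.FFDegreeLe.card_le_of_complex_monic (algebraMap ℚ ℂ)
    (divisorExpansions N) jq (jq_mem_adjoin N) (dedekindPsi N) (dedekindPsi_ne_zero N)
    (fun _ hf => exists_complex_monic_of_mem_adjoin N hf) x hx hli

/-- `[ℚ(j(q^d) : d ∣ N) : ℚ(j)] ≤ ψ(N)`: any `ψ(N) + 1` elements of the function field of
`X₀(N)` over `ℚ` are linearly dependent over `ℚ(j)`. -/
theorem char0_degree (N : ℕ) [NeZero N] (w : Fin (dedekindPsi N + 1) → LaurentSeries ℚ)
    (hw : ∀ i, w i ∈ modularFunctionFieldFull N) :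
    ¬ LinearIndependent ↥(IntermediateField.adjoin ℚ {jq}) w := fun hli => by
  have := degreeLe N _ w hw hli
  omega

end Fermat.Agent.S28
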