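/-
S28 [Subst] (helper14): substitution calculus for `expand` (`q ↦ q^m`), `scale` (`t ↦ ζ t`)
and `yS R ξ m = j(ξ t^m)`.  Statements verbatim from the S28 plan (helper26).
`import Fermat.Agent.S28.Subst`, namespace `Fermat.Agent.S28`.
-/
import Mathlib
import Fermat.Prelude.Def_ModularCurve_IgusaScheme
import Fermat.Prelude.Def_ModularCurve_X0ModL
import Fermat.Agent.S28.Defs

set_option autoImplicit false

noncomputable section

namespace Fermat.Agent.S28

open ModularCurve

section SubstLemmas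

variable {R : Type*} [CommRing R]

/-! ### `expand` -/

theorem expand_eq_qExpand (m : ℕ) [NeZero m] : expand R m = qExpand R m := by
  unfold expand
  rw [dif_neg (NeZero.ne m)]

theorem expand_zero_apply (f : LaurentSeries R) : expand R 0 f = f := by
  unfold expand
  rw [dif_pos rfl]
  rfl

theorem expand_one (f : LaurentSeries R) : expand R 1 f = f := by
  rw [expand_eq_qExpand]
  exact qExpand_one_apply f

theorem expand_expand {m n : ℕ} (hm : m ≠ 0) (hn : n ≠ 0) (f : LaurentSeries R) :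
    expand R m (expand R n f) = expand R (m * n) f := by
  have : NeZero m := ⟨hm⟩
  have : NeZero n := ⟨hn⟩
  have : NeZero (m * n) := ⟨Nat.mul_ne_zero hm hn⟩
  rw [expand_eq_qExpand m, expand_eq_qExpand n, expand_eq_qExpand (m * n)]
  exact qExpand_qExpand n m f

theorem expand_injective {m : ℕ} (hm : m ≠ 0) : Function.Injective (expand R m) := by
  have : NeZero m := ⟨hm⟩
  rw [expand_eq_qExpand m]
  exact qExpand_injective m

theorem expand_coeff_mul {m : ℕ} (hm : m ≠ 0) (f : LaurentSeries R) (n : ℤ) :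
    (expand R m f).coeff ((m : ℤ) * n) = f.coeff n := by
  have : NeZero m := ⟨hm⟩
  rw [expand_eq_qExpand m]
  exact qExpand_coeff_mul m f n

theorem expand_coeff_of_not_dvd {m : ℕ} (hm : m ≠ 0) (f : LaurentSeries R) {n : ℤ}
    (hn : ¬ (m : ℤ) ∣ n) : (expand R m f).coeff n = 0 := by
  have : NeZero m := ⟨hm⟩
  rw [expand_eq_qExpand m]
  exact qExpand_coeff_of_not_dvd m f hn

theorem mem_range_expand_iff {m : ℕ} (hm : m ≠ 0) (f : LaurentSeries R) :
    f ∈ Set.range (expand R m) ↔ ∀ n : ℤ, ¬ (m : ℤ) ∣ n → f.coeff n = 0 := by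
  constructor
  · rintro ⟨g, rfl⟩ n hn
    exact expand_coeff_of_not_dvd hm g hn
  · intro h
    have hmpos : (0 : ℤ) < m := by exact_mod_cast Nat.pos_of_ne_zero hm
    have hmono : Monotone fun n : ℤ => n / (m : ℤ) := fun a b hab =>
      Int.ediv_le_ediv hmpos hab
    let g : LaurentSeries R :=
      { coeff := fun n => f.coeff ((m : ℤ) * n)
        isPWO_support' := by
          refine (f.isPWO_support.image_of_monotone hmono).mono ?_
          intro n hn
          refine ⟨(m : ℤ) * n, hn, ?_⟩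
          show (m : ℤ) * n / (m : ℤ) = n
          exact Int.mul_ediv_cancel_left n hmpos.ne' }
    refine ⟨g, ?_⟩
    ext n
    by_cases hn : (m : ℤ) ∣ n
    · obtain ⟨k, rfl⟩ := hn
      rw [expand_coeff_mul hm]
    · rw [expand_coeff_of_not_dvd hm g hn, h n hn]

/-! ### `scale` -/

theorem scale_coeff (ζ : Rˣ) (f : LaurentSeries R) (n : ℤ) :
    (scale ζ f).coeff n = ((ζ ^ n : Rˣ) : R) * f.coeff n := rfl

theorem scale_one (f : LaurentSeries R) : scale (1 : Rˣ) f = f := by
  ext n
  rw [scale_coeff, one_zpow, Units.val_one, one_mul]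

theorem scale_scale (ζ ξ : Rˣ) (f : LaurentSeries R) :
    scale ζ (scale ξ f) = scale (ζ * ξ) f := by
  ext n
  rw [scale_coeff, scale_coeff, scale_coeff, mul_zpow, Units.val_mul, mul_assoc]

theorem scale_injective (ζ : Rˣ) : Function.Injective (scale ζ) := by
  intro f g h
  have h' := congrArg (scale ζ⁻¹) h
  rwa [scale_scale, scale_scale, inv_mul_cancel, scale_one, scale_one] at h'

theorem scale_expand (ζ : Rˣ) {m : ℕ} (hm : m ≠ 0) (f : LaurentSeries R) :
    scale ζ (expand R m f) = expand R m (scale (ζ ^ m) f) := by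
  ext n
  by_cases hn : (m : ℤ) ∣ n
  · obtain ⟨k, rfl⟩ := hn
    rw [scale_coeff, expand_coeff_mul hm, expand_coeff_mul hm, scale_coeff, zpow_mul,
      zpow_natCast]
  · rw [scale_coeff, expand_coeff_of_not_dvd hm _ hn, expand_coeff_of_not_dvd hm _ hn,
      mul_zero]

theorem scale_eq_self_of_mem_range_expand (ζ : Rˣ) {m : ℕ} (hm : m ≠ 0) (hζ : ζ ^ m = 1)
    {f : LaurentSeries R} (hf : f ∈ Set.range (expand R m)) : scale ζ f = f := by
  obtain ⟨g, rfl⟩ := hf
  rw [scale_expand ζ hm, hζ, scale_one]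

theorem coeffMap_scale {S : Type*} [CommRing S] (φ : R →+* S) (ζ : Rˣ) (f : LaurentSeries R) :
    coeffMap φ (scale ζ f) = scale (Units.map (φ : R →* S) ζ) (coeffMap φ f) := by
  ext n
  rw [coeffMap_coeff, scale_coeff, scale_coeff, coeffMap_coeff, map_mul, ← map_zpow]
  rfl

theorem coeffMap_expand {S : Type*} [CommRing S] (φ : R →+* S) (m : ℕ) (f : LaurentSeries R) :
    coeffMap φ (expand R m f) = expand S m (coeffMap φ f) := by
  rcases Nat.eq_zero_or_pos m with rfl | hm
  · rw [expand_zero_apply, expand_zero_apply]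
  · have : NeZero m := ⟨hm.ne'⟩
    rw [expand_eq_qExpand m, expand_eq_qExpand m]
    exact coeffMap_qExpand φ m f

theorem scale_C (ζ : Rˣ) (c : R) : scale ζ (HahnSeries.C c) = HahnSeries.C c := by
  ext n
  rw [scale_coeff]
  by_cases hn : n = 0
  · subst hn
    rw [zpow_zero, Units.val_one, one_mul]
  · rw [show (HahnSeries.C c : LaurentSeries R) = HahnSeries.single 0 c from rfl,
      HahnSeries.coeff_single_of_ne hn, mul_zero]

theorem expand_C (m : ℕ) (c : R) : expand R m (HahnSeries.C c) = HahnSeries.C c := by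
  rcases Nat.eq_zero_or_pos m with rfl | hm
  · rw [expand_zero_apply]
  · have : NeZero m := ⟨hm.ne'⟩
    rw [expand_eq_qExpand m]
    exact qExpand_C m c

/-- `scale ζ` as an algebra hom over a field (it fixes constants). -/
theorem scale_algebraMap {k : Type*} [Field k] (ζ : kˣ) (c : k) :
    scale ζ (algebraMap k (LaurentSeries k) c) = algebraMap k (LaurentSeries k) c := by
  rw [algebraMap_laurentSeries_eq_single]
  exact scale_C ζ c

theorem expand_algebraMap {k : Type*} [Field k] (m : ℕ) (c : k) :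
    expand k m (algebraMap k (LaurentSeries k) c) = algebraMap k (LaurentSeries k) c := by
  rw [algebraMap_laurentSeries_eq_single]
  exact expand_C m c

/-! ### `yS` -/

theorem yS_one_left (m : ℕ) : yS R 1 m = expand R m (jqModC R) := by
  unfold yS
  rw [scale_one]

theorem yS_eq_jqNModC (m : ℕ) [NeZero m] : yS R 1 m = jqNModC R m := by
  rw [yS_one_left, expand_eq_qExpand m]
  rfl

theorem scale_yS (ζ ξ : Rˣ) {m : ℕ} (hm : m ≠ 0) :
    scale ζ (yS R ξ m) = yS R (ξ * ζ ^ m) m := by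
  unfold yS
  rw [scale_expand ζ hm, scale_scale, mul_comm]

theorem expand_yS (ξ : Rˣ) {m n : ℕ} (hm : m ≠ 0) (hn : n ≠ 0) :
    expand R n (yS R ξ m) = yS R ξ (n * m) := by
  unfold yS
  rw [expand_expand hn hm]

theorem coeffMap_yS {S : Type*} [CommRing S] (φ : R →+* S) (ξ : Rˣ) (m : ℕ) :
    coeffMap φ (yS R ξ m) = yS S (Units.map (φ : R →* S) ξ) m := by
  unfold yS
  rw [coeffMap_expand, coeffMap_scale, coeffMap_jqModC]

/-- leading term of `j(ξ t^m)`: order `-m`, leading coefficient `ξ⁻¹`. -/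
theorem yS_coeff_neg {m : ℕ} (hm : m ≠ 0) (ξ : Rˣ) :
    (yS R ξ m).coeff (-(m : ℤ)) = ((ξ⁻¹ : Rˣ) : R) := by
  unfold yS
  rw [show (-(m : ℤ)) = (m : ℤ) * (-1) by ring, expand_coeff_mul hm, scale_coeff,
    coeff_jqModC_neg_one, mul_one, zpow_neg_one]

theorem yS_coeff_of_lt {m : ℕ} (hm : m ≠ 0) (ξ : Rˣ) {n : ℤ} (hn : n < -(m : ℤ)) :
    (yS R ξ m).coeff n = 0 := by
  unfold yS
  by_cases hd : (m : ℤ) ∣ n
  · obtain ⟨k, rfl⟩ := hd
    have hmpos : (0 : ℤ) < m := by exact_mod_cast Nat.pos_of_ne_zero hm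
    have hk : k < -1 := by
      by_contra hk
      have hk' : -1 ≤ k := not_lt.mp hk
      have : (m : ℤ) * (-1) ≤ (m : ℤ) * k := mul_le_mul_of_nonneg_left hk' hmpos.le
      linarith
    rw [expand_coeff_mul hm, scale_coeff, coeff_jqModC_of_lt R hk, mul_zero]
  · exact expand_coeff_of_not_dvd hm _ hd

set_option linter.unusedVariables false in
theorem yS_mem_range_expand {m : ℕ} (hm : m ≠ 0) (ξ : Rˣ) :
    yS R ξ m ∈ Set.range (expand R m) :=
  ⟨scale ξ (jqModC R), rfl⟩

theorem yS_coeff_neg_ne_zero [Nontrivial R] {m : ℕ} (hm : m ≠ 0) (ξ : Rˣ) :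
    (yS R ξ m).coeff (-(m : ℤ)) ≠ 0 := by
  rw [yS_coeff_neg hm]
  exact Units.ne_zero _

theorem yS_eq_iff [Nontrivial R] {m m' : ℕ} (hm : m ≠ 0) (hm' : m' ≠ 0) (ξ ξ' : Rˣ) :
    yS R ξ m = yS R ξ' m' ↔ ξ = ξ' ∧ m = m' := by
  constructor
  · intro h
    have h1 : m ≤ m' := by
      by_contra hlt
      have hlt' : (-(m : ℤ)) < -(m' : ℤ) := by
        have : m' < m := not_le.mp hlt
        omega
      have := yS_coeff_neg_ne_zero hm ξ
      rw [h, yS_coeff_of_lt hm' ξ' hlt'] at this
      exact this rfl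
    have h2 : m' ≤ m := by
      by_contra hlt
      have hlt' : (-(m' : ℤ)) < -(m : ℤ) := by
        have : m < m' := not_le.mp hlt
        omega
      have := yS_coeff_neg_ne_zero hm' ξ'
      rw [← h, yS_coeff_of_lt hm ξ hlt'] at this
      exact this rfl
    have hmm : m = m' := le_antisymm h1 h2
    subst hmm
    refine ⟨?_, rfl⟩
    have hc := congrArg (fun f : LaurentSeries R => f.coeff (-(m : ℤ))) h
    simp only [yS_coeff_neg hm] at hc
    exact inv_injective (Units.ext hc)
  · rintro ⟨rfl, rfl⟩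
    rfl

theorem yS_mem_range_expand_iff [Nontrivial R] {m n : ℕ} (hm : m ≠ 0) (hn : n ≠ 0) (ξ : Rˣ) :
    yS R ξ m ∈ Set.range (expand R n) ↔ n ∣ m := by
  constructor
  · intro h
    rw [mem_range_expand_iff hn] at h
    by_contra hnm
    refine yS_coeff_neg_ne_zero hm ξ (h _ ?_)
    intro hd
    exact hnm (Int.natCast_dvd_natCast.mp ((dvd_neg).mp hd))
  · rintro ⟨k, rfl⟩
    have hk : k ≠ 0 := by
      rintro rfl
      exact hm (Nat.mul_zero n)
    exact ⟨yS R ξ k, expand_yS ξ hk hn⟩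

end SubstLemmas

end Fermat.Agent.S28
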