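import Mathlib
import Fermat.Prelude.Def_ModularCurve_IgusaScheme
import Fermat.Prelude.Def_ModularCurve_X0ModL
import Fermat.Agent.S28.Defs
import Fermat.Agent.S28.AbstractIrred
import Fermat.Agent.S28.Subst

/-!
# S28 (backup line) — package [PrimeCommon], core layer (helper36)

If `j(q^p) ∈ k(j)` then `j(q^p) = A(j)` for a monic polynomial `A` of degree `p`, and the other
roots of `Φ_p(X, j)` are the roots of `A(X) - j(q^p)`.
-/

set_option autoImplicit false

noncomputable section

namespace Fermat.Agent.S28

open ModularCurve Polynomial IntermediateField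

namespace Prime

variable {k : Type*} [Field k]

/-- coefficients of a polynomial in `j` below its degree vanish. -/
theorem coeff_aeval_jq_of_lt (A : k[X]) {m : ℤ} (hm : m < -(A.natDegree : ℤ)) :
    (aeval (jqModC k) A).coeff m = 0 := by
  rw [aeval_eq_sum_range, HahnSeries.coeff_sum]
  refine Finset.sum_eq_zero fun i hi => ?_
  have hi' : i ≤ A.natDegree := Nat.lt_succ_iff.mp (Finset.mem_range.mp hi)
  rw [Algebra.smul_def, AbstractIrred.coeff_algebraMap_mul,
    coeff_jqModC_pow_of_lt k (b := i) (m := m) (by have : (i : ℤ) ≤ A.natDegree := by exact_mod_cast hi'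
                                                   omega), mul_zero]

/-- the leading coefficient of a polynomial in `j`. -/
theorem coeff_aeval_jq_natDegree (A : k[X]) :
    (aeval (jqModC k) A).coeff (-(A.natDegree : ℤ)) = A.leadingCoeff := by
  rw [aeval_eq_sum_range, HahnSeries.coeff_sum, Finset.sum_eq_single A.natDegree]
  · rw [Algebra.smul_def, AbstractIrred.coeff_algebraMap_mul, coeff_jqModC_pow_self, mul_one]
    rfl
  · intro i hi hne
    have hlt : i < A.natDegree :=
      lt_of_le_of_ne (Nat.lt_succ_iff.mp (Finset.mem_range.mp hi)) hne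
    rw [Algebra.smul_def, AbstractIrred.coeff_algebraMap_mul,
      coeff_jqModC_pow_of_lt k (b := i) (by have : (i : ℤ) < A.natDegree := by exact_mod_cast hlt
                                            omega), mul_zero]
  · intro h
    exact absurd (Finset.mem_range.mpr (Nat.lt_succ_self _)) h

theorem order_jqModC : (jqModC k).order = -1 := by
  have h0 : jqModC k ≠ 0 := jqModC_ne_zero_of_nontrivial k
  apply le_antisymm
  · exact HahnSeries.order_le_of_coeff_ne_zero (by rw [coeff_jqModC_neg_one]; exact one_ne_zero)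
  · by_contra hlt
    have hlt' : (jqModC k).order < -1 := not_le.mp hlt
    exact h0 (HahnSeries.coeff_order_eq_zero.mp (coeff_jqModC_of_lt k hlt'))

theorem transcendental_jqModC : Transcendental k (jqModC k) :=
  AbstractIrred.transcendental_of_order_neg _ (by rw [order_jqModC]; norm_num)

section Lift

variable {p : ℕ} {ζ : kˣ}

theorem scale_aeval (ξ : kˣ) (A : k[X]) (f : LaurentSeries k) :
    scale ξ (aeval f A) = aeval (scale ξ f) A := by
  rw [aeval_def, aeval_def, hom_eval₂]
  congr 1
  exact RingHom.ext fun c => scale_algebraMap ξ c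

theorem expand_aeval (m : ℕ) (A : k[X]) (f : LaurentSeries k) :
    expand k m (aeval f A) = aeval (expand k m f) A := by
  rw [aeval_def, aeval_def, hom_eval₂]
  congr 1
  exact RingHom.ext fun c => expand_algebraMap m c

/-- `Φ(X, j)` vanishes at `X = j(q^p)` (from the root `j(s^{p²})` of `Φ(X, j(s^p))`). -/
theorem modEq_eval_expand (M : ModEq k p ζ) (hp : p ≠ 0) :
    (M.Φ.map (aeval (jqModC k)).toRingHom).eval (expand k p (jqModC k)) = 0 := by
  have h := congrArg (fun P : (LaurentSeries k)[X] => P.eval (expand k (p ^ 2) (jqModC k)))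
    M.factor
  simp only [eval_mul, eval_sub, eval_X, eval_C, sub_self, zero_mul] at h
  apply expand_injective (R := k) hp
  rw [map_zero, eval_map, hom_eval₂, expand_expand hp hp, ← sq, ← h, eval_map]
  congr 1
  exact RingHom.ext fun P => expand_aeval p P (jqModC k)

theorem expand_jq_coeff_neg {p : ℕ} (hp : p ≠ 0) :
    (expand k p (jqModC k)).coeff (-(p : ℤ)) = 1 := by
  have h := expand_coeff_mul hp (jqModC k) (-1)
  rw [mul_neg_one, coeff_jqModC_neg_one] at h
  exact h

theorem expand_jq_coeff_of_lt {p : ℕ} (hp : p ≠ 0) {m : ℤ} (hm : m < -(p : ℤ)) :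
    (expand k p (jqModC k)).coeff m = 0 := by
  by_cases hd : (p : ℤ) ∣ m
  · obtain ⟨m', rfl⟩ := hd
    rw [expand_coeff_mul hp]
    refine coeff_jqModC_of_lt k ?_
    have hp' : (0 : ℤ) < p := by exact_mod_cast Nat.pos_of_ne_zero hp
    nlinarith
  · exact expand_coeff_of_not_dvd hp _ hd

theorem scale_pow_expand_jq (hζ : IsPrimitiveRoot ζ p) (hp : p ≠ 0) (b : ℕ) :
    scale (ζ ^ b) (expand k p (jqModC k)) = expand k p (jqModC k) :=
  scale_eq_self_of_mem_range_expand (ζ ^ b) hp
    (by rw [← pow_mul, mul_comm, pow_mul, hζ.pow_eq_one, one_pow]) ⟨_, rfl⟩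

theorem scale_pow_jq_injOn (hζ : IsPrimitiveRoot ζ p) :
    Set.InjOn (fun b : ℕ => scale (ζ ^ b) (jqModC k)) (Finset.range p : Set ℕ) := by
  intro b hb b' hb' h
  have h1 := congrArg (fun f : LaurentSeries k => f.coeff (-1)) h
  simp only [scale_coeff, coeff_jqModC_neg_one, mul_one] at h1
  have h2 : (ζ ^ b) ^ (-1 : ℤ) = (ζ ^ b') ^ (-1 : ℤ) := Units.ext h1
  have h3 : ζ ^ b = ζ ^ b' := by
    have := congrArg (fun u : kˣ => u⁻¹) h2
    simpa using this
  exact hζ.pow_inj (Finset.mem_range.mp hb) (Finset.mem_range.mp hb') h3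

/-- [PrimeCommon], with the modular equation as an explicit input. -/
theorem exists_lift_poly_of_modEq (M : ModEq k p ζ) (hp : p.Prime) (hζ : IsPrimitiveRoot ζ p)
    (hmem : expand k p (jqModC k) ∈ IntermediateField.adjoin k {jqModC k}) :
    ∃ A : k[X], A.Monic ∧ A.natDegree = p ∧
      Polynomial.aeval (jqModC k) A = expand k p (jqModC k) ∧
      (∀ b : ℕ, Polynomial.aeval (scale (ζ ^ b) (jqModC k)) A = expand k p (jqModC k)) ∧
      A.map (algebraMap k (LaurentSeries k)) - C (expand k p (jqModC k)) =
        ∏ b ∈ Finset.range p, (X - C (scale (ζ ^ b) (jqModC k))) := by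
  classical
  have hp0 : p ≠ 0 := hp.ne_zero
  set j := jqModC k with hj
  set E := expand k p j with hE
  -- integrality of `E` over `k[j]`
  have hint : IsIntegral (Algebra.adjoin k {j}) E := by
    refine AbstractIrred.isIntegral_of_root j (T := M.Φ.map (aeval j).toRingHom)
      (M.monic.map _) (fun n => ?_) (modEq_eval_expand M hp0)
    rw [coeff_map]
    exact aeval_mem_adjoin_singleton k j
  have hEmem : E ∈ Algebra.adjoin k {j} :=
    AbstractIrred.mem_adjoin_of_isIntegral j transcendental_jqModC hmem hint
  rw [Algebra.adjoin_singleton_eq_range_aeval] at hEmem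
  obtain ⟨A, hA⟩ := hEmem
  have hA' : aeval j A = E := hA
  -- degree and leading coefficient
  have hEp : E.coeff (-(p : ℤ)) = 1 := expand_jq_coeff_neg hp0
  have hdeg : A.natDegree = p := by
    rcases lt_trichotomy A.natDegree p with hlt | heq | hgt
    · exfalso
      have h0 : (aeval j A).coeff (-(p : ℤ)) = 0 :=
        coeff_aeval_jq_of_lt A (by have : (A.natDegree : ℤ) < p := by exact_mod_cast hlt
                                   omega)
      rw [hA', hEp] at h0
      exact one_ne_zero h0
    · exact heq
    · exfalso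
      have h1 : (aeval j A).coeff (-(A.natDegree : ℤ)) = A.leadingCoeff :=
        coeff_aeval_jq_natDegree A
      have h0 : E.coeff (-(A.natDegree : ℤ)) = 0 :=
        expand_jq_coeff_of_lt hp0 (by have : (p : ℤ) < A.natDegree := by exact_mod_cast hgt
                                      omega)
      rw [hA', h0] at h1
      have hA0 : A ≠ 0 := by
        rintro rfl
        simp at hgt
      exact leadingCoeff_ne_zero.mpr hA0 h1.symm
  have hmonic : A.Monic := by
    have h1 : (aeval j A).coeff (-(A.natDegree : ℤ)) = A.leadingCoeff :=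
      coeff_aeval_jq_natDegree A
    rw [hdeg, hA', hEp] at h1
    exact h1.symm
  have hb : ∀ b : ℕ, aeval (scale (ζ ^ b) j) A = E := by
    intro b
    rw [← scale_aeval, hA', hE]
    exact scale_pow_expand_jq hζ hp0 b
  refine ⟨A, hmonic, hdeg, hA', hb, ?_⟩
  -- the product formula
  set Q : (LaurentSeries k)[X] := A.map (algebraMap k (LaurentSeries k)) - C E with hQ
  have hAm : (A.map (algebraMap k (LaurentSeries k))).Monic := hmonic.map _
  have hAdeg : (A.map (algebraMap k (LaurentSeries k))).natDegree = p := by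
    rw [hmonic.natDegree_map, hdeg]
  have hQmonic : Q.Monic := by
    refine hAm.sub_of_left ?_
    rw [degree_eq_natDegree hAm.ne_zero, hAdeg]
    refine lt_of_le_of_lt degree_C_le ?_
    exact_mod_cast Nat.pos_of_ne_zero hp0
  have hQdeg : Q.natDegree = p := by
    rw [hQ, natDegree_sub_C, hAdeg]
  have hroot : ∀ b : ℕ, Q.eval (scale (ζ ^ b) j) = 0 := by
    intro b
    rw [hQ, eval_sub, eval_C, eval_map_algebraMap, hb b, sub_self]
  set s : Finset (LaurentSeries k) := (Finset.range p).image (fun b : ℕ => scale (ζ ^ b) j) with hs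
  have hcard : s.card = p := by
    rw [hs, Finset.card_image_of_injOn (scale_pow_jq_injOn hζ), Finset.card_range]
  have hsub : s.val ≤ Q.roots := by
    rw [Multiset.le_iff_subset s.nodup]
    intro x hx
    rw [Finset.mem_val, hs, Finset.mem_image] at hx
    obtain ⟨b, -, rfl⟩ := hx
    exact (mem_roots hQmonic.ne_zero).mpr (hroot b)
  have hroots : Q.roots = s.val := by
    refine (Multiset.eq_of_le_of_card_le hsub ?_).symm
    calc Multiset.card Q.roots ≤ Q.natDegree := card_roots' Q
      _ = p := hQdeg
      _ = Multiset.card s.val := hcard.symm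
  have hcardroots : Multiset.card Q.roots = Q.natDegree := by
    rw [hroots, hQdeg]
    exact hcard
  have hprod := prod_multiset_X_sub_C_of_monic_of_roots_card_eq hQmonic hcardroots
  rw [← hprod, hroots]
  rw [hs, Finset.image_val_of_injOn (scale_pow_jq_injOn hζ), Multiset.map_map]
  rfl

end Lift

end Prime

end Fermat.Agent.S28
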