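import Mathlib
import Fermat.Prelude.Def_GaloisRep_Flat
import Fermat.Prelude.Def_ModularCurve_LaurentCoeff

/-!
# S28 chart reduction — base objects (helper49)

`ℤ_(ℓ) ⊂ ℚ`, its residue map, `ℓ`-integral Laurent series, the valuation ring
`Ocal ⊂ ℚ((q))` of the Gauss valuation and its reduction map `red`.
-/

set_option autoImplicit false
set_option linter.unusedSectionVars false

namespace Fermat.Agent.S28.Reduction

open ModularCurve

variable (ℓ : ℕ) [Fact ℓ.Prime]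

/-- `ℤ_(ℓ)` as a type. -/
abbrev Zl : Type := ↥(GaloisRep.ratLocalizedAt ℓ)

lemma den_ne_zero_zmod (q : Zl ℓ) : ((q : ℚ).den : ZMod ℓ) ≠ 0 := by
  have hp : ℓ.Prime := Fact.out
  have h : (q : ℚ).den.Coprime ℓ := q.2
  rw [Ne, ZMod.natCast_eq_zero_iff]
  intro hd
  have h1 : ℓ ∣ 1 := h ▸ Nat.dvd_gcd hd dvd_rfl
  exact hp.one_lt.ne' (Nat.dvd_one.mp h1)

/-- Underlying function of the residue map. -/
noncomputable def resFun (q : Zl ℓ) : ZMod ℓ :=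
  ((q : ℚ).num : ZMod ℓ) * (((q : ℚ).den : ZMod ℓ))⁻¹

lemma mul_den_eq_num' (q : ℚ) : q * ((q.den : ℤ) : ℚ) = (q.num : ℚ) := by
  have := Rat.mul_den_eq_num q
  exact_mod_cast this

lemma resFun_eq (q : Zl ℓ) (a b : ℤ) (hb : (b : ZMod ℓ) ≠ 0) (h : (q : ℚ) * b = a) :
    resFun ℓ q = (a : ZMod ℓ) * (b : ZMod ℓ)⁻¹ := by
  have hd := den_ne_zero_zmod ℓ q
  have h1 : (q : ℚ).num * b = a * ((q : ℚ).den : ℤ) := by
    have h3 : ((q : ℚ).num : ℚ) * b = a * (((q : ℚ).den : ℤ) : ℚ) := by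
      rw [← h, ← mul_den_eq_num']; ring
    exact_mod_cast h3
  have h4 : ((q : ℚ).num : ZMod ℓ) * (b : ZMod ℓ) = (a : ZMod ℓ) * ((q : ℚ).den : ZMod ℓ) := by
    exact_mod_cast congrArg (Int.cast : ℤ → ZMod ℓ) h1
  unfold resFun
  rw [eq_mul_inv_iff_mul_eq₀ hb, mul_assoc, mul_comm _ (b : ZMod ℓ), ← mul_assoc, h4, mul_assoc,
    mul_inv_cancel₀ hd, mul_one]

/-- The residue map `ℤ_(ℓ) → 𝔽_ℓ`. -/
noncomputable def resZl : Zl ℓ →+* ZMod ℓ where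
  toFun := resFun ℓ
  map_one' := by
    rw [resFun_eq ℓ 1 1 1 (by simp) (by simp)]; simp
  map_mul' x y := by
    have hx := den_ne_zero_zmod ℓ x
    have hy := den_ne_zero_zmod ℓ y
    rw [resFun_eq ℓ (x * y) ((x : ℚ).num * (y : ℚ).num) (((x : ℚ).den : ℤ) * ((y : ℚ).den : ℤ))
      (by push_cast; exact mul_ne_zero hx hy) ?_]
    · unfold resFun; push_cast; field_simp
    · push_cast
      have h2 := mul_den_eq_num' (x : ℚ)
      have h3 := mul_den_eq_num' (y : ℚ)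
      push_cast at h2 h3
      rw [← h2, ← h3]; ring
  map_zero' := by
    rw [resFun_eq ℓ 0 0 1 (by simp) (by simp)]; simp
  map_add' x y := by
    have hx := den_ne_zero_zmod ℓ x
    have hy := den_ne_zero_zmod ℓ y
    rw [resFun_eq ℓ (x + y) ((x : ℚ).num * (y : ℚ).den + (y : ℚ).num * (x : ℚ).den)
      (((x : ℚ).den : ℤ) * ((y : ℚ).den : ℤ)) (by push_cast; exact mul_ne_zero hx hy) ?_]
    · unfold resFun; push_cast; field_simp
    · push_cast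
      have h2 := mul_den_eq_num' (x : ℚ)
      have h3 := mul_den_eq_num' (y : ℚ)
      push_cast at h2 h3
      rw [← h2, ← h3]; ring

lemma resZl_apply (q : Zl ℓ) : resZl ℓ q = resFun ℓ q := rfl

/-- A rational `a / b` with `ℓ ∤ b` lies in `ℤ_(ℓ)`. -/
lemma div_mem_Zl (a b : ℤ) (hb : (b : ZMod ℓ) ≠ 0) :
    (a : ℚ) / (b : ℚ) ∈ GaloisRep.ratLocalizedAt ℓ := by
  have hp : ℓ.Prime := Fact.out
  show ((a : ℚ) / (b : ℚ)).den.Coprime ℓ
  rw [Nat.coprime_comm, hp.coprime_iff_not_dvd]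
  intro hd
  have h1 : (((a : ℚ) / (b : ℚ)).den : ℤ) ∣ b := by
    have := Rat.den_dvd a b
    rwa [Rat.divInt_eq_div] at this
  have h2 : (ℓ : ℤ) ∣ b := (Int.natCast_dvd_natCast.mpr hd).trans h1
  exact hb ((ZMod.intCast_zmod_eq_zero_iff_dvd b ℓ).mpr h2)

lemma resZl_eq_zero (q : Zl ℓ) (h : resZl ℓ q = 0) : ∃ r : Zl ℓ, q = (ℓ : Zl ℓ) * r := by
  have hp : ℓ.Prime := Fact.out
  have hd := den_ne_zero_zmod ℓ q
  rw [resZl_apply, resFun, mul_eq_zero] at h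
  have hn : ((q : ℚ).num : ZMod ℓ) = 0 := by
    rcases h with h | h
    · exact h
    · exact absurd (inv_eq_zero.mp h) hd
  obtain ⟨c, hc⟩ := (ZMod.intCast_zmod_eq_zero_iff_dvd _ ℓ).mp hn
  refine ⟨⟨(c : ℚ) / (((q : ℚ).den : ℤ) : ℚ), div_mem_Zl ℓ c _ (by exact_mod_cast hd)⟩, ?_⟩
  apply Subtype.ext
  have h2 := mul_den_eq_num' (q : ℚ)
  have hden : (((q : ℚ).den : ℤ) : ℚ) ≠ 0 := by exact_mod_cast (q : ℚ).den_ne_zero
  have h3 : (q : ℚ) = (ℓ : ℚ) * ((c : ℚ) / (((q : ℚ).den : ℤ) : ℚ)) := by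
    rw [eq_comm, ← mul_div_assoc, div_eq_iff hden, h2, hc]; push_cast; ring
  rw [Subring.coe_mul]
  exact h3

lemma resZl_natCast_self : resZl ℓ (ℓ : Zl ℓ) = 0 := by
  rw [map_natCast]; exact ZMod.natCast_self ℓ

/-! ### Integral Laurent series -/

/-- `ℤ_(ℓ)((q)) → ℚ((q))`. -/
noncomputable def iota : LaurentSeries (Zl ℓ) →+* LaurentSeries ℚ :=
  coeffMap (GaloisRep.ratLocalizedAt ℓ).subtype

/-- Coefficientwise reduction `ℤ_(ℓ)((q)) → 𝔽_ℓ((q))`. -/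
noncomputable def rho : LaurentSeries (Zl ℓ) →+* LaurentSeries (ZMod ℓ) :=
  coeffMap (resZl ℓ)

@[simp] lemma iota_coeff (u : LaurentSeries (Zl ℓ)) (n : ℤ) :
    (iota ℓ u).coeff n = (u.coeff n : ℚ) := rfl

@[simp] lemma rho_coeff (u : LaurentSeries (Zl ℓ)) (n : ℤ) :
    (rho ℓ u).coeff n = resZl ℓ (u.coeff n) := rfl

lemma iota_injective : Function.Injective (iota ℓ) := by
  intro u v h
  ext n
  have := congrArg (fun f => f.coeff n) h
  simpa using this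

lemma iota_eq_zero_iff (u : LaurentSeries (Zl ℓ)) : iota ℓ u = 0 ↔ u = 0 := by
  rw [← map_zero (iota ℓ)]; exact (iota_injective ℓ).eq_iff

/-- A rational Laurent series with `ℓ`-integral coefficients comes from `ℤ_(ℓ)((q))`. -/
lemma exists_iota_eq (f : LaurentSeries ℚ) (hf : ∀ n, f.coeff n ∈ GaloisRep.ratLocalizedAt ℓ) :
    ∃ u : LaurentSeries (Zl ℓ), iota ℓ u = f := by
  refine ⟨⟨fun n => ⟨f.coeff n, hf n⟩, f.isPWO_support.mono ?_⟩, ?_⟩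
  · intro n hn
    simp only [Function.mem_support, ne_eq] at hn ⊢
    intro h0
    exact hn (Subtype.ext h0)
  · ext n; rfl

lemma natCast_coeff_mul (u : LaurentSeries (Zl ℓ)) (m : ℕ) (n : ℤ) :
    (((m : LaurentSeries (Zl ℓ)) * u).coeff n) = (m : Zl ℓ) * u.coeff n := by
  have : (m : LaurentSeries (Zl ℓ)) = HahnSeries.C (m : Zl ℓ) := by simp
  rw [this, HahnSeries.C_mul_eq_smul, HahnSeries.coeff_smul, smul_eq_mul]

lemma rho_eq_zero (u : LaurentSeries (Zl ℓ)) (h : rho ℓ u = 0) :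
    ∃ u' : LaurentSeries (Zl ℓ), u = (ℓ : LaurentSeries (Zl ℓ)) * u' := by
  have hp : ℓ.Prime := Fact.out
  have hl : (ℓ : ℚ) ≠ 0 := by exact_mod_cast hp.ne_zero
  have hc : ∀ n, ∃ r : Zl ℓ, u.coeff n = (ℓ : Zl ℓ) * r := fun n =>
    resZl_eq_zero ℓ _ (by have := congrArg (fun f => f.coeff n) h; simpa using this)
  obtain ⟨u', hu'⟩ := exists_iota_eq ℓ ((ℓ : ℚ)⁻¹ • iota ℓ u) (by
    intro n
    obtain ⟨r, hr⟩ := hc n
    have : ((ℓ : ℚ)⁻¹ • iota ℓ u).coeff n = (r : ℚ) := by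
      rw [HahnSeries.coeff_smul, iota_coeff, hr, Subring.coe_mul, smul_eq_mul]
      have : ((ℓ : Zl ℓ) : ℚ) = (ℓ : ℚ) := rfl
      rw [this, ← mul_assoc, inv_mul_cancel₀ hl, one_mul]
    rw [this]; exact r.2)
  refine ⟨u', ?_⟩
  apply iota_injective ℓ
  ext n
  rw [iota_coeff, iota_coeff, natCast_coeff_mul, Subring.coe_mul, ← iota_coeff ℓ u', hu',
    HahnSeries.coeff_smul, smul_eq_mul, iota_coeff]
  have : ((ℓ : Zl ℓ) : ℚ) = (ℓ : ℚ) := rfl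
  rw [this, ← mul_assoc, mul_inv_cancel₀ hl, one_mul]

lemma rho_natCast_mul (u : LaurentSeries (Zl ℓ)) : rho ℓ ((ℓ : LaurentSeries (Zl ℓ)) * u) = 0 := by
  ext n
  rw [rho_coeff, natCast_coeff_mul, map_mul, resZl_natCast_self, zero_mul, HahnSeries.coeff_zero]

lemma padicValRat_nonneg (r : Zl ℓ) : 0 ≤ padicValRat ℓ (r : ℚ) := by
  have hp : ℓ.Prime := Fact.out
  have h : (r : ℚ).den.Coprime ℓ := r.2
  unfold padicValRat
  have : padicValNat ℓ (r : ℚ).den = 0 := by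
    apply padicValNat.eq_zero_of_not_dvd
    intro hd
    have h1 : ℓ ∣ 1 := h ▸ Nat.dvd_gcd hd dvd_rfl
    exact hp.one_lt.ne' (Nat.dvd_one.mp h1)
  rw [this]; simp

/-- Every nonzero integral series is `ℓ^e` times one with nonzero reduction. -/
lemma exists_content (u : LaurentSeries (Zl ℓ)) (hu : u ≠ 0) :
    ∃ (e : ℕ) (u' : LaurentSeries (Zl ℓ)),
      u = (ℓ : LaurentSeries (Zl ℓ)) ^ e * u' ∧ rho ℓ u' ≠ 0 := by
  have hp : ℓ.Prime := Fact.out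
  obtain ⟨n₀, hn₀⟩ : ∃ n₀, u.coeff n₀ ≠ 0 := by
    by_contra hcon
    push Not at hcon
    exact hu (HahnSeries.ext (funext hcon))
  have key : ∀ (k : ℕ) (u : LaurentSeries (Zl ℓ)), u.coeff n₀ ≠ 0 →
      padicValRat ℓ (u.coeff n₀ : ℚ) ≤ k →
      ∃ (e : ℕ) (u' : LaurentSeries (Zl ℓ)),
        u = (ℓ : LaurentSeries (Zl ℓ)) ^ e * u' ∧ rho ℓ u' ≠ 0 := by
    intro k
    induction k with
    | zero =>
      intro u hne hle
      by_cases hr : rho ℓ u = 0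
      · exfalso
        obtain ⟨u', rfl⟩ := rho_eq_zero ℓ u hr
        rw [natCast_coeff_mul] at hne hle
        have hne' : u'.coeff n₀ ≠ 0 := fun h0 => hne (by rw [h0, mul_zero])
        have hq : ((u'.coeff n₀ : Zl ℓ) : ℚ) ≠ 0 := fun h0 => hne' (Subtype.ext h0)
        have hl : (ℓ : ℚ) ≠ 0 := by exact_mod_cast hp.ne_zero
        have h1 : padicValRat ℓ (((ℓ : Zl ℓ) * u'.coeff n₀ : Zl ℓ) : ℚ)
            = 1 + padicValRat ℓ (u'.coeff n₀ : ℚ) := by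
          rw [Subring.coe_mul]
          have : ((ℓ : Zl ℓ) : ℚ) = (ℓ : ℚ) := rfl
          rw [this, padicValRat.mul hl hq, padicValRat.self hp.one_lt]
        have h2 := padicValRat_nonneg ℓ (u'.coeff n₀)
        rw [h1] at hle
        push_cast at hle
        omega
      · exact ⟨0, u, by simp, hr⟩
    | succ k ih =>
      intro u hne hle
      by_cases hr : rho ℓ u = 0
      · obtain ⟨u', rfl⟩ := rho_eq_zero ℓ u hr
        rw [natCast_coeff_mul] at hne hle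
        have hne' : u'.coeff n₀ ≠ 0 := fun h0 => hne (by rw [h0, mul_zero])
        have hq : ((u'.coeff n₀ : Zl ℓ) : ℚ) ≠ 0 := fun h0 => hne' (Subtype.ext h0)
        have hl : (ℓ : ℚ) ≠ 0 := by exact_mod_cast hp.ne_zero
        have h1 : padicValRat ℓ (((ℓ : Zl ℓ) * u'.coeff n₀ : Zl ℓ) : ℚ)
            = 1 + padicValRat ℓ (u'.coeff n₀ : ℚ) := by
          rw [Subring.coe_mul]
          have : ((ℓ : Zl ℓ) : ℚ) = (ℓ : ℚ) := rfl
          rw [this, padicValRat.mul hl hq, padicValRat.self hp.one_lt]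
        rw [h1] at hle
        obtain ⟨e, u'', hu'', hr''⟩ := ih u' hne' (by push_cast at hle ⊢; omega)
        exact ⟨e + 1, u'', by rw [hu'', pow_succ]; ring, hr''⟩
      · exact ⟨0, u, by simp, hr⟩
  obtain ⟨k, hk⟩ : ∃ k : ℕ, padicValRat ℓ (u.coeff n₀ : ℚ) ≤ k :=
    ⟨(padicValRat ℓ (u.coeff n₀ : ℚ)).toNat, Int.self_le_toNat _⟩
  exact key k u hn₀ hk

/-! ### The Gauss valuation ring `Ocal ⊂ ℚ((q))` and its reduction map -/

lemma rho_ne_zero_imp (v : LaurentSeries (Zl ℓ)) (hv : rho ℓ v ≠ 0) : iota ℓ v ≠ 0 := by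
  intro h
  rw [iota_eq_zero_iff] at h
  exact hv (by rw [h, map_zero])

/-- Quotients `u / v` of `ℓ`-integral Laurent series with `v ≢ 0 mod ℓ`. -/
def Ocal : Subring (LaurentSeries ℚ) where
  carrier := {y | ∃ u v : LaurentSeries (Zl ℓ), rho ℓ v ≠ 0 ∧ y * iota ℓ v = iota ℓ u}
  mul_mem' := by
    rintro y y' ⟨u, v, hv, h⟩ ⟨u', v', hv', h'⟩
    refine ⟨u * u', v * v', ?_, ?_⟩
    · rw [map_mul]; exact mul_ne_zero hv hv'
    · rw [map_mul, map_mul, ← h, ← h']; ring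
  one_mem' := ⟨1, 1, by rw [map_one]; exact one_ne_zero, by simp⟩
  add_mem' := by
    rintro y y' ⟨u, v, hv, h⟩ ⟨u', v', hv', h'⟩
    refine ⟨u * v' + u' * v, v * v', ?_, ?_⟩
    · rw [map_mul]; exact mul_ne_zero hv hv'
    · rw [map_add, map_mul, map_mul, map_mul, ← h, ← h']; ring
  zero_mem' := ⟨0, 1, by rw [map_one]; exact one_ne_zero, by simp⟩
  neg_mem' := by
    rintro y ⟨u, v, hv, h⟩
    exact ⟨-u, v, hv, by rw [map_neg, ← h]; ring⟩

lemma mem_Ocal_iff (y : LaurentSeries ℚ) :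
    y ∈ Ocal ℓ ↔ ∃ u v : LaurentSeries (Zl ℓ), rho ℓ v ≠ 0 ∧ y * iota ℓ v = iota ℓ u := Iff.rfl

/-- Underlying function of `red`. -/
noncomputable def redFun (y : Ocal ℓ) : LaurentSeries (ZMod ℓ) :=
  rho ℓ (Classical.choose y.2) / rho ℓ (Classical.choose (Classical.choose_spec y.2))

lemma redFun_eq (y : Ocal ℓ) (u v : LaurentSeries (Zl ℓ)) (hv : rho ℓ v ≠ 0)
    (h : (y : LaurentSeries ℚ) * iota ℓ v = iota ℓ u) : redFun ℓ y = rho ℓ u / rho ℓ v := by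
  obtain ⟨hv₀, h₀⟩ := Classical.choose_spec (Classical.choose_spec y.2)
  set u₀ := Classical.choose y.2
  set v₀ := Classical.choose (Classical.choose_spec y.2)
  have h1 : u₀ * v = u * v₀ := by
    apply iota_injective ℓ
    rw [map_mul, map_mul, ← h₀, ← h]; ring
  show rho ℓ u₀ / rho ℓ v₀ = rho ℓ u / rho ℓ v
  rw [div_eq_div_iff hv₀ hv, ← map_mul, ← map_mul, h1]

/-- The reduction map of the Gauss valuation ring. -/
noncomputable def red : Ocal ℓ →+* LaurentSeries (ZMod ℓ) where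
  toFun := redFun ℓ
  map_one' := by
    rw [redFun_eq ℓ 1 1 1 (by rw [map_one]; exact one_ne_zero) (by simp)]; simp
  map_mul' := by
    intro y y'
    obtain ⟨u, v, hv, h⟩ := y.2
    obtain ⟨u', v', hv', h'⟩ := y'.2
    rw [redFun_eq ℓ y u v hv h, redFun_eq ℓ y' u' v' hv' h',
      redFun_eq ℓ (y * y') (u * u') (v * v') (by rw [map_mul]; exact mul_ne_zero hv hv')
        (by rw [Subring.coe_mul, map_mul, map_mul, ← h, ← h']; ring)]
    rw [map_mul, map_mul, div_mul_div_comm]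
  map_zero' := by
    rw [redFun_eq ℓ 0 0 1 (by rw [map_one]; exact one_ne_zero) (by simp)]; simp
  map_add' := by
    intro y y'
    obtain ⟨u, v, hv, h⟩ := y.2
    obtain ⟨u', v', hv', h'⟩ := y'.2
    rw [redFun_eq ℓ y u v hv h, redFun_eq ℓ y' u' v' hv' h',
      redFun_eq ℓ (y + y') (u * v' + u' * v) (v * v') (by rw [map_mul]; exact mul_ne_zero hv hv')
        (by rw [Subring.coe_add, map_add, map_mul, map_mul, map_mul, ← h, ← h']; ring)]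
    rw [map_add, map_mul, map_mul, map_mul, div_add_div _ _ hv hv']
    ring

lemma red_eq (y : Ocal ℓ) (u v : LaurentSeries (Zl ℓ)) (hv : rho ℓ v ≠ 0)
    (h : (y : LaurentSeries ℚ) * iota ℓ v = iota ℓ u) : red ℓ y = rho ℓ u / rho ℓ v :=
  redFun_eq ℓ y u v hv h

lemma iota_mem_Ocal (u : LaurentSeries (Zl ℓ)) : iota ℓ u ∈ Ocal ℓ :=
  ⟨u, 1, by rw [map_one]; exact one_ne_zero, by simp⟩

lemma red_iota (u : LaurentSeries (Zl ℓ)) : red ℓ ⟨iota ℓ u, iota_mem_Ocal ℓ u⟩ = rho ℓ u := by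
  rw [red_eq ℓ _ u 1 (by rw [map_one]; exact one_ne_zero) (by simp)]; simp

lemma natCast_LS_zmod : ((ℓ : ℕ) : LaurentSeries (ZMod ℓ)) = 0 := by
  have : ((ℓ : ℕ) : LaurentSeries (ZMod ℓ)) = HahnSeries.C ((ℓ : ℕ) : ZMod ℓ) :=
    (map_natCast (HahnSeries.C : ZMod ℓ →+* LaurentSeries (ZMod ℓ)) ℓ).symm
  rw [this, ZMod.natCast_self, map_zero]

lemma natCast_LS_ne_zero : ((ℓ : ℕ) : LaurentSeries ℚ) ≠ 0 := by
  have hp : ℓ.Prime := Fact.out
  have : ((ℓ : ℕ) : LaurentSeries ℚ) = HahnSeries.C ((ℓ : ℕ) : ℚ) :=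
    (map_natCast (HahnSeries.C : ℚ →+* LaurentSeries ℚ) ℓ).symm
  rw [this]
  intro h
  have h2 : ((ℓ : ℕ) : ℚ) = 0 := HahnSeries.C_injective (by rw [h, map_zero])
  exact hp.ne_zero (by exact_mod_cast h2)

lemma red_natCast_mul (y : Ocal ℓ) : red ℓ ((ℓ : Ocal ℓ) * y) = 0 := by
  rw [map_mul, map_natCast, natCast_LS_zmod, zero_mul]

/-- The kernel of `red` is `ℓ · Ocal`. -/
lemma red_eq_zero (y : Ocal ℓ) (h : red ℓ y = 0) : ∃ y' : Ocal ℓ, y = (ℓ : Ocal ℓ) * y' := by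
  obtain ⟨u, v, hv, hy⟩ := y.2
  rw [red_eq ℓ y u v hv hy, div_eq_zero_iff] at h
  have hu : rho ℓ u = 0 := h.resolve_right hv
  obtain ⟨u', rfl⟩ := rho_eq_zero ℓ u hu
  have hv0 := rho_ne_zero_imp ℓ v hv
  refine ⟨⟨iota ℓ u' / iota ℓ v, u', v, hv, by rw [div_mul_cancel₀ _ hv0]⟩, ?_⟩
  apply Subtype.ext
  rw [map_mul, map_natCast] at hy
  rw [Subring.coe_mul, Subring.coe_natCast]
  show (y : LaurentSeries ℚ) = (ℓ : LaurentSeries ℚ) * (iota ℓ u' / iota ℓ v)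
  rw [← mul_div_assoc, ← hy, mul_div_cancel_right₀ _ hv0]

/-- Elements of `Ocal` with nonzero reduction are units. -/
lemma inv_mem_Ocal (y : Ocal ℓ) (h : red ℓ y ≠ 0) : (y : LaurentSeries ℚ)⁻¹ ∈ Ocal ℓ := by
  obtain ⟨u, v, hv, hy⟩ := y.2
  rw [red_eq ℓ y u v hv hy] at h
  have hu : rho ℓ u ≠ 0 := fun h0 => h (by rw [h0, zero_div])
  have hv0 := rho_ne_zero_imp ℓ v hv
  have hu0 := rho_ne_zero_imp ℓ u hu
  have hy0 : (y : LaurentSeries ℚ) ≠ 0 := by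
    intro h0
    rw [h0, zero_mul] at hy
    exact hu0 hy.symm
  refine ⟨v, u, hu, ?_⟩
  rw [← hy, ← mul_assoc, inv_mul_cancel₀ hy0, one_mul]

/-! ### The fraction field `Wf` of the integral series -/

/-- The fraction field of `ℤ_(ℓ)((q))` inside `ℚ((q))`. -/
def Wf : Subfield (LaurentSeries ℚ) where
  carrier := {y | ∃ u v : LaurentSeries (Zl ℓ), v ≠ 0 ∧ y * iota ℓ v = iota ℓ u}
  mul_mem' := by
    rintro y y' ⟨u, v, hv, h⟩ ⟨u', v', hv', h'⟩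
    refine ⟨u * u', v * v', mul_ne_zero hv hv', ?_⟩
    rw [map_mul, map_mul, ← h, ← h']; ring
  one_mem' := ⟨1, 1, one_ne_zero, by simp⟩
  add_mem' := by
    rintro y y' ⟨u, v, hv, h⟩ ⟨u', v', hv', h'⟩
    refine ⟨u * v' + u' * v, v * v', mul_ne_zero hv hv', ?_⟩
    rw [map_add, map_mul, map_mul, map_mul, ← h, ← h']; ring
  zero_mem' := ⟨0, 1, one_ne_zero, by simp⟩
  neg_mem' := by
    rintro y ⟨u, v, hv, h⟩
    exact ⟨-u, v, hv, by rw [map_neg, ← h]; ring⟩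
  inv_mem' := by
    rintro y ⟨u, v, hv, h⟩
    by_cases hy : y = 0
    · subst hy
      exact ⟨0, 1, one_ne_zero, by simp⟩
    · have hv0 : iota ℓ v ≠ 0 := fun h0 => hv ((iota_eq_zero_iff ℓ v).mp h0)
      have hu : u ≠ 0 := by
        rintro rfl
        rw [map_zero] at h
        exact (mul_ne_zero hy hv0) h
      refine ⟨v, u, hu, ?_⟩
      rw [← h, ← mul_assoc, inv_mul_cancel₀ hy, one_mul]

lemma mem_Wf_iff (y : LaurentSeries ℚ) :
    y ∈ Wf ℓ ↔ ∃ u v : LaurentSeries (Zl ℓ), v ≠ 0 ∧ y * iota ℓ v = iota ℓ u := Iff.rfl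

lemma iota_mem_Wf (u : LaurentSeries (Zl ℓ)) : iota ℓ u ∈ Wf ℓ :=
  ⟨u, 1, one_ne_zero, by simp⟩

lemma Ocal_le_Wf {y : LaurentSeries ℚ} (hy : y ∈ Ocal ℓ) : y ∈ Wf ℓ := by
  obtain ⟨u, v, hv, h⟩ := hy
  exact ⟨u, v, fun h0 => hv (by rw [h0, map_zero]), h⟩

lemma iota_natCast_pow_mul (e : ℕ) (u : LaurentSeries (Zl ℓ)) :
    iota ℓ ((ℓ : LaurentSeries (Zl ℓ)) ^ e * u) = (ℓ : LaurentSeries ℚ) ^ e * iota ℓ u := by
  rw [map_mul, map_pow, map_natCast]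

/-- `Ocal` is a valuation ring of `Wf`. -/
lemma Wf_cases {y : LaurentSeries ℚ} (hy : y ∈ Wf ℓ) :
    y ∈ Ocal ℓ ∨ ∃ h : y⁻¹ ∈ Ocal ℓ, red ℓ ⟨y⁻¹, h⟩ = 0 := by
  have hp : ℓ.Prime := Fact.out
  have hl : (ℓ : LaurentSeries ℚ) ≠ 0 := natCast_LS_ne_zero ℓ
  obtain ⟨u, v, hv, h⟩ := hy
  by_cases hu : u = 0
  · left
    subst hu
    have hv0 : iota ℓ v ≠ 0 := fun h0 => hv ((iota_eq_zero_iff ℓ v).mp h0)
    rw [map_zero, mul_eq_zero] at h
    rw [h.resolve_right hv0]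
    exact (Ocal ℓ).zero_mem
  obtain ⟨a, u', rfl, hu'⟩ := exists_content ℓ u hu
  obtain ⟨b, v', rfl, hv'⟩ := exists_content ℓ v hv
  rw [iota_natCast_pow_mul, iota_natCast_pow_mul] at h
  have hv0 := rho_ne_zero_imp ℓ v' hv'
  have hu0 := rho_ne_zero_imp ℓ u' hu'
  rcases le_or_gt b a with hba | hab
  · left
    refine ⟨(ℓ : LaurentSeries (Zl ℓ)) ^ (a - b) * u', v', hv', ?_⟩
    rw [iota_natCast_pow_mul]
    have h1 : (ℓ : LaurentSeries ℚ) ^ b * (y * iota ℓ v') =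
        (ℓ : LaurentSeries ℚ) ^ b * ((ℓ : LaurentSeries ℚ) ^ (a - b) * iota ℓ u') := by
      rw [← mul_assoc _ _ (iota ℓ u'), ← pow_add, Nat.add_sub_cancel' hba, ← h]; ring
    exact mul_left_cancel₀ (pow_ne_zero b hl) h1
  · right
    have hy0 : y ≠ 0 := by
      rintro rfl
      rw [zero_mul] at h
      exact (mul_ne_zero (pow_ne_zero a hl) hu0) h.symm
    have hmem : y⁻¹ * iota ℓ u' = iota ℓ ((ℓ : LaurentSeries (Zl ℓ)) ^ (b - a) * v') := by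
      rw [iota_natCast_pow_mul]
      have h1 : (ℓ : LaurentSeries ℚ) ^ a * y * (y⁻¹ * iota ℓ u') =
          (ℓ : LaurentSeries ℚ) ^ a * y * ((ℓ : LaurentSeries ℚ) ^ (b - a) * iota ℓ v') := by
        have e1 : (ℓ : LaurentSeries ℚ) ^ a * y * (y⁻¹ * iota ℓ u') =
            (ℓ : LaurentSeries ℚ) ^ a * iota ℓ u' := by
          rw [mul_assoc, ← mul_assoc y, mul_inv_cancel₀ hy0, one_mul]
        have e2 : (ℓ : LaurentSeries ℚ) ^ a * y * ((ℓ : LaurentSeries ℚ) ^ (b - a) * iota ℓ v') =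
            y * ((ℓ : LaurentSeries ℚ) ^ b * iota ℓ v') := by
          have : (ℓ : LaurentSeries ℚ) ^ b = (ℓ : LaurentSeries ℚ) ^ a * (ℓ : LaurentSeries ℚ) ^ (b - a) := by
            rw [← pow_add, Nat.add_sub_cancel' hab.le]
          rw [this]; ring
        rw [e1, e2, h]
      exact mul_left_cancel₀ (mul_ne_zero (pow_ne_zero a hl) hy0) h1
    have hm : y⁻¹ ∈ Ocal ℓ := ⟨_, u', hu', hmem⟩
    refine ⟨hm, ?_⟩
    rw [red_eq ℓ ⟨y⁻¹, hm⟩ ((ℓ : LaurentSeries (Zl ℓ)) ^ (b - a) * v') u' hu' hmem]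
    obtain ⟨c, hc⟩ : ∃ c, b - a = c + 1 := ⟨b - a - 1, by omega⟩
    have hz : rho ℓ ((ℓ : LaurentSeries (Zl ℓ)) ^ (b - a) * v') = 0 := by
      have e3 : (ℓ : LaurentSeries (Zl ℓ)) ^ (b - a) * v' =
          (ℓ : LaurentSeries (Zl ℓ)) * ((ℓ : LaurentSeries (Zl ℓ)) ^ c * v') := by
        rw [hc, pow_succ]; ring
      rw [e3, rho_natCast_mul]
    rw [hz, zero_div]

/-- Every element of `Wf` becomes integral after multiplication by a power of `ℓ`. -/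
lemma exists_pow_mul_mem_Ocal {y : LaurentSeries ℚ} (hy : y ∈ Wf ℓ) :
    ∃ e : ℕ, (ℓ : LaurentSeries ℚ) ^ e * y ∈ Ocal ℓ := by
  obtain ⟨u, v, hv, h⟩ := hy
  obtain ⟨b, v', rfl, hv'⟩ := exists_content ℓ v hv
  refine ⟨b, u, v', hv', ?_⟩
  rw [iota_natCast_pow_mul] at h
  rw [← h]; ring

/-- `Ocal` is integrally closed in `Wf`. -/
lemma mem_Ocal_of_isIntegralElem {y : LaurentSeries ℚ} (hy : y ∈ Wf ℓ)
    (h : (Ocal ℓ).subtype.IsIntegralElem y) : y ∈ Ocal ℓ := by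
  by_cases hy0 : y = 0
  · rw [hy0]; exact (Ocal ℓ).zero_mem
  rcases Wf_cases ℓ hy with h1 | ⟨hinv, hred⟩
  · exact h1
  exfalso
  obtain ⟨p, hp, h0⟩ := h
  let _ : Invertible y := invertibleOfNonzero hy0
  have h1 : Polynomial.eval₂ (Ocal ℓ).subtype (⅟y) p.reverse = 0 :=
    (Polynomial.eval₂_reverse_eq_zero_iff _ y p).mpr h0
  rw [invOf_eq_inv] at h1
  have h2 : Polynomial.eval₂ (RingHom.id (Ocal ℓ)) (⟨y⁻¹, hinv⟩ : Ocal ℓ) p.reverse = 0 := by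
    apply Subtype.ext
    have := Polynomial.hom_eval₂ p.reverse (RingHom.id (Ocal ℓ)) (Ocal ℓ).subtype
      (⟨y⁻¹, hinv⟩ : Ocal ℓ)
    rw [RingHom.comp_id] at this
    rw [Subring.coe_zero, ← h1]
    exact this
  have h3 := Polynomial.hom_eval₂ p.reverse (RingHom.id (Ocal ℓ)) (red ℓ) (⟨y⁻¹, hinv⟩ : Ocal ℓ)
  rw [h2, map_zero, hred, Polynomial.eval₂_at_zero, RingHom.comp_id,
    Polynomial.coeff_zero_reverse, hp.leadingCoeff, map_one] at h3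
  exact zero_ne_one h3

/-- Constants of `ℤ_(ℓ)` as elements of `Ocal`. -/
noncomputable def constO : Zl ℓ →+* Ocal ℓ :=
  RingHom.codRestrict ((iota ℓ).comp HahnSeries.C) (Ocal ℓ) (fun _ => iota_mem_Ocal ℓ _)

lemma coe_constO (r : Zl ℓ) : ((constO ℓ r : Ocal ℓ) : LaurentSeries ℚ) = HahnSeries.C (r : ℚ) := by
  show iota ℓ (HahnSeries.C r) = HahnSeries.C (r : ℚ)
  ext n
  rw [iota_coeff, HahnSeries.C_apply, HahnSeries.C_apply, HahnSeries.coeff_single,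
    HahnSeries.coeff_single]
  split_ifs <;> rfl

lemma red_constO (r : Zl ℓ) : red ℓ (constO ℓ r) = HahnSeries.C (resZl ℓ r) := by
  have : constO ℓ r = ⟨iota ℓ (HahnSeries.C r), iota_mem_Ocal ℓ _⟩ := rfl
  rw [this, red_iota]
  ext n
  rw [rho_coeff, HahnSeries.C_apply, HahnSeries.C_apply, HahnSeries.coeff_single,
    HahnSeries.coeff_single]
  split_ifs
  · rfl
  · exact map_zero _

end Fermat.Agent.S28.Reduction
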