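import Mathlib
import Fermat.Prelude.Def_ModularCurve_IgusaScheme
import Fermat.Prelude.Def_ModularCurve_X0ModL
import Fermat.Agent.S28.ReductionBase
import Fermat.Agent.S28.ReductionDefs

/-!
# S28 chart reduction — polynomial evaluation in `Ocal`, the lattice argument (helper49)
-/

set_option autoImplicit false
set_option linter.unusedSectionVars false

namespace Fermat.Agent.S28.Reduction

open ModularCurve Polynomial

variable (ℓ : ℕ) [Fact ℓ.Prime]

/-! ### Evaluating `ℤ_(ℓ)`-polynomials in `Ocal` -/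

/-- Evaluation of `ℤ_(ℓ)`-polynomials at a point of `Ocal`. -/
noncomputable def evalO (s : Ocal ℓ) : (Zl ℓ)[X] →+* Ocal ℓ :=
  Polynomial.eval₂RingHom (constO ℓ) s

lemma algebraMap_LS_eq_C (K : Type*) [Field K] (c : K) :
    algebraMap K (LaurentSeries K) c = HahnSeries.C c := by
  rw [ModularCurve.algebraMap_laurentSeries_eq_single, HahnSeries.C_apply]

lemma red_evalO (s : Ocal ℓ) (Q : (Zl ℓ)[X]) :
    red ℓ (evalO ℓ s Q) = Polynomial.aeval (red ℓ s) (Q.map (resZl ℓ)) := by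
  have h := Polynomial.hom_eval₂ Q (constO ℓ) (red ℓ) s
  rw [Polynomial.aeval_def, Polynomial.eval₂_map]
  show red ℓ (Polynomial.eval₂ (constO ℓ) s Q) = _
  rw [h]
  congr 1
  ext r : 1
  simp only [RingHom.comp_apply, red_constO, algebraMap_LS_eq_C]

lemma coe_evalO (s : Ocal ℓ) (Q : (Zl ℓ)[X]) :
    ((evalO ℓ s Q : Ocal ℓ) : LaurentSeries ℚ) =
      Polynomial.aeval (s : LaurentSeries ℚ) (Q.map (GaloisRep.ratLocalizedAt ℓ).subtype) := by
  have h := Polynomial.hom_eval₂ Q (constO ℓ) (Ocal ℓ).subtype s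
  rw [Polynomial.aeval_def, Polynomial.eval₂_map]
  show (Ocal ℓ).subtype (Polynomial.eval₂ (constO ℓ) s Q) = _
  rw [h]
  congr 1
  ext r : 1
  simp only [RingHom.comp_apply, Subring.coe_subtype, coe_constO, algebraMap_LS_eq_C]

lemma evalO_C_natCast_mul (s : Ocal ℓ) (Q : (Zl ℓ)[X]) :
    evalO ℓ s (C (ℓ : Zl ℓ) * Q) = (ℓ : Ocal ℓ) * evalO ℓ s Q := by
  rw [map_mul]
  congr 1
  show Polynomial.eval₂ (constO ℓ) s (C (ℓ : Zl ℓ)) = _
  rw [Polynomial.eval₂_C, map_natCast]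

lemma natCast_Ocal_ne_zero : (ℓ : Ocal ℓ) ≠ 0 := by
  intro h
  apply natCast_LS_ne_zero ℓ
  have := congrArg (Subtype.val) h
  simpa using this

/-- A `ℤ_(ℓ)`-polynomial whose value at `s` reduces to zero is divisible by `ℓ`
(for `red s` transcendental). -/
lemma exists_eq_C_mul_of_red_evalO (s : Ocal ℓ) (hs : Transcendental (ZMod ℓ) (red ℓ s))
    (Q : (Zl ℓ)[X]) (h : red ℓ (evalO ℓ s Q) = 0) : ∃ Q₁ : (Zl ℓ)[X], Q = C (ℓ : Zl ℓ) * Q₁ := by
  rw [red_evalO] at h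
  have h0 : Q.map (resZl ℓ) = 0 := by
    by_contra hne
    exact hs ⟨_, hne, h⟩
  have hdvd : C (ℓ : Zl ℓ) ∣ Q := by
    rw [Polynomial.C_dvd_iff_dvd_coeff]
    intro i
    have hi : resZl ℓ (Q.coeff i) = 0 := by
      have := congrArg (fun p => p.coeff i) h0
      simpa [Polynomial.coeff_map] using this
    obtain ⟨r, hr⟩ := resZl_eq_zero ℓ _ hi
    exact ⟨r, hr⟩
  exact hdvd

/-! ### Clearing denominators -/

lemma exists_pow_mul_mem_Zl (a : ℚ) :
    ∃ e : ℕ, ∀ E, e ≤ E → (ℓ : ℚ) ^ E * a ∈ GaloisRep.ratLocalizedAt ℓ := by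
  have hp : ℓ.Prime := Fact.out
  obtain ⟨e, m, hm, hden⟩ := Nat.exists_eq_pow_mul_and_not_dvd a.den_nz ℓ hp.ne_one
  refine ⟨e, fun E hE => ?_⟩
  have hm0 : (m : ℚ) ≠ 0 := by
    intro h0
    have : m = 0 := by exact_mod_cast h0
    rw [this, mul_zero] at hden
    exact a.den_nz hden
  have hl : (ℓ : ℚ) ≠ 0 := by exact_mod_cast hp.ne_zero
  have hmz : (((m : ℤ)) : ZMod ℓ) ≠ 0 := by
    rw [Int.cast_natCast, Ne, ZMod.natCast_eq_zero_iff]
    exact hm
  have key : (ℓ : ℚ) ^ E * a = (((ℓ : ℤ) ^ (E - e) * a.num : ℤ) : ℚ) / ((m : ℤ) : ℚ) := by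
    have ha : a * ((ℓ : ℚ) ^ e * m) = (a.num : ℚ) := by
      have h1 := Rat.mul_den_eq_num a
      rw [hden] at h1
      rw [← h1]
      push_cast
      rfl
    have hE' : (ℓ : ℚ) ^ E = (ℓ : ℚ) ^ (E - e) * (ℓ : ℚ) ^ e := by
      rw [← pow_add, Nat.sub_add_cancel hE]
    push_cast
    rw [← ha, hE']
    field_simp
  rw [key]
  exact div_mem_Zl ℓ _ _ hmz

lemma exists_lift_pow_mul (P : ℚ[X]) :
    ∃ E₀ : ℕ, ∀ E, E₀ ≤ E → ∃ Q : (Zl ℓ)[X],
      Q.map (GaloisRep.ratLocalizedAt ℓ).subtype = C ((ℓ : ℚ) ^ E) * P := by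
  classical
  choose e he using exists_pow_mul_mem_Zl ℓ
  refine ⟨P.support.sup (fun i => e (P.coeff i)), fun E hE => ?_⟩
  have hmem : C ((ℓ : ℚ) ^ E) * P ∈ Polynomial.lifts (GaloisRep.ratLocalizedAt ℓ).subtype := by
    rw [Polynomial.lifts_iff_coeff_lifts]
    intro n
    rw [Polynomial.coeff_C_mul]
    by_cases hn : n ∈ P.support
    · exact ⟨⟨_, he (P.coeff n) E
        (le_trans (Finset.le_sup (f := fun i => e (P.coeff i)) hn) hE)⟩, rfl⟩
    · rw [Polynomial.notMem_support_iff.mp hn, mul_zero]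
      exact ⟨0, rfl⟩
  exact (Polynomial.mem_lifts _).mp hmem

/-- A rational polynomial whose value at `s` is `ℓ`-integral has `ℓ`-integral coefficients
(for `red s` transcendental). -/
lemma exists_lift_of_aeval_mem_Ocal (s : Ocal ℓ) (hs : Transcendental (ZMod ℓ) (red ℓ s))
    (P : ℚ[X]) (h : Polynomial.aeval (s : LaurentSeries ℚ) P ∈ Ocal ℓ) :
    ∃ Q : (Zl ℓ)[X], Q.map (GaloisRep.ratLocalizedAt ℓ).subtype = P := by
  have hp : ℓ.Prime := Fact.out
  obtain ⟨E₀, hE₀⟩ := exists_lift_pow_mul ℓ P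
  obtain ⟨Q, hQ⟩ := hE₀ E₀ le_rfl
  clear hE₀
  induction E₀ generalizing Q with
  | zero => exact ⟨Q, by rw [hQ, pow_zero, map_one, one_mul]⟩
  | succ E ih =>
    have hcoe : ((evalO ℓ s Q : Ocal ℓ) : LaurentSeries ℚ) =
        (ℓ : LaurentSeries ℚ) * ((ℓ : LaurentSeries ℚ) ^ E * Polynomial.aeval (s : LaurentSeries ℚ) P) := by
      rw [coe_evalO, hQ, map_mul, Polynomial.aeval_C, map_pow, map_natCast, pow_succ]
      ring
    have hred : red ℓ (evalO ℓ s Q) = 0 := by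
      have : evalO ℓ s Q = (ℓ : Ocal ℓ) * ((ℓ : Ocal ℓ) ^ E * ⟨_, h⟩) := by
        apply Subtype.ext
        rw [hcoe]
        simp
      rw [this, red_natCast_mul]
    obtain ⟨Q₁, rfl⟩ := exists_eq_C_mul_of_red_evalO ℓ s hs Q hred
    apply ih Q₁
    have hl : (C (ℓ : ℚ) : ℚ[X]) ≠ 0 := by
      rw [Ne, Polynomial.C_eq_zero]
      exact_mod_cast hp.ne_zero
    apply mul_left_cancel₀ hl
    have : (C (ℓ : Zl ℓ) * Q₁).map (GaloisRep.ratLocalizedAt ℓ).subtype =
        C (ℓ : ℚ) * Q₁.map (GaloisRep.ratLocalizedAt ℓ).subtype := by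
      rw [Polynomial.map_mul, Polynomial.map_C]
      simp
    rw [← this, hQ, pow_succ, map_mul]
    ring

/-! ### Contents in `Ocal` and reductions of rational functions of `s` -/

lemma exists_content_Ocal (y : Ocal ℓ) (hy : y ≠ 0) :
    ∃ (a : ℕ) (y' : Ocal ℓ), y = (ℓ : Ocal ℓ) ^ a * y' ∧ red ℓ y' ≠ 0 := by
  obtain ⟨u, v, hv, h⟩ := y.2
  have hv0 := rho_ne_zero_imp ℓ v hv
  have hu : u ≠ 0 := by
    rintro rfl
    rw [map_zero, mul_eq_zero] at h
    exact hy (Subtype.ext (h.resolve_right hv0))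
  obtain ⟨a, u', rfl, hu'⟩ := exists_content ℓ u hu
  have hmem : iota ℓ u' / iota ℓ v ∈ Ocal ℓ := ⟨u', v, hv, by rw [div_mul_cancel₀ _ hv0]⟩
  refine ⟨a, ⟨_, hmem⟩, ?_, ?_⟩
  · apply Subtype.ext
    rw [iota_natCast_pow_mul] at h
    have : (y : LaurentSeries ℚ) = (ℓ : LaurentSeries ℚ) ^ a * (iota ℓ u' / iota ℓ v) := by
      rw [← mul_div_assoc, ← h, mul_div_cancel_right₀ _ hv0]
    rw [this]
    simp
  · rw [red_eq ℓ ⟨_, hmem⟩ u' v hv (by rw [div_mul_cancel₀ _ hv0])]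
    exact div_ne_zero hu' hv

lemma red_mem_adjoin_of_mul_evalO (s : Ocal ℓ) (hs : Transcendental (ZMod ℓ) (red ℓ s)) :
    ∀ (a : ℕ) (c : Ocal ℓ) (P D : (Zl ℓ)[X]) (y' : Ocal ℓ), red ℓ y' ≠ 0 →
      evalO ℓ s D = (ℓ : Ocal ℓ) ^ a * y' → c * evalO ℓ s D = evalO ℓ s P →
      red ℓ c ∈ IntermediateField.adjoin (ZMod ℓ) {red ℓ s} := by
  intro a
  induction a with
  | zero =>
    intro c P D y' hy' hD hc
    rw [pow_zero, one_mul] at hD
    have hD' : red ℓ (evalO ℓ s D) ≠ 0 := by rw [hD]; exact hy'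
    have h1 : red ℓ c * red ℓ (evalO ℓ s D) = red ℓ (evalO ℓ s P) := by
      rw [← map_mul, hc]
    have h2 : red ℓ c = red ℓ (evalO ℓ s P) / red ℓ (evalO ℓ s D) := by
      rw [← h1, mul_div_cancel_right₀ _ hD']
    rw [h2, red_evalO, red_evalO]
    exact (IntermediateField.mem_adjoin_simple_iff _ _).mpr ⟨_, _, rfl⟩
  | succ a ih =>
    intro c P D y' hy' hD hc
    have hl := natCast_Ocal_ne_zero ℓ
    have hD0 : red ℓ (evalO ℓ s D) = 0 := by
      rw [hD, pow_succ', mul_assoc, red_natCast_mul]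
    obtain ⟨D₁, rfl⟩ := exists_eq_C_mul_of_red_evalO ℓ s hs D hD0
    have hP0 : red ℓ (evalO ℓ s P) = 0 := by
      rw [← hc, map_mul, hD0, mul_zero]
    obtain ⟨P₁, rfl⟩ := exists_eq_C_mul_of_red_evalO ℓ s hs P hP0
    rw [evalO_C_natCast_mul] at hD hc
    rw [evalO_C_natCast_mul] at hc
    refine ih c P₁ D₁ y' hy' ?_ ?_
    · apply mul_left_cancel₀ hl
      rw [hD, pow_succ', mul_assoc]
    · apply mul_left_cancel₀ hl
      rw [← hc]
      ring

/-- The reduction of an `ℓ`-integral element of `ℚ(s)` lies in `𝔽_ℓ(red s)`. -/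
lemma red_mem_adjoin (s : Ocal ℓ) (hs : Transcendental (ZMod ℓ) (red ℓ s)) (c : Ocal ℓ)
    (hc : (c : LaurentSeries ℚ) ∈ IntermediateField.adjoin ℚ {(s : LaurentSeries ℚ)}) :
    red ℓ c ∈ IntermediateField.adjoin (ZMod ℓ) {red ℓ s} := by
  have hp : ℓ.Prime := Fact.out
  have hlL : (ℓ : LaurentSeries ℚ) ≠ 0 := natCast_LS_ne_zero ℓ
  obtain ⟨P₀, D₀, h⟩ := (IntermediateField.mem_adjoin_simple_iff _ _).mp hc
  by_cases hD0 : Polynomial.aeval (s : LaurentSeries ℚ) D₀ = 0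
  · rw [hD0, div_zero] at h
    have : c = 0 := Subtype.ext h
    rw [this, map_zero]
    exact zero_mem _
  obtain ⟨E₁, hE₁⟩ := exists_lift_pow_mul ℓ P₀
  obtain ⟨E₂, hE₂⟩ := exists_lift_pow_mul ℓ D₀
  obtain ⟨P, hP⟩ := hE₁ (max E₁ E₂) (le_max_left _ _)
  obtain ⟨D, hD⟩ := hE₂ (max E₁ E₂) (le_max_right _ _)
  set E := max E₁ E₂
  have hDcoe : ((evalO ℓ s D : Ocal ℓ) : LaurentSeries ℚ) =
      (ℓ : LaurentSeries ℚ) ^ E * Polynomial.aeval (s : LaurentSeries ℚ) D₀ := by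
    rw [coe_evalO, hD, map_mul, Polynomial.aeval_C, map_pow, map_natCast]
  have hPcoe : ((evalO ℓ s P : Ocal ℓ) : LaurentSeries ℚ) =
      (ℓ : LaurentSeries ℚ) ^ E * Polynomial.aeval (s : LaurentSeries ℚ) P₀ := by
    rw [coe_evalO, hP, map_mul, Polynomial.aeval_C, map_pow, map_natCast]
  have hDne : evalO ℓ s D ≠ 0 := by
    intro h0
    have := congrArg Subtype.val h0
    rw [hDcoe] at this
    exact (mul_ne_zero (pow_ne_zero E hlL) hD0) this
  have hmul : c * evalO ℓ s D = evalO ℓ s P := by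
    apply Subtype.ext
    rw [Subring.coe_mul, hDcoe, hPcoe, h]
    field_simp
  obtain ⟨a, y', hy, hy'⟩ := exists_content_Ocal ℓ _ hDne
  exact red_mem_adjoin_of_mul_evalO ℓ s hs a c P D y' hy' hy hmul

/-! ### Two abstract lemmas on minimal polynomials -/

/-- Coefficients of the minimal polynomial over an intermediate field `K₀` of an element integral
over a ring mapping into `K₀` are integral over that ring. -/
lemma isIntegralElem_coeff_minpoly {R L k : Type*} [CommRing R] [Field k] [Field L] [Algebra k L]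
    (K₀ : IntermediateField k L) (φ : R →+* L) (hφ : ∀ r, φ r ∈ K₀) {y : L}
    (hy : φ.IsIntegralElem y) (n : ℕ) :
    φ.IsIntegralElem (((minpoly K₀ y).coeff n : K₀) : L) := by
  classical
  let φ₀ : R →+* K₀ :=
    { toFun := fun r => ⟨φ r, hφ r⟩
      map_one' := Subtype.ext (map_one φ)
      map_mul' := fun a b => Subtype.ext (map_mul φ a b)
      map_zero' := Subtype.ext (map_zero φ)
      map_add' := fun a b => Subtype.ext (map_add φ a b) }
  let _ : Algebra R K₀ := φ₀.toAlgebra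
  obtain ⟨f, hf, hfy⟩ := hy
  have hcomp : (algebraMap K₀ L).comp φ₀ = φ := by ext r; rfl
  have hroot : Polynomial.aeval y (f.map φ₀) = 0 := by
    rw [Polynomial.aeval_def, Polynomial.eval₂_map, hcomp]; exact hfy
  have hint : IsIntegral K₀ y := ⟨f.map φ₀, hf.map _, hroot⟩
  have hdvd : minpoly K₀ y ∣ f.map (algebraMap R K₀) := minpoly.dvd K₀ y hroot
  have hlift := integralClosure.mem_lifts_of_monic_of_dvd_map K₀ hf (minpoly.monic hint) hdvd
  rw [Polynomial.lifts_iff_coeff_lifts] at hlift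
  obtain ⟨c, hc⟩ := hlift n
  obtain ⟨p, hp, hpc⟩ := c.2
  refine ⟨p, hp, ?_⟩
  have h1 := Polynomial.hom_eval₂ p (algebraMap R K₀) (algebraMap K₀ L) (c : K₀)
  rw [hpc, map_zero] at h1
  rw [← hc]
  rw [h1]
  rfl

/-- An element integral over a ring mapping into `K₀` is integral over `K₀`. -/
lemma isIntegral_of_isIntegralElem {R L k : Type*} [CommRing R] [Field k] [Field L] [Algebra k L]
    (K₀ : IntermediateField k L) (φ : R →+* L) (hφ : ∀ r, φ r ∈ K₀) {y : L}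
    (hy : φ.IsIntegralElem y) : IsIntegral K₀ y := by
  let φ₀ : R →+* K₀ :=
    { toFun := fun r => ⟨φ r, hφ r⟩
      map_one' := Subtype.ext (map_one φ)
      map_mul' := fun a b => Subtype.ext (map_mul φ a b)
      map_zero' := Subtype.ext (map_zero φ)
      map_add' := fun a b => Subtype.ext (map_add φ a b) }
  obtain ⟨f, hf, hfy⟩ := hy
  have hcomp : (algebraMap K₀ L).comp φ₀ = φ := by ext r; rfl
  refine ⟨f.map φ₀, hf.map _, ?_⟩
  rw [Polynomial.eval₂_map, hcomp]; exact hfy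

/-- `k[s]` is integrally closed in `k(s)` for transcendental `s`. -/
lemma exists_aeval_eq_of_isIntegralElem {k L : Type*} [Field k] [Field L] [Algebra k L] (s : L)
    (hs : Transcendental k s) (c : L) (hc : c ∈ IntermediateField.adjoin k {s})
    (hint : (Polynomial.aeval s : k[X] →ₐ[k] L).toRingHom.IsIntegralElem c) :
    ∃ P : k[X], Polynomial.aeval s P = c := by
  have hinj : Function.Injective (Polynomial.aeval s : k[X] →ₐ[k] L).toRingHom :=
    transcendental_iff_injective.mp hs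
  let θ : RatFunc k →+* L := IsFractionRing.lift hinj
  have hθ : ∀ P : k[X], θ (algebraMap k[X] (RatFunc k) P) = Polynomial.aeval s P :=
    fun P => IsFractionRing.lift_algebraMap hinj P
  obtain ⟨P, D, h⟩ := (IntermediateField.mem_adjoin_simple_iff _ _).mp hc
  let r : RatFunc k := algebraMap k[X] (RatFunc k) P / algebraMap k[X] (RatFunc k) D
  have hr : θ r = c := by rw [h, map_div₀, hθ, hθ]
  obtain ⟨f, hf, hfc⟩ := hint
  have hrint : IsIntegral k[X] r := by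
    refine ⟨f, hf, ?_⟩
    apply θ.injective
    rw [map_zero, Polynomial.hom_eval₂, hr, ← hfc]
    congr 1
    exact RingHom.ext fun Q => hθ Q
  obtain ⟨R, hR⟩ := IsIntegrallyClosed.isIntegral_iff.mp hrint
  exact ⟨R, by rw [← hθ, hR, hr]⟩

/-! ### `j` and integral lifts -/

lemma jq_eq_iota : jq = iota ℓ (jqModC (Zl ℓ)) := by
  rw [iota, coeffMap_jqModC]; rfl

lemma jq_mem_Ocal : jq ∈ Ocal ℓ := by
  rw [jq_eq_iota ℓ]; exact iota_mem_Ocal ℓ _

/-- `j` as an element of `Ocal`. -/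
noncomputable def jO : Ocal ℓ := ⟨jq, jq_mem_Ocal ℓ⟩

lemma red_jO : red ℓ (jO ℓ) = jqModC (ZMod ℓ) := by
  have : jO ℓ = ⟨iota ℓ (jqModC (Zl ℓ)), iota_mem_Ocal ℓ _⟩ := Subtype.ext (jq_eq_iota ℓ)
  rw [this, red_iota, rho, coeffMap_jqModC]

lemma transcendental_jqModC' (K : Type*) [Field K] : Transcendental K (jqModC K) :=
  P2MW.S_ModularCurve_coeff_jqModC_neg_one.ModularCurve.CharLRows.transcendental_jqModC K

lemma transcendental_red_jO : Transcendental (ZMod ℓ) (red ℓ (jO ℓ)) := by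
  rw [red_jO]; exact transcendental_jqModC' _

lemma red_mem_k0 (c : Ocal ℓ) (hc : (c : LaurentSeries ℚ) ∈ IntermediateField.adjoin ℚ {jq}) :
    red ℓ c ∈ IntermediateField.adjoin (ZMod ℓ) {jqModC (ZMod ℓ)} := by
  have := red_mem_adjoin ℓ (jO ℓ) (transcendental_red_jO ℓ) c hc
  rwa [red_jO] at this

/-- Subfields generated over `ℚ` by elements of `Wf` stay in `Wf`. -/
lemma adjoin_le_Wf (S : Set (LaurentSeries ℚ)) (hS : ∀ y ∈ S, y ∈ Wf ℓ) {y : LaurentSeries ℚ}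
    (hy : y ∈ IntermediateField.adjoin ℚ S) : y ∈ Wf ℓ := by
  have hle : Subfield.closure (Set.range (algebraMap ℚ (LaurentSeries ℚ)) ∪ S) ≤ Wf ℓ := by
    rw [Subfield.closure_le]
    rintro z (⟨c, rfl⟩ | hz)
    · rw [eq_ratCast]; exact SubfieldClass.ratCast_mem _ c
    · exact hS z hz
  exact hle hy

lemma qExpand_jq_eq_iota (d : ℕ) [NeZero d] :
    qExpand ℚ d jq = iota ℓ (qExpand (Zl ℓ) d (jqModC (Zl ℓ))) := by
  rw [iota, coeffMap_qExpand, coeffMap_jqModC]; rfl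

lemma full_le_Wf (N : ℕ) [NeZero N] {y : LaurentSeries ℚ} (hy : y ∈ modularFunctionFieldFull N) :
    y ∈ Wf ℓ := by
  refine adjoin_le_Wf ℓ _ ?_ hy
  rintro z ⟨d, hd, -, rfl⟩
  rw [qExpand_jq_eq_iota ℓ d]; exact iota_mem_Wf ℓ _

lemma K0_le_Wf {y : LaurentSeries ℚ} (hy : y ∈ IntermediateField.adjoin ℚ {jq}) : y ∈ Wf ℓ := by
  refine adjoin_le_Wf ℓ _ ?_ hy
  rintro z rfl
  rw [jq_eq_iota ℓ]; exact iota_mem_Wf ℓ _

lemma K0_le_full (N : ℕ) [NeZero N] :
    IntermediateField.adjoin ℚ {jq} ≤ modularFunctionFieldFull N :=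
  (adjoin_jq_le N).trans (modularFunctionField_le_full N)

lemma coeffMap_int_eq_iota (X : LaurentSeries ℤ) :
    coeffMap (Int.castRingHom ℚ) X = iota ℓ (coeffMap (Int.castRingHom (Zl ℓ)) X) := by
  rw [iota, coeffMap_coeffMap]
  exact coeffMap_congr (RingHom.ext_int _ _) X

lemma coeffMap_int_mem_Ocal (X : LaurentSeries ℤ) : coeffMap (Int.castRingHom ℚ) X ∈ Ocal ℓ := by
  rw [coeffMap_int_eq_iota ℓ]; exact iota_mem_Ocal ℓ _

lemma red_coeffMap_int (X : LaurentSeries ℤ) :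
    red ℓ ⟨_, coeffMap_int_mem_Ocal ℓ X⟩ = coeffMap (Int.castRingHom (ZMod ℓ)) X := by
  have : (⟨_, coeffMap_int_mem_Ocal ℓ X⟩ : Ocal ℓ) =
      ⟨iota ℓ (coeffMap (Int.castRingHom (Zl ℓ)) X), iota_mem_Ocal ℓ _⟩ :=
    Subtype.ext (coeffMap_int_eq_iota ℓ X)
  rw [this, red_iota, rho, coeffMap_coeffMap]
  exact coeffMap_congr (RingHom.ext_int _ _) X

lemma coeffMap_int_mem_full (N : ℕ) [NeZero N] (X : LaurentSeries ℤ) (hX : X ∈ jRing N) :
    coeffMap (Int.castRingHom ℚ) X ∈ modularFunctionFieldFull N := by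
  unfold jRing at hX
  induction hX using Subring.closure_induction with
  | mem x hx =>
    obtain ⟨d, hd, hdN, rfl⟩ := hx
    rw [coeffMap_qExpand, coeffMap_jqModC]
    exact jqd_mem_full N hdN
  | zero => rw [map_zero]; exact zero_mem _
  | one => rw [map_one]; exact one_mem _
  | add x y _ _ hx hy => rw [map_add]; exact add_mem hx hy
  | neg x _ hx => rw [map_neg]; exact neg_mem hx
  | mul x y _ _ hx hy => rw [map_mul]; exact mul_mem hx hy

/-! ### The lattice argument -/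

lemma exists_common_pow {ι : Type*} [Fintype ι] (c : ι → LaurentSeries ℚ)
    (hc : ∀ i, c i ∈ Wf ℓ) : ∃ E : ℕ, ∀ i, (ℓ : LaurentSeries ℚ) ^ E * c i ∈ Ocal ℓ := by
  have hex : ∀ i, ∃ e : ℕ, (ℓ : LaurentSeries ℚ) ^ e * c i ∈ Ocal ℓ :=
    fun i => exists_pow_mul_mem_Ocal ℓ (hc i)
  choose e he using hex
  refine ⟨∑ i, e i, fun i => ?_⟩
  have hle : e i ≤ ∑ i, e i :=
    Finset.single_le_sum (f := e) (fun _ _ => Nat.zero_le _) (Finset.mem_univ i)
  have : (ℓ : LaurentSeries ℚ) ^ (∑ i, e i) * c i =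
      (ℓ : LaurentSeries ℚ) ^ (∑ i, e i - e i) * ((ℓ : LaurentSeries ℚ) ^ e i * c i) := by
    rw [← mul_assoc, ← pow_add, Nat.sub_add_cancel hle]
  rw [this]
  exact (Ocal ℓ).mul_mem ((Ocal ℓ).pow_mem (natCast_mem _ ℓ) _) (he i)

lemma eq_zero_of_forall_inv_pow_mul_mem (y : LaurentSeries ℚ)
    (h : ∀ m : ℕ, ((ℓ : LaurentSeries ℚ) ^ m)⁻¹ * y ∈ Ocal ℓ) : y = 0 := by
  by_contra hy
  have hl : (ℓ : LaurentSeries ℚ) ≠ 0 := natCast_LS_ne_zero ℓ
  have hy0 : y ∈ Ocal ℓ := by simpa using h 0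
  obtain ⟨a, y', hyy', hy'⟩ :=
    exists_content_Ocal ℓ ⟨y, hy0⟩ (fun h0 => hy (congrArg Subtype.val h0))
  have h1 : y = (ℓ : LaurentSeries ℚ) ^ a * (y' : LaurentSeries ℚ) := by
    have := congrArg Subtype.val hyy'
    simpa using this
  have h2 := h (a + 1)
  apply hy'
  have h3 : y' = (ℓ : Ocal ℓ) * ⟨_, h2⟩ := by
    apply Subtype.ext
    rw [Subring.coe_mul, Subring.coe_natCast]
    show (y' : LaurentSeries ℚ) = (ℓ : LaurentSeries ℚ) * (((ℓ : LaurentSeries ℚ) ^ (a + 1))⁻¹ * y)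
    rw [h1, pow_succ]
    field_simp
  rw [h3, red_natCast_mul]

section Lattice

variable {ψ : ℕ} (x : Fin ψ → Ocal ℓ)
  (hx : LinearIndependent (IntermediateField.adjoin (ZMod ℓ) {jqModC (ZMod ℓ)})
    (fun i => red ℓ (x i)))

include hx in
lemma coeff_mem_Ocal_aux : ∀ (e : ℕ) (c : Fin ψ → LaurentSeries ℚ),
    (∀ i, c i ∈ IntermediateField.adjoin ℚ {jq}) →
    (∀ i, (ℓ : LaurentSeries ℚ) ^ e * c i ∈ Ocal ℓ) →
    ∑ i, c i * (x i : LaurentSeries ℚ) ∈ Ocal ℓ → ∀ i, c i ∈ Ocal ℓ := by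
  intro e
  induction e with
  | zero =>
    intro c _ hc _ i
    have := hc i
    rwa [pow_zero, one_mul] at this
  | succ e ih =>
    intro c hcK hc hz
    have hl : (ℓ : LaurentSeries ℚ) ≠ 0 := natCast_LS_ne_zero ℓ
    have hlK : (ℓ : LaurentSeries ℚ) ∈ IntermediateField.adjoin ℚ {jq} := natCast_mem _ ℓ
    have hdK : ∀ i, (ℓ : LaurentSeries ℚ) ^ (e + 1) * c i ∈ IntermediateField.adjoin ℚ {jq} :=
      fun i => mul_mem (pow_mem hlK _) (hcK i)
    have hsum : ∑ i, (⟨red ℓ ⟨_, hc i⟩, red_mem_k0 ℓ ⟨_, hc i⟩ (hdK i)⟩ :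
        IntermediateField.adjoin (ZMod ℓ) {jqModC (ZMod ℓ)}) • red ℓ (x i) = 0 := by
      have h1 : ∑ i, (⟨_, hc i⟩ : Ocal ℓ) * x i = (ℓ : Ocal ℓ) * ((ℓ : Ocal ℓ) ^ e * ⟨_, hz⟩) := by
        apply Subtype.ext
        simp only [Subring.coe_mul, Subring.coe_pow, Subring.coe_natCast,
          AddSubmonoidClass.coe_finsetSum]
        rw [Finset.mul_sum, Finset.mul_sum]
        refine Finset.sum_congr rfl fun i _ => ?_
        rw [pow_succ]; ring
      have h2 := congrArg (red ℓ) h1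
      rw [red_natCast_mul, map_sum] at h2
      rw [← h2]
      refine Finset.sum_congr rfl fun i _ => ?_
      rw [map_mul]; rfl
    have hzero := Fintype.linearIndependent_iff.mp hx _ hsum
    apply ih c hcK _ hz
    intro i
    have hi : red ℓ ⟨_, hc i⟩ = 0 := congrArg Subtype.val (hzero i)
    obtain ⟨d', hd'⟩ := red_eq_zero ℓ _ hi
    have h3 : (ℓ : LaurentSeries ℚ) ^ (e + 1) * c i = (ℓ : LaurentSeries ℚ) * (d' : LaurentSeries ℚ) := by
      have := congrArg Subtype.val hd'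
      simpa using this
    have h4 : (ℓ : LaurentSeries ℚ) ^ e * c i = d' := by
      apply mul_left_cancel₀ hl
      rw [← h3, pow_succ]; ring
    rw [h4]; exact d'.2

include hx in
lemma linearIndependent_lifts :
    LinearIndependent (IntermediateField.adjoin ℚ {jq}) (fun i => (x i : LaurentSeries ℚ)) := by
  rw [Fintype.linearIndependent_iff]
  intro g hg i
  have hl : (ℓ : LaurentSeries ℚ) ≠ 0 := natCast_LS_ne_zero ℓ
  have hlK : (ℓ : LaurentSeries ℚ) ∈ IntermediateField.adjoin ℚ {jq} := natCast_mem _ ℓ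
  obtain ⟨E, hE'⟩ := exists_common_pow ℓ (fun i => (g i : LaurentSeries ℚ))
    (fun i => K0_le_Wf ℓ (g i).2)
  have hsum0 : ∑ i, (g i : LaurentSeries ℚ) * (x i : LaurentSeries ℚ) = 0 := by
    rw [← hg]; rfl
  have key : ∀ m : ℕ, ((ℓ : LaurentSeries ℚ) ^ m)⁻¹ * (g i : LaurentSeries ℚ) ∈ Ocal ℓ := by
    intro m
    refine coeff_mem_Ocal_aux ℓ x hx (E + m)
      (fun i => ((ℓ : LaurentSeries ℚ) ^ m)⁻¹ * (g i : LaurentSeries ℚ)) ?_ ?_ ?_ i
    · intro i; exact mul_mem (inv_mem (pow_mem hlK _)) (g i).2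
    · intro i
      have : (ℓ : LaurentSeries ℚ) ^ (E + m) * (((ℓ : LaurentSeries ℚ) ^ m)⁻¹ * (g i : LaurentSeries ℚ))
          = (ℓ : LaurentSeries ℚ) ^ E * (g i : LaurentSeries ℚ) := by
        rw [pow_add]; field_simp
      rw [this]; exact hE' i
    · have : ∑ i, ((ℓ : LaurentSeries ℚ) ^ m)⁻¹ * (g i : LaurentSeries ℚ) * (x i : LaurentSeries ℚ)
          = 0 := by
        simp_rw [mul_assoc]
        rw [← Finset.mul_sum, hsum0, mul_zero]
      rw [this]; exact zero_mem _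
  have := eq_zero_of_forall_inv_pow_mul_mem ℓ _ key
  exact Subtype.ext this

end Lattice

section Degree

variable (N : ℕ) [NeZero N] (hdeg : DegreeLe N)
  (x : Fin (dedekindPsi N) → Ocal ℓ)
  (hx : LinearIndependent (IntermediateField.adjoin (ZMod ℓ) {jqModC (ZMod ℓ)})
    (fun i => red ℓ (x i)))
  (hxF : ∀ i, (x i : LaurentSeries ℚ) ∈ modularFunctionFieldFull N)

include hdeg hx hxF in
lemma exists_coeffs (z : LaurentSeries ℚ) (hz : z ∈ modularFunctionFieldFull N) :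
    ∃ c : Fin (dedekindPsi N) → LaurentSeries ℚ,
      (∀ i, c i ∈ IntermediateField.adjoin ℚ {jq}) ∧ z = ∑ i, c i * (x i : LaurentSeries ℚ) := by
  have hind := linearIndependent_lifts ℓ x hx
  have hmem : z ∈ Submodule.span (IntermediateField.adjoin ℚ {jq})
      (Set.range (fun i => (x i : LaurentSeries ℚ))) := by
    by_contra hnot
    have h1 : LinearIndependent (IntermediateField.adjoin ℚ {jq})
        (Fin.cons z (fun i => (x i : LaurentSeries ℚ)) :
          Fin (dedekindPsi N + 1) → LaurentSeries ℚ) :=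
      linearIndependent_finCons.mpr ⟨hind, hnot⟩
    have h2 := hdeg (dedekindPsi N + 1) _ (by
      intro i
      refine Fin.cases ?_ ?_ i
      · simpa using hz
      · intro j; simpa using hxF j) h1
    omega
  obtain ⟨c, hc⟩ := (Submodule.mem_span_range_iff_exists_fun _).mp hmem
  exact ⟨fun i => (c i : LaurentSeries ℚ), fun i => (c i).2, by rw [← hc]; rfl⟩

include hdeg hx hxF in
lemma exists_integral_coeffs (z : LaurentSeries ℚ) (hz : z ∈ modularFunctionFieldFull N)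
    (hzO : z ∈ Ocal ℓ) :
    ∃ c : Fin (dedekindPsi N) → LaurentSeries ℚ,
      (∀ i, c i ∈ IntermediateField.adjoin ℚ {jq}) ∧ (∀ i, c i ∈ Ocal ℓ) ∧
        z = ∑ i, c i * (x i : LaurentSeries ℚ) := by
  obtain ⟨c, hcK, hzc⟩ := exists_coeffs ℓ N hdeg x hx hxF z hz
  obtain ⟨E, hE⟩ := exists_common_pow ℓ c (fun i => K0_le_Wf ℓ (hcK i))
  exact ⟨c, hcK, coeff_mem_Ocal_aux ℓ x hx E c hcK hE (hzc ▸ hzO), hzc⟩

/-- The valuation ring of `ℚ(j)` for the Gauss valuation. -/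
noncomputable def Vring : Subring (LaurentSeries ℚ) :=
  Ocal ℓ ⊓ (IntermediateField.adjoin ℚ {jq}).toSubring

include hdeg hx hxF in
lemma mem_span_Vring (z : LaurentSeries ℚ) (hz : z ∈ modularFunctionFieldFull N)
    (hzO : z ∈ Ocal ℓ) :
    z ∈ Submodule.span (Vring ℓ) (Set.range (fun i => (x i : LaurentSeries ℚ))) := by
  obtain ⟨c, hcK, hcO, rfl⟩ := exists_integral_coeffs ℓ N hdeg x hx hxF z hz hzO
  refine Submodule.sum_mem _ fun i _ => ?_
  have : c i * (x i : LaurentSeries ℚ) = (⟨c i, hcO i, hcK i⟩ : Vring ℓ) • (x i : LaurentSeries ℚ) :=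
    rfl
  rw [this]
  exact Submodule.smul_mem _ _ (Submodule.subset_span ⟨i, rfl⟩)

include hdeg hx hxF in
lemma isIntegralElem_Vring (y : LaurentSeries ℚ) (hy : y ∈ modularFunctionFieldFull N)
    (hyO : y ∈ Ocal ℓ) : (Vring ℓ).subtype.IsIntegralElem y := by
  let M : Submodule (Vring ℓ) (LaurentSeries ℚ) :=
    Submodule.span (Vring ℓ) (insert 1 (Set.range (fun i => (x i : LaurentSeries ℚ))))
  have hM0 : M ≠ ⊥ := by
    intro h0
    have h1 : (1 : LaurentSeries ℚ) ∈ M := Submodule.subset_span (Set.mem_insert _ _)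
    rw [h0, Submodule.mem_bot] at h1
    exact one_ne_zero h1
  have hfg : M.FG := Submodule.fg_span ((Set.finite_range _).insert _)
  have hsub : Submodule.span (Vring ℓ) (Set.range (fun i => (x i : LaurentSeries ℚ))) ≤ M :=
    Submodule.span_mono (Set.subset_insert _ _)
  have hmul : ∀ n ∈ M, y • n ∈ M := by
    intro n hn
    induction hn using Submodule.span_induction with
    | mem v hv =>
      rcases hv with rfl | ⟨i, rfl⟩
      · rw [smul_eq_mul, mul_one]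
        exact hsub (mem_span_Vring ℓ N hdeg x hx hxF y hy hyO)
      · exact hsub (mem_span_Vring ℓ N hdeg x hx hxF _ (mul_mem hy (hxF i))
          ((Ocal ℓ).mul_mem hyO (x i).2))
    | zero => rw [smul_zero]; exact zero_mem _
    | add u v _ _ hu hv => rw [smul_add]; exact add_mem hu hv
    | smul r v _ hv => rw [smul_comm]; exact Submodule.smul_mem _ _ hv
  exact isIntegral_of_smul_mem_submodule M hM0 hfg y hmul

include hdeg hx hxF in
/-- Coefficients of the minimal polynomial over `ℚ(j)` of an `ℓ`-integral element of `F_N` are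
`ℓ`-integral. -/
lemma coeff_minpoly_mem_Ocal (y : LaurentSeries ℚ) (hy : y ∈ modularFunctionFieldFull N)
    (hyO : y ∈ Ocal ℓ) (n : ℕ) :
    (((minpoly (IntermediateField.adjoin ℚ {jq}) y).coeff n : IntermediateField.adjoin ℚ {jq}) :
      LaurentSeries ℚ) ∈ Ocal ℓ := by
  have h1 := isIntegralElem_Vring ℓ N hdeg x hx hxF y hy hyO
  have h2 := isIntegralElem_coeff_minpoly (IntermediateField.adjoin ℚ {jq}) (Vring ℓ).subtype
    (fun r => r.2.2) h1 n
  refine mem_Ocal_of_isIntegralElem ℓ (K0_le_Wf ℓ (SetLike.coe_mem _)) ?_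
  obtain ⟨p, hp, hpc⟩ := h2
  refine ⟨p.map (Subring.inclusion (inf_le_left : Vring ℓ ≤ Ocal ℓ)), hp.map _, ?_⟩
  rw [Polynomial.eval₂_map]
  exact hpc

end Degree

end Fermat.Agent.S28.Reduction
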