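import Mathlib
import Fermat.Agent.S28.Defs

set_option autoImplicit false

noncomputable section

namespace Fermat.Agent.S28

open ModularCurve
open scoped PowerSeries.WithPiTopology

namespace DeltaProd

/-- congruence of finite products modulo a divisor. -/
theorem dvd_prod_sub_prod {A : Type*} [CommRing A] {ι : Type*} (d : A) (s : Finset ι)
    (f g : ι → A) (h : ∀ i ∈ s, d ∣ f i - g i) : d ∣ ∏ i ∈ s, f i - ∏ i ∈ s, g i := by
  classical
  induction s using Finset.induction_on with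
  | empty => simp
  | insert a s ha ih =>
    rw [Finset.prod_insert ha, Finset.prod_insert ha]
    have h1 : d ∣ f a - g a := h a (Finset.mem_insert_self a s)
    have h2 : d ∣ ∏ i ∈ s, f i - ∏ i ∈ s, g i :=
      ih fun i hi => h i (Finset.mem_insert_of_mem hi)
    have e : f a * ∏ i ∈ s, f i - g a * ∏ i ∈ s, g i =
        f a * (∏ i ∈ s, f i - ∏ i ∈ s, g i) + (f a - g a) * ∏ i ∈ s, g i := by ring
    rw [e]
    exact dvd_add (dvd_mul_of_dvd_right h2 _) (dvd_mul_of_dvd_left h1 _)

theorem dvd_mul_sub_mul {A : Type*} [CommRing A] {d a a' b b' : A} (ha : d ∣ a - a')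
    (hb : d ∣ b - b') : d ∣ a * b - a' * b' := by
  have e : a * b - a' * b' = (a - a') * b + a' * (b - b') := by ring
  rw [e]
  exact dvd_add (dvd_mul_of_dvd_left ha _) (dvd_mul_of_dvd_right hb _)

theorem dvd_pow_sub_pow {A : Type*} [CommRing A] {d a a' : A} (ha : d ∣ a - a') (n : ℕ) :
    d ∣ a ^ n - a' ^ n :=
  dvd_trans ha (sub_dvd_pow_sub_pow a a' n)

/-- truncation of the Euler product over `ℤ`. -/
theorem X_pow_dvd_etaProd_sub (M : ℕ) :
    (PowerSeries.X : PowerSeries ℤ) ^ (M + 1) ∣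
      etaProd - ∏ n ∈ Finset.range M, (1 - PowerSeries.X ^ (n + 1)) := by
  rw [PowerSeries.X_pow_dvd_iff]
  intro d hd
  rw [map_sub, sub_eq_zero]
  have h := (PowerSeries.WithPiTopology.multipliable_one_sub_X_pow ℤ).hasProd
  have hd' := ((PowerSeries.WithPiTopology.continuous_coeff ℤ d).tendsto _).comp h
  rw [nhds_discrete, Filter.tendsto_pure, SummationFilter.unconditional_filter,
    Filter.eventually_atTop] at hd'
  obtain ⟨s₀, hs₀⟩ := hd'
  have h1 := hs₀ (s₀ ∪ Finset.range M) Finset.subset_union_left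
  simp only [Function.comp_apply] at h1
  rw [etaProd, ← h1]
  have hU : s₀ ∪ Finset.range M = Finset.range M ∪ (s₀ \ Finset.range M) := by
    rw [Finset.union_sdiff_self_eq_union, Finset.union_comm]
  rw [hU, Finset.prod_union Finset.disjoint_sdiff]
  have hB : (PowerSeries.X : PowerSeries ℤ) ^ (M + 1) ∣
      ∏ n ∈ s₀ \ Finset.range M, (1 - PowerSeries.X ^ (n + 1)) - ∏ n ∈ s₀ \ Finset.range M, 1 := by
    apply dvd_prod_sub_prod
    intro i hi
    have hi' : M ≤ i := by
      have := (Finset.mem_sdiff.mp hi).2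
      simpa using this
    have e : (1 : PowerSeries ℤ) - PowerSeries.X ^ (i + 1) - 1 = -PowerSeries.X ^ (i + 1) := by ring
    rw [e, dvd_neg]
    exact pow_dvd_pow _ (by omega)
  rw [Finset.prod_const_one] at hB
  have hC : (PowerSeries.X : PowerSeries ℤ) ^ (M + 1) ∣
      (∏ n ∈ Finset.range M, (1 - PowerSeries.X ^ (n + 1))) *
        ∏ n ∈ s₀ \ Finset.range M, (1 - PowerSeries.X ^ (n + 1)) -
      ∏ n ∈ Finset.range M, (1 - PowerSeries.X ^ (n + 1)) := by
    have e : (∏ n ∈ Finset.range M, (1 - (PowerSeries.X : PowerSeries ℤ) ^ (n + 1))) *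
        ∏ n ∈ s₀ \ Finset.range M, (1 - PowerSeries.X ^ (n + 1)) -
      ∏ n ∈ Finset.range M, (1 - PowerSeries.X ^ (n + 1)) =
      (∏ n ∈ Finset.range M, (1 - (PowerSeries.X : PowerSeries ℤ) ^ (n + 1))) *
        (∏ n ∈ s₀ \ Finset.range M, (1 - PowerSeries.X ^ (n + 1)) - 1) := by ring
    rw [e]
    exact dvd_mul_of_dvd_right hB _
  have := (PowerSeries.X_pow_dvd_iff.mp hC) d hd
  rw [map_sub, sub_eq_zero] at this
  exact this

/-- the Euler product `∏ (1 - X^n)` over an arbitrary ring. -/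
def eta (R : Type*) [CommRing R] : PowerSeries R := etaProd.map (Int.castRingHom R)

theorem X_pow_dvd_eta_sub (R : Type*) [CommRing R] (M : ℕ) :
    (PowerSeries.X : PowerSeries R) ^ (M + 1) ∣
      eta R - ∏ n ∈ Finset.range M, (1 - PowerSeries.X ^ (n + 1)) := by
  have h := map_dvd (PowerSeries.map (Int.castRingHom R)) (X_pow_dvd_etaProd_sub M)
  simpa [eta, map_sub, map_prod, map_pow, PowerSeries.map_X] using h

theorem X_pow_dvd_eta_sub' (R : Type*) [CommRing R] {D M : ℕ} (h : D ≤ M + 1) :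
    (PowerSeries.X : PowerSeries R) ^ D ∣
      eta R - ∏ n ∈ Finset.range M, (1 - PowerSeries.X ^ (n + 1)) :=
  dvd_trans (pow_dvd_pow _ h) (X_pow_dvd_eta_sub R M)

/-- `∏_{b<p} (x - ξ^b y) = x^p - y^p` for a primitive `p`-th root of unity `ξ`. -/
theorem prod_sub_pow_mul {A : Type*} [CommRing A] [IsDomain A] {ξ : A} {p : ℕ} (hp : 0 < p)
    (hξ : IsPrimitiveRoot ξ p) (x y : A) :
    ∏ b ∈ Finset.range p, (x - ξ ^ b * y) = x ^ p - y ^ p := by
  classical
  have : NeZero p := ⟨hp.ne'⟩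
  rw [hξ.pow_sub_pow_eq_prod_sub_mul x y hp]
  refine Finset.prod_nbij (fun b => ξ ^ b) ?_ ?_ ?_ ?_
  · intro b _
    rw [Polynomial.mem_nthRootsFinset hp, ← pow_mul, mul_comm, pow_mul, hξ.pow_eq_one, one_pow]
  · intro a ha b hb hab
    exact hξ.pow_inj (Finset.mem_range.mp ha) (Finset.mem_range.mp hb) hab
  · intro μ hμ
    have hμ' : μ ^ p = 1 := (Polynomial.mem_nthRootsFinset hp 1).mp hμ
    obtain ⟨i, hi, rfl⟩ := hξ.eq_pow_of_pow_eq_one hμ'
    exact ⟨i, Finset.mem_range.mpr hi, rfl⟩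
  · intro b _
    rfl

theorem prod_pow_primitiveRoot {k : Type*} [Field k] {ζ : k} {p : ℕ} (hp : 0 < p)
    (hζ : IsPrimitiveRoot ζ p) : ∏ b ∈ Finset.range p, ζ ^ b = (-1) ^ (p + 1) := by
  have h := prod_sub_pow_mul hp hζ (0 : k) 1
  have e : ∀ b ∈ Finset.range p, (0 : k) - ζ ^ b * 1 = (-1) * ζ ^ b := fun b _ => by ring
  rw [Finset.prod_congr rfl e, Finset.prod_mul_distrib, Finset.prod_const, Finset.card_range,
    zero_pow hp.ne', one_pow, zero_sub] at h
  have h2 : ((-1 : k) ^ p) * ((-1) ^ p * ∏ b ∈ Finset.range p, ζ ^ b) = (-1) ^ p * (-1) := by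
    rw [h]
  have h3 : ((-1 : k) ^ p) * (-1) ^ p = 1 := by
    rw [← mul_pow]; simp
  rw [← mul_assoc, h3, one_mul] at h2
  rw [h2, pow_succ]

section Norm

variable {k : Type*} [Field k]

/-- the "norm" `f ↦ ∏_{b<p} f(ζ^b X)` as a monoid hom. -/
def normHom (ζ : k) (p : ℕ) : PowerSeries k →* PowerSeries k :=
  ∏ b ∈ Finset.range p, ((PowerSeries.rescale (ζ ^ b) : PowerSeries k →+* PowerSeries k) :
    PowerSeries k →* PowerSeries k)

theorem normHom_apply (ζ : k) (p : ℕ) (f : PowerSeries k) :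
    normHom ζ p f = ∏ b ∈ Finset.range p, PowerSeries.rescale (ζ ^ b) f := by
  rw [normHom, MonoidHom.finsetProd_apply]
  rfl

theorem rescale_one_sub_X_pow (a : k) (n : ℕ) :
    PowerSeries.rescale a (1 - PowerSeries.X ^ n : PowerSeries k) =
      1 - PowerSeries.C (a ^ n) * PowerSeries.X ^ n := by
  rw [map_sub, map_one, map_pow, PowerSeries.rescale_X, mul_pow, ← map_pow]

theorem normHom_one_sub_X_pow_of_dvd {ζ : k} {p : ℕ} (hζ : ζ ^ p = 1) {n : ℕ} (hn : p ∣ n) :
    normHom ζ p (1 - PowerSeries.X ^ n) = (1 - PowerSeries.X ^ n) ^ p := by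
  rw [normHom_apply]
  have e : ∀ b ∈ Finset.range p, PowerSeries.rescale (ζ ^ b) (1 - PowerSeries.X ^ n : PowerSeries k)
      = 1 - PowerSeries.X ^ n := by
    intro b _
    obtain ⟨m, rfl⟩ := hn
    rw [rescale_one_sub_X_pow, ← pow_mul, mul_comm b, mul_assoc, pow_mul, hζ, one_pow, map_one,
      one_mul]
  rw [Finset.prod_congr rfl e, Finset.prod_const, Finset.card_range]

theorem normHom_one_sub_X_pow_of_not_dvd {ζ : k} {p : ℕ} (hp : p.Prime)
    (hζ : IsPrimitiveRoot ζ p) {n : ℕ} (hn : ¬ p ∣ n) :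
    normHom ζ p (1 - PowerSeries.X ^ n) = 1 - PowerSeries.X ^ (p * n) := by
  rw [normHom_apply]
  have hξ : IsPrimitiveRoot (PowerSeries.C (ζ ^ n) : PowerSeries k) p :=
    (hζ.pow_of_coprime n ((Nat.Prime.coprime_iff_not_dvd hp).mpr hn).symm).map_of_injective
      (PowerSeries.C_injective)
  have e : ∀ b ∈ Finset.range p, PowerSeries.rescale (ζ ^ b) (1 - PowerSeries.X ^ n : PowerSeries k)
      = 1 - (PowerSeries.C (ζ ^ n) : PowerSeries k) ^ b * PowerSeries.X ^ n := by
    intro b _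
    rw [rescale_one_sub_X_pow, ← map_pow, ← pow_mul, ← pow_mul, mul_comm b n]
  rw [Finset.prod_congr rfl e, prod_sub_pow_mul hp.pos hξ, one_pow, ← pow_mul, mul_comm]

end Norm

section Main

variable {k : Type*} [Field k]

/-- partial Euler products. -/
def pe (R : Type*) [CommRing R] (M : ℕ) : PowerSeries R :=
  ∏ n ∈ Finset.range M, (1 - PowerSeries.X ^ (n + 1))

theorem pe_succ (R : Type*) [CommRing R] (M : ℕ) :
    pe R (M + 1) = pe R M * (1 - PowerSeries.X ^ (M + 1)) := by
  rw [pe, Finset.prod_range_succ, pe]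

theorem pe_add (R : Type*) [CommRing R] (M n : ℕ) :
    pe R (M + n) = pe R M * ∏ i ∈ Finset.range n, (1 - PowerSeries.X ^ (M + i + 1)) := by
  rw [pe, Finset.prod_range_add, pe]

theorem expand_one_sub_X_pow (R : Type*) [CommRing R] (m : ℕ) (hm : m ≠ 0) (n : ℕ) :
    PowerSeries.expand m hm (1 - PowerSeries.X ^ n : PowerSeries R) =
      1 - PowerSeries.X ^ (m * n) := by
  rw [map_sub, map_one, map_pow, PowerSeries.expand_X, ← pow_mul]

theorem finite_identity {ζ : k} {p : ℕ} (hp : p.Prime) (hζ : IsPrimitiveRoot ζ p) (M : ℕ) :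
    normHom ζ p (pe k (p * M)) * PowerSeries.expand (p ^ 2) (pow_ne_zero 2 hp.ne_zero) (pe k M) =
      PowerSeries.expand p hp.ne_zero (pe k (p * M)) *
        PowerSeries.expand p hp.ne_zero (pe k M) ^ p := by
  induction M with
  | zero => simp [pe]
  | succ M ih =>
    obtain ⟨q, hq⟩ : ∃ q, p = q + 1 := ⟨p - 1, (Nat.succ_pred_eq_of_pos hp.pos).symm⟩
    have hpM : p * (M + 1) = p * M + (q + 1) := by rw [mul_add, mul_one, ← hq]
    have hlast : p * M + q + 1 = p * (M + 1) := by rw [hpM]; ring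
    have hpe : pe k (p * (M + 1)) = pe k (p * M) *
        ((∏ i ∈ Finset.range q, (1 - PowerSeries.X ^ (p * M + i + 1))) *
          (1 - PowerSeries.X ^ (p * (M + 1)))) := by
      rw [hpM, pe_add, Finset.prod_range_succ, add_assoc (p * M) q 1]
    have h1 : normHom ζ p (pe k (p * (M + 1))) = normHom ζ p (pe k (p * M)) *
        ((∏ i ∈ Finset.range q, (1 - PowerSeries.X ^ (p * (p * M + i + 1)))) *
          (1 - PowerSeries.X ^ (p * (M + 1))) ^ p) := by
      rw [hpe, map_mul, map_mul, map_prod]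
      congr 2
      · refine Finset.prod_congr rfl fun i hi => ?_
        apply normHom_one_sub_X_pow_of_not_dvd hp hζ
        have hi' : i < q := Finset.mem_range.mp hi
        rw [add_assoc, Nat.dvd_add_right (dvd_mul_right p M)]
        exact Nat.not_dvd_of_pos_of_lt (Nat.succ_pos i) (by omega)
      · exact normHom_one_sub_X_pow_of_dvd hζ.pow_eq_one (dvd_mul_right p (M + 1))
    have h2 : PowerSeries.expand (p ^ 2) (pow_ne_zero 2 hp.ne_zero) (pe k (M + 1)) =
        PowerSeries.expand (p ^ 2) (pow_ne_zero 2 hp.ne_zero) (pe k M) *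
          (1 - PowerSeries.X ^ (p ^ 2 * (M + 1))) := by
      rw [pe_succ, map_mul, expand_one_sub_X_pow]
    have h3 : PowerSeries.expand p hp.ne_zero (pe k (p * (M + 1))) =
        PowerSeries.expand p hp.ne_zero (pe k (p * M)) *
          ((∏ i ∈ Finset.range q, (1 - PowerSeries.X ^ (p * (p * M + i + 1)))) *
            (1 - PowerSeries.X ^ (p ^ 2 * (M + 1)))) := by
      rw [hpe, map_mul, map_mul, map_prod]
      congr 2
      · refine Finset.prod_congr rfl fun i _ => ?_
        rw [expand_one_sub_X_pow]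
      · rw [expand_one_sub_X_pow, sq, mul_assoc]
    have h4 : PowerSeries.expand p hp.ne_zero (pe k (M + 1)) =
        PowerSeries.expand p hp.ne_zero (pe k M) * (1 - PowerSeries.X ^ (p * (M + 1))) := by
      rw [pe_succ, map_mul, expand_one_sub_X_pow]
    rw [h1, h2, h3, h4]
    generalize (∏ i ∈ Finset.range q, (1 - (PowerSeries.X : PowerSeries k) ^ (p * (p * M + i + 1))))
      = B
    generalize (1 - (PowerSeries.X : PowerSeries k) ^ (p * (M + 1))) = C
    generalize (1 - (PowerSeries.X : PowerSeries k) ^ (p ^ 2 * (M + 1))) = D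
    generalize normHom ζ p (pe k (p * M)) = a at ih ⊢
    generalize PowerSeries.expand (p ^ 2) (pow_ne_zero 2 hp.ne_zero) (pe k M) = a' at ih ⊢
    generalize PowerSeries.expand p hp.ne_zero (pe k (p * M)) = e at ih ⊢
    generalize PowerSeries.expand p hp.ne_zero (pe k M) = f at ih ⊢
    linear_combination (B * C ^ p * D) * ih

theorem rescale_dvd (a : k) {D : ℕ} {f g : PowerSeries k}
    (h : (PowerSeries.X : PowerSeries k) ^ D ∣ f - g) :
    (PowerSeries.X : PowerSeries k) ^ D ∣ PowerSeries.rescale a f - PowerSeries.rescale a g := by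
  obtain ⟨c, hc⟩ := h
  rw [← map_sub, hc, map_mul, map_pow, PowerSeries.rescale_X, mul_pow]
  exact dvd_mul_of_dvd_left (dvd_mul_left _ _) _

theorem normHom_dvd (ζ : k) (p : ℕ) {D : ℕ} {f g : PowerSeries k}
    (h : (PowerSeries.X : PowerSeries k) ^ D ∣ f - g) :
    (PowerSeries.X : PowerSeries k) ^ D ∣ normHom ζ p f - normHom ζ p g := by
  rw [normHom_apply, normHom_apply]
  exact dvd_prod_sub_prod _ _ _ _ fun b _ => rescale_dvd _ h

theorem expand_dvd (m : ℕ) (hm : m ≠ 0) {D : ℕ} {f g : PowerSeries k}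
    (h : (PowerSeries.X : PowerSeries k) ^ D ∣ f - g) :
    (PowerSeries.X : PowerSeries k) ^ D ∣
      PowerSeries.expand m hm f - PowerSeries.expand m hm g := by
  obtain ⟨c, hc⟩ := h
  rw [← map_sub, hc, map_mul, map_pow, PowerSeries.expand_X, ← pow_mul]
  exact dvd_mul_of_dvd_left (pow_dvd_pow _ (Nat.le_mul_of_pos_left D (Nat.pos_of_ne_zero hm))) _

/-- the product identity for the Euler product. -/
theorem eta_identity {ζ : k} {p : ℕ} (hp : p.Prime) (hζ : IsPrimitiveRoot ζ p) :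
    normHom ζ p (eta k) * PowerSeries.expand (p ^ 2) (pow_ne_zero 2 hp.ne_zero) (eta k) =
      PowerSeries.expand p hp.ne_zero (eta k) ^ (p + 1) := by
  rw [← sub_eq_zero]
  ext d
  rw [map_zero]
  refine (PowerSeries.X_pow_dvd_iff.mp ?_) d (Nat.lt_succ_self d)
  have hA : (PowerSeries.X : PowerSeries k) ^ (d + 1) ∣ eta k - pe k (p * d) :=
    X_pow_dvd_eta_sub' k (by
      have := Nat.le_mul_of_pos_left d hp.pos
      omega)
  have hB : (PowerSeries.X : PowerSeries k) ^ (d + 1) ∣ eta k - pe k d :=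
    X_pow_dvd_eta_sub' k le_rfl
  have hL := dvd_mul_sub_mul (normHom_dvd ζ p hA)
    (expand_dvd (p ^ 2) (pow_ne_zero 2 hp.ne_zero) hB)
  have hR := dvd_mul_sub_mul (expand_dvd p hp.ne_zero hA)
    (dvd_pow_sub_pow (expand_dvd p hp.ne_zero hB) p)
  rw [finite_identity hp hζ d] at hL
  have e : normHom ζ p (eta k) * PowerSeries.expand (p ^ 2) (pow_ne_zero 2 hp.ne_zero) (eta k) -
      PowerSeries.expand p hp.ne_zero (eta k) ^ (p + 1) =
      (normHom ζ p (eta k) * PowerSeries.expand (p ^ 2) (pow_ne_zero 2 hp.ne_zero) (eta k) -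
        PowerSeries.expand p hp.ne_zero (pe k (p * d)) *
          PowerSeries.expand p hp.ne_zero (pe k d) ^ p) -
      (PowerSeries.expand p hp.ne_zero (eta k) * PowerSeries.expand p hp.ne_zero (eta k) ^ p -
        PowerSeries.expand p hp.ne_zero (pe k (p * d)) *
          PowerSeries.expand p hp.ne_zero (pe k d) ^ p) := by ring
  rw [e]
  exact dvd_sub hL hR

end Main

section Bridge

variable {R : Type*} [CommRing R]

theorem scale_ofPowerSeries (ζ : Rˣ) (f : PowerSeries R) :
    scale ζ (HahnSeries.ofPowerSeries ℤ R f) =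
      HahnSeries.ofPowerSeries ℤ R (PowerSeries.rescale (ζ : R) f) := by
  ext n
  show (scaleFun ζ _).coeff n = _
  rw [scaleFun_coeff]
  rcases le_or_gt 0 n with hn | hn
  · lift n to ℕ using hn
    rw [HahnSeries.ofPowerSeries_apply_coeff, HahnSeries.ofPowerSeries_apply_coeff,
      PowerSeries.coeff_rescale, zpow_natCast, Units.val_pow_eq_pow_val]
  · rw [ofPowerSeries_coeff_of_neg _ hn, ofPowerSeries_coeff_of_neg _ hn, mul_zero]

theorem expand_eq_qExpand' (m : ℕ) [NeZero m] : expand R m = qExpand R m := by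
  unfold expand
  rw [dif_neg (NeZero.ne m)]

theorem expand_ofPowerSeries (m : ℕ) (hm : m ≠ 0) (f : PowerSeries R) :
    expand R m (HahnSeries.ofPowerSeries ℤ R f) =
      HahnSeries.ofPowerSeries ℤ R (PowerSeries.expand m hm f) := by
  have : NeZero m := ⟨hm⟩
  rw [expand_eq_qExpand']
  ext n
  by_cases hdvd : (m : ℤ) ∣ n
  · obtain ⟨j, rfl⟩ := hdvd
    rw [qExpand_coeff_mul]
    rcases le_or_gt 0 j with hj | hj
    · lift j to ℕ using hj
      rw [show ((m : ℤ) * (j : ℤ)) = ((m * j : ℕ) : ℤ) by push_cast; ring,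
        HahnSeries.ofPowerSeries_apply_coeff, HahnSeries.ofPowerSeries_apply_coeff,
        PowerSeries.coeff_expand_mul]
    · have hm' : (0 : ℤ) < m := by exact_mod_cast Nat.pos_of_ne_zero hm
      rw [ofPowerSeries_coeff_of_neg _ hj, ofPowerSeries_coeff_of_neg _ (by nlinarith)]
  · rw [qExpand_coeff_of_not_dvd _ _ hdvd]
    rcases le_or_gt 0 n with hn | hn
    · lift n to ℕ using hn
      rw [HahnSeries.ofPowerSeries_apply_coeff, PowerSeries.coeff_expand_of_not_dvd]
      intro h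
      exact hdvd (Int.natCast_dvd_natCast.mpr h)
    · rw [ofPowerSeries_coeff_of_neg _ hn]

theorem scale_single_one (ζ : Rˣ) :
    scale ζ (HahnSeries.single (1 : ℤ) (1 : R)) =
      HahnSeries.C (ζ : R) * HahnSeries.single (1 : ℤ) (1 : R) := by
  ext n
  show (scaleFun ζ _).coeff n = _
  rw [scaleFun_coeff, HahnSeries.C_mul_eq_smul, HahnSeries.coeff_smul, smul_eq_mul]
  rcases eq_or_ne n 1 with rfl | hn
  · rw [zpow_one]
  · rw [HahnSeries.coeff_single_of_ne hn, mul_zero, mul_zero]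

theorem expand_single_one (m : ℕ) (hm : m ≠ 0) :
    expand R m (HahnSeries.single (1 : ℤ) (1 : R)) = HahnSeries.single (1 : ℤ) (1 : R) ^ m := by
  have : NeZero m := ⟨hm⟩
  rw [expand_eq_qExpand', qExpand_single, HahnSeries.single_pow, one_pow, mul_one]
  simp

theorem deltaS_eq (R : Type*) [CommRing R] :
    deltaS R = HahnSeries.single (1 : ℤ) (1 : R) * HahnSeries.ofPowerSeries ℤ R (eta R) ^ 24 := by
  rw [deltaS, dedekindEtaUnit, map_pow, map_pow]
  rfl

theorem scale_deltaS (ζ : Rˣ) :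
    scale ζ (deltaS R) = HahnSeries.C (ζ : R) * HahnSeries.single (1 : ℤ) (1 : R) *
      HahnSeries.ofPowerSeries ℤ R (PowerSeries.rescale (ζ : R) (eta R)) ^ 24 := by
  rw [deltaS_eq, map_mul, map_pow, scale_single_one, scale_ofPowerSeries]

theorem expand_deltaS (m : ℕ) (hm : m ≠ 0) :
    expand R m (deltaS R) = HahnSeries.single (1 : ℤ) (1 : R) ^ m *
      HahnSeries.ofPowerSeries ℤ R (PowerSeries.expand m hm (eta R)) ^ 24 := by
  rw [deltaS_eq, map_mul, map_pow, expand_single_one m hm, expand_ofPowerSeries m hm]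

end Bridge

end DeltaProd

/-! ## The five Plan statements of `[DeltaProd]` -/

theorem coeffMap_deltaS {R S : Type*} [CommRing R] [CommRing S] (φ : R →+* S) :
    coeffMap φ (deltaS R) = deltaS S := by
  rw [deltaS, map_mul, coeffMap_single, map_one, coeffMap_ofPowerSeries,
    ← RingHom.comp_apply (PowerSeries.map φ) (PowerSeries.map (Int.castRingHom R)),
    ← PowerSeries.map_comp, RingHom.ext_int (φ.comp (Int.castRingHom R)) (Int.castRingHom S)]
  rfl

theorem deltaS_ne_zero (R : Type*) [CommRing R] [Nontrivial R] : deltaS R ≠ 0 := by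
  intro h
  have h1 : (deltaS R).coeff 1 = 1 := by
    rw [deltaS, HahnSeries.coeff_single_mul, one_mul, sub_self,
      show (0 : ℤ) = ((0 : ℕ) : ℤ) from rfl, HahnSeries.ofPowerSeries_apply_coeff,
      PowerSeries.coeff_map, PowerSeries.coeff_zero_eq_constantCoeff,
      constantCoeff_dedekindEtaUnit]
    simp
  rw [h] at h1
  simp at h1

/-- `∏_b Δ(ζ^b s) · Δ(s^{p²}) = ε · Δ(s^p)^{p+1}` with `ε = (-1)^(p+1)`. -/
theorem deltaS_prod (k : Type*) [Field k] (p : ℕ) (hp : p.Prime) (ζ : kˣ)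
    (hζ : IsPrimitiveRoot ζ p) :
    (∏ b ∈ Finset.range p, scale (ζ ^ b) (deltaS k)) * expand k (p ^ 2) (deltaS k) =
      (-1) ^ (p + 1) * expand k p (deltaS k) ^ (p + 1) := by
  have hζ' : IsPrimitiveRoot (ζ : k) p := IsPrimitiveRoot.coe_units_iff.mpr hζ
  have hkey := congrArg (HahnSeries.ofPowerSeries ℤ k) (DeltaProd.eta_identity hp hζ')
  rw [map_mul, map_pow] at hkey
  have h24 := congrArg (· ^ 24) hkey
  simp only [mul_pow] at h24
  have hprod : ∏ b ∈ Finset.range p, scale (ζ ^ b) (deltaS k) =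
      HahnSeries.C ((-1 : k) ^ (p + 1)) * HahnSeries.single (1 : ℤ) (1 : k) ^ p *
        HahnSeries.ofPowerSeries ℤ k (DeltaProd.normHom (ζ : k) p (DeltaProd.eta k)) ^ 24 := by
    simp only [DeltaProd.scale_deltaS, Units.val_pow_eq_pow_val]
    rw [Finset.prod_mul_distrib, Finset.prod_mul_distrib, Finset.prod_const, Finset.card_range,
      ← map_prod, DeltaProd.prod_pow_primitiveRoot hp.pos hζ', Finset.prod_pow, ← map_prod,
      DeltaProd.normHom_apply]
  rw [hprod, DeltaProd.expand_deltaS (p ^ 2) (pow_ne_zero 2 hp.ne_zero),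
    DeltaProd.expand_deltaS p hp.ne_zero, map_pow, map_neg, map_one]
  generalize HahnSeries.single (1 : ℤ) (1 : k) = T at *
  generalize HahnSeries.ofPowerSeries ℤ k (DeltaProd.normHom (ζ : k) p (DeltaProd.eta k)) = A at *
  generalize HahnSeries.ofPowerSeries ℤ k
    (PowerSeries.expand (p ^ 2) (pow_ne_zero 2 hp.ne_zero) (DeltaProd.eta k)) = B at *
  generalize HahnSeries.ofPowerSeries ℤ k
    (PowerSeries.expand p hp.ne_zero (DeltaProd.eta k)) = E at *
  linear_combination ((-1) ^ (p + 1) * T ^ p * T ^ (p ^ 2)) * h24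

theorem DeltaProd.map_eisenstein4_of_240 (R : Type*) [CommRing R] (h : (240 : R) = 0) :
    eisenstein4.map (Int.castRingHom R) = 1 := by
  ext n
  rw [PowerSeries.coeff_map, eisenstein4, PowerSeries.coeff_mk, PowerSeries.coeff_one]
  by_cases hn : n = 0
  · simp [hn]
  · rw [if_neg hn, if_neg hn, eq_intCast, Int.cast_mul]
    have : ((240 : ℤ) : R) = 0 := by exact_mod_cast h
    rw [this, zero_mul]

/-- `j · Δ = E₄³`; in particular `j · Δ = 1` when `240 = 0` in `R`. -/
theorem jqModC_mul_deltaS_of_240 (R : Type*) [CommRing R] (h : (240 : R) = 0) :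
    jqModC R * deltaS R = 1 := by
  have e1 : jNum * dedekindEtaUnit = eisenstein4 ^ 3 := by
    rw [jNum, mul_assoc, mul_comm dedekindEtaUnitInv, dedekindEtaUnit_mul_inv, mul_one]
  have e2 : (HahnSeries.single (-1 : ℤ) (1 : R)) * HahnSeries.single (1 : ℤ) (1 : R) = 1 := by
    rw [HahnSeries.single_mul_single]
    simp
  have e3 : HahnSeries.ofPowerSeries ℤ R (jNum.map (Int.castRingHom R)) *
      HahnSeries.ofPowerSeries ℤ R (dedekindEtaUnit.map (Int.castRingHom R)) = 1 := by
    rw [← map_mul, ← map_mul, e1, map_pow, DeltaProd.map_eisenstein4_of_240 R h, one_pow, map_one]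
  rw [jqModC, deltaS]
  calc HahnSeries.single (-1 : ℤ) (1 : R) *
        HahnSeries.ofPowerSeries ℤ R (jNum.map (Int.castRingHom R)) *
        (HahnSeries.single (1 : ℤ) (1 : R) *
          HahnSeries.ofPowerSeries ℤ R (dedekindEtaUnit.map (Int.castRingHom R)))
      = (HahnSeries.single (-1 : ℤ) (1 : R) * HahnSeries.single (1 : ℤ) (1 : R)) *
        (HahnSeries.ofPowerSeries ℤ R (jNum.map (Int.castRingHom R)) *
          HahnSeries.ofPowerSeries ℤ R (dedekindEtaUnit.map (Int.castRingHom R))) := by ring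
    _ = 1 := by rw [e2, e3, one_mul]

/-- `η ≡ 1 - X` modulo `X²`, in the form `η = 1 - X u` with `u(0) = 1`. -/
theorem DeltaProd.exists_eta_eq (R : Type*) [CommRing R] :
    ∃ u : PowerSeries R, PowerSeries.constantCoeff u = 1 ∧
      DeltaProd.eta R = 1 - PowerSeries.X * u := by
  obtain ⟨c, hc⟩ := DeltaProd.X_pow_dvd_eta_sub R 1
  refine ⟨1 - PowerSeries.X * c, by simp, ?_⟩
  have hc' : DeltaProd.eta R - (1 - PowerSeries.X ^ 1) = PowerSeries.X ^ 2 * c := by
    simpa using hc
  linear_combination hc'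

/-- `q · j ≠ 1` in characteristic `2` and `3` (coefficient of `q^7` resp. `q^2` of `j`). -/
theorem jqModC_ne_single (k : Type*) [Field k] (h : (2 : k) = 0 ∨ (3 : k) = 0) :
    jqModC k ≠ HahnSeries.single (-1 : ℤ) (1 : k) := by
  intro hj
  have h240 : (240 : k) = 0 := by
    rcases h with h | h
    · have : (240 : k) = 2 * 120 := by norm_num
      rw [this, h, zero_mul]
    · have : (240 : k) = 3 * 80 := by norm_num
      rw [this, h, zero_mul]
  have h1 := jqModC_mul_deltaS_of_240 k h240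
  rw [hj, DeltaProd.deltaS_eq] at h1
  have e2 : (HahnSeries.single (-1 : ℤ) (1 : k)) * HahnSeries.single (1 : ℤ) (1 : k) = 1 := by
    rw [HahnSeries.single_mul_single]
    simp
  have h2 : HahnSeries.ofPowerSeries ℤ k (DeltaProd.eta k) ^ 24 = 1 := by
    calc HahnSeries.ofPowerSeries ℤ k (DeltaProd.eta k) ^ 24
        = (HahnSeries.single (-1 : ℤ) (1 : k) * HahnSeries.single (1 : ℤ) (1 : k)) *
          HahnSeries.ofPowerSeries ℤ k (DeltaProd.eta k) ^ 24 := by rw [e2, one_mul]
      _ = 1 := by rw [mul_assoc]; exact h1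
  rw [← map_pow, ← map_one (HahnSeries.ofPowerSeries ℤ k)] at h2
  have h3 : DeltaProd.eta k ^ 24 = 1 := HahnSeries.ofPowerSeries_injective h2
  obtain ⟨u, hu, hη⟩ := DeltaProd.exists_eta_eq k
  rw [hη] at h3
  have hX : (PowerSeries.X : PowerSeries k) ≠ 0 := PowerSeries.X_ne_zero
  have hu0 : u ≠ 0 := by
    intro h0
    rw [h0, map_zero] at hu
    exact zero_ne_one hu
  rcases h with h | h
  · have h2' : (2 : PowerSeries k) = 0 := by
      have : (2 : PowerSeries k) = PowerSeries.C (2 : k) := (map_ofNat (PowerSeries.C (R := k)) 2).symm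
      rw [this, h, map_zero]
    have sq : ∀ y : PowerSeries k, (1 - y) ^ 2 = 1 - y ^ 2 := fun y => by
      linear_combination (y ^ 2 - y) * h2'
    have e8 : (1 - PowerSeries.X * u) ^ 24 = (1 - (PowerSeries.X * u) ^ 8) ^ 3 := by
      have : (1 - PowerSeries.X * u) ^ 24 = ((((1 - PowerSeries.X * u) ^ 2) ^ 2) ^ 2) ^ 3 := by
        ring
      rw [this, sq, sq, sq]
      ring
    rw [e8] at h3
    have h4 : (PowerSeries.X * u) ^ 8 * (-3 + 3 * (PowerSeries.X * u) ^ 8 -
        ((PowerSeries.X * u) ^ 8) ^ 2) = 0 := by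
      linear_combination h3
    rcases mul_eq_zero.mp h4 with h5 | h5
    · exact (pow_ne_zero 8 (mul_ne_zero hX hu0)) h5
    · have h6 := congrArg PowerSeries.constantCoeff h5
      simp only [map_add, map_sub, map_mul, map_pow, map_neg, map_zero, PowerSeries.constantCoeff_X,
        zero_mul, map_ofNat] at h6
      have h7 : (3 : k) = 2 + 1 := by norm_num
      have h8 : (1 : k) = 0 := by
        have h9 : (-(3 : k)) = 0 := by simpa using h6
        rw [h7, h, zero_add] at h9
        simp at h9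
      exact one_ne_zero h8
  · have h3' : (3 : PowerSeries k) = 0 := by
      have : (3 : PowerSeries k) = PowerSeries.C (3 : k) := (map_ofNat (PowerSeries.C (R := k)) 3).symm
      rw [this, h, map_zero]
    have cube : ∀ y : PowerSeries k, (1 - y) ^ 3 = 1 - y ^ 3 := fun y => by
      linear_combination (y ^ 2 - y) * h3'
    have e3 : (1 - PowerSeries.X * u) ^ 24 = (1 - (PowerSeries.X * u) ^ 3) ^ 8 := by
      have : (1 - PowerSeries.X * u) ^ 24 = ((1 - PowerSeries.X * u) ^ 3) ^ 8 := by ring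
      rw [this, cube]
    rw [e3] at h3
    have h4 : (PowerSeries.X * u) ^ 3 * (-8 + (PowerSeries.X * u) ^ 3 *
        (28 - 56 * (PowerSeries.X * u) ^ 3 + 70 * ((PowerSeries.X * u) ^ 3) ^ 2
          - 56 * ((PowerSeries.X * u) ^ 3) ^ 3 + 28 * ((PowerSeries.X * u) ^ 3) ^ 4
          - 8 * ((PowerSeries.X * u) ^ 3) ^ 5 + ((PowerSeries.X * u) ^ 3) ^ 6)) = 0 := by
      linear_combination h3
    rcases mul_eq_zero.mp h4 with h5 | h5
    · exact (pow_ne_zero 3 (mul_ne_zero hX hu0)) h5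
    · have h6 := congrArg PowerSeries.constantCoeff h5
      simp only [map_add, map_sub, map_mul, map_pow, map_neg, map_zero, PowerSeries.constantCoeff_X,
        zero_mul, map_ofNat] at h6
      have h7 : (8 : k) = 3 * 3 - 1 := by norm_num
      have h8 : (1 : k) = 0 := by
        have h9 : (-(8 : k)) = 0 := by simpa using h6
        rw [h7, h, zero_mul, zero_sub] at h9
        simp at h9
      exact one_ne_zero h8

end Fermat.Agent.S28
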