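/-
S28 scheme bookkeeping (route independent).

Reduces the S28 conclusion `IsIntegral (pullback (igusaTo N ℓ) (Spec K ⟶ Spec ℤ_(ℓ)))` to three purely
ring-theoretic facts about the chart algebras of the Prelude:
`chartAlgFin ⊗ K` and `chartAlgInf ⊗ K` are domains and `chartAlgMid ⊗ K` is nontrivial.
-/
import Mathlib
import Fermat.Prelude.Def_ModularCurve_IgusaScheme

set_option autoImplicit false

open AlgebraicGeometry CategoryTheory CategoryTheory.Limits ModularCurve ModularCurve.IgusaScheme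

noncomputable section

namespace Fermat.Agent.S28.Glue

/-- A space covered by two irreducible open subsets with nonempty intersection is irreducible. -/
theorem irreducibleSpace_of_two_opens {X : Type*} [TopologicalSpace X] {U V : Set X}
    (hU : IsOpen U) (hV : IsOpen V) (hUi : IsIrreducible U) (hVi : IsIrreducible V)
    (hUV : (U ∩ V).Nonempty) (hcov : ∀ x : X, x ∈ U ∨ x ∈ V) : IrreducibleSpace X := by
  have key : ∀ C : Set X, IsOpen C → C.Nonempty → (C ∩ (U ∩ V)).Nonempty := by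
    intro C hC hCne
    obtain ⟨c, hc⟩ := hCne
    obtain ⟨w, hwU, hwV⟩ := hUV
    rcases hcov c with h | h
    · obtain ⟨z, hzU, hzC, hzV⟩ := hUi.2 C V hC hV ⟨c, h, hc⟩ ⟨w, hwU, hwV⟩
      exact ⟨z, hzC, hzU, hzV⟩
    · obtain ⟨z, hzV, hzC, hzU⟩ := hVi.2 C U hC hU ⟨c, h, hc⟩ ⟨w, hwV, hwU⟩
      exact ⟨z, hzC, hzU, hzV⟩
  have : PreirreducibleSpace X := by
    refine PreirreducibleSpace.of_forall_nonempty_inter ?_
    intro A B hA hB hAne hBne
    obtain ⟨x, hxA, hxU, -⟩ := key A hA hAne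
    obtain ⟨y, hyB, hyU, -⟩ := key B hB hBne
    obtain ⟨z, -, hzA, hzB⟩ := hUi.2 A B hA hB ⟨x, hxU, hxA⟩ ⟨y, hyU, hyB⟩
    exact ⟨z, hzA, hzB⟩
  exact ⟨⟨hUV.some⟩⟩

variable (N : ℕ) [NeZero N] (ℓ : ℕ) [Fact ℓ.Prime]

variable (K : Type) [Field K] [Algebra ↥(GaloisRep.ratLocalizedAt ℓ) K]

/-- The base-change morphism `Spec K ⟶ Spec ℤ_(ℓ)`. -/
abbrev gK : Spec (CommRingCat.of K) ⟶ Spec (CommRingCat.of ↥(GaloisRep.ratLocalizedAt ℓ)) :=
  Spec.map (CommRingCat.ofHom (algebraMap ↥(GaloisRep.ratLocalizedAt ℓ) K))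

/-- The base change of a chart of the Igusa scheme. -/
def chartMap {U : Scheme.{0}} (ι : U ⟶ ModularCurve.IgusaScheme N ℓ) :
    pullback (ι ≫ igusaTo N ℓ) (gK ℓ K) ⟶ pullback (igusaTo N ℓ) (gK ℓ K) :=
  pullback.map (ι ≫ igusaTo N ℓ) (gK ℓ K) (igusaTo N ℓ) (gK ℓ K) ι (𝟙 _) (𝟙 _)
    (by simp) (by simp)

instance isOpenImmersion_chartMap {U : Scheme.{0}} (ι : U ⟶ ModularCurve.IgusaScheme N ℓ)
    [IsOpenImmersion ι] : IsOpenImmersion (chartMap N ℓ K ι) := by
  unfold chartMap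
  infer_instance

@[reassoc (attr := simp)]
theorem chartMap_fst {U : Scheme.{0}} (ι : U ⟶ ModularCurve.IgusaScheme N ℓ) :
    chartMap N ℓ K ι ≫ pullback.fst _ _ = pullback.fst _ _ ≫ ι := by
  delta chartMap pullback.map
  exact pullback.lift_fst _ _ _

@[reassoc (attr := simp)]
theorem chartMap_snd {U : Scheme.{0}} (ι : U ⟶ ModularCurve.IgusaScheme N ℓ) :
    chartMap N ℓ K ι ≫ pullback.snd _ _ = pullback.snd _ _ := by
  delta chartMap pullback.map
  exact (pullback.lift_snd _ _ _).trans (Category.comp_id _)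

/-- A point of the base change lies in a base-changed chart iff its image lies in the chart. -/
theorem mem_range_chartMap_iff {U : Scheme.{0}} (ι : U ⟶ ModularCurve.IgusaScheme N ℓ)
    (x : ↑(pullback (igusaTo N ℓ) (gK ℓ K))) :
    x ∈ Set.range (chartMap N ℓ K ι) ↔
      pullback.fst (igusaTo N ℓ) (gK ℓ K) x ∈ Set.range ι := by
  unfold chartMap
  rw [Scheme.Pullback.range_map]
  exact ⟨fun h => h.1, fun hx => ⟨hx, ⟨pullback.snd (igusaTo N ℓ) (gK ℓ K) x, rfl⟩⟩⟩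

/-- The two base-changed charts cover the base change. -/
theorem mem_range_chartMap_fin_or_inf (x : ↑(pullback (igusaTo N ℓ) (gK ℓ K))) :
    x ∈ Set.range (chartMap N ℓ K (ιFin N ℓ)) ∨ x ∈ Set.range (chartMap N ℓ K (ιInf N ℓ)) := by
  rcases mem_range_ιFin_or_mem_range_ιInf N ℓ (pullback.fst (igusaTo N ℓ) (gK ℓ K) x) with h | h
  · exact Or.inl ((mem_range_chartMap_iff N ℓ K _ x).2 h)
  · exact Or.inr ((mem_range_chartMap_iff N ℓ K _ x).2 h)

/-- The base change of an affine chart `Spec A ⟶ IgusaScheme` is `Spec (A ⊗ K)`. -/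
def chartIso (A : Type) [CommRing A] [Algebra ↥(GaloisRep.ratLocalizedAt ℓ) A]
    (ι : Spec (CommRingCat.of A) ⟶ ModularCurve.IgusaScheme N ℓ)
    (h : ι ≫ igusaTo N ℓ =
      Spec.map (CommRingCat.ofHom (algebraMap ↥(GaloisRep.ratLocalizedAt ℓ) A))) :
    pullback (ι ≫ igusaTo N ℓ) (gK ℓ K) ≅
      Spec (CommRingCat.of (TensorProduct ↥(GaloisRep.ratLocalizedAt ℓ) A K)) :=
  pullback.congrHom h rfl ≪≫ pullbackSpecIso ↥(GaloisRep.ratLocalizedAt ℓ) A K

theorem isIntegral_chart (A : Type) [CommRing A] [Algebra ↥(GaloisRep.ratLocalizedAt ℓ) A]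
    (ι : Spec (CommRingCat.of A) ⟶ ModularCurve.IgusaScheme N ℓ)
    (h : ι ≫ igusaTo N ℓ =
      Spec.map (CommRingCat.ofHom (algebraMap ↥(GaloisRep.ratLocalizedAt ℓ) A)))
    (hA : IsDomain (TensorProduct ↥(GaloisRep.ratLocalizedAt ℓ) A K)) :
    IsIntegral (pullback (ι ≫ igusaTo N ℓ) (gK ℓ K)) := by
  have : IsDomain ↑(CommRingCat.of (TensorProduct ↥(GaloisRep.ratLocalizedAt ℓ) A K)) := hA
  exact IsIntegral.of_isIso (chartIso N ℓ K A ι h).inv

theorem nonempty_chart (A : Type) [CommRing A] [Algebra ↥(GaloisRep.ratLocalizedAt ℓ) A]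
    (ι : Spec (CommRingCat.of A) ⟶ ModularCurve.IgusaScheme N ℓ)
    (h : ι ≫ igusaTo N ℓ =
      Spec.map (CommRingCat.ofHom (algebraMap ↥(GaloisRep.ratLocalizedAt ℓ) A)))
    (hA : Nontrivial (TensorProduct ↥(GaloisRep.ratLocalizedAt ℓ) A K)) :
    Nonempty ↑(pullback (ι ≫ igusaTo N ℓ) (gK ℓ K)) := by
  have : Nontrivial ↑(CommRingCat.of (TensorProduct ↥(GaloisRep.ratLocalizedAt ℓ) A K)) := hA
  have : Nonempty ↑(Spec (CommRingCat.of (TensorProduct ↥(GaloisRep.ratLocalizedAt ℓ) A K))) :=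
    inferInstanceAs (Nonempty (PrimeSpectrum _))
  exact Nonempty.map (chartIso N ℓ K A ι h).inv inferInstance

theorem fFin_ιFin_igusaTo : (fFin N ℓ ≫ ιFin N ℓ) ≫ igusaTo N ℓ =
    Spec.map (CommRingCat.ofHom (algebraMap ↥(GaloisRep.ratLocalizedAt ℓ) (chartAlgMid N ℓ))) := by
  rw [Category.assoc, ιFin_igusaTo, ← Spec.map_comp, ← CommRingCat.ofHom_comp]
  rfl

/-- The two-element open cover of the base change by the base-changed charts. -/
def chartCover : (pullback (igusaTo N ℓ) (gK ℓ K)).OpenCover :=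
  Scheme.Cover.mkOfCovers Bool
    (fun b => Bool.rec (pullback (ιInf N ℓ ≫ igusaTo N ℓ) (gK ℓ K))
      (pullback (ιFin N ℓ ≫ igusaTo N ℓ) (gK ℓ K)) b)
    (fun b => match b with
      | false => chartMap N ℓ K (ιInf N ℓ)
      | true => chartMap N ℓ K (ιFin N ℓ))
    (fun x => by
      rcases mem_range_chartMap_fin_or_inf N ℓ K x with ⟨y, hy⟩ | ⟨y, hy⟩
      · exact ⟨true, y, hy⟩
      · exact ⟨false, y, hy⟩)
    (fun b => by
      cases b
      · exact isOpenImmersion_chartMap N ℓ K (ιInf N ℓ)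
      · exact isOpenImmersion_chartMap N ℓ K (ιFin N ℓ))

/-- **Scheme bookkeeping for S28.** The base change of the Igusa scheme to a field `K` is
integral as soon as the two chart algebras stay domains after `⊗ K` and the overlap chart
algebra stays nontrivial. -/
theorem isIntegral_pullback_igusaTo_of_charts
    (hFin : IsDomain (TensorProduct ↥(GaloisRep.ratLocalizedAt ℓ) (chartAlgFin N ℓ) K))
    (hInf : IsDomain (TensorProduct ↥(GaloisRep.ratLocalizedAt ℓ) (chartAlgInf N ℓ) K))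
    (hMid : Nontrivial (TensorProduct ↥(GaloisRep.ratLocalizedAt ℓ) (chartAlgMid N ℓ) K)) :
    IsIntegral ↑(pullback (igusaTo N ℓ)
      (Spec.map (CommRingCat.ofHom (algebraMap ↥(GaloisRep.ratLocalizedAt ℓ) K)))) := by
  have iFin : IsIntegral (pullback (ιFin N ℓ ≫ igusaTo N ℓ) (gK ℓ K)) :=
    isIntegral_chart N ℓ K _ (ιFin N ℓ) (ιFin_igusaTo N ℓ) hFin
  have iInf : IsIntegral (pullback (ιInf N ℓ ≫ igusaTo N ℓ) (gK ℓ K)) :=
    isIntegral_chart N ℓ K _ (ιInf N ℓ) (ιInf_igusaTo N ℓ) hInf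
  -- reducedness
  have hred : IsReduced (pullback (igusaTo N ℓ) (gK ℓ K)) := by
    have : ∀ b, IsReduced ((chartCover N ℓ K).X b) := by
      intro b
      cases b
      · exact (inferInstance : IsReduced (pullback (ιInf N ℓ ≫ igusaTo N ℓ) (gK ℓ K)))
      · exact (inferInstance : IsReduced (pullback (ιFin N ℓ ≫ igusaTo N ℓ) (gK ℓ K)))
    exact IsReduced.of_openCover _ (chartCover N ℓ K)
  -- irreducibility
  have hirr : IrreducibleSpace ↑(pullback (igusaTo N ℓ) (gK ℓ K)) := by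
    refine irreducibleSpace_of_two_opens
      (U := Set.range (chartMap N ℓ K (ιFin N ℓ))) (V := Set.range (chartMap N ℓ K (ιInf N ℓ)))
      (chartMap N ℓ K (ιFin N ℓ)).isOpenEmbedding.isOpen_range
      (chartMap N ℓ K (ιInf N ℓ)).isOpenEmbedding.isOpen_range ?_ ?_ ?_
      (mem_range_chartMap_fin_or_inf N ℓ K)
    · rw [← Set.image_univ]
      exact (IrreducibleSpace.isIrreducible_univ _).image _
        (chartMap N ℓ K (ιFin N ℓ)).continuous.continuousOn
    · rw [← Set.image_univ]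
      exact (IrreducibleSpace.isIrreducible_univ _).image _
        (chartMap N ℓ K (ιInf N ℓ)).continuous.continuousOn
    · obtain ⟨y⟩ := nonempty_chart N ℓ K _ (fFin N ℓ ≫ ιFin N ℓ) (fFin_ιFin_igusaTo N ℓ) hMid
      have hy := (mem_range_chartMap_iff N ℓ K (fFin N ℓ ≫ ιFin N ℓ)
        (chartMap N ℓ K (fFin N ℓ ≫ ιFin N ℓ) y)).1 ⟨y, rfl⟩
      refine ⟨chartMap N ℓ K (fFin N ℓ ≫ ιFin N ℓ) y, ?_, ?_⟩
      · refine (mem_range_chartMap_iff N ℓ K _ _).2 ?_
        obtain ⟨z, hz⟩ := hy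
        exact ⟨fFin N ℓ z, by rw [← hz]; rfl⟩
      · refine (mem_range_chartMap_iff N ℓ K _ _).2 ?_
        obtain ⟨z, hz⟩ := hy
        refine ⟨fInf N ℓ z, ?_⟩
        rw [← hz]
        exact (congrArg (fun f : XMid N ℓ ⟶ ModularCurve.IgusaScheme N ℓ => f z)
          (glue_condition N ℓ)).symm
  exact isIntegral_of_irreducibleSpace_of_isReduced _

open scoped TensorProduct in
/-- The overlap chart algebra stays nontrivial after `⊗ K` as soon as `chartAlgFin ⊗ K` is a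
domain in which `j ⊗ 1 ≠ 0` (`chartAlgMid` is the localization of `chartAlgFin` away from `j`). -/
theorem nontrivial_mid_of_ne_zero
    (hFin : IsDomain (TensorProduct ↥(GaloisRep.ratLocalizedAt ℓ) (chartAlgFin N ℓ) K))
    (hj : (jChartFin N ℓ ⊗ₜ[↥(GaloisRep.ratLocalizedAt ℓ)] (1 : K)) ≠ 0) :
    Nontrivial (TensorProduct ↥(GaloisRep.ratLocalizedAt ℓ) (chartAlgMid N ℓ) K) := by
  let _ : Algebra (chartAlgFin N ℓ) (chartAlgMid N ℓ) := (inclFin N ℓ).toRingHom.toAlgebra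
  have : IsLocalization.Away (jChartFin N ℓ) (chartAlgMid N ℓ) := isLocalization_away_inclFin N ℓ
  let T := TensorProduct ↥(GaloisRep.ratLocalizedAt ℓ) (chartAlgFin N ℓ) K
  let Q := FractionRing T
  let f : chartAlgFin N ℓ →ₐ[↥(GaloisRep.ratLocalizedAt ℓ)] Q :=
    (IsScalarTower.toAlgHom ↥(GaloisRep.ratLocalizedAt ℓ) T Q).comp
      Algebra.TensorProduct.includeLeft
  have hu : IsUnit (f (jChartFin N ℓ)) :=
    IsLocalization.map_units Q
      (⟨jChartFin N ℓ ⊗ₜ[↥(GaloisRep.ratLocalizedAt ℓ)] (1 : K),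
        mem_nonZeroDivisors_of_ne_zero hj⟩ : nonZeroDivisors T)
  let g0 : chartAlgMid N ℓ →+* Q := IsLocalization.Away.lift (jChartFin N ℓ) (g := f.toRingHom) hu
  have hg0 : ∀ a : chartAlgFin N ℓ, g0 (inclFin N ℓ a) = f a := fun a =>
    IsLocalization.Away.lift_eq (jChartFin N ℓ) (g := f.toRingHom) hu a
  let g : chartAlgMid N ℓ →ₐ[↥(GaloisRep.ratLocalizedAt ℓ)] Q :=
    { g0 with
      commutes' := fun a => by
        have h1 : algebraMap ↥(GaloisRep.ratLocalizedAt ℓ) (chartAlgMid N ℓ) a =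
            inclFin N ℓ (algebraMap ↥(GaloisRep.ratLocalizedAt ℓ) (chartAlgFin N ℓ) a) :=
          ((inclFin N ℓ).commutes a).symm
        change g0 (algebraMap ↥(GaloisRep.ratLocalizedAt ℓ) (chartAlgMid N ℓ) a) = _
        rw [h1, hg0, AlgHom.commutes] }
  let k : K →ₐ[↥(GaloisRep.ratLocalizedAt ℓ)] Q :=
    (IsScalarTower.toAlgHom ↥(GaloisRep.ratLocalizedAt ℓ) T Q).comp
      Algebra.TensorProduct.includeRight
  exact (Algebra.TensorProduct.productMap g k).toRingHom.domain_nontrivial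

/-- **Scheme bookkeeping for S28**, overlap hypothesis in the form `j ⊗ 1 ≠ 0`. -/
theorem isIntegral_pullback_igusaTo_of_ne_zero
    (hFin : IsDomain (TensorProduct ↥(GaloisRep.ratLocalizedAt ℓ) (chartAlgFin N ℓ) K))
    (hInf : IsDomain (TensorProduct ↥(GaloisRep.ratLocalizedAt ℓ) (chartAlgInf N ℓ) K))
    (hj : (jChartFin N ℓ ⊗ₜ[↥(GaloisRep.ratLocalizedAt ℓ)] (1 : K)) ≠ 0) :
    IsIntegral ↑(pullback (igusaTo N ℓ)
      (Spec.map (CommRingCat.ofHom (algebraMap ↥(GaloisRep.ratLocalizedAt ℓ) K)))) :=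
  isIntegral_pullback_igusaTo_of_charts N ℓ K hFin hInf
    (nontrivial_mid_of_ne_zero N ℓ K hFin hj)

/-- Convenience form: it suffices to embed `chartAlgFin ⊗ K` and `chartAlgInf ⊗ K` into domains
(e.g. Laurent series over `K`) and to map `chartAlgMid ⊗ K` to any nontrivial semiring. -/
theorem isIntegral_pullback_igusaTo_of_injective
    {DFin DInf DMid : Type*} [CommRing DFin] [IsDomain DFin] [CommRing DInf] [IsDomain DInf]
    [Semiring DMid] [Nontrivial DMid]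
    (φFin : TensorProduct ↥(GaloisRep.ratLocalizedAt ℓ) (chartAlgFin N ℓ) K →+* DFin)
    (hφFin : Function.Injective φFin)
    (φInf : TensorProduct ↥(GaloisRep.ratLocalizedAt ℓ) (chartAlgInf N ℓ) K →+* DInf)
    (hφInf : Function.Injective φInf)
    (φMid : TensorProduct ↥(GaloisRep.ratLocalizedAt ℓ) (chartAlgMid N ℓ) K →+* DMid) :
    IsIntegral ↑(pullback (igusaTo N ℓ)
      (Spec.map (CommRingCat.ofHom (algebraMap ↥(GaloisRep.ratLocalizedAt ℓ) K)))) :=
  isIntegral_pullback_igusaTo_of_charts N ℓ K (hφFin.isDomain φFin) (hφInf.isDomain φInf)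
    φMid.domain_nontrivial

end Fermat.Agent.S28.Glue

end
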