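import Mathlib
import Fermat.Prelude.Def_GaloisRep_Flat
import Fermat.Prelude.Def_ModularCurve_LaurentCoeff

/-!
# S28, reduction step: a ring whose reduction mod `ℓ` embeds in `𝔽_ℓ((q))` stays a domain after
tensoring with any field of characteristic `ℓ`

`isDomain_tensor_of_red`: let `A` be a `ℤ_(ℓ)`-algebra with a ring hom `red : A → 𝔽_ℓ((q))` whose
kernel is `ℓ A`.  Then `A ⊗_{ℤ_(ℓ)} K` is a domain for every field `K` of characteristic `ℓ`
(it embeds in `K((q))` by `a ⊗ c ↦ c · red(a)`).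
-/

set_option autoImplicit false

namespace Fermat.Agent.S28.Reduction

open TensorProduct

/-- Two ring homomorphisms from `ℤ_(ℓ)` to a domain in which every integer prime to `ℓ` is nonzero
coincide. -/
theorem redTensor_ringHom_ext (ℓ : ℕ) {S : Type*} [CommRing S] [IsDomain S]
    (hS : ∀ b : ℕ, b.Coprime ℓ → (b : S) ≠ 0)
    (ψ₁ ψ₂ : ↥(GaloisRep.ratLocalizedAt ℓ) →+* S) : ψ₁ = ψ₂ := by
  ext ⟨q, hq⟩
  have hq' : q.den.Coprime ℓ := hq
  have key : ∀ ψ : ↥(GaloisRep.ratLocalizedAt ℓ) →+* S,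
      (q.den : S) * ψ ⟨q, hq⟩ = (q.num : S) := by
    intro ψ
    have h1 : ((q.den : ↥(GaloisRep.ratLocalizedAt ℓ)) * ⟨q, hq⟩ :
        ↥(GaloisRep.ratLocalizedAt ℓ)) = (q.num : ↥(GaloisRep.ratLocalizedAt ℓ)) := by
      apply Subtype.ext
      push_cast
      exact Rat.den_mul_eq_num q
    have h2 := congrArg ψ h1
    rwa [map_mul, map_natCast, map_intCast] at h2
  exact mul_left_cancel₀ (hS _ hq') ((key ψ₁).trans (key ψ₂).symm)

/-- Every element of `A ⊗[R] K` is a finite sum `∑ aᵢ ⊗ bᵢ` over a given `𝔽`-basis `b` of `K`,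
provided scalars of `𝔽` can be moved across the tensor sign. -/
theorem redTensor_exists_finsupp_eq_sum {R A K 𝔽 ι : Type*} [CommRing R] [CommRing A] [Algebra R A]
    [Field K] [Algebra R K] [Field 𝔽] [Module 𝔽 K] (b : Module.Basis ι 𝔽 K)
    (hmove : ∀ (r : 𝔽) (x : A) (k : K), ∃ y : A, x ⊗ₜ[R] (r • k) = y ⊗ₜ[R] k)
    (t : A ⊗[R] K) : ∃ a : ι →₀ A, t = a.sum (fun i x => x ⊗ₜ[R] b i) := by
  classical
  induction t using TensorProduct.induction_on with
  | zero => exact ⟨0, by simp⟩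
  | tmul x c =>
    choose y hy using hmove
    refine ⟨∑ i ∈ (b.repr c).support, Finsupp.single i (y (b.repr c i) x (b i)), ?_⟩
    have hc : c = ∑ i ∈ (b.repr c).support, (b.repr c i) • b i := by
      conv_lhs => rw [← b.linearCombination_repr c]
      rw [Finsupp.linearCombination_apply, Finsupp.sum]
    have hsum : (∑ i ∈ (b.repr c).support, Finsupp.single i (y (b.repr c i) x (b i))).sum
        (fun i x => x ⊗ₜ[R] b i) =
        ∑ i ∈ (b.repr c).support, (y (b.repr c i) x (b i)) ⊗ₜ[R] b i := by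
      rw [← Finsupp.sum_finsetSum_index (h_zero := by intro i; simp)
        (h_add := by intro i x₁ x₂; simp [add_tmul])]
      refine Finset.sum_congr rfl fun i _ => ?_
      rw [Finsupp.sum_single_index (by simp)]
    rw [hsum]
    conv_lhs => rw [hc]
    rw [tmul_sum]
    exact Finset.sum_congr rfl fun i _ => hy _ _ _
  | add t₁ t₂ h₁ h₂ =>
    obtain ⟨a₁, rfl⟩ := h₁
    obtain ⟨a₂, rfl⟩ := h₂
    refine ⟨a₁ + a₂, ?_⟩
    rw [Finsupp.sum_add_index' (by intro i; simp) (by intro i x₁ x₂; simp [add_tmul])]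

/-- **Reduction step.** If `red : A →+* 𝔽_ℓ((q))` has kernel `ℓ A`, then `A ⊗_{ℤ_(ℓ)} K` is a
domain for every field `K` of characteristic `ℓ`. -/
theorem isDomain_tensor_of_red (ℓ : ℕ) [Fact ℓ.Prime] {A : Type} [CommRing A]
    [Algebra ↥(GaloisRep.ratLocalizedAt ℓ) A] (red : A →+* LaurentSeries (ZMod ℓ))
    (hker : ∀ a, red a = 0 → ∃ b, a = (ℓ : A) * b) (K : Type) [Field K] [CharP K ℓ]
    [Algebra ↥(GaloisRep.ratLocalizedAt ℓ) K] :
    IsDomain (TensorProduct ↥(GaloisRep.ratLocalizedAt ℓ) A K) := by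
  classical
  have hℓ : ℓ.Prime := Fact.out
  let φ : ZMod ℓ →+* K := ZMod.castHom (dvd_refl ℓ) K
  let f : A →+* LaurentSeries K := (ModularCurve.coeffMap φ).comp red
  have hS : ∀ b : ℕ, b.Coprime ℓ → (b : LaurentSeries K) ≠ 0 := by
    intro b hb h0
    have h1 : (HahnSeries.C (b : K) : LaurentSeries K) = 0 := by
      rw [← h0, map_natCast]
    have h2 : (b : K) = 0 := by
      have := congrArg (fun x : LaurentSeries K => x.coeff 0) h1
      simpa only [HahnSeries.C_apply, HahnSeries.coeff_single_same, HahnSeries.coeff_zero]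
        using this
    rw [CharP.cast_eq_zero_iff K ℓ] at h2
    exact (Nat.Prime.coprime_iff_not_dvd hℓ).mp hb.symm h2
  let algC : Algebra ↥(GaloisRep.ratLocalizedAt ℓ) (LaurentSeries K) :=
    ((HahnSeries.C : K →+* LaurentSeries K).comp
      (algebraMap ↥(GaloisRep.ratLocalizedAt ℓ) K)).toAlgebra
  have ist : @IsScalarTower ↥(GaloisRep.ratLocalizedAt ℓ) ↥(GaloisRep.ratLocalizedAt ℓ)
      (LaurentSeries K) _ algC.toSMul algC.toSMul :=
    @IsScalarTower.mk _ _ _ _ algC.toSMul algC.toSMul (fun x y z => by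
      change algebraMap _ (LaurentSeries K) (x * y) * z =
        algebraMap _ (LaurentSeries K) x * (algebraMap _ (LaurentSeries K) y * z)
      rw [map_mul, mul_assoc])
  have hcomm : f.comp (algebraMap ↥(GaloisRep.ratLocalizedAt ℓ) A) =
      (HahnSeries.C : K →+* LaurentSeries K).comp
        (algebraMap ↥(GaloisRep.ratLocalizedAt ℓ) K) :=
    redTensor_ringHom_ext ℓ hS _ _
  let fA : A →ₐ[↥(GaloisRep.ratLocalizedAt ℓ)] LaurentSeries K :=
    { f with commutes' := fun r => RingHom.congr_fun hcomm r }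
  let gA : K →ₐ[↥(GaloisRep.ratLocalizedAt ℓ)] LaurentSeries K :=
    { (HahnSeries.C : K →+* LaurentSeries K) with commutes' := fun r => rfl }
  let Θ : A ⊗[↥(GaloisRep.ratLocalizedAt ℓ)] K →ₐ[↥(GaloisRep.ratLocalizedAt ℓ)] LaurentSeries K :=
    Algebra.TensorProduct.lift fA gA (fun _ _ => Commute.all _ _)
  have hΘ : ∀ (a : A) (c : K), Θ (a ⊗ₜ c) = f a * HahnSeries.C c := fun a c =>
    Algebra.TensorProduct.lift_tmul _ _ _ a c
  -- `K` as an `𝔽_ℓ`-vector space
  let modK : Module (ZMod ℓ) K := Module.compHom K φ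
  have hsmul : ∀ (r : ZMod ℓ) (k : K), r • k = φ r * k := fun r k => rfl
  let b := Module.Free.chooseBasis (ZMod ℓ) K
  -- the prime `ℓ` kills `K`
  have hℓK : ∀ k : K, ((ℓ : ↥(GaloisRep.ratLocalizedAt ℓ)) • k : K) = 0 := by
    intro k
    rw [Algebra.smul_def, map_natCast, CharP.cast_eq_zero K ℓ, zero_mul]
  have hmove : ∀ (r : ZMod ℓ) (x : A) (k : K),
      ∃ y : A, x ⊗ₜ[↥(GaloisRep.ratLocalizedAt ℓ)] (r • k) = y ⊗ₜ[↥(GaloisRep.ratLocalizedAt ℓ)] k := by
    intro r x k
    refine ⟨((r.val : ℕ) : ↥(GaloisRep.ratLocalizedAt ℓ)) • x, ?_⟩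
    rw [smul_tmul, hsmul]
    congr 1
    rw [Algebra.smul_def, map_natCast]
    congr 1
    have : (φ r : K) = ((r.val : ℕ) : K) := by
      conv_lhs => rw [← ZMod.natCast_zmod_val r]
      rw [map_natCast]
    exact this
  have hinj : Function.Injective Θ := by
    rw [injective_iff_map_eq_zero]
    intro t ht
    obtain ⟨a, rfl⟩ := redTensor_exists_finsupp_eq_sum b hmove t
    rw [Finsupp.sum, map_sum] at ht
    have hcoeff : ∀ n : ℤ, ∑ i ∈ a.support, ((red (a i)).coeff n) • b i = 0 := by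
      intro n
      have h1 := congrArg (fun x : LaurentSeries K => x.coeff n) ht
      simp only [HahnSeries.coeff_sum, HahnSeries.coeff_zero] at h1
      rw [← h1]
      refine Finset.sum_congr rfl fun i _ => ?_
      rw [hΘ, hsmul, mul_comm (f (a i)), HahnSeries.C_mul_eq_smul, HahnSeries.coeff_smul,
        smul_eq_mul, mul_comm]
      rfl
    have hzero : ∀ i ∈ a.support, red (a i) = 0 := by
      intro i hi
      ext n
      exact (linearIndependent_iff'.mp b.linearIndependent) a.support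
        (fun i => (red (a i)).coeff n) (hcoeff n) i hi
    rw [Finsupp.sum]
    refine Finset.sum_eq_zero fun i hi => ?_
    obtain ⟨b', hb'⟩ := hker (a i) (hzero i hi)
    have h2 : a i = ((ℓ : ↥(GaloisRep.ratLocalizedAt ℓ)) • b' : A) := by
      rw [hb', Algebra.smul_def, map_natCast]
    rw [h2, smul_tmul, hℓK, tmul_zero]
  exact Function.Injective.isDomain Θ.toRingHom hinj

end Fermat.Agent.S28.Reduction
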