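import Mathlib
import Fermat.Prelude.Def_ModularCurve_IgusaScheme
import Fermat.Prelude.Def_ModularCurve_X0ModL
import Fermat.Agent.S28.ReductionBase
import Fermat.Agent.S28.ReductionDefs
import Fermat.Agent.S28.ReductionLattice
import Fermat.Agent.S28.ReductionTensor

/-!
# S28 chart reduction (helper49)

`isDomain_tensor_chartAlg`: given the characteristic-zero degree bound `DegreeLe N` and the Igusa
crux `HasIndepLifts N ℓ`, every chart algebra of the Igusa scheme stays a domain after base change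
to a field of characteristic `ℓ`.
-/

set_option autoImplicit false
set_option linter.unusedSectionVars false

namespace Fermat.Agent.S28.Reduction

open ModularCurve ModularCurve.IgusaScheme Polynomial

section Body

variable (ℓ : ℕ) [Fact ℓ.Prime]

/-! ### The coordinate `1/j` -/

lemma jqModC_zmod_ne_zero : jqModC (ZMod ℓ) ≠ 0 :=
  P2MW.S_ModularCurve_coeff_jqModC_neg_one.ModularCurve.CharLRows.jqModC_ne_zero (ZMod ℓ)

lemma jq_inv_mem_Ocal : jq⁻¹ ∈ Ocal ℓ :=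
  inv_mem_Ocal ℓ (jO ℓ) (by rw [red_jO]; exact jqModC_zmod_ne_zero ℓ)

/-- `1/j` as an element of `Ocal`. -/
noncomputable def jOinv : Ocal ℓ := ⟨jq⁻¹, jq_inv_mem_Ocal ℓ⟩

lemma jO_mul_jOinv : jO ℓ * jOinv ℓ = 1 :=
  Subtype.ext (mul_inv_cancel₀ jq_ne_zero)

lemma red_jOinv : red ℓ (jOinv ℓ) = (jqModC (ZMod ℓ))⁻¹ := by
  have h := congrArg (red ℓ) (jO_mul_jOinv ℓ)
  rw [map_mul, map_one, red_jO] at h
  exact eq_inv_of_mul_eq_one_right h

lemma transcendental_red_jOinv : Transcendental (ZMod ℓ) (red ℓ (jOinv ℓ)) := by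
  rw [red_jOinv]
  intro h
  exact transcendental_jqModC' (ZMod ℓ) (IsAlgebraic.inv_iff.mp h)

lemma transcendental_jq : Transcendental ℚ jq := transcendental_jqModC' ℚ

lemma transcendental_jq_inv : Transcendental ℚ jq⁻¹ := fun h =>
  transcendental_jq (IsAlgebraic.inv_iff.mp h)

lemma adjoin_jq_inv : IntermediateField.adjoin ℚ {jq⁻¹} = IntermediateField.adjoin ℚ {jq} := by
  apply le_antisymm
  · rw [IntermediateField.adjoin_simple_le_iff]
    exact inv_mem (IntermediateField.mem_adjoin_simple_self ℚ jq)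
  · rw [IntermediateField.adjoin_simple_le_iff]
    have := inv_mem (IntermediateField.mem_adjoin_simple_self ℚ jq⁻¹)
    rwa [inv_inv] at this

/-! ### Integrality over `ℤ_(ℓ)[s]` -/

/-- The structure map `ℤ_(ℓ)[X] → ℚ((q))`, `X ↦ s`. -/
noncomputable def phiS (s : Ocal ℓ) : (Zl ℓ)[X] →+* LaurentSeries ℚ :=
  (Ocal ℓ).subtype.comp (evalO ℓ s)

lemma phiS_apply (s : Ocal ℓ) (Q : (Zl ℓ)[X]) :
    phiS ℓ s Q = ((evalO ℓ s Q : Ocal ℓ) : LaurentSeries ℚ) := rfl

section Chart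

variable (N : ℕ) [NeZero N] (hdeg : DegreeLe N)
  (x : Fin (dedekindPsi N) → Ocal ℓ)
  (hx : LinearIndependent (IntermediateField.adjoin (ZMod ℓ) {jqModC (ZMod ℓ)})
    (fun i => red ℓ (x i)))
  (hxF : ∀ i, (x i : LaurentSeries ℚ) ∈ modularFunctionFieldFull N)
  (s : Ocal ℓ) (hsbar : Transcendental (ZMod ℓ) (red ℓ s))
  (hsQ : Transcendental ℚ (s : LaurentSeries ℚ))
  (hsK : IntermediateField.adjoin ℚ {(s : LaurentSeries ℚ)} = IntermediateField.adjoin ℚ {jq})

include hdeg hx hxF hsbar hsQ hsK in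
/-- An `ℓ`-integral element of `F_N` which is integral over `ℚ[s]` is integral over `ℤ_(ℓ)[s]`. -/
lemma isIntegralElem_phiS (y : LaurentSeries ℚ) (hy : y ∈ modularFunctionFieldFull N)
    (hyO : y ∈ Ocal ℓ)
    (hyint : (Polynomial.aeval (s : LaurentSeries ℚ) :
      ℚ[X] →ₐ[ℚ] LaurentSeries ℚ).toRingHom.IsIntegralElem y) :
    (phiS ℓ s).IsIntegralElem y := by
  classical
  have hrange : ∀ r : ℚ[X], (Polynomial.aeval (s : LaurentSeries ℚ) :
      ℚ[X] →ₐ[ℚ] LaurentSeries ℚ).toRingHom r ∈ IntermediateField.adjoin ℚ {jq} := by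
    intro r
    rw [← hsK]
    exact (IntermediateField.mem_adjoin_simple_iff ℚ _).mpr ⟨r, 1, by rw [map_one, div_one]; rfl⟩
  have hint0 : IsIntegral (IntermediateField.adjoin ℚ {jq}) y :=
    isIntegral_of_isIntegralElem _ _ hrange hyint
  have hcoef : ∀ n, ∃ Q : (Zl ℓ)[X], phiS ℓ s Q =
      (((minpoly (IntermediateField.adjoin ℚ {jq}) y).coeff n :
        IntermediateField.adjoin ℚ {jq}) : LaurentSeries ℚ) := by
    intro n
    have hO := coeff_minpoly_mem_Ocal ℓ N hdeg x hx hxF y hy hyO n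
    have hI := isIntegralElem_coeff_minpoly (IntermediateField.adjoin ℚ {jq}) _ hrange hyint n
    obtain ⟨P, hP⟩ := exists_aeval_eq_of_isIntegralElem (s : LaurentSeries ℚ) hsQ _
      (by rw [hsK]; exact SetLike.coe_mem _) hI
    obtain ⟨Q, hQ⟩ := exists_lift_of_aeval_mem_Ocal ℓ s hsbar P (by rw [hP]; exact hO)
    refine ⟨Q, ?_⟩
    rw [phiS_apply, coe_evalO, hQ, hP]
  have hlift : (minpoly (IntermediateField.adjoin ℚ {jq}) y).map
      (algebraMap (IntermediateField.adjoin ℚ {jq}) (LaurentSeries ℚ)) ∈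
        Polynomial.lifts (phiS ℓ s) := by
    rw [Polynomial.lifts_iff_coeff_lifts]
    intro n
    rw [Polynomial.coeff_map]
    obtain ⟨Q, hQ⟩ := hcoef n
    exact ⟨Q, hQ⟩
  obtain ⟨p, hpμ, -, hp⟩ :=
    Polynomial.lifts_and_natDegree_eq_and_monic hlift ((minpoly.monic hint0).map _)
  refine ⟨p, hp, ?_⟩
  rw [Polynomial.eval₂_eq_eval_map, hpμ, Polynomial.eval_map, ← Polynomial.aeval_def,
    minpoly.aeval]

end Chart

/-! ### Chart algebras -/

section ChartAlg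

variable (N : ℕ) [NeZero N]

lemma coe_algebraMap_Zl_full (r : Zl ℓ) :
    ((algebraMap (Zl ℓ) ↥(modularFunctionFieldFull N) r : ↥(modularFunctionFieldFull N)) :
      LaurentSeries ℚ) = ((constO ℓ r : Ocal ℓ) : LaurentSeries ℚ) := by
  rw [coe_constO, ← algebraMap_LS_eq_C]
  have h1 : algebraMap (Zl ℓ) ↥(modularFunctionFieldFull N) r =
      algebraMap ℚ ↥(modularFunctionFieldFull N) (r : ℚ) := rfl
  rw [h1]
  exact DFunLike.congr_fun (RingHom.ext_rat
    ((algebraMap ↥(modularFunctionFieldFull N) (LaurentSeries ℚ)).comp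
      (algebraMap ℚ ↥(modularFunctionFieldFull N))) (algebraMap ℚ (LaurentSeries ℚ))) (r : ℚ)

lemma coe_aeval_full (sF : ↥(modularFunctionFieldFull N)) (s : Ocal ℓ)
    (hs : (sF : LaurentSeries ℚ) = s) (Q : (Zl ℓ)[X]) :
    ((Polynomial.aeval sF Q : ↥(modularFunctionFieldFull N)) : LaurentSeries ℚ) = phiS ℓ s Q := by
  have h1 := Polynomial.hom_eval₂ Q (algebraMap (Zl ℓ) ↥(modularFunctionFieldFull N))
    (algebraMap ↥(modularFunctionFieldFull N) (LaurentSeries ℚ)) sF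
  have h2 := Polynomial.hom_eval₂ Q (constO ℓ) (Ocal ℓ).subtype s
  have h3 : (algebraMap ↥(modularFunctionFieldFull N) (LaurentSeries ℚ)).comp
      (algebraMap (Zl ℓ) ↥(modularFunctionFieldFull N)) = (Ocal ℓ).subtype.comp (constO ℓ) :=
    RingHom.ext fun r => coe_algebraMap_Zl_full ℓ N r
  rw [Polynomial.aeval_def]
  show algebraMap ↥(modularFunctionFieldFull N) (LaurentSeries ℚ) (Polynomial.eval₂ _ sF Q) =
    (Ocal ℓ).subtype (Polynomial.eval₂ (constO ℓ) s Q)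
  rw [h1, h2, h3]
  congr 1

variable (sF : ↥(modularFunctionFieldFull N)) (s : Ocal ℓ) (hs : (sF : LaurentSeries ℚ) = s)

include hs in
lemma isIntegralElem_phiS_of_mem_chartAlg (a : ↥(modularFunctionFieldFull N))
    (ha : a ∈ chartAlg N ℓ {sF}) : (phiS ℓ s).IsIntegralElem (a : LaurentSeries ℚ) := by
  obtain ⟨p, hp, hpa⟩ := (mem_chartAlg_iff N ℓ).mp ha
  have hlift : p.map (algebraMap (Algebra.adjoin (Zl ℓ) {sF}) ↥(modularFunctionFieldFull N)) ∈
      Polynomial.lifts (Polynomial.aeval sF :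
        (Zl ℓ)[X] →ₐ[Zl ℓ] ↥(modularFunctionFieldFull N)).toRingHom := by
    rw [Polynomial.lifts_iff_coeff_lifts]
    intro n
    rw [Polynomial.coeff_map]
    have h : ((p.coeff n : ↥(Algebra.adjoin (Zl ℓ) {sF})) : ↥(modularFunctionFieldFull N)) ∈
        (Polynomial.aeval sF : (Zl ℓ)[X] →ₐ[Zl ℓ] ↥(modularFunctionFieldFull N)).range := by
      rw [← Algebra.adjoin_singleton_eq_range_aeval]
      exact (p.coeff n).2
    obtain ⟨Q, hQ⟩ := h
    exact ⟨Q, hQ⟩
  obtain ⟨p', hp'p, -, hp'⟩ := Polynomial.lifts_and_natDegree_eq_and_monic hlift (hp.map _)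
  refine ⟨p', hp', ?_⟩
  have h1 := Polynomial.hom_eval₂ p' (Polynomial.aeval sF :
    (Zl ℓ)[X] →ₐ[Zl ℓ] ↥(modularFunctionFieldFull N)).toRingHom
    (algebraMap ↥(modularFunctionFieldFull N) (LaurentSeries ℚ)) a
  have h2 : (algebraMap ↥(modularFunctionFieldFull N) (LaurentSeries ℚ)).comp
      (Polynomial.aeval sF : (Zl ℓ)[X] →ₐ[Zl ℓ] ↥(modularFunctionFieldFull N)).toRingHom =
        phiS ℓ s := RingHom.ext fun Q => coe_aeval_full ℓ N sF s hs Q
  rw [h2] at h1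
  have h3 : Polynomial.eval₂ (Polynomial.aeval sF :
      (Zl ℓ)[X] →ₐ[Zl ℓ] ↥(modularFunctionFieldFull N)).toRingHom a p' = 0 := by
    rw [Polynomial.eval₂_eq_eval_map, hp'p, Polynomial.eval_map]
    exact hpa
  rw [h3, map_zero] at h1
  exact h1.symm

include hs in
lemma mem_chartAlg_of_isIntegralElem_phiS (b : ↥(modularFunctionFieldFull N))
    (hb : (phiS ℓ s).IsIntegralElem (b : LaurentSeries ℚ)) : b ∈ chartAlg N ℓ {sF} := by
  obtain ⟨p', hp', hp'b⟩ := hb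
  rw [mem_chartAlg_iff]
  let ψ : (Zl ℓ)[X] →+* ↥(Algebra.adjoin (Zl ℓ) {sF}) :=
    ((Polynomial.aeval sF : (Zl ℓ)[X] →ₐ[Zl ℓ] ↥(modularFunctionFieldFull N)).codRestrict
      (Algebra.adjoin (Zl ℓ) {sF}) (fun Q => Polynomial.aeval_mem_adjoin_singleton _ _)).toRingHom
  refine ⟨p'.map ψ, hp'.map _, ?_⟩
  rw [Polynomial.eval₂_map]
  apply (algebraMap ↥(modularFunctionFieldFull N) (LaurentSeries ℚ)).injective
  rw [map_zero, Polynomial.hom_eval₂, ← hp'b]
  congr 1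
  exact RingHom.ext fun Q => coe_aeval_full ℓ N sF s hs Q

include hs in
lemma coe_mem_Ocal_of_mem_chartAlg (a : ↥(modularFunctionFieldFull N))
    (ha : a ∈ chartAlg N ℓ {sF}) : (a : LaurentSeries ℚ) ∈ Ocal ℓ := by
  obtain ⟨p, hp, hpa⟩ := isIntegralElem_phiS_of_mem_chartAlg ℓ N sF s hs a ha
  refine mem_Ocal_of_isIntegralElem ℓ (full_le_Wf ℓ N a.2) ⟨p.map (evalO ℓ s), hp.map _, ?_⟩
  rw [Polynomial.eval₂_map]
  exact hpa

end ChartAlg

/-! ### The kernel of the reduction map on a chart -/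

section Final

variable (N : ℕ) [NeZero N] (hdeg : DegreeLe N)
  (x : Fin (dedekindPsi N) → Ocal ℓ)
  (hx : LinearIndependent (IntermediateField.adjoin (ZMod ℓ) {jqModC (ZMod ℓ)})
    (fun i => red ℓ (x i)))
  (hxF : ∀ i, (x i : LaurentSeries ℚ) ∈ modularFunctionFieldFull N)

section OneChart

variable (s : Ocal ℓ) (hsbar : Transcendental (ZMod ℓ) (red ℓ s))
  (hsQ : Transcendental ℚ (s : LaurentSeries ℚ))
  (hsK : IntermediateField.adjoin ℚ {(s : LaurentSeries ℚ)} = IntermediateField.adjoin ℚ {jq})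
  (sF : ↥(modularFunctionFieldFull N)) (hs : (sF : LaurentSeries ℚ) = s)

include hdeg hx hxF hsbar hsQ hsK hs in
lemma chart_ker (a : ↥(modularFunctionFieldFull N)) (ha : a ∈ chartAlg N ℓ {sF}) (y : Ocal ℓ)
    (hay : (a : LaurentSeries ℚ) = (ℓ : LaurentSeries ℚ) * y) :
    ∃ b ∈ chartAlg N ℓ {sF}, a = (ℓ : ↥(modularFunctionFieldFull N)) * b := by
  have hp : ℓ.Prime := Fact.out
  have hl : (ℓ : LaurentSeries ℚ) ≠ 0 := natCast_LS_ne_zero ℓ
  have hlF : (ℓ : ↥(modularFunctionFieldFull N)) ≠ 0 := by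
    intro h0
    apply hl
    have := congrArg (Subtype.val) h0
    simpa using this
  have hbcoe : (((ℓ : ↥(modularFunctionFieldFull N))⁻¹ * a : ↥(modularFunctionFieldFull N)) :
      LaurentSeries ℚ) = y := by
    push_cast
    rw [hay, ← mul_assoc, inv_mul_cancel₀ hl, one_mul]
  refine ⟨(ℓ : ↥(modularFunctionFieldFull N))⁻¹ * a, ?_,
    by rw [← mul_assoc, mul_inv_cancel₀ hlF, one_mul]⟩
  apply mem_chartAlg_of_isIntegralElem_phiS ℓ N sF s hs
  rw [hbcoe]
  have hyF : (y : LaurentSeries ℚ) ∈ modularFunctionFieldFull N := by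
    rw [← hbcoe]; exact SetLike.coe_mem _
  apply isIntegralElem_phiS ℓ N hdeg x hx hxF s hsbar hsQ hsK y hyF y.2
  obtain ⟨p, hpm, hpa⟩ := isIntegralElem_phiS_of_mem_chartAlg ℓ N sF s hs a ha
  have ha'' : (Polynomial.aeval (s : LaurentSeries ℚ) :
      ℚ[X] →ₐ[ℚ] LaurentSeries ℚ).toRingHom.IsIntegralElem (a : LaurentSeries ℚ) := by
    refine ⟨p.map (Polynomial.mapRingHom (GaloisRep.ratLocalizedAt ℓ).subtype), hpm.map _, ?_⟩
    rw [Polynomial.eval₂_map, ← hpa]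
    congr 1
    exact RingHom.ext fun Q => (coe_evalO ℓ s Q).symm
  have hy : (y : LaurentSeries ℚ) = (Polynomial.aeval (s : LaurentSeries ℚ) :
      ℚ[X] →ₐ[ℚ] LaurentSeries ℚ).toRingHom (C ((ℓ : ℚ)⁻¹)) * (a : LaurentSeries ℚ) := by
    have h1 : (Polynomial.aeval (s : LaurentSeries ℚ) :
        ℚ[X] →ₐ[ℚ] LaurentSeries ℚ).toRingHom (C ((ℓ : ℚ)⁻¹)) = (ℓ : LaurentSeries ℚ)⁻¹ := by
      show Polynomial.aeval (s : LaurentSeries ℚ) (C ((ℓ : ℚ)⁻¹)) = _
      rw [Polynomial.aeval_C, map_inv₀, map_natCast]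
    rw [h1, hay, ← mul_assoc, inv_mul_cancel₀ hl, one_mul]
  rw [hy]
  exact RingHom.IsIntegralElem.mul _ (RingHom.isIntegralElem_map _) ha''

end OneChart

lemma isDomain_tensor_of_props (S : Set ↥(modularFunctionFieldFull N))
    (hmem : ∀ a ∈ chartAlg N ℓ S,
      ((a : ↥(modularFunctionFieldFull N)) : LaurentSeries ℚ) ∈ Ocal ℓ)
    (hker : ∀ a ∈ chartAlg N ℓ S, ∀ y : Ocal ℓ,
      (a : LaurentSeries ℚ) = (ℓ : LaurentSeries ℚ) * y →
        ∃ b ∈ chartAlg N ℓ S, a = (ℓ : ↥(modularFunctionFieldFull N)) * b)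
    (K : Type) [Field K] [CharP K ℓ] [Algebra ↥(GaloisRep.ratLocalizedAt ℓ) K] :
    IsDomain (TensorProduct ↥(GaloisRep.ratLocalizedAt ℓ) ↥(chartAlg N ℓ S) K) := by
  let incl : ↥(chartAlg N ℓ S) →+* Ocal ℓ :=
    { toFun := fun a => ⟨((a : ↥(modularFunctionFieldFull N)) : LaurentSeries ℚ), hmem a a.2⟩
      map_one' := rfl
      map_mul' := fun _ _ => rfl
      map_zero' := rfl
      map_add' := fun _ _ => rfl }
  refine isDomain_tensor_of_red ℓ ((red ℓ).comp incl) ?_ K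
  intro a ha
  obtain ⟨y, hy⟩ := red_eq_zero ℓ (incl a) ha
  have hay : ((a : ↥(modularFunctionFieldFull N)) : LaurentSeries ℚ) =
      (ℓ : LaurentSeries ℚ) * y := by
    have h := congrArg Subtype.val hy
    rw [Subring.coe_mul, Subring.coe_natCast] at h
    exact h
  obtain ⟨b, hb, hab⟩ := hker a a.2 y hay
  refine ⟨⟨b, hb⟩, Subtype.ext ?_⟩
  rw [hab]
  simp

end Final

end Body

/-- **Chart reduction.** Given the characteristic-zero degree bound and the Igusa crux, each of the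
three chart algebras of the Igusa scheme stays a domain after base change to a field of
characteristic `ℓ`. -/
theorem isDomain_tensor_chartAlg (N : ℕ) [NeZero N] (ℓ : ℕ) [Fact ℓ.Prime]
    (hdeg : DegreeLe N) (hcrux : HasIndepLifts N ℓ)
    (K : Type) [Field K] [CharP K ℓ] [Algebra ↥(GaloisRep.ratLocalizedAt ℓ) K]
    (S : Set ↥(modularFunctionFieldFull N))
    (hS : S = {jFull N} ∨ S = {(jFull N)⁻¹} ∨ S = {jFull N, (jFull N)⁻¹}) :
    IsDomain (TensorProduct ↥(GaloisRep.ratLocalizedAt ℓ) ↥(chartAlg N ℓ S) K) := by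
  obtain ⟨X, hXmem, hXind⟩ := hcrux
  let x : Fin (dedekindPsi N) → Ocal ℓ :=
    fun i => ⟨coeffMap (Int.castRingHom ℚ) (X i), coeffMap_int_mem_Ocal ℓ (X i)⟩
  have hx : LinearIndependent (IntermediateField.adjoin (ZMod ℓ) {jqModC (ZMod ℓ)})
      (fun i => red ℓ (x i)) := by
    have : (fun i => red ℓ (x i)) = fun i => coeffMap (Int.castRingHom (ZMod ℓ)) (X i) :=
      funext fun i => red_coeffMap_int ℓ (X i)
    rw [this]; exact hXind
  have hxF : ∀ i, (x i : LaurentSeries ℚ) ∈ modularFunctionFieldFull N :=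
    fun i => coeffMap_int_mem_full N (X i) (hXmem i)
  have hjs : ((jFull N : ↥(modularFunctionFieldFull N)) : LaurentSeries ℚ) = (jO ℓ : Ocal ℓ) := rfl
  have hjis : (((jFull N)⁻¹ : ↥(modularFunctionFieldFull N)) : LaurentSeries ℚ) =
      (jOinv ℓ : Ocal ℓ) := by
    push_cast; rfl
  have hmemFin := coe_mem_Ocal_of_mem_chartAlg ℓ N (jFull N) (jO ℓ) hjs
  have hkerFin := chart_ker ℓ N hdeg x hx hxF (jO ℓ) (transcendental_red_jO ℓ)
    transcendental_jq rfl (jFull N) hjs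
  have hmemInf := coe_mem_Ocal_of_mem_chartAlg ℓ N (jFull N)⁻¹ (jOinv ℓ) hjis
  have hkerInf := chart_ker ℓ N hdeg x hx hxF (jOinv ℓ) (transcendental_red_jOinv ℓ)
    transcendental_jq_inv adjoin_jq_inv (jFull N)⁻¹ hjis
  rcases hS with rfl | rfl | rfl
  · exact isDomain_tensor_of_props ℓ N _ hmemFin hkerFin K
  · exact isDomain_tensor_of_props ℓ N _ hmemInf hkerInf K
  · have hpair : ({jFull N, (jFull N)⁻¹} : Set ↥(modularFunctionFieldFull N)) =
        insert (jFull N)⁻¹ {jFull N} := Set.pair_comm _ _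
    have hpow : ∀ a ∈ chartAlg N ℓ {jFull N, (jFull N)⁻¹},
        ∃ n : ℕ, (jFull N) ^ n * a ∈ chartAlg N ℓ {jFull N} := by
      intro a ha
      rw [hpair] at ha
      exact exists_pow_mul_mem_chartAlg (Set.mem_singleton _) (jFull_ne_zero N) ha
    have hjinvMid : (jFull N)⁻¹ ∈ chartAlg N ℓ {jFull N, (jFull N)⁻¹} :=
      subset_chartAlg N ℓ _ (by simp)
    have hle : chartAlg N ℓ {jFull N} ≤ chartAlg N ℓ {jFull N, (jFull N)⁻¹} :=
      chartAlg_mono N ℓ (sFin_subset N)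
    have hj := jFull_ne_zero N
    refine isDomain_tensor_of_props ℓ N _ ?_ ?_ K
    · intro a ha
      obtain ⟨n, hn⟩ := hpow a ha
      have h1 := hmemFin _ hn
      have h2 : (a : LaurentSeries ℚ) = (jq⁻¹) ^ n *
          (((jFull N) ^ n * a : ↥(modularFunctionFieldFull N)) : LaurentSeries ℚ) := by
        push_cast
        rw [coe_jFull, ← mul_assoc, ← mul_pow, inv_mul_cancel₀ jq_ne_zero, one_pow, one_mul]
      rw [h2]
      exact (Ocal ℓ).mul_mem ((Ocal ℓ).pow_mem (jq_inv_mem_Ocal ℓ) n) h1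
    · intro a ha y hay
      obtain ⟨n, hn⟩ := hpow a ha
      obtain ⟨b, hb, hab⟩ := hkerFin _ hn (jO ℓ ^ n * y) (by
        push_cast
        rw [hay, coe_jFull]
        show jq ^ n * ((ℓ : LaurentSeries ℚ) * y) = (ℓ : LaurentSeries ℚ) * (jq ^ n * y)
        ring)
      refine ⟨((jFull N)⁻¹) ^ n * b, mul_mem (pow_mem hjinvMid n) (hle hb), ?_⟩
      have h3 : a = ((jFull N)⁻¹) ^ n * ((jFull N) ^ n * a) := by
        rw [← mul_assoc, ← mul_pow, inv_mul_cancel₀ hj, one_pow, one_mul]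
      rw [h3, hab]; ring

end Fermat.Agent.S28.Reduction
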