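/-
S28: the characteristic-zero degree bound in the shape `Reduction.DegreeLe N` consumed by the
chart reduction (`S28/ReductionDefs.lean`).  Owner: helper97.
-/
import Mathlib
import Fermat.Agent.S28.ReductionDefs
import Fermat.Agent.S28.Char0Degree

set_option autoImplicit false

namespace Fermat.Agent.S28

/-- `[F_N : ℚ(j)] ≤ ψ(N)`, in the shape consumed by `Reduction.isDomain_tensor_chartAlg`. -/
theorem Char0Degree.reduction_degreeLe (N : ℕ) [NeZero N] : Reduction.DegreeLe N :=
  fun n x hx hli => Fermat.Agent.S28.degreeLe N n x hx hli

end Fermat.Agent.S28
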