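/-
S28 package [Dichotomy] (helper51): abstract field theory, Mathlib only.

A polynomial over `L` whose roots in an extension ring `Ω` are permuted transitively by ring
endomorphisms of `Ω` fixing `L` is irreducible; if all roots but one are permuted transitively,
the polynomial is irreducible or the exceptional root is rational.
-/
import Mathlib

set_option autoImplicit false

namespace Fermat.Agent.S28

open Polynomial

section Dichotomy

variable {L Ω : Type*} [Field L] [Field Ω] [Algebra L Ω]

/-- A ring endomorphism of `Ω` fixing `L` maps roots of (the image of) a polynomial over `L`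
to roots. -/
theorem dichotomy_eval_map_hom (g : L[X]) (ρ : Ω →+* Ω)
    (hρ : ∀ x : L, ρ (algebraMap L Ω x) = algebraMap L Ω x) {a : Ω}
    (ha : (g.map (algebraMap L Ω)).eval a = 0) : (g.map (algebraMap L Ω)).eval (ρ a) = 0 := by
  have hcomp : ρ.comp (algebraMap L Ω) = algebraMap L Ω := RingHom.ext hρ
  rw [eval_map] at ha ⊢
  have h := hom_eval₂ g (algebraMap L Ω) ρ a
  rw [ha, map_zero, hcomp] at h
  exact h.symm

/-- If one root of a transitively permuted family is a root of `g`, all of them are. -/
theorem dichotomy_all_roots (g : L[X]) {ι : Type*} (α : ι → Ω)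
    (htrans : ∀ i j, ∃ ρ : Ω →+* Ω, (∀ x : L, ρ (algebraMap L Ω x) = algebraMap L Ω x) ∧
      ρ (α i) = α j) {i₀ : ι} (h0 : (g.map (algebraMap L Ω)).eval (α i₀) = 0) (j : ι) :
    (g.map (algebraMap L Ω)).eval (α j) = 0 := by
  obtain ⟨ρ, hρ, hρα⟩ := htrans i₀ j
  rw [← hρα]
  exact dichotomy_eval_map_hom g ρ hρ h0

/-- A nonzero polynomial vanishing on an injective family has degree at least the size of the
family; more precisely the family (as a multiset) is below the multiset of roots. -/
theorem dichotomy_family_le_roots {ι : Type*} [Fintype ι] (α : ι → Ω)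
    (hα : Function.Injective α) (G : Polynomial Ω) (hG : G ≠ 0) (h : ∀ j, G.eval (α j) = 0) :
    (Finset.univ : Finset ι).val.map α ≤ G.roots := by
  have hnd : ((Finset.univ : Finset ι).val.map α).Nodup :=
    Multiset.Nodup.map hα (Finset.univ : Finset ι).nodup
  rw [Multiset.le_iff_subset hnd]
  intro x hx
  obtain ⟨j, -, rfl⟩ := Multiset.mem_map.mp hx
  exact (mem_roots hG).mpr (h j)

theorem dichotomy_card_le_natDegree {ι : Type*} [Fintype ι] (α : ι → Ω)
    (hα : Function.Injective α) (G : Polynomial Ω) (hG : G ≠ 0) (h : ∀ j, G.eval (α j) = 0) :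
    Fintype.card ι ≤ G.natDegree := by
  have h1 := Multiset.card_le_card (dichotomy_family_le_roots α hα G hG h)
  rw [Multiset.card_map] at h1
  exact h1.trans (card_roots' G)

/-- Core of the first statement: if `f = g * h` and one `α i₀` is a root of `g` then `h` is a
unit. -/
theorem dichotomy_isUnit_right (f g h : L[X]) {ι : Type*} [Fintype ι] (α : ι → Ω)
    (hα : Function.Injective α)
    (hfac : f.map (algebraMap L Ω) = ∏ i, (X - C (α i)))
    (htrans : ∀ i j, ∃ ρ : Ω →+* Ω, (∀ x : L, ρ (algebraMap L Ω x) = algebraMap L Ω x) ∧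
      ρ (α i) = α j) (hfgh : f = g * h) {i₀ : ι}
    (h0 : (g.map (algebraMap L Ω)).eval (α i₀) = 0) : IsUnit h := by
  have hdegf : (f.map (algebraMap L Ω)).natDegree = Fintype.card ι := by
    rw [hfac, natDegree_finsetProd_X_sub_C_eq_card, Finset.card_univ]
  have hfne : f.map (algebraMap L Ω) ≠ 0 := by
    rw [hfac]
    exact Finset.prod_ne_zero_iff.mpr fun i _ => X_sub_C_ne_zero (α i)
  have hf0 : f ≠ 0 := fun h => hfne (by rw [h, Polynomial.map_zero])
  have hg0 : g ≠ 0 := fun h' => hf0 (by rw [hfgh, h', zero_mul])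
  have hh0 : h ≠ 0 := fun h' => hf0 (by rw [hfgh, h', mul_zero])
  have hgm : g.map (algebraMap L Ω) ≠ 0 :=
    (Polynomial.map_ne_zero_iff (algebraMap L Ω).injective).mpr hg0
  have hcard : Fintype.card ι ≤ (g.map (algebraMap L Ω)).natDegree :=
    dichotomy_card_le_natDegree α hα _ hgm (dichotomy_all_roots g α htrans h0)
  rw [natDegree_map] at hcard hdegf
  have hmul : f.natDegree = g.natDegree + h.natDegree := by
    rw [hfgh, natDegree_mul hg0 hh0]
  have hh : h.natDegree = 0 := by omega
  rw [natDegree_eq_zero] at hh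
  obtain ⟨c, rfl⟩ := hh
  have hc : c ≠ 0 := fun hc => hh0 (by rw [hc, C_0])
  exact isUnit_C.mpr (isUnit_iff_ne_zero.mpr hc)

/-- A polynomial over `L` of degree `n` whose `n` distinct roots in `Ω` are permuted transitively
by ring endomorphisms of `Ω` fixing `L` is irreducible. -/
theorem irreducible_of_transitive (f : L[X]) {ι : Type*} [Fintype ι] [Nonempty ι] (α : ι → Ω)
    (hα : Function.Injective α)
    (hfac : f.map (algebraMap L Ω) = ∏ i, (X - C (α i)))
    (htrans : ∀ i j, ∃ ρ : Ω →+* Ω, (∀ x : L, ρ (algebraMap L Ω x) = algebraMap L Ω x) ∧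
      ρ (α i) = α j) : Irreducible f := by
  have hdegf : (f.map (algebraMap L Ω)).natDegree = Fintype.card ι := by
    rw [hfac, natDegree_finsetProd_X_sub_C_eq_card, Finset.card_univ]
  rw [natDegree_map] at hdegf
  have hpos : 0 < Fintype.card ι := Fintype.card_pos
  rw [irreducible_iff]
  refine ⟨fun hu => ?_, fun g h hfgh => ?_⟩
  · have := natDegree_eq_zero_of_isUnit hu
    omega
  · obtain ⟨i₀⟩ := ‹Nonempty ι›
    have hroot : (f.map (algebraMap L Ω)).eval (α i₀) = 0 := by
      rw [hfac, eval_prod]
      exact Finset.prod_eq_zero (Finset.mem_univ i₀) (by simp)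
    rw [hfgh, Polynomial.map_mul, eval_mul, mul_eq_zero] at hroot
    rcases hroot with h0 | h0
    · exact Or.inr (dichotomy_isUnit_right f g h α hα hfac htrans hfgh h0)
    · exact Or.inl (dichotomy_isUnit_right f h g α hα hfac htrans (hfgh.trans (mul_comm g h)) h0)

/-- Core of the second statement. -/
theorem dichotomy_isUnit_right' (f g h : L[X]) {ι : Type*} [Fintype ι] (α₀ : Ω) (α : ι → Ω)
    (hα : Function.Injective α)
    (hfac : f.map (algebraMap L Ω) = (X - C α₀) * ∏ i, (X - C (α i)))
    (htrans : ∀ i j, ∃ ρ : Ω →+* Ω, (∀ x : L, ρ (algebraMap L Ω x) = algebraMap L Ω x) ∧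
      ρ (α i) = α j) (hα₀ : α₀ ∉ (algebraMap L Ω).range) (hfgh : f = g * h) {i₀ : ι}
    (h0 : (g.map (algebraMap L Ω)).eval (α i₀) = 0) : IsUnit h := by
  classical
  have hprodne : (∏ i, (X - C (α i)) : Polynomial Ω) ≠ 0 :=
    Finset.prod_ne_zero_iff.mpr fun i _ => X_sub_C_ne_zero (α i)
  have hdegf : (f.map (algebraMap L Ω)).natDegree = Fintype.card ι + 1 := by
    rw [hfac, natDegree_mul (X_sub_C_ne_zero α₀) hprodne, natDegree_X_sub_C,
      natDegree_finsetProd_X_sub_C_eq_card, Finset.card_univ, add_comm]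
  have hfne : f.map (algebraMap L Ω) ≠ 0 := by
    rw [hfac]
    exact mul_ne_zero (X_sub_C_ne_zero α₀) hprodne
  have hf0 : f ≠ 0 := fun h => hfne (by rw [h, Polynomial.map_zero])
  have hg0 : g ≠ 0 := fun h' => hf0 (by rw [hfgh, h', zero_mul])
  have hh0 : h ≠ 0 := fun h' => hf0 (by rw [hfgh, h', mul_zero])
  have hgm : g.map (algebraMap L Ω) ≠ 0 :=
    (Polynomial.map_ne_zero_iff (algebraMap L Ω).injective).mpr hg0
  have hhm : h.map (algebraMap L Ω) ≠ 0 :=
    (Polynomial.map_ne_zero_iff (algebraMap L Ω).injective).mpr hh0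
  have hall := dichotomy_all_roots g α htrans h0
  have hle := dichotomy_family_le_roots α hα _ hgm hall
  have hcard : Fintype.card ι ≤ (g.map (algebraMap L Ω)).natDegree :=
    dichotomy_card_le_natDegree α hα _ hgm hall
  rw [natDegree_map] at hcard hdegf
  have hmul : f.natDegree = g.natDegree + h.natDegree := by
    rw [hfgh, natDegree_mul hg0 hh0]
  have hh1 : h.natDegree ≤ 1 := by omega
  by_cases hh : h.natDegree = 0
  · rw [natDegree_eq_zero] at hh
    obtain ⟨c, rfl⟩ := hh
    have hc : c ≠ 0 := fun hc => hh0 (by rw [hc, C_0])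
    exact isUnit_C.mpr (isUnit_iff_ne_zero.mpr hc)
  · exfalso
    have hdeg1 : h.natDegree = 1 := by omega
    -- the rational root of `h`
    have hform := eq_X_add_C_of_natDegree_le_one hh1
    have hlead : h.coeff 1 ≠ 0 := by
      have := leadingCoeff_ne_zero.mpr hh0
      rwa [leadingCoeff, hdeg1] at this
    set x₀ : L := -(h.coeff 0) / h.coeff 1 with hx₀
    have hx₀root : h.eval x₀ = 0 := by
      rw [hform]
      simp only [eval_add, eval_mul, eval_C, eval_X]
      rw [hx₀]
      field_simp
      ring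
    set r : Ω := algebraMap L Ω x₀ with hr
    have hrroot : (h.map (algebraMap L Ω)).eval r = 0 := by
      rw [eval_map, hr, eval₂_at_apply, hx₀root, map_zero]
    have hrne : r ≠ α₀ := fun h' => hα₀ ⟨x₀, h'⟩
    -- multiset count of `r`
    have hroots : (g.map (algebraMap L Ω)).roots + (h.map (algebraMap L Ω)).roots =
        α₀ ::ₘ (Finset.univ : Finset ι).val.map α := by
      have hprodroots : (∏ i, (X - C (α i)) : Polynomial Ω).roots =
          (Finset.univ : Finset ι).val.map α := by
        rw [roots_prod _ _ hprodne]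
        simp only [roots_X_sub_C, Multiset.bind_singleton]
      rw [← roots_mul (mul_ne_zero hgm hhm), ← Polynomial.map_mul, ← hfgh, hfac,
        roots_mul (mul_ne_zero (X_sub_C_ne_zero α₀) hprodne), roots_X_sub_C, hprodroots]
      rfl
    have hnd : ((Finset.univ : Finset ι).val.map α).Nodup :=
      Multiset.Nodup.map hα (Finset.univ : Finset ι).nodup
    have hcount := congrArg (Multiset.count r) hroots
    rw [Multiset.count_add, Multiset.count_cons_of_ne hrne] at hcount
    have hrh : 1 ≤ Multiset.count r (h.map (algebraMap L Ω)).roots :=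
      Multiset.one_le_count_iff_mem.mpr ((mem_roots hhm).mpr hrroot)
    have hM1 : Multiset.count r ((Finset.univ : Finset ι).val.map α) ≤ 1 :=
      Multiset.nodup_iff_count_le_one.mp hnd r
    have hM : Multiset.count r ((Finset.univ : Finset ι).val.map α) = 1 := by omega
    have hg : Multiset.count r (g.map (algebraMap L Ω)).roots = 0 := by omega
    have hmem : r ∈ (Finset.univ : Finset ι).val.map α :=
      Multiset.one_le_count_iff_mem.mp hM.ge
    have hmem' : r ∈ (g.map (algebraMap L Ω)).roots := Multiset.mem_of_le hle hmem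
    have := Multiset.one_le_count_iff_mem.mpr hmem'
    omega

/-- If all roots but one are permuted transitively, the polynomial is irreducible or the
exceptional root is rational. -/
theorem irreducible_or_mem_range (f : L[X]) {ι : Type*} [Fintype ι] [Nonempty ι] (α₀ : Ω)
    (α : ι → Ω) (hα : Function.Injective α)
    (hfac : f.map (algebraMap L Ω) = (X - C α₀) * ∏ i, (X - C (α i)))
    (htrans : ∀ i j, ∃ ρ : Ω →+* Ω, (∀ x : L, ρ (algebraMap L Ω x) = algebraMap L Ω x) ∧
      ρ (α i) = α j) : Irreducible f ∨ α₀ ∈ (algebraMap L Ω).range := by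
  by_cases hα₀ : α₀ ∈ (algebraMap L Ω).range
  · exact Or.inr hα₀
  left
  have hprodne : (∏ i, (X - C (α i)) : Polynomial Ω) ≠ 0 :=
    Finset.prod_ne_zero_iff.mpr fun i _ => X_sub_C_ne_zero (α i)
  have hdegf : (f.map (algebraMap L Ω)).natDegree = Fintype.card ι + 1 := by
    rw [hfac, natDegree_mul (X_sub_C_ne_zero α₀) hprodne, natDegree_X_sub_C,
      natDegree_finsetProd_X_sub_C_eq_card, Finset.card_univ, add_comm]
  rw [natDegree_map] at hdegf
  rw [irreducible_iff]
  refine ⟨fun hu => ?_, fun g h hfgh => ?_⟩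
  · have := natDegree_eq_zero_of_isUnit hu
    omega
  · obtain ⟨i₀⟩ := ‹Nonempty ι›
    have hroot : (f.map (algebraMap L Ω)).eval (α i₀) = 0 := by
      rw [hfac, eval_mul, eval_prod]
      exact mul_eq_zero_of_right _ (Finset.prod_eq_zero (Finset.mem_univ i₀) (by simp))
    rw [hfgh, Polynomial.map_mul, eval_mul, mul_eq_zero] at hroot
    rcases hroot with h0 | h0
    · exact Or.inr (dichotomy_isUnit_right' f g h α₀ α hα hfac htrans hα₀ hfgh h0)
    · exact Or.inl (dichotomy_isUnit_right' f h g α₀ α hα hfac htrans hα₀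
        (hfgh.trans (mul_comm g h)) h0)

end Dichotomy

end Fermat.Agent.S28
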