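/-
S28, backup line, package [ModEqK], analytic half (owner: helper79).

The modular equation of prime level `p` over a subring `A ⊆ ℂ` containing `ζ = exp(2πi/p)`:
there is a monic `Φ ∈ A[Y][X]` of degree `p + 1` with
`Φ(X, j(u^p)) = (X - j(u^{p²})) ∏_{b<p} (X - j(ζ^b u))` in `A((u))[X]`.

Sources: `Lib/CuspInvariant` (an `SL₂(ℤ)`-invariant function with `A`-integral expansion is an
`A`-polynomial in `j`), `S24/ModRing` (the expansions of `τ ↦ j((aτ+b)/e)`), `Lib/JStab`
(the translates of `j(pτ)`), `Lib/Gamma0Count` (the index of `Γ₀(p)`).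
-/
import Mathlib
import Fermat.Agent.S28.Defs
import Fermat.Agent.Lib.CuspInvariant
import Fermat.Agent.Lib.JStab
import Fermat.Agent.Lib.Gamma0Count
import Fermat.Agent.S24.ModRing

set_option autoImplicit false

noncomputable section

namespace Fermat.Agent.S28.ModEqC

open UpperHalfPlane CongruenceSubgroup Polynomial
open scoped MatrixGroups Real
open Fermat.Agent.Lib.CuspLaurent Fermat.Agent.Lib.CuspInvariant Fermat.Agent.Lib.JStab
open Fermat.Agent.S24.Basic Fermat.Agent.S24.ModRing Fermat.Agent.S28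

/-! ## The conjugate polynomial of an `SL₂(ℤ)`-stable finite family -/

section ConjPoly

variable (A : Subring ℂ) (N : ℕ) [NeZero N]

/-- Evaluation at a point of `ℍ`, as a ring hom. -/
def evalAt (τ : ℍ) : intCusp A N →+* ℂ :=
  (Pi.evalRingHom (fun _ : ℍ => ℂ) τ).comp (intCusp A N).subtype

lemma evalAt_apply (τ : ℍ) (f : intCusp A N) : evalAt A N τ f = (f : ℍ → ℂ) τ := rfl

/-- For a finite family of functions with `A`-integral expansions which is permuted by
`SL₂(ℤ)`, the polynomial `∏ (X - F i)` has coefficients in `A[j]`, as an identity of formal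
Laurent series. -/
theorem exists_conjPoly {ι : Type*} [Fintype ι] (F : ι → intCusp A N) (J : intCusp A N)
    (hJ : ∀ τ : ℍ, (J : ℍ → ℂ) τ = ModularForm.E₄ τ ^ 3 / ModularForm.discriminant τ)
    (hperm : ∀ γ : SL(2, ℤ), ∃ σ : Equiv.Perm ι, ∀ (i : ι) (τ : ℍ),
      (F i : ℍ → ℂ) (γ • τ) = (F (σ i) : ℍ → ℂ) τ) :
    ∃ Φ : Polynomial (Polynomial A), Φ.Monic ∧ Φ.natDegree = Fintype.card ι ∧
      Φ.map (Polynomial.eval₂RingHom (HahnSeries.C : A →+* LaurentSeries A) (laurentInt A N J)) =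
        ∏ i, (X - C (laurentInt A N (F i))) := by
  classical
  set Q : Polynomial (intCusp A N) := ∏ i, (X - C (F i)) with hQ
  have hQmonic : Q.Monic := monic_prod_of_monic _ _ (fun i _ => monic_X_sub_C _)
  have hQdeg : Q.natDegree = Fintype.card ι := by
    rw [hQ, natDegree_prod_of_monic _ _ (fun i _ => monic_X_sub_C _)]
    simp
  -- the coefficients are invariant
  have hinv : ∀ (n : ℕ) (γ : SL(2, ℤ)) (τ : ℍ),
      ((Q.coeff n : intCusp A N) : ℍ → ℂ) (γ • τ) = ((Q.coeff n : intCusp A N) : ℍ → ℂ) τ := by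
    intro n γ τ
    obtain ⟨σ, hσ⟩ := hperm γ
    have h1 : Q.map (evalAt A N (γ • τ)) = Q.map (evalAt A N τ) := by
      have hc := Equiv.prod_comp σ (fun i => Polynomial.map (evalAt A N τ) (X - C (F i)))
      rw [hQ, Polynomial.map_prod, Polynomial.map_prod, ← hc]
      refine Finset.prod_congr rfl fun i _ => ?_
      rw [Polynomial.map_sub, Polynomial.map_sub, map_X, map_X, map_C, map_C, evalAt_apply,
        evalAt_apply, hσ i τ]
    have h2 : (Q.map (evalAt A N (γ • τ))).coeff n = (Q.map (evalAt A N τ)).coeff n := by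
      rw [h1]
    rw [coeff_map, coeff_map] at h2
    exact h2
  have hex : ∀ n : ℕ, ∃ P : Polynomial A, ∀ τ : ℍ, ((Q.coeff n : intCusp A N) : ℍ → ℂ) τ =
      Polynomial.aeval (ModularForm.E₄ τ ^ 3 / ModularForm.discriminant τ) P :=
    fun n => exists_aeval_of_invariant A N (Q.coeff n).2 (hinv n)
  choose P hP using hex
  -- evaluation of `A`-polynomials at `j`, inside `intCusp A N`
  let evF : Polynomial A →+* intCusp A N := Polynomial.eval₂RingHom (constHom A N) J
  have hevF : ∀ (R : Polynomial A) (τ : ℍ), ((evF R : intCusp A N) : ℍ → ℂ) τ =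
      Polynomial.aeval (ModularForm.E₄ τ ^ 3 / ModularForm.discriminant τ) R := by
    intro R τ
    have h : (evalAt A N τ).comp evF =
        (Polynomial.aeval (ModularForm.E₄ τ ^ 3 / ModularForm.discriminant τ) :
          Polynomial A →ₐ[A] ℂ).toRingHom := by
      apply Polynomial.ringHom_ext
      · intro a
        simp only [RingHom.comp_apply, evF, Polynomial.coe_eval₂RingHom, Polynomial.eval₂_C,
          AlgHom.toRingHom_eq_coe, RingHom.coe_coe, Polynomial.aeval_C]
        rfl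
      · simp only [RingHom.comp_apply, evF, Polynomial.coe_eval₂RingHom, Polynomial.eval₂_X,
          AlgHom.toRingHom_eq_coe, RingHom.coe_coe, Polynomial.aeval_X, evalAt_apply, hJ]
    exact DFunLike.congr_fun h R
  have hcoef : ∀ n : ℕ, Q.coeff n = evF (P n) := by
    intro n
    apply Subtype.ext
    funext τ
    rw [hP n τ, hevF]
  have hL : (laurentInt A N).comp evF =
      Polynomial.eval₂RingHom (HahnSeries.C : A →+* LaurentSeries A) (laurentInt A N J) := by
    apply Polynomial.ringHom_ext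
    · intro a
      simp only [RingHom.comp_apply, evF, Polynomial.coe_eval₂RingHom, Polynomial.eval₂_C,
        laurentInt_constHom]
    · simp only [RingHom.comp_apply, evF, Polynomial.coe_eval₂RingHom, Polynomial.eval₂_X]
  have hdeglt : (∑ n ∈ Finset.range (Fintype.card ι), C (P n) * X ^ n :
      Polynomial (Polynomial A)).degree < (Fintype.card ι : WithBot ℕ) := by
    refine lt_of_le_of_lt (degree_sum_le _ _) ?_
    rw [Finset.sup_lt_iff (WithBot.bot_lt_coe _)]
    intro n hn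
    exact lt_of_le_of_lt (degree_C_mul_X_pow_le n _)
      (by exact_mod_cast Finset.mem_range.mp hn)
  have hnat : (X ^ (Fintype.card ι) + ∑ n ∈ Finset.range (Fintype.card ι), C (P n) * X ^ n :
      Polynomial (Polynomial A)).natDegree = Fintype.card ι := by
    rw [natDegree_add_eq_left_of_degree_lt (by rw [degree_X_pow]; exact hdeglt), natDegree_X_pow]
  refine ⟨X ^ (Fintype.card ι) + ∑ n ∈ Finset.range (Fintype.card ι), C (P n) * X ^ n,
    monic_X_pow_add hdeglt, hnat, ?_⟩
  have hQsum := hQmonic.as_sum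
  rw [hQdeg] at hQsum
  have hRHS : ∏ i, (X - C (laurentInt A N (F i))) = Q.map (laurentInt A N) := by
    rw [hQ, Polynomial.map_prod]
    refine Finset.prod_congr rfl fun i _ => ?_
    rw [Polynomial.map_sub, map_X, map_C]
  have hΦmap : (X ^ (Fintype.card ι) + ∑ n ∈ Finset.range (Fintype.card ι), C (P n) * X ^ n :
      Polynomial (Polynomial A)).map
        (Polynomial.eval₂RingHom (HahnSeries.C : A →+* LaurentSeries A) (laurentInt A N J)) =
      X ^ (Fintype.card ι) + ∑ n ∈ Finset.range (Fintype.card ι),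
        C (Polynomial.eval₂RingHom (HahnSeries.C : A →+* LaurentSeries A) (laurentInt A N J)
          (P n)) * X ^ n := by
    rw [Polynomial.map_add, Polynomial.map_pow, map_X, Polynomial.map_sum]
    congr 1
    refine Finset.sum_congr rfl fun n _ => ?_
    rw [Polynomial.map_mul, Polynomial.map_pow, map_X, map_C]
  have hQmap : Q.map (laurentInt A N) = X ^ (Fintype.card ι) +
      ∑ n ∈ Finset.range (Fintype.card ι), C (laurentInt A N (Q.coeff n)) * X ^ n := by
    conv_lhs => rw [hQsum]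
    rw [Polynomial.map_add, Polynomial.map_pow, map_X, Polynomial.map_sum]
    congr 1
    refine Finset.sum_congr rfl fun n _ => ?_
    rw [Polynomial.map_mul, Polynomial.map_pow, map_X, map_C]
  have h3 : ∀ n : ℕ, laurentInt A N (Q.coeff n) =
      Polynomial.eval₂RingHom (HahnSeries.C : A →+* LaurentSeries A) (laurentInt A N J) (P n) := by
    intro n
    have h := DFunLike.congr_fun hL (P n)
    rw [RingHom.comp_apply] at h
    rw [hcoef n, h]
  rw [hRHS, hΦmap, hQmap]
  refine congrArg (fun s : Polynomial (LaurentSeries A) => X ^ Fintype.card ι + s)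
    (Finset.sum_congr rfl fun n _ => ?_)
  rw [h3 n]

end ConjPoly

/-! ## Formal substitutions, coefficientwise -/

section Formal

variable {R : Type*} [CommRing R]

lemma expand_coeff {m : ℕ} (hm : m ≠ 0) (f : LaurentSeries R) (n : ℤ) :
    (expand R m f).coeff n = if (m : ℤ) ∣ n then f.coeff (n / m) else 0 := by
  have : NeZero m := ⟨hm⟩
  have he : expand R m = ModularCurve.qExpand R m := by
    unfold expand
    rw [dif_neg hm]
  rw [he]
  split_ifs with h
  · obtain ⟨k, rfl⟩ := h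
    rw [ModularCurve.qExpand_coeff_mul, Int.mul_ediv_cancel_left _ (by exact_mod_cast hm)]
  · exact ModularCurve.qExpand_coeff_of_not_dvd m f h

lemma scale_coeff' (ζ : Rˣ) (f : LaurentSeries R) (n : ℤ) :
    (scale ζ f).coeff n = ((ζ ^ n : Rˣ) : R) * f.coeff n := rfl

lemma expand_one' (f : LaurentSeries R) : expand R 1 f = f := by
  ext n
  rw [expand_coeff one_ne_zero]
  simp

lemma scale_one' (f : LaurentSeries R) : scale (1 : Rˣ) f = f := by
  ext n
  rw [scale_coeff']
  simp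

end Formal

/-! ## The generators `τ ↦ j((aτ+b)/e)` have `A`-integral expansions -/

section Generators

lemma jq_coeff_cast (m : ℤ) :
    ((ModularCurve.jq.coeff m : ℚ) : ℂ) = (((ModularCurve.jqModC ℤ).coeff m : ℤ) : ℂ) := by
  rw [← ModularCurve.jqModC_rat, ModularCurve.coeff_jqModC_eq_intCast (R := ℚ) m, Rat.cast_intCast]

lemma exp_eq_pow (b e : ℕ) :
    Complex.exp (2 * π * Complex.I * ((b : ℤ) : ℂ) / (e * ((1 : ℕ) : ℝ))) =
      Complex.exp (2 * π * Complex.I / e) ^ b := by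
  rw [← Complex.exp_nat_mul]
  congr 1
  push_cast
  ring

variable (A : Subring ℂ)

lemma coe_jqModC_coeff (m : ℤ) :
    (((ModularCurve.jqModC A).coeff m : A) : ℂ) = (((ModularCurve.jqModC ℤ).coeff m : ℤ) : ℂ) := by
  rw [ModularCurve.coeff_jqModC_eq_intCast (R := A) m]
  simp

lemma coe_units_zpow (u : Aˣ) (m : ℤ) : (((u ^ m : Aˣ) : A) : ℂ) = ((u : A) : ℂ) ^ m := by
  have h := map_zpow (Units.map (A.subtype : A →* ℂ)) u m
  have h2 := congrArg (fun x : ℂˣ => (x : ℂ)) h
  simp only [Units.coe_map, Units.val_zpow_eq_zpow_val] at h2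
  exact h2

variable {A} {a e N : ℕ} [NeZero N]

/-- The expansion of `τ ↦ j((aτ+b)/e)` in `u = exp(2πiτ/N)`, with the root of unity
`exp(2πi/e)` written as `ζ`. -/
lemma laurent_jM_coeff' (ζ : Aˣ) (hζ : ((ζ : A) : ℂ) = Complex.exp (2 * π * Complex.I / e))
    (ha : a ≠ 0) (he : e ≠ 0) (heN : e ∣ N) (b : ℕ) (n : ℤ) :
    (laurent N ⟨jM a b e, jM_mem_merCusp ha he heN b⟩).coeff n =
      if ((a * (N / e) : ℕ) : ℤ) ∣ n then
        ((((ζ ^ b) ^ (n / ((a * (N / e) : ℕ) : ℤ)) : Aˣ) : A) : ℂ) *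
          (((ModularCurve.jqModC A).coeff (n / ((a * (N / e) : ℕ) : ℤ)) : A) : ℂ)
      else 0 := by
  rw [laurent_jM_coeff ha he heN b n, exp_eq_pow, ← hζ]
  split_ifs with h
  · rw [jq_coeff_cast, coe_jqModC_coeff, coe_units_zpow]
    simp
  · rfl

theorem jM_mem_intCusp (ζ : Aˣ) (hζ : ((ζ : A) : ℂ) = Complex.exp (2 * π * Complex.I / e))
    (ha : a ≠ 0) (he : e ≠ 0) (heN : e ∣ N) (b : ℕ) : jM a b e ∈ intCusp A N := by
  refine mem_intCusp.mpr ⟨jM_mem_merCusp ha he heN b, fun n => ?_⟩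
  rw [laurent_jM_coeff' ζ hζ ha he heN b n]
  split_ifs with h
  · exact mul_mem (SetLike.coe_mem _) (SetLike.coe_mem _)
  · exact zero_mem _

/-- The formal expansion of `τ ↦ j((aτ+b)/e)`: it is `j(ζ^b u^{a N/e})`. -/
theorem laurentInt_jM (ζ : Aˣ) (hζ : ((ζ : A) : ℂ) = Complex.exp (2 * π * Complex.I / e))
    (ha : a ≠ 0) (he : e ≠ 0) (heN : e ∣ N) (b : ℕ) (h : jM a b e ∈ intCusp A N) :
    laurentInt A N ⟨jM a b e, h⟩ =
      expand A (a * (N / e)) (scale (ζ ^ b) (ModularCurve.jqModC A)) := by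
  ext n
  rw [laurentInt_coeff, expand_coeff (mul_div_ne_zero ha he heN (NeZero.ne N))]
  have h2 := laurent_jM_coeff' ζ hζ ha he heN b n
  rw [h2]
  split_ifs with hd
  · rw [scale_coeff']
    simp
  · simp

lemma one_eq_exp : (((1 : Aˣ) : A) : ℂ) = Complex.exp (2 * π * Complex.I / ((1 : ℕ) : ℂ)) := by
  simp [Complex.exp_two_pi_mul_I]

lemma jM_one_zero_one : jM 1 0 1 = jInv := by
  funext τ
  simp [jM, jC, jInv_def, ofComplex_apply]

end Generators

/-! ## The translates of `j(pτ)` -/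

section Level

variable (p : ℕ) [NeZero p]

/-- The translates of `τ ↦ j(pτ)`, indexed by the cosets of `Γ₀(p)`. -/
def conj (x : SL(2, ℤ) ⧸ Gamma0 p) : ℍ → ℂ := fun τ => jN p (x.out⁻¹ • τ)

lemma conj_smul (γ : SL(2, ℤ)) (x : SL(2, ℤ) ⧸ Gamma0 p) (τ : ℍ) :
    conj p x (γ • τ) = conj p (γ⁻¹ • x) τ := by
  unfold conj
  rw [← mul_smul]
  refine (jN_smul_eq_iff p (x.out⁻¹ * γ) ((γ⁻¹ • x).out⁻¹)).mpr ?_ τ
  rw [inv_inv, mul_assoc]
  apply QuotientGroup.eq.mp
  rw [QuotientGroup.out_eq']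
  have h : ((γ * (γ⁻¹ • x).out : SL(2, ℤ)) : SL(2, ℤ) ⧸ Gamma0 p) =
      γ • (((γ⁻¹ • x).out : SL(2, ℤ)) : SL(2, ℤ) ⧸ Gamma0 p) := rfl
  rw [h, QuotientGroup.out_eq', smul_inv_smul]

lemma conj_injective : Function.Injective (conj p) := by
  intro x y hxy
  have h : x.out⁻¹ * (y.out⁻¹)⁻¹ ∈ Gamma0 p :=
    (jN_smul_eq_iff p x.out⁻¹ y.out⁻¹).mp (fun z => congrFun hxy z)
  rw [inv_inv] at h
  have h2 := QuotientGroup.eq.mpr h
  rwa [QuotientGroup.out_eq', QuotientGroup.out_eq'] at h2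

lemma conj_eq_jM (hp : p.Prime) (x : SL(2, ℤ) ⧸ Gamma0 p) :
    conj p x = jM p 0 1 ∨ ∃ b : ℕ, b < p ∧ conj p x = jM 1 b p := by
  obtain ⟨a, b, d, had, hbd, -, h⟩ := jN_smul p x.out⁻¹
  have hfun : conj p x = jM a b d := funext h
  rcases (Nat.dvd_prime hp).mp ⟨d, had.symm⟩ with rfl | rfl
  · rw [one_mul] at had
    subst had
    exact Or.inr ⟨b, hbd, hfun⟩
  · have hd : d = 1 := by
      have h2 : a * d = a * 1 := by rw [had, mul_one]
      exact Nat.eq_of_mul_eq_mul_left hp.pos h2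
    subst hd
    have hb : b = 0 := by omega
    subst hb
    exact Or.inl hfun

lemma card_quotient_prime (hp : p.Prime) [Fintype (SL(2, ℤ) ⧸ Gamma0 p)] :
    Fintype.card (SL(2, ℤ) ⧸ Gamma0 p) = p + 1 := by
  rw [← Nat.card_eq_fintype_card, Fermat.Agent.Lib.Gamma0Count.card_quotient p]
  have h := Fermat.Agent.Lib.Gamma0Count.dedekindPsi_mul_of_not_dvd (p := p) (M := 1) hp
    one_ne_zero (by simpa using hp.one_lt.ne')
  rw [mul_one, ModularCurve.dedekindPsi_one, mul_one] at h
  exact h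

end Level

/-! ## The modular equation of prime level -/

/-- **The modular equation of prime level `p` over a subring `A ⊆ ℂ` containing
`ζ = exp(2πi/p)`.** -/
theorem exists_modPoly (p : ℕ) (hp : p.Prime) (A : Subring ℂ) (ζ : Aˣ)
    (hζ : ((ζ : A) : ℂ) = Complex.exp (2 * π * Complex.I / p)) :
    ∃ Φ : Polynomial (Polynomial A), Φ.Monic ∧ Φ.natDegree = p + 1 ∧
      Φ.map (Polynomial.eval₂RingHom (HahnSeries.C : A →+* LaurentSeries A)
          (expand A p (ModularCurve.jqModC A))) =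
        (X - C (expand A (p ^ 2) (ModularCurve.jqModC A))) *
          ∏ b ∈ Finset.range p, (X - C (scale (ζ ^ b) (ModularCurve.jqModC A))) := by
  classical
  have : NeZero p := ⟨hp.ne_zero⟩
  let _ : Fintype (SL(2, ℤ) ⧸ Gamma0 p) := Subgroup.fintypeQuotientOfFiniteIndex
  have hmemInf : jM p 0 1 ∈ intCusp A p :=
    jM_mem_intCusp 1 one_eq_exp hp.ne_zero one_ne_zero (one_dvd p) 0
  have hmemB : ∀ b : ℕ, jM 1 b p ∈ intCusp A p := fun b =>
    jM_mem_intCusp ζ hζ one_ne_zero hp.ne_zero dvd_rfl b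
  have hmemJ : jM 1 0 1 ∈ intCusp A p :=
    jM_mem_intCusp 1 one_eq_exp one_ne_zero one_ne_zero (one_dvd p) 0
  -- the explicit family
  let e : Option (Fin p) → intCusp A p := fun o =>
    o.elim ⟨jM p 0 1, hmemInf⟩ (fun b => ⟨jM 1 (b : ℕ) p, hmemB b⟩)
  have hconj : ∀ x : SL(2, ℤ) ⧸ Gamma0 p, ∃ o : Option (Fin p), conj p x = (e o : ℍ → ℂ) := by
    intro x
    rcases conj_eq_jM p hp x with h | ⟨b, hb, h⟩
    · exact ⟨none, h⟩
    · exact ⟨some ⟨b, hb⟩, h⟩
  choose g hg using hconj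
  have hginj : Function.Injective g := by
    intro x y hxy
    apply conj_injective p
    rw [hg x, hg y, hxy]
  have hcard : Fintype.card (SL(2, ℤ) ⧸ Gamma0 p) = Fintype.card (Option (Fin p)) := by
    rw [card_quotient_prime p hp, Fintype.card_option, Fintype.card_fin]
  have hgbij : Function.Bijective g :=
    (Fintype.bijective_iff_injective_and_card g).mpr ⟨hginj, hcard⟩
  let J : intCusp A p := ⟨jM 1 0 1, hmemJ⟩
  have hJ : ∀ τ : ℍ, (J : ℍ → ℂ) τ =
      ModularForm.E₄ τ ^ 3 / ModularForm.discriminant τ := by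
    intro τ
    show jM 1 0 1 τ = _
    rw [jM_one_zero_one]
    rfl
  have hperm : ∀ γ : SL(2, ℤ), ∃ σ : Equiv.Perm (SL(2, ℤ) ⧸ Gamma0 p),
      ∀ (i : SL(2, ℤ) ⧸ Gamma0 p) (τ : ℍ),
        ((e (g i) : intCusp A p) : ℍ → ℂ) (γ • τ) = ((e (g (σ i)) : intCusp A p) : ℍ → ℂ) τ := by
    intro γ
    refine ⟨MulAction.toPerm γ⁻¹, fun i τ => ?_⟩
    rw [← hg i, ← hg, conj_smul]
    rfl
  obtain ⟨Φ, hmon, hdeg, hmap⟩ := exists_conjPoly A p (fun x => e (g x)) J hJ hperm
  refine ⟨Φ, hmon, ?_, ?_⟩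
  · rw [hdeg, card_quotient_prime p hp]
  · have hLJ : laurentInt A p J = expand A p (ModularCurve.jqModC A) := by
      have h := laurentInt_jM (A := A) (N := p) 1 one_eq_exp one_ne_zero one_ne_zero (one_dvd p) 0
        hmemJ
      rw [h, pow_zero, scale_one', Nat.div_one, one_mul]
    have hLInf : laurentInt A p (e none) = expand A (p ^ 2) (ModularCurve.jqModC A) := by
      have h := laurentInt_jM (A := A) (N := p) 1 one_eq_exp hp.ne_zero one_ne_zero (one_dvd p) 0
        hmemInf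
      show laurentInt A p ⟨jM p 0 1, hmemInf⟩ = _
      rw [h, pow_zero, scale_one', Nat.div_one, sq]
    have hLB : ∀ b : Fin p, laurentInt A p (e (some b)) =
        scale (ζ ^ (b : ℕ)) (ModularCurve.jqModC A) := by
      intro b
      have h := laurentInt_jM (A := A) (N := p) ζ hζ one_ne_zero hp.ne_zero dvd_rfl (b : ℕ)
        (hmemB b)
      show laurentInt A p ⟨jM 1 (b : ℕ) p, hmemB b⟩ = _
      rw [h, Nat.div_self hp.pos, one_mul, expand_one']
    rw [hLJ] at hmap
    rw [hmap, Function.Bijective.prod_comp hgbij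
      (fun o => (X - C (laurentInt A p (e o)) : Polynomial (LaurentSeries A))),
      Fintype.prod_option, hLInf]
    refine congrArg (fun s : Polynomial (LaurentSeries A) =>
      (X - C (expand A (p ^ 2) (ModularCurve.jqModC A))) * s) ?_
    rw [← Fin.prod_univ_eq_prod_range
      (fun b => (X - C (scale (ζ ^ b) (ModularCurve.jqModC A)) : Polynomial (LaurentSeries A))) p]
    refine Finset.prod_congr rfl fun b _ => ?_
    rw [hLB b]

end Fermat.Agent.S28.ModEqC
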