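/-
S28, backup line, package [ModEqK] (owner: helper79).

The modular equation of prime level `p` over an arbitrary field `k` containing a primitive
`p`-th root of unity `ζ` (base change of `S28/ModEqC.lean` along `ℤ[ζ_p] → k`), and its
substituted forms `s ↦ ξ t^m`.  Statements verbatim from the S28 plan (section `ModEq`).
-/
import Mathlib
import Fermat.Agent.S28.Defs
import Fermat.Agent.S28.Subst
import Fermat.Agent.S28.ModEqC

set_option autoImplicit false

noncomputable section

namespace Fermat.Agent.S28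

open ModularCurve Polynomial
open scoped Real

/-! ## The ring `ℤ[ζ_p] ⊆ ℂ` and its homomorphisms to fields -/

namespace ModEqK

/-- `ζ_p = exp(2πi/p)`. -/
def zetaC (p : ℕ) : ℂ := Complex.exp (2 * π * Complex.I / p)

lemma isPrimitiveRoot_zetaC {p : ℕ} (hp : p ≠ 0) : IsPrimitiveRoot (zetaC p) p :=
  Complex.isPrimitiveRoot_exp p hp

/-- Evaluation `ℤ[X] → ℂ` at `ζ_p`. -/
def evC (p : ℕ) : Polynomial ℤ →+* ℂ := Polynomial.eval₂RingHom (Int.castRingHom ℂ) (zetaC p)

/-- The subring `ℤ[ζ_p]` of `ℂ`. -/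
def ringA (p : ℕ) : Subring ℂ := (evC p).range

lemma zetaC_mem (p : ℕ) : zetaC p ∈ ringA p :=
  ⟨X, by simp [evC]⟩

/-- `ζ_p` as a unit of `ℤ[ζ_p]`. -/
def zetaA (p : ℕ) (hp : p ≠ 0) : (ringA p)ˣ where
  val := ⟨zetaC p, zetaC_mem p⟩
  inv := ⟨zetaC p ^ (p - 1), pow_mem (zetaC_mem p) _⟩
  val_inv := by
    apply Subtype.ext
    show zetaC p * zetaC p ^ (p - 1) = 1
    rw [← pow_succ', Nat.sub_add_cancel (Nat.one_le_iff_ne_zero.mpr hp)]
    exact (isPrimitiveRoot_zetaC hp).pow_eq_one
  inv_val := by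
    apply Subtype.ext
    show zetaC p ^ (p - 1) * zetaC p = 1
    rw [← pow_succ, Nat.sub_add_cancel (Nat.one_le_iff_ne_zero.mpr hp)]
    exact (isPrimitiveRoot_zetaC hp).pow_eq_one

lemma coe_zetaA (p : ℕ) (hp : p ≠ 0) :
    (((zetaA p hp : (ringA p)ˣ) : ringA p) : ℂ) = Complex.exp (2 * π * Complex.I / p) := rfl

/-- Evaluation `ℤ[X] → ℤ[ζ_p]` at `ζ_p`. -/
def evA (p : ℕ) : Polynomial ℤ →+* ringA p := (evC p).rangeRestrict

lemma evA_surjective (p : ℕ) : Function.Surjective (evA p) := (evC p).rangeRestrict_surjective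

lemma coe_evA (p : ℕ) (q : Polynomial ℤ) : ((evA p q : ringA p) : ℂ) = evC p q := rfl

/-- A field with a primitive `p`-th root of unity `ζ` receives `ℤ[ζ_p]`, with `ζ_p ↦ ζ`. -/
theorem exists_hom {k : Type*} [Field k] (p : ℕ) (hp : p.Prime) (ζ : k)
    (hζ : IsPrimitiveRoot ζ p) :
    ∃ φ : ringA p →+* k, φ ((zetaA p hp.ne_zero : (ringA p)ˣ) : ringA p) = ζ := by
  let g : Polynomial ℤ →+* k := Polynomial.eval₂RingHom (Int.castRingHom k) ζ
  have hprim := isPrimitiveRoot_zetaC hp.ne_zero
  have hker : RingHom.ker (evA p) ≤ RingHom.ker g := by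
    intro q hq
    rw [RingHom.mem_ker] at hq ⊢
    have h0 : evC p q = 0 := by
      rw [← coe_evA, hq]
      rfl
    have haeval : Polynomial.aeval (zetaC p) q = 0 := by
      rw [Polynomial.aeval_def, algebraMap_int_eq]
      exact h0
    have hdvd : cyclotomic p ℤ ∣ q := by
      rw [cyclotomic_eq_minpoly hprim hp.pos]
      exact minpoly.isIntegrallyClosed_dvd (hprim.isIntegral hp.pos) haeval
    obtain ⟨r, rfl⟩ := hdvd
    rw [map_mul]
    have hcyc : g (cyclotomic p ℤ) = 0 := by
      show Polynomial.eval₂ (Int.castRingHom k) ζ (cyclotomic p ℤ) = 0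
      rw [← Polynomial.eval_map, map_cyclotomic_int]
      exact hζ.isRoot_cyclotomic hp.pos
    rw [hcyc, zero_mul]
  refine ⟨(evA p).liftOfSurjective (evA_surjective p) ⟨g, hker⟩, ?_⟩
  have hX : ((zetaA p hp.ne_zero : (ringA p)ˣ) : ringA p) = evA p X := by
    apply Subtype.ext
    rw [coe_evA]
    show zetaC p = Polynomial.eval₂ (Int.castRingHom ℂ) (zetaC p) X
    rw [Polynomial.eval₂_X]
  rw [hX, RingHom.liftOfSurjective_comp_apply]
  show Polynomial.eval₂ (Int.castRingHom k) ζ X = ζ
  rw [Polynomial.eval₂_X]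

/-- Ring homs of Laurent series fixing the constants commute with evaluation of
polynomials. -/
lemma comp_aeval {k : Type*} [Field k] (ψ : LaurentSeries k →+* LaurentSeries k)
    (hψ : ∀ c : k, ψ (algebraMap k (LaurentSeries k) c) = algebraMap k (LaurentSeries k) c)
    (x : LaurentSeries k) :
    ψ.comp (Polynomial.aeval x : Polynomial k →ₐ[k] LaurentSeries k).toRingHom =
      (Polynomial.aeval (ψ x) : Polynomial k →ₐ[k] LaurentSeries k).toRingHom := by
  apply Polynomial.ringHom_ext
  · intro c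
    simp [hψ]
  · simp

lemma map_map_aeval {k : Type*} [Field k] (ψ : LaurentSeries k →+* LaurentSeries k)
    (hψ : ∀ c : k, ψ (algebraMap k (LaurentSeries k) c) = algebraMap k (LaurentSeries k) c)
    (Q : Polynomial (Polynomial k)) (x : LaurentSeries k) :
    (Q.map (Polynomial.aeval x : Polynomial k →ₐ[k] LaurentSeries k).toRingHom).map ψ =
      Q.map (Polynomial.aeval (ψ x) : Polynomial k →ₐ[k] LaurentSeries k).toRingHom := by
  rw [Polynomial.map_map, comp_aeval ψ hψ]

/-- The substitution `s ↦ ξ t^m`. -/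
def substHom {k : Type*} [Field k] (ξ : kˣ) (m : ℕ) : LaurentSeries k →+* LaurentSeries k :=
  (expand k m).comp (scale ξ)

section subst

variable {k : Type*} [Field k] (ξ : kˣ) (m : ℕ)

lemma substHom_apply (f : LaurentSeries k) : substHom ξ m f = expand k m (scale ξ f) := rfl

lemma substHom_algebraMap (c : k) :
    substHom ξ m (algebraMap k (LaurentSeries k) c) = algebraMap k (LaurentSeries k) c := by
  rw [substHom_apply, scale_algebraMap, expand_algebraMap]

lemma substHom_jq : substHom ξ m (jqModC k) = yS k ξ m := rfl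

lemma substHom_expand {n : ℕ} (hn : n ≠ 0) (hm : m ≠ 0) (f : LaurentSeries k) :
    substHom ξ m (expand k n f) = expand k (n * m) (scale (ξ ^ n) f) := by
  rw [substHom_apply, scale_expand ξ hn, expand_expand hm hn, mul_comm]

lemma substHom_scale (ζ : kˣ) (f : LaurentSeries k) :
    substHom ξ m (scale ζ f) = expand k m (scale (ζ * ξ) f) := by
  rw [substHom_apply, scale_scale, mul_comm]

end subst

end ModEqK

/-! ## The plan statements -/

section ModEq

open ModEqK

/-- [ModEqK] base change to an arbitrary field containing a primitive `p`-th root of unity. -/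
theorem exists_modEq (k : Type*) [Field k] (p : ℕ) (hp : p.Prime) (ζ : kˣ)
    (hζ : IsPrimitiveRoot ζ p) : Nonempty (ModEq k p ζ) := by
  obtain ⟨Φ, hmon, hdeg, hmap⟩ :=
    ModEqC.exists_modPoly p hp (ringA p) (zetaA p hp.ne_zero) (coe_zetaA p hp.ne_zero)
  obtain ⟨φ, hφ⟩ := exists_hom p hp (ζ : k) (IsPrimitiveRoot.coe_units_iff.mpr hζ)
  have hunit : Units.map (φ : ringA p →* k) (zetaA p hp.ne_zero) = ζ := Units.ext hφ
  have hcomp : ((Polynomial.aeval (expand k p (jqModC k)) :
        Polynomial k →ₐ[k] LaurentSeries k).toRingHom).comp (Polynomial.mapRingHom φ) =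
      (coeffMap φ).comp (Polynomial.eval₂RingHom (HahnSeries.C : ringA p →+* LaurentSeries (ringA p))
        (expand (ringA p) p (jqModC (ringA p)))) := by
    apply Polynomial.ringHom_ext
    · intro a
      simp only [RingHom.comp_apply, Polynomial.coe_mapRingHom, Polynomial.map_C,
        AlgHom.toRingHom_eq_coe, RingHom.coe_coe, Polynomial.aeval_C,
        Polynomial.coe_eval₂RingHom, Polynomial.eval₂_C]
      rw [ModularCurve.algebraMap_laurentSeries_eq_single, HahnSeries.C_apply, coeffMap_single]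
    · simp only [RingHom.comp_apply, Polynomial.coe_mapRingHom, Polynomial.map_X,
        AlgHom.toRingHom_eq_coe, RingHom.coe_coe, Polynomial.aeval_X,
        Polynomial.coe_eval₂RingHom, Polynomial.eval₂_X]
      rw [coeffMap_expand, coeffMap_jqModC]
  refine ⟨{ Φ := Φ.map (Polynomial.mapRingHom φ)
            monic := hmon.map _
            natDegree_eq := by rw [hmon.natDegree_map, hdeg]
            factor := ?_ }⟩
  rw [Polynomial.map_map, hcomp, ← Polynomial.map_map, hmap, Polynomial.map_mul,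
    Polynomial.map_sub, Polynomial.map_X, Polynomial.map_C, Polynomial.map_prod,
    coeffMap_expand, coeffMap_jqModC]
  refine congrArg (fun s : Polynomial (LaurentSeries k) =>
    (X - C (expand k (p ^ 2) (jqModC k))) * s) (Finset.prod_congr rfl fun b _ => ?_)
  rw [Polynomial.map_sub, Polynomial.map_X, Polynomial.map_C, coeffMap_scale, coeffMap_jqModC,
    map_pow, hunit]

variable {k : Type*} [Field k] {p : ℕ} {ζ : kˣ}

/-- [ModEqK] the substituted form `s ↦ ξ t^m`. -/
theorem ModEq.factor_subst (M : ModEq k p ζ) (hp : p.Prime) (ξ : kˣ) {m : ℕ} (hm : m ≠ 0) :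
    M.Φ.map (Polynomial.aeval (yS k (ξ ^ p) (p * m))).toRingHom =
      (X - C (yS k (ξ ^ (p ^ 2)) (p ^ 2 * m))) *
        ∏ b ∈ Finset.range p, (X - C (yS k (ζ ^ b * ξ) m)) := by
  have h1 : yS k (ξ ^ p) (p * m) = substHom ξ m (expand k p (jqModC k)) := by
    rw [substHom_expand ξ m hp.ne_zero hm]
    rfl
  have h2 : yS k (ξ ^ (p ^ 2)) (p ^ 2 * m) = substHom ξ m (expand k (p ^ 2) (jqModC k)) := by
    rw [substHom_expand ξ m (pow_ne_zero 2 hp.ne_zero) hm]
    rfl
  rw [h1, ← map_map_aeval (substHom ξ m) (substHom_algebraMap ξ m), M.factor, Polynomial.map_mul,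
    Polynomial.map_sub, Polynomial.map_X, Polynomial.map_C, Polynomial.map_prod, ← h2]
  refine congrArg (fun s : Polynomial (LaurentSeries k) =>
    (X - C (yS k (ξ ^ (p ^ 2)) (p ^ 2 * m))) * s) (Finset.prod_congr rfl fun b _ => ?_)
  rw [Polynomial.map_sub, Polynomial.map_X, Polynomial.map_C, substHom_scale]
  rfl

/-- [ModEqK] `j(ξ^p t^{p m})` and `j(ξ t^m)` are related by `Φ`, in both directions. -/
theorem ModEq.aeval_eq_zero (M : ModEq k p ζ) (hp : p.Prime) (ξ : kˣ) {m : ℕ} (hm : m ≠ 0) :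
    (M.Φ.map (Polynomial.aeval (yS k (ξ ^ p) (p * m))).toRingHom).eval (yS k ξ m) = 0 := by
  rw [M.factor_subst hp ξ hm, Polynomial.eval_mul, Polynomial.eval_prod,
    Finset.prod_eq_zero (Finset.mem_range.mpr hp.pos) (by simp), mul_zero]

theorem ModEq.aeval_eq_zero' (M : ModEq k p ζ) (hp : p.Prime) (ξ : kˣ) {m : ℕ} (hm : m ≠ 0) :
    (M.Φ.map (Polynomial.aeval (yS k ξ m)).toRingHom).eval (yS k (ξ ^ p) (p * m)) = 0 := by
  -- the identity `Φ(j(q^p), j(q)) = 0` in `k((q))`
  have h0 : (M.Φ.map (Polynomial.aeval (jqModC k)).toRingHom).eval (expand k p (jqModC k)) = 0 := by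
    apply expand_injective (R := k) hp.ne_zero
    rw [map_zero, ← Polynomial.eval_map_apply,
      map_map_aeval (expand k p) (expand_algebraMap p), M.factor, expand_expand hp.ne_zero
        hp.ne_zero, ← sq, Polynomial.eval_mul, Polynomial.eval_sub, Polynomial.eval_X,
      Polynomial.eval_C, sub_self, zero_mul]
  have h1 := congrArg (substHom ξ m) h0
  rw [map_zero, ← Polynomial.eval_map_apply,
    map_map_aeval (substHom ξ m) (substHom_algebraMap ξ m), substHom_jq,
    substHom_expand ξ m hp.ne_zero hm] at h1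
  exact h1

end ModEq

end Fermat.Agent.S28
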