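import Mathlib

/-!
# S28 package [NoLift]: the polynomial lemma

There is no monic polynomial `A` of degree `p ≥ 2` (with `p ≠ 0` in `k`, `char k ≠ 2, 3`) whose
"push-forward" preserves `W = A'^6 P / (P ∘ A)`, where `P = X^4 (X - 1728)^3`.

The proof is a pure root-multiplicity count:
with `U = A'^6 P`, `M = (roots U).map A.eval`, `n_v = M.count v`,
`a_v`, `b_v`, `c_v` the multiplicities of `v` in `A`, `A - 1728`, `A'`,
the hypothesis gives `n_v + 4 a_v + 3 b_v = 6 c_v + (p+1) μ_P(v)` for all `v`;
`a_v, b_v ≤ c_v + 1` and `a_v b_v = 0` give `n_0 ≥ 4p`, `n_1728 ≥ 3p - 1`, while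
`n_0 + n_1728 ≤ deg U ≤ 6p + 1`.  So `p = 2`, `n_1728 = 5`, `A(0) = A(1728) = 0`,
and then `n_1728` is a multiple of `6`.
-/

namespace Fermat.Agent.S28

open Polynomial

noncomputable section

section NoLift

theorem noLift_prod_ne_zero {k : Type*} [Field k] (t : Multiset k) :
    (t.map (fun a => C a - X)).prod ≠ 0 := by
  rw [Ne, Multiset.prod_eq_zero_iff]
  simp only [Multiset.mem_map, not_exists, not_and]
  intro a _ h
  have h' : (X - C a : k[X]) = 0 := by rw [← neg_sub, h, neg_zero]
  exact X_sub_C_ne_zero a h'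

theorem noLift_rootMult_prod {k : Type*} [Field k] [DecidableEq k] (t : Multiset k) (v : k) :
    rootMultiplicity v (t.map (fun a => C a - X)).prod = t.count v := by
  induction t using Multiset.induction_on with
  | empty => simp
  | cons a t ih =>
    have hne : ((a ::ₘ t).map (fun a => C a - X)).prod ≠ 0 := noLift_prod_ne_zero _
    rw [Multiset.map_cons, Multiset.prod_cons] at hne ⊢
    rw [rootMultiplicity_mul hne, ih, Multiset.count_cons]
    have h1 : (C a - X : k[X]) = C (-1) * (X - C a) := by
      rw [C_neg, C_1]; ring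
    have h2 : (C (-1) * (X - C a) : k[X]) ≠ 0 := by
      rw [← h1]; exact left_ne_zero_of_mul hne
    rw [h1, rootMultiplicity_mul h2, rootMultiplicity_C, rootMultiplicity_X_sub_C]
    split_ifs <;> omega

theorem noLift_rootMult_pow {k : Type*} [Field k] (q : k[X]) (hq : q ≠ 0) (n : ℕ) (v : k) :
    rootMultiplicity v (q ^ n) = n * rootMultiplicity v q := by
  induction n with
  | zero =>
    rw [pow_zero, zero_mul, ← C_1, rootMultiplicity_C]
  | succ n ih =>
    rw [pow_succ, rootMultiplicity_mul (mul_ne_zero (pow_ne_zero _ hq) hq), ih]; ring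

theorem noLift_rootMult_P {k : Type*} [Field k] [DecidableEq k] (v : k) :
    rootMultiplicity v (X ^ 4 * (X - C 1728) ^ 3 : k[X]) =
      4 * (if v = 0 then 1 else 0) + 3 * (if v = 1728 then 1 else 0) := by
  have hX : (X : k[X]) = X - C 0 := by simp
  have hne : (X ^ 4 * (X - C 1728) ^ 3 : k[X]) ≠ 0 :=
    mul_ne_zero (pow_ne_zero _ X_ne_zero) (pow_ne_zero _ (X_sub_C_ne_zero _))
  rw [rootMultiplicity_mul hne, noLift_rootMult_pow _ X_ne_zero,
    noLift_rootMult_pow _ (X_sub_C_ne_zero _), rootMultiplicity_X_sub_C]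
  congr 2
  conv_lhs => rw [hX]
  rw [rootMultiplicity_X_sub_C]

theorem noLift_count_two {k : Type*} [DecidableEq k] (M : Multiset k) (x y : k) (hxy : x ≠ y) :
    M.count x + M.count y ≤ Multiset.card M := by
  have hle : Multiset.replicate (M.count x) x + Multiset.replicate (M.count y) y ≤ M := by
    rw [Multiset.le_iff_count]
    intro a
    rw [Multiset.count_add, Multiset.count_replicate, Multiset.count_replicate]
    by_cases hx : x = a
    · have hy : y ≠ a := fun h => hxy (hx.trans h.symm)
      rw [if_pos hx, if_neg hy, hx]; simp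
    · by_cases hy : y = a
      · rw [if_neg hx, if_pos hy, hy]; simp
      · rw [if_neg hx, if_neg hy]; simp
  have := Multiset.card_le_card hle
  rwa [Multiset.card_add, Multiset.card_replicate, Multiset.card_replicate] at this

/-- There is no monic polynomial `A` of degree `p ≥ 2` (`p ≠ 0` in `k`, `char k ≠ 2, 3`) whose
"push-forward" preserves `W = A'^6 P / (P ∘ A)`, `P = X^4 (X - 1728)^3`. -/
theorem noLift {k : Type*} [Field k] [IsAlgClosed k] (h2 : (2 : k) ≠ 0) (h3 : (3 : k) ≠ 0)
    (p : ℕ) (hp : 2 ≤ p) (hpk : (p : k) ≠ 0) (A : k[X]) (hA : A.Monic) (hdeg : A.natDegree = p)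
    (c : k) (hc : c ≠ 0)
    (h : ((derivative A ^ 6 * (X ^ 4 * (X - C 1728) ^ 3 : k[X])).roots.map
            (fun r => C (A.eval r) - X)).prod * (X ^ 4 * (X - C 1728) ^ 3 : k[X]).comp A
          = C c * (derivative A ^ 6 * (X ^ 4 * (X - C 1728) ^ 3 : k[X]) ^ (p + 1))) :
    False := by
  classical
  have h1728 : (1728 : k) ≠ 0 := by
    have : (1728 : k) = 2 ^ 6 * 3 ^ 3 := by norm_num
    rw [this]; exact mul_ne_zero (pow_ne_zero _ h2) (pow_ne_zero _ h3)
  have hA0 : A ≠ 0 := hA.ne_zero
  have hp1 : p - 1 + 1 = p := by omega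
  have hdA : derivative A ≠ 0 := by
    intro h0
    have h00 := congrArg (fun q => coeff q (p - 1)) h0
    simp only [coeff_derivative, coeff_zero] at h00
    have hlead : A.coeff (p - 1 + 1) = 1 := by rw [hp1, ← hdeg]; exact hA.coeff_natDegree
    rw [hlead, one_mul] at h00
    apply hpk
    rw [← h00, ← Nat.cast_add_one, hp1]
  have hP : (X ^ 4 * (X - C 1728) ^ 3 : k[X]) ≠ 0 :=
    mul_ne_zero (pow_ne_zero _ X_ne_zero) (pow_ne_zero _ (X_sub_C_ne_zero _))
  have hU : (derivative A ^ 6 * (X ^ 4 * (X - C 1728) ^ 3 : k[X])) ≠ 0 :=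
    mul_ne_zero (pow_ne_zero _ hdA) hP
  have hB : A - C 1728 ≠ 0 := by
    intro h0
    have hAC : A = C 1728 := sub_eq_zero.mp h0
    have : A.natDegree = 0 := by rw [hAC, natDegree_C]
    omega
  have hcomp : (X ^ 4 * (X - C 1728) ^ 3 : k[X]).comp A = A ^ 4 * (A - C 1728) ^ 3 := by
    simp only [mul_comp, pow_comp, sub_comp, X_comp, C_comp]
  have hcompne : A ^ 4 * (A - C 1728) ^ 3 ≠ 0 :=
    mul_ne_zero (pow_ne_zero _ hA0) (pow_ne_zero _ hB)
  -- the multiset of values
  set U : k[X] := derivative A ^ 6 * (X ^ 4 * (X - C 1728) ^ 3 : k[X]) with hUdef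
  set M : Multiset k := U.roots.map (fun r => A.eval r) with hMdef
  have hmap : U.roots.map (fun r => C (A.eval r) - X) = M.map (fun a => C a - X) := by
    rw [hMdef, Multiset.map_map]; rfl
  rw [hmap, hcomp] at h
  have hL1 : (M.map (fun a => C a - X)).prod ≠ 0 := noLift_prod_ne_zero M
  have hR2 : (derivative A ^ 6 * (X ^ 4 * (X - C 1728) ^ 3 : k[X]) ^ (p + 1)) ≠ 0 :=
    mul_ne_zero (pow_ne_zero _ hdA) (pow_ne_zero _ hP)
  have hCc : (C c : k[X]) ≠ 0 := by rwa [Ne, C_eq_zero]
  -- key multiplicity identity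
  have hkey : ∀ v : k, M.count v + 4 * rootMultiplicity v A + 3 * rootMultiplicity v (A - C 1728)
      = 6 * rootMultiplicity v (derivative A)
        + (p + 1) * (4 * (if v = 0 then 1 else 0) + 3 * (if v = 1728 then 1 else 0)) := by
    intro v
    have hv := congrArg (rootMultiplicity v) h
    rw [rootMultiplicity_mul (mul_ne_zero hL1 hcompne), noLift_rootMult_prod,
      rootMultiplicity_mul hcompne, noLift_rootMult_pow _ hA0, noLift_rootMult_pow _ hB,
      rootMultiplicity_mul (mul_ne_zero hCc hR2), rootMultiplicity_C,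
      rootMultiplicity_mul hR2, noLift_rootMult_pow _ hdA, noLift_rootMult_pow _ hP,
      noLift_rootMult_P] at hv
    omega
  -- bounds
  have ha_le : ∀ v : k, rootMultiplicity v A ≤ rootMultiplicity v (derivative A) + 1 := by
    intro v
    have := rootMultiplicity_sub_one_le_derivative_rootMultiplicity_of_ne_zero A v hdA
    omega
  have hb_le : ∀ v : k, rootMultiplicity v (A - C 1728)
      ≤ rootMultiplicity v (derivative A) + 1 := by
    intro v
    have hd : derivative (A - C 1728) = derivative A := by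
      rw [derivative_sub, derivative_C, sub_zero]
    have := rootMultiplicity_sub_one_le_derivative_rootMultiplicity_of_ne_zero (A - C 1728) v
      (by rw [hd]; exact hdA)
    rw [hd] at this
    omega
  have hab : ∀ v : k, rootMultiplicity v A = 0 ∨ rootMultiplicity v (A - C 1728) = 0 := by
    intro v
    by_cases hv : A.eval v = 0
    · right
      apply rootMultiplicity_eq_zero
      rw [IsRoot, eval_sub, eval_C, hv, zero_sub, neg_eq_zero]
      exact h1728
    · left
      exact rootMultiplicity_eq_zero hv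
  -- the degree bound
  have hcard : M.count 0 + M.count 1728 ≤ 6 * p + 1 := by
    have h1 := noLift_count_two M 0 1728 (Ne.symm h1728)
    have h2' : Multiset.card M = Multiset.card U.roots := by rw [hMdef, Multiset.card_map]
    have h3' : Multiset.card U.roots ≤ U.natDegree := card_roots' U
    have h4 : U.natDegree ≤ 6 * (p - 1) + 7 := by
      have hd1 : (derivative A).natDegree ≤ p - 1 := by
        have := natDegree_derivative_lt (p := A) (by omega)
        omega
      have hd2 : (derivative A ^ 6).natDegree ≤ 6 * (p - 1) :=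
        natDegree_pow_le.trans (Nat.mul_le_mul_left 6 hd1)
      have hd3 : (X ^ 4 * (X - C 1728) ^ 3 : k[X]).natDegree ≤ 7 := by
        refine natDegree_mul_le.trans ?_
        have e1 : (X ^ 4 : k[X]).natDegree ≤ 4 := by
          refine natDegree_pow_le.trans ?_
          rw [natDegree_X]
        have e2 : ((X - C 1728) ^ 3 : k[X]).natDegree ≤ 3 := by
          refine natDegree_pow_le.trans ?_
          rw [natDegree_X_sub_C]
        omega
      rw [hUdef]
      refine natDegree_mul_le.trans ?_
      omega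
    omega
  have e0 := hkey 0
  have e1 := hkey 1728
  rw [if_pos rfl, if_neg (Ne.symm h1728)] at e0
  rw [if_neg h1728, if_pos rfl] at e1
  have a0 := ha_le 0
  have a1 := ha_le 1728
  have b0 := hb_le 0
  have b1 := hb_le 1728
  have ab0 := hab 0
  have ab1 := hab 1728
  have hp2 : p = 2 := by
    rcases ab0 with ab0 | ab0 <;> rcases ab1 with ab1 | ab1 <;> omega
  subst hp2
  have hn1 : M.count 1728 = 5 := by
    rcases ab0 with ab0 | ab0 <;> rcases ab1 with ab1 | ab1 <;> omega
  have hroot0 : rootMultiplicity 0 A = 1 := by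
    rcases ab0 with ab0 | ab0 <;> rcases ab1 with ab1 | ab1 <;> omega
  have hroot1 : rootMultiplicity 1728 A = 1 := by
    rcases ab0 with ab0 | ab0 <;> rcases ab1 with ab1 | ab1 <;> omega
  have hev0 : A.eval 0 = 0 := (rootMultiplicity_pos hA0).mp (by omega)
  have hev1 : A.eval 1728 = 0 := (rootMultiplicity_pos hA0).mp (by omega)
  -- endgame
  have hroots : U.roots = 6 • (derivative A).roots + (4 • {0} + 3 • {1728}) := by
    rw [hUdef, roots_mul hU, roots_pow, roots_mul hP, roots_pow, roots_pow, roots_X,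
      roots_X_sub_C]
  have hM : M = 6 • ((derivative A).roots.map (fun r => A.eval r)) + (4 • {0} + 3 • {0}) := by
    rw [hMdef, hroots, Multiset.map_add, Multiset.map_nsmul, Multiset.map_add,
      Multiset.map_nsmul, Multiset.map_nsmul, Multiset.map_singleton, Multiset.map_singleton,
      hev0, hev1]
  rw [hM, Multiset.count_add, Multiset.count_nsmul, Multiset.count_add, Multiset.count_nsmul,
    Multiset.count_nsmul, Multiset.count_singleton, if_neg h1728] at hn1
  omega

end NoLift

end

end Fermat.Agent.S28
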