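import Mathlib
import Fermat.Prelude.Def_ModularCurve_IgusaScheme
import Fermat.Prelude.Def_ModularCurve_X0ModL
import Fermat.Agent.S28.Defs
import Fermat.Agent.S28.AbstractIrred
import Fermat.Agent.S28.PrimeCore
import Fermat.Agent.S28.Subst
import Fermat.Agent.S28.DeltaProd

/-!
# S28 (backup line) — package [Prime23], core layer (helper36)

`j(q^p) ∉ k(j)` for `k` algebraically closed of characteristic `2` or `3` and `p ≠ char k`.
-/

set_option autoImplicit false

noncomputable section

namespace Fermat.Agent.S28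

open ModularCurve Polynomial IntermediateField

namespace Prime

variable {k : Type*} [Field k]

theorem exists_primitiveRoot_unit [IsAlgClosed k] (p : ℕ) (hp0 : p ≠ 0) (hpk : (p : k) ≠ 0) :
    ∃ ζ : kˣ, IsPrimitiveRoot ζ p := by
  have : NeZero (p : k) := ⟨hpk⟩
  obtain ⟨ζ, hζ⟩ := HasEnoughRootsOfUnity.exists_primitiveRoot k p
  exact ⟨(hζ.isUnit hp0).unit, hζ.isUnit_unit hp0⟩

theorem order_expand_jq_neg {p : ℕ} (hp : p ≠ 0) : (expand k p (jqModC k)).order < 0 := by
  have h1 : (expand k p (jqModC k)).coeff (-(p : ℤ)) ≠ 0 := by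
    rw [expand_jq_coeff_neg hp]
    exact one_ne_zero
  have h2 := HahnSeries.order_le_of_coeff_ne_zero h1
  have hp' : (0 : ℤ) < p := by exact_mod_cast Nat.pos_of_ne_zero hp
  omega

theorem transcendental_expand_jq {p : ℕ} (hp : p ≠ 0) :
    Transcendental k (expand k p (jqModC k)) :=
  AbstractIrred.transcendental_of_order_neg _ (order_expand_jq_neg hp)

theorem expand_single {p : ℕ} (hp : p ≠ 0) (n : ℤ) (r : k) :
    expand k p (HahnSeries.single n r) = HahnSeries.single ((p : ℤ) * n) r := by
  have : NeZero p := ⟨hp⟩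
  rw [expand_eq_qExpand, qExpand_single]

/-- `j^p ≠ j(q^p)` unless `j = q⁻¹`. -/
theorem jq_pow_ne_expand {p : ℕ} (hp2 : 2 ≤ p) (hpk : (p : k) ≠ 0)
    (hne : jqModC k ≠ HahnSeries.single (-1 : ℤ) (1 : k)) :
    jqModC k ^ p ≠ expand k p (jqModC k) := by
  intro heq
  have hp0 : p ≠ 0 := by omega
  set jN : PowerSeries k := jNum.map (Int.castRingHom k) with hjN
  set J₀ : LaurentSeries k := HahnSeries.ofPowerSeries ℤ k jN with hJ₀
  have hj : jqModC k = HahnSeries.single (-1 : ℤ) 1 * J₀ := rfl
  -- `J₀^p = J₀(q^p)`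
  have hJ : J₀ ^ p = expand k p J₀ := by
    rw [hj, mul_pow, map_mul, expand_single hp0, HahnSeries.single_pow, one_pow] at heq
    have hs : (p • (-1 : ℤ)) = (p : ℤ) * (-1) := by simp
    rw [hs] at heq
    have hs0 : HahnSeries.single ((p : ℤ) * (-1)) (1 : k) ≠ 0 := by
      simp
    exact mul_left_cancel₀ hs0 heq
  -- the power series `W = jN - 1`
  have hc0 : PowerSeries.constantCoeff jN = 1 := by
    rw [hjN, ← PowerSeries.coeff_zero_eq_constantCoeff, PowerSeries.coeff_map,
      PowerSeries.coeff_zero_eq_constantCoeff, constantCoeff_jNum]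
    simp
  have hW : ∃ n : ℕ, PowerSeries.coeff n (jN - 1) ≠ 0 := by
    by_contra hall
    have hall' : ∀ n : ℕ, PowerSeries.coeff n (jN - 1) = 0 := by
      intro n
      by_contra hn
      exact hall ⟨n, hn⟩
    have h1 : jN - 1 = 0 := PowerSeries.ext fun n => by rw [hall' n]; simp
    have h2 : jN = 1 := sub_eq_zero.mp h1
    apply hne
    rw [hj, hJ₀, h2, (HahnSeries.ofPowerSeries ℤ k).map_one, mul_one]
  classical
  set n := Nat.find hW with hn
  have hn1 : PowerSeries.coeff n (jN - 1) ≠ 0 := Nat.find_spec hW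
  have hnmin : ∀ m < n, PowerSeries.coeff m (jN - 1) = 0 := fun m hm => by
    by_contra h
    exact Nat.find_min hW hm h
  have hn0 : n ≠ 0 := by
    intro h0
    rw [h0] at hn1
    apply hn1
    rw [map_sub, PowerSeries.coeff_zero_eq_constantCoeff, hc0]
    simp
  -- coefficient `n` of `jN ^ p`
  have hgeom : jN ^ p = 1 + (∑ i ∈ Finset.range p, jN ^ i) * (jN - 1) := by
    rw [geom_sum_mul]
    ring
  have hG0 : PowerSeries.coeff 0 (∑ i ∈ Finset.range p, jN ^ i) = (p : k) := by
    rw [PowerSeries.coeff_zero_eq_constantCoeff, map_sum]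
    simp [hc0]
  have hcoeff : PowerSeries.coeff n (jN ^ p) = (p : k) * PowerSeries.coeff n (jN - 1) := by
    rw [hgeom, map_add, PowerSeries.coeff_one, if_neg hn0, zero_add, PowerSeries.coeff_mul,
      Finset.sum_eq_single (0, n)]
    · rw [hG0]
    · rintro ⟨a, b⟩ hab hne'
      have hab' : a + b = n := Finset.HasAntidiagonal.mem_antidiagonal.mp hab
      have hb : b < n := by
        rcases Nat.eq_zero_or_pos a with ha | ha
        · exfalso
          apply hne'
          subst ha
          simp at hab'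
          rw [hab']
        · omega
      rw [hnmin b hb, mul_zero]
    · intro h
      exact absurd (Finset.HasAntidiagonal.mem_antidiagonal.mpr (zero_add n)) h
  -- compare with `J₀(q^p)`
  have hL : (J₀ ^ p).coeff (n : ℤ) = (p : k) * PowerSeries.coeff n (jN - 1) := by
    rw [hJ₀, ← map_pow, HahnSeries.ofPowerSeries_apply_coeff, hcoeff]
  have hR : (expand k p J₀).coeff (n : ℤ) = 0 := by
    by_cases hd : (p : ℤ) ∣ (n : ℤ)
    · have hd' : p ∣ n := by exact_mod_cast hd
      obtain ⟨n', hn'⟩ := hd'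
      have hcast : (n : ℤ) = (p : ℤ) * (n' : ℤ) := by exact_mod_cast hn'
      rw [hcast, expand_coeff_mul hp0, hJ₀, HahnSeries.ofPowerSeries_apply_coeff]
      have hn'0 : n' ≠ 0 := by
        rintro rfl
        simp at hn'
        exact hn0 hn'
      have hn'lt : n' < n := by
        rw [hn']
        have : 1 * n' < p * n' := Nat.mul_lt_mul_of_pos_right (by omega) (Nat.pos_of_ne_zero hn'0)
        omega
      have := hnmin n' hn'lt
      rw [map_sub, PowerSeries.coeff_one, if_neg hn'0, sub_zero] at this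
      exact this
    · exact expand_coeff_of_not_dvd hp0 _ hd
  rw [hJ, hR] at hL
  exact mul_ne_zero hpk hn1 hL.symm

/-- [Prime23], core: the case `char k ∈ {2, 3}`, given the modular equation of level `p`. -/
theorem expand_jq_not_mem_of_eq_of_modEq (h : (2 : k) = 0 ∨ (3 : k) = 0)
    {p : ℕ} (hp : p.Prime) (hpk : (p : k) ≠ 0) {ζ : kˣ} (hζ : IsPrimitiveRoot ζ p)
    (M : ModEq k p ζ) :
    expand k p (jqModC k) ∉ IntermediateField.adjoin k {jqModC k} := by
  intro hmem
  have hp0 : p ≠ 0 := hp.ne_zero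
  obtain ⟨A, hAm, hAdeg, hA, hAb, hprod⟩ := exists_lift_poly_of_modEq M hp hζ hmem
  have h240 : (240 : k) = 0 := by
    rcases h with h | h
    · have : (240 : k) = 2 * 120 := by norm_num
      rw [this, h, zero_mul]
    · have : (240 : k) = 3 * 80 := by norm_num
      rw [this, h, zero_mul]
  have hjΔ : jqModC k * deltaS k = 1 := jqModC_mul_deltaS_of_240 k h240
  have hΔprod := deltaS_prod k p hp ζ hζ
  have h1 : expand k p (jqModC k) * expand k p (deltaS k) = 1 := by
    rw [← map_mul, hjΔ, map_one]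
  have h2 : expand k (p ^ 2) (jqModC k) * expand k (p ^ 2) (deltaS k) = 1 := by
    rw [← map_mul, hjΔ, map_one]
  have h4 : (∏ b ∈ Finset.range p, scale (ζ ^ b) (jqModC k)) *
      (∏ b ∈ Finset.range p, scale (ζ ^ b) (deltaS k)) = 1 := by
    rw [← Finset.prod_mul_distrib]
    refine Finset.prod_eq_one fun b _ => ?_
    rw [← map_mul, hjΔ, map_one]
  -- evaluate the product formula at `0`
  have h6 : algebraMap k (LaurentSeries k) (A.eval 0) - expand k p (jqModC k) =
      (-1) ^ p * ∏ b ∈ Finset.range p, scale (ζ ^ b) (jqModC k) := by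
    have := congrArg (fun P : (LaurentSeries k)[X] => P.eval 0) hprod
    simp only [eval_sub, eval_zero_map, eval_C, eval_prod, eval_X, zero_sub] at this
    rw [this, Finset.prod_neg, Finset.card_range]
  have h7 : expand k (p ^ 2) (jqModC k) = aeval (expand k p (jqModC k)) A := by
    calc expand k (p ^ 2) (jqModC k) = expand k p (expand k p (jqModC k)) := by
          rw [sq, expand_expand hp0 hp0]
      _ = expand k p (aeval (jqModC k) A) := by rw [hA]
      _ = aeval (expand k p (jqModC k)) A := expand_aeval p A (jqModC k)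
  generalize hE : expand k p (jqModC k) = E at h1 h6 h7 hΔprod
  generalize hE2 : expand k (p ^ 2) (jqModC k) = E2 at h2 h7
  generalize ha : ∏ b ∈ Finset.range p, scale (ζ ^ b) (jqModC k) = a at h4 h6
  generalize hd : ∏ b ∈ Finset.range p, scale (ζ ^ b) (deltaS k) = d at h4 hΔprod
  generalize hD1 : expand k p (deltaS k) = D1 at h1 hΔprod
  generalize hD2 : expand k (p ^ 2) (deltaS k) = D2 at h2 hΔprod
  generalize ha0 : algebraMap k (LaurentSeries k) (A.eval 0) = a0 at h6
  have h5 : E ^ (p + 1) = (-1) ^ (p + 1) * a * E2 := by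
    calc E ^ (p + 1) = E ^ (p + 1) * (a * d) * (E2 * D2) := by
          rw [h4, h2]; ring
      _ = a * E2 * E ^ (p + 1) * (d * D2) := by ring
      _ = a * E2 * E ^ (p + 1) * ((-1) ^ (p + 1) * D1 ^ (p + 1)) := by
          rw [hΔprod]
      _ = (-1) ^ (p + 1) * a * E2 * (E * D1) ^ (p + 1) := by ring
      _ = (-1) ^ (p + 1) * a * E2 := by rw [h1, one_pow, mul_one]
  have hkey : E ^ (p + 1) = (E - a0) * E2 := by
    have e1 : (-1 : LaurentSeries k) ^ (p + 1) * a = -((-1) ^ p * a) := by
      rw [pow_succ]; ring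
    rw [h5, e1, ← h6]
    ring
  -- the polynomial identity
  have h8 : aeval E ((X - C (A.eval 0)) * A - X ^ (p + 1)) = 0 := by
    rw [map_sub, map_mul, map_sub, aeval_X, aeval_C, map_pow, aeval_X, ← h7, hkey, ha0]
    ring
  have hF : (X - C (A.eval 0)) * A - X ^ (p + 1) = 0 := by
    by_contra hne
    have htr : Transcendental k E := hE ▸ transcendental_expand_jq hp0
    exact htr ⟨_, hne, h8⟩
  have hF' : (X - C (A.eval 0)) * A = X ^ (p + 1) := sub_eq_zero.mp hF
  have hA0 : A.eval 0 = 0 := by
    have := congrArg (fun P : k[X] => P.eval (A.eval 0)) hF'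
    simp only [eval_mul, eval_sub, eval_X, eval_C, sub_self, zero_mul, eval_pow] at this
    exact (pow_eq_zero_iff (by omega)).mp this.symm
  have hAX : A = X ^ p := by
    rw [hA0, C_0, sub_zero, pow_succ'] at hF'
    exact mul_left_cancel₀ X_ne_zero hF'
  have hfin : jqModC k ^ p = E := by
    rw [← hE, ← hA, hAX, map_pow, aeval_X]
  rw [← hE] at hfin
  exact jq_pow_ne_expand hp.two_le hpk (jqModC_ne_single k h) hfin

end Prime

end Fermat.Agent.S28
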