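/-
S28 package [Theta] (helper15): `θ = q d/dq` on Laurent series is a derivation, and
`(θ j)^6 = j^4 (j - 1728)^3 Δ` for the formal `q`-expansions, over every commutative ring.

The nine statements of the Plan section `Theta` (origin/helper26:Fermat/Agent/S28/Plan.lean),
verbatim, in namespace `Fermat.Agent.S28`; auxiliary lemmas live in `Fermat.Agent.S28.ThetaAux`.
-/
import Mathlib
import Fermat.Prelude.Def_ModularCurve_IgusaScheme
import Fermat.Prelude.Def_ModularCurve_X0ModL
import Fermat.Agent.S28.Defs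
import Fermat.Agent.Lib.JLevelOne
import Fermat.Agent.Lib.JqAnalytic

set_option autoImplicit false

noncomputable section

namespace Fermat.Agent.S28

open ModularCurve Polynomial

/-! ### Auxiliary coefficient lemmas -/

namespace ThetaAux

variable {R : Type*} [CommRing R]

theorem support_theta_subset (f : LaurentSeries R) : (theta R f).support ⊆ f.support := by
  intro n hn
  simp only [HahnSeries.mem_support, ne_eq] at hn ⊢
  intro h
  apply hn
  show (n : R) * f.coeff n = 0
  rw [h, mul_zero]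

theorem natCast_mul_coeff (m : ℕ) (g : LaurentSeries R) (n : ℤ) :
    ((m : LaurentSeries R) * g).coeff n = (m : R) * g.coeff n := by
  have h : (m : LaurentSeries R) = HahnSeries.C (m : R) := (map_natCast HahnSeries.C m).symm
  rw [h, HahnSeries.C_mul_eq_smul, HahnSeries.coeff_smul, smul_eq_mul]

theorem expand_eq (m : ℕ) (hm : m ≠ 0) : expand R m = @qExpand R _ m ⟨hm⟩ := by
  unfold expand
  rw [dif_neg hm]

end ThetaAux

section Theta

variable {R : Type*} [CommRing R]

theorem theta_coeff (f : LaurentSeries R) (n : ℤ) :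
    (theta R f).coeff n = (n : R) * f.coeff n := rfl

theorem theta_expand {m : ℕ} (hm : m ≠ 0) (f : LaurentSeries R) :
    theta R (expand R m f) = (m : LaurentSeries R) * expand R m (theta R f) := by
  have : NeZero m := ⟨hm⟩
  ext n
  rw [ThetaAux.natCast_mul_coeff, theta_coeff, ThetaAux.expand_eq m hm]
  by_cases hn : (m : ℤ) ∣ n
  · obtain ⟨k, rfl⟩ := hn
    rw [qExpand_coeff_mul, qExpand_coeff_mul, theta_coeff]
    push_cast
    ring
  · rw [qExpand_coeff_of_not_dvd m _ hn, qExpand_coeff_of_not_dvd m _ hn, mul_zero, mul_zero]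

/-- `θ` is a derivation. -/
theorem theta_mul (f g : LaurentSeries R) :
    theta R (f * g) = theta R f * g + f * theta R g := by
  ext n
  rw [HahnSeries.coeff_add, theta_coeff, HahnSeries.coeff_mul,
    HahnSeries.coeff_mul_left' f.isPWO_support (ThetaAux.support_theta_subset f),
    HahnSeries.coeff_mul_right' g.isPWO_support (ThetaAux.support_theta_subset g),
    Finset.mul_sum, ← Finset.sum_add_distrib]
  refine Finset.sum_congr rfl ?_
  rintro ⟨i, j⟩ hij
  have hn : i + j = n := (Finset.mem_antidiagonal.mp hij).2.2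
  subst hn
  simp only [theta_coeff]
  push_cast
  ring

theorem theta_C (c : R) : theta R (HahnSeries.C c) = 0 := by
  ext n
  rw [theta_coeff, HahnSeries.coeff_zero]
  by_cases hn : n = 0
  · subst hn
    simp
  · rw [HahnSeries.C_apply, HahnSeries.coeff_single_of_ne hn, mul_zero]

theorem theta_scale (ζ : Rˣ) (f : LaurentSeries R) :
    theta R (scale ζ f) = scale ζ (theta R f) := by
  ext n
  show (n : R) * (((ζ ^ n : Rˣ) : R) * f.coeff n) = ((ζ ^ n : Rˣ) : R) * ((n : R) * f.coeff n)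
  ring

theorem coeffMap_theta {S : Type*} [CommRing S] (φ : R →+* S) (f : LaurentSeries R) :
    coeffMap φ (theta R f) = theta S (coeffMap φ f) := by
  ext n
  rw [coeffMap_coeff, theta_coeff, theta_coeff, coeffMap_coeff, map_mul, map_intCast]

end Theta

/-! ### `θ` as a derivation; the chain rule for polynomials -/

namespace ThetaAux

variable (R : Type*) [CommRing R]

theorem algebraMap_eq_C (c : R) : algebraMap R (LaurentSeries R) c = HahnSeries.C c := by
  rw [HahnSeries.algebraMap_apply', show algebraMap R (PowerSeries R) c = PowerSeries.C c from rfl,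
    HahnSeries.ofPowerSeries_C]

/-- `θ` as a derivation of the `R`-algebra of Laurent series. -/
def thetaDer : Derivation R (LaurentSeries R) (LaurentSeries R) where
  toFun := theta R
  map_add' := map_add _
  map_smul' c f := by
    rw [RingHom.id_apply, Algebra.smul_def, algebraMap_eq_C, theta_mul, theta_C,
      zero_mul, zero_add, HahnSeries.C_mul_eq_smul]
  map_one_eq_zero' := by
    show theta R 1 = 0
    rw [← map_one (HahnSeries.C (Γ := ℤ) (R := R)), theta_C]
  leibniz' a b := by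
    show theta R (a * b) = a • theta R b + b • theta R a
    rw [theta_mul, smul_eq_mul, smul_eq_mul]
    ring

theorem thetaDer_apply (f : LaurentSeries R) : thetaDer R f = theta R f := rfl

end ThetaAux

section Theta

theorem theta_aeval {k : Type*} [Field k] (A : k[X]) (f : LaurentSeries k) :
    theta k (Polynomial.aeval f A) = Polynomial.aeval f (derivative A) * theta k f := by
  have h := (ThetaAux.thetaDer k).map_aeval A f
  rw [ThetaAux.thetaDer_apply, ThetaAux.thetaDer_apply, smul_eq_mul] at h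
  exact h

theorem theta_jqModC_ne_zero (R : Type*) [CommRing R] [Nontrivial R] :
    theta R (jqModC R) ≠ 0 := by
  intro h
  have h1 : (theta R (jqModC R)).coeff (-1) = 0 := by rw [h, HahnSeries.coeff_zero]
  rw [theta_coeff, coeff_jqModC_neg_one R] at h1
  simp at h1

end Theta

/-! ### The analytic input -/

namespace ThetaAux

open UpperHalfPlane ModularForm EisensteinSeries Derivative Filter Topology
open Fermat.Agent.Lib.JqAnalytic Fermat.Agent.Lib.JLevelOne

local notation "𝕢" => Function.Periodic.qParam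

/-- `K(q) = q J'(q) - J(q)` with `J = q · j` on the unit disc: the function `q · θ j`. -/
def kFun (q : ℂ) : ℂ := q * deriv jNumFun q - jNumFun q

theorem jInv_eq_jFun (τ : ℍ) : jInv τ = jFun τ := rfl

theorem qParam_mul_D_jInv (τ : ℍ) : 𝕢 1 (τ : ℂ) * D jInv τ = kFun (𝕢 1 (τ : ℂ)) := by
  have hq : ‖𝕢 1 (τ : ℂ)‖ < 1 := Function.Periodic.norm_qParam_lt_one one_pos τ.im_pos
  have hq0 : 𝕢 1 (τ : ℂ) ≠ 0 := Function.Periodic.qParam_ne_zero _
  have hJ : DifferentiableAt ℂ jNumFun (𝕢 1 (τ : ℂ)) :=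
    jNumFun_differentiableOn.differentiableAt (Metric.isOpen_ball.mem_nhds (by simpa using hq))
  have h1 : HasDerivAt (fun w : ℂ => jNumFun (𝕢 1 w))
      (deriv jNumFun (𝕢 1 (τ : ℂ)) * (𝕢 1 (τ : ℂ) * (2 * Real.pi * Complex.I))) (τ : ℂ) :=
    hJ.hasDerivAt.comp (τ : ℂ) (hasDerivAt_qParam_one (τ : ℂ))
  have h2 := h1.div (hasDerivAt_qParam_one (τ : ℂ)) hq0
  have h3 : jInv ∘ ofComplex =ᶠ[𝓝 (τ : ℂ)] fun w : ℂ => jNumFun (𝕢 1 w) / 𝕢 1 w := by
    filter_upwards [isOpen_upperHalfPlaneSet.mem_nhds τ.im_pos] with w hw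
    simp only [Function.comp_apply, ofComplex_apply_of_im_pos hw]
    have h4 := jNumFun_qParam ⟨w, hw⟩
    have hw0 : 𝕢 1 w ≠ 0 := Function.Periodic.qParam_ne_zero _
    rw [jInv_eq_jFun, eq_div_iff hw0, mul_comm]
    exact h4.symm
  have h5 := (h2.congr_of_eventuallyEq h3).deriv
  unfold normalizedDerivOfComplex kFun
  rw [h5]
  have hpi : (2 * Real.pi * Complex.I : ℂ) ≠ 0 := Complex.two_pi_I_ne_zero
  field_simp

theorem kFun_pow_six_qParam (τ : ℍ) :
    kFun (𝕢 1 (τ : ℂ)) ^ 6 = jNumFun (𝕢 1 (τ : ℂ)) ^ 4 *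
      (jNumFun (𝕢 1 (τ : ℂ)) - 1728 * 𝕢 1 (τ : ℂ)) ^ 3 * eulerFun (𝕢 1 (τ : ℂ)) ^ 24 := by
  have hq0 : 𝕢 1 (τ : ℂ) ≠ 0 := Function.Periodic.qParam_ne_zero _
  have hΔ := discriminant_ne_zero τ
  have hd := discriminant_eq_q_mul_eulerFun τ
  have h1 := D_jInv τ
  have h2 := jInv_sub τ
  have h3 := jNumFun_qParam τ
  have he : eulerFun (𝕢 1 (τ : ℂ)) ^ 24 = ModularForm.discriminant τ / 𝕢 1 (τ : ℂ) := by
    rw [hd]
    field_simp
  have h4 : 𝕢 1 (τ : ℂ) * jFun τ - 1728 * 𝕢 1 (τ : ℂ) =
      𝕢 1 (τ : ℂ) * (E₆ τ ^ 2 / ModularForm.discriminant τ) := by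
    rw [← h2, jInv_eq_jFun]
    ring
  rw [← qParam_mul_D_jInv, h1, h3, h4, he]
  unfold jFun
  field_simp

theorem kFun_pow_six {q : ℂ} (hq : ‖q‖ < 1) :
    kFun q ^ 6 = jNumFun q ^ 4 * (jNumFun q - 1728 * q) ^ 3 * eulerFun q ^ 24 := by
  by_cases hq0 : q = 0
  · subst hq0
    simp only [kFun, jNumFun_zero, eulerFun_zero]
    norm_num
  · have him := Function.Periodic.im_invQParam_pos_of_norm_lt_one one_pos hq hq0
    have h := kFun_pow_six_qParam ⟨_, him⟩
    rw [show ((⟨_, him⟩ : ℍ) : ℂ) = Function.Periodic.invQParam 1 q from rfl,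
      Function.Periodic.qParam_right_inv one_ne_zero hq0] at h
    exact h

theorem coeff_taylorPS_deriv (f : ℂ → ℂ) (n : ℕ) :
    (taylorPS (deriv f)).coeff n = ((n : ℂ) + 1) * (taylorPS f).coeff (n + 1) := by
  rw [coeff_taylorPS, coeff_taylorPS, ← iteratedDeriv_succ', Nat.factorial_succ]
  have h1 : ((n.factorial : ℕ) : ℂ) ≠ 0 := Nat.cast_ne_zero.mpr (Nat.factorial_ne_zero n)
  have h2 : ((n : ℂ) + 1) ≠ 0 := Nat.cast_add_one_ne_zero n
  push_cast
  field_simp

theorem analyticAt_jNumFun : AnalyticAt ℂ jNumFun 0 :=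
  jNumFun_differentiableOn.analyticAt (Metric.ball_mem_nhds _ one_pos)

theorem analyticAt_self : AnalyticAt ℂ (fun q : ℂ => q) 0 := analyticAt_id

theorem kFun_eq : kFun = (fun q : ℂ => q) * deriv jNumFun - jNumFun := by
  funext q
  simp [kFun]

theorem analyticAt_kFun : AnalyticAt ℂ kFun 0 := by
  rw [kFun_eq]
  exact (analyticAt_self.mul analyticAt_jNumFun.deriv).sub analyticAt_jNumFun

theorem coeff_taylorPS_kFun (n : ℕ) :
    (taylorPS kFun).coeff n = ((n : ℂ) - 1) * (taylorPS jNumFun).coeff n := by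
  rw [kFun_eq, taylorPS_sub (analyticAt_self.mul analyticAt_jNumFun.deriv) analyticAt_jNumFun,
    taylorPS_mul analyticAt_self analyticAt_jNumFun.deriv, taylorPS_id, map_sub]
  cases n with
  | zero => simp
  | succ m =>
    rw [PowerSeries.coeff_succ_X_mul, coeff_taylorPS_deriv]
    push_cast
    ring

theorem taylorPS_kFun_pow_six :
    taylorPS kFun ^ 6 = taylorPS jNumFun ^ 4 *
      (taylorPS jNumFun - PowerSeries.C (1728 : ℂ) * PowerSeries.X) ^ 3 * taylorPS eulerFun ^ 24 := by
  have hJ := analyticAt_jNumFun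
  have hE : AnalyticAt ℂ eulerFun 0 := eulerFun_analyticAt (by simp)
  have hK := analyticAt_kFun
  have hc : AnalyticAt ℂ (fun _ : ℂ => (1728 : ℂ)) 0 := analyticAt_const
  have hi := analyticAt_self
  have hL : AnalyticAt ℂ (jNumFun - (fun _ : ℂ => (1728 : ℂ)) * fun q : ℂ => q) 0 :=
    hJ.sub (hc.mul hi)
  have h1 : kFun ^ 6 =ᶠ[𝓝 0]
      jNumFun ^ 4 * (jNumFun - (fun _ : ℂ => (1728 : ℂ)) * fun q : ℂ => q) ^ 3 * eulerFun ^ 24 := by
    filter_upwards [Metric.ball_mem_nhds (0 : ℂ) one_pos] with q hq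
    simp only [Pi.mul_apply, Pi.pow_apply, Pi.sub_apply]
    exact kFun_pow_six (by simpa using hq)
  have h2 := taylorPS_congr h1
  rw [taylorPS_pow hK, taylorPS_mul ((hJ.pow 4).mul (hL.pow 3)) (hE.pow 24),
    taylorPS_mul (hJ.pow 4) (hL.pow 3), taylorPS_pow hJ, taylorPS_pow hL, taylorPS_sub hJ (hc.mul hi),
    taylorPS_mul hc hi, taylorPS_const, taylorPS_id, taylorPS_pow hE] at h2
  exact h2

/-- `θ j = q⁻¹ · K` as Laurent series over `ℂ`. -/
theorem theta_jqModC_complex :
    theta ℂ (jqModC ℂ) =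
      HahnSeries.single (-1 : ℤ) (1 : ℂ) * HahnSeries.ofPowerSeries ℤ ℂ (taylorPS kFun) := by
  ext n
  rw [theta_coeff, jqModC, HahnSeries.coeff_single_mul, HahnSeries.coeff_single_mul, one_mul,
    one_mul, sub_neg_eq_add]
  rcases lt_or_ge (n + 1) 0 with h | h
  · rw [ofPowerSeries_coeff_of_neg _ h, ofPowerSeries_coeff_of_neg _ h, mul_zero]
  · obtain ⟨m, hm⟩ := Int.eq_ofNat_of_zero_le h
    rw [hm, HahnSeries.ofPowerSeries_apply_coeff, HahnSeries.ofPowerSeries_apply_coeff,
      coeff_taylorPS_kFun, taylorPS_jNumFun]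
    have hn : n = (m : ℤ) - 1 := by omega
    rw [hn]
    push_cast
    ring

theorem coeffMap_deltaS_aux {R S : Type*} [CommRing R] [CommRing S] (φ : R →+* S) :
    coeffMap φ (deltaS R) = deltaS S := by
  rw [deltaS, map_mul, coeffMap_single, map_one, coeffMap_ofPowerSeries,
    ← RingHom.comp_apply (PowerSeries.map φ) (PowerSeries.map (Int.castRingHom R)),
    ← PowerSeries.map_comp, RingHom.ext_int (φ.comp (Int.castRingHom R)) (Int.castRingHom S)]
  rfl

theorem natCast_eq_C {R : Type*} [CommRing R] (m : ℕ) :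
    (m : LaurentSeries R) = HahnSeries.C (m : R) := (map_natCast HahnSeries.C m).symm

/-- the identity over `ℂ`. -/
theorem theta_jqModC_pow_six_complex :
    theta ℂ (jqModC ℂ) ^ 6 = jqModC ℂ ^ 4 * (jqModC ℂ - 1728) ^ 3 * deltaS ℂ := by
  have hps := congrArg (HahnSeries.ofPowerSeries ℤ ℂ) taylorPS_kFun_pow_six
  simp only [map_mul, map_pow, map_sub, HahnSeries.ofPowerSeries_C, HahnSeries.ofPowerSeries_X]
    at hps
  rw [taylorPS_jNumFun, taylorPS_eulerFun] at hps
  have hst : HahnSeries.single (-1 : ℤ) (1 : ℂ) * HahnSeries.single (1 : ℤ) (1 : ℂ) = 1 := by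
    rw [HahnSeries.single_mul_single]
    simp
  have hj : jqModC ℂ = HahnSeries.single (-1 : ℤ) (1 : ℂ) *
      HahnSeries.ofPowerSeries ℤ ℂ (PowerSeries.map (Int.castRingHom ℂ) jNum) := rfl
  have hd : deltaS ℂ = HahnSeries.single (1 : ℤ) (1 : ℂ) *
      HahnSeries.ofPowerSeries ℤ ℂ (PowerSeries.map (Int.castRingHom ℂ) etaProd) ^ 24 := by
    rw [deltaS, dedekindEtaUnit, map_pow, map_pow]
  have h1728 : (1728 : LaurentSeries ℂ) = HahnSeries.C (1728 : ℂ) := by
    have := natCast_eq_C (R := ℂ) 1728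
    exact_mod_cast this
  rw [theta_jqModC_complex, hd, h1728]
  have hsub : jqModC ℂ - HahnSeries.C (1728 : ℂ) = HahnSeries.single (-1 : ℤ) (1 : ℂ) *
      (HahnSeries.ofPowerSeries ℤ ℂ (PowerSeries.map (Int.castRingHom ℂ) jNum) -
        HahnSeries.C (1728 : ℂ) * HahnSeries.single (1 : ℤ) (1 : ℂ)) := by
    rw [hj]
    linear_combination (HahnSeries.C (1728 : ℂ)) * hst
  rw [hsub, hj]
  linear_combination (HahnSeries.single (-1 : ℤ) (1 : ℂ)) ^ 6 * hps -
    (HahnSeries.single (-1 : ℤ) (1 : ℂ)) ^ 6 *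
      HahnSeries.ofPowerSeries ℤ ℂ (PowerSeries.map (Int.castRingHom ℂ) jNum) ^ 4 *
      (HahnSeries.ofPowerSeries ℤ ℂ (PowerSeries.map (Int.castRingHom ℂ) jNum) -
        HahnSeries.C (1728 : ℂ) * HahnSeries.single (1 : ℤ) (1 : ℂ)) ^ 3 *
      HahnSeries.ofPowerSeries ℤ ℂ (PowerSeries.map (Int.castRingHom ℂ) etaProd) ^ 24 * hst

theorem coeffMap_intCast_complex_injective :
    Function.Injective (coeffMap (Int.castRingHom ℂ)) := by
  intro f g h
  ext n
  have h1 := congrArg (fun x => x.coeff n) h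
  simp only [coeffMap_coeff, eq_intCast] at h1
  exact_mod_cast h1

theorem coeffMap_ofNat {R S : Type*} [CommRing R] [CommRing S] (φ : R →+* S) (m : ℕ) :
    coeffMap φ (m : LaurentSeries R) = (m : LaurentSeries S) := map_natCast _ m

/-- the identity over `ℤ`. -/
theorem theta_jqModC_pow_six_int :
    theta ℤ (jqModC ℤ) ^ 6 = jqModC ℤ ^ 4 * (jqModC ℤ - 1728) ^ 3 * deltaS ℤ := by
  apply coeffMap_intCast_complex_injective
  have h1728 : coeffMap (Int.castRingHom ℂ) (1728 : LaurentSeries ℤ) = 1728 := by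
    have := coeffMap_ofNat (Int.castRingHom ℂ) 1728
    exact_mod_cast this
  rw [map_pow, map_mul, map_mul, map_pow, map_pow, map_sub, coeffMap_theta, coeffMap_jqModC,
    coeffMap_deltaS_aux, h1728]
  exact theta_jqModC_pow_six_complex

end ThetaAux

section Theta

/-- the analytic input: `D j = -E₄²E₆/Δ`, `j - 1728 = E₆²/Δ` (landed `Lib/JLevelOne`),
transported to `q`-expansions (`Lib/JqAnalytic`). -/
theorem theta_jqModC_pow_six (R : Type*) [CommRing R] :
    theta R (jqModC R) ^ 6 = jqModC R ^ 4 * (jqModC R - 1728) ^ 3 * deltaS R := by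
  have h := congrArg (coeffMap (Int.castRingHom R)) ThetaAux.theta_jqModC_pow_six_int
  have h1728 : coeffMap (Int.castRingHom R) (1728 : LaurentSeries ℤ) = 1728 := by
    have := ThetaAux.coeffMap_ofNat (Int.castRingHom R) 1728
    exact_mod_cast this
  rw [map_pow, map_mul, map_mul, map_pow, map_pow, map_sub, coeffMap_theta, coeffMap_jqModC,
    ThetaAux.coeffMap_deltaS_aux, h1728] at h
  exact h

end Theta

end Fermat.Agent.S28
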