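import Mathlib
import Fermat.Prelude.Def_ModularCurve_IgusaScheme
import Fermat.Prelude.Def_ModularCurve_X0ModL
import Fermat.Agent.S28.Defs
import Fermat.Agent.S28.AbstractIrred
import Fermat.Agent.S28.Subst
import Fermat.Agent.S28.Theta
import Fermat.Agent.S28.NoLift
import Fermat.Agent.S28.PrimeCore
import Fermat.Agent.S28.Prime23Core
import Fermat.Agent.S28.DeltaProd

/-!
# S28 (backup line) — package [Prime5], core layer (helper36)

`j(q^p) ∉ k(j)` for `k` algebraically closed of characteristic `≠ 2, 3` and `p ≠ char k`, given the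
modular equation of level `p`.

If `j(q^p) = A(j)`, apply `θ = q d/dq`, take sixth powers, use `(θ j)^6 = j^4 (j - 1728)^3 Δ`,
multiply over the conjugates `j(ζ^b q)` and use the product formula for `Δ`: this gives a polynomial
identity for `A` which is impossible (`noLift`).
-/

set_option autoImplicit false

noncomputable section

namespace Fermat.Agent.S28

open ModularCurve Polynomial IntermediateField

namespace Prime

variable {k : Type*} [Field k]

/-- interchange of a finite product and a multiset product. -/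
theorem prod_range_multiset_prod {α M : Type*} [CommMonoid M] (s : Multiset α) (f : ℕ → α → M)
    (n : ℕ) :
    ∏ b ∈ Finset.range n, (s.map (f b)).prod =
      (s.map (fun r => ∏ b ∈ Finset.range n, f b r)).prod := by
  induction s using Multiset.induction_on with
  | empty => simp
  | cons a s ih =>
    simp only [Multiset.map_cons, Multiset.prod_cons]
    rw [Finset.prod_mul_distrib, ih]

theorem aeval_P (f : LaurentSeries k) :
    aeval f (X ^ 4 * (X - C 1728) ^ 3 : k[X]) = f ^ 4 * (f - 1728) ^ 3 := by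
  simp [map_ofNat]

/-- the `θ`-relation: `A'(j)^6 P(j) Δ = p^6 P(j(q^p)) Δ(q^p)`. -/
theorem theta_relation {p : ℕ} (hp0 : p ≠ 0) (A : k[X])
    (hA : aeval (jqModC k) A = expand k p (jqModC k)) :
    aeval (jqModC k) (derivative A ^ 6 * (X ^ 4 * (X - C 1728) ^ 3)) * deltaS k =
      (p : LaurentSeries k) ^ 6 *
        aeval (expand k p (jqModC k)) (X ^ 4 * (X - C 1728) ^ 3 : k[X]) *
        expand k p (deltaS k) := by
  have h1 : aeval (jqModC k) (derivative A) * theta k (jqModC k) =
      (p : LaurentSeries k) * expand k p (theta k (jqModC k)) := by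
    rw [← theta_aeval, hA, theta_expand hp0]
  have h6 := theta_jqModC_pow_six k
  calc aeval (jqModC k) (derivative A ^ 6 * (X ^ 4 * (X - C 1728) ^ 3)) * deltaS k
      = (aeval (jqModC k) (derivative A) * theta k (jqModC k)) ^ 6 := by
        rw [mul_pow, h6, map_mul, map_pow, aeval_P]; ring
    _ = (p : LaurentSeries k) ^ 6 * expand k p (theta k (jqModC k) ^ 6) := by
        rw [h1, map_pow]; ring
    _ = _ := by
        rw [h6, map_mul, ← aeval_P, expand_aeval]; ring

/-- the scaled `θ`-relation. -/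
theorem theta_relation_scale {p : ℕ} {ζ : kˣ} (hζ : IsPrimitiveRoot ζ p) (hp0 : p ≠ 0) (A : k[X])
    (hA : aeval (jqModC k) A = expand k p (jqModC k)) (b : ℕ) :
    aeval (scale (ζ ^ b) (jqModC k)) (derivative A ^ 6 * (X ^ 4 * (X - C 1728) ^ 3)) *
        scale (ζ ^ b) (deltaS k) =
      (p : LaurentSeries k) ^ 6 *
        aeval (expand k p (jqModC k)) (X ^ 4 * (X - C 1728) ^ 3 : k[X]) *
        expand k p (deltaS k) := by
  have h := congrArg (scale (ζ ^ b)) (theta_relation hp0 A hA)
  have hζb : (ζ ^ b) ^ p = 1 := by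
    rw [← pow_mul, mul_comm, pow_mul, hζ.pow_eq_one, one_pow]
  have hΔ : scale (ζ ^ b) (expand k p (deltaS k)) = expand k p (deltaS k) :=
    scale_eq_self_of_mem_range_expand (ζ ^ b) hp0 hζb ⟨_, rfl⟩
  rw [(scale (ζ ^ b)).map_mul, (scale (ζ ^ b)).map_mul, (scale (ζ ^ b)).map_mul,
    (scale (ζ ^ b)).map_pow, map_natCast, scale_aeval, scale_aeval,
    scale_pow_expand_jq hζ hp0 b, hΔ] at h
  exact h

/-- the expanded `θ`-relation. -/
theorem theta_relation_expand {p : ℕ} (hp0 : p ≠ 0) (A : k[X])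
    (hA : aeval (jqModC k) A = expand k p (jqModC k)) :
    aeval (expand k p (jqModC k)) (derivative A ^ 6 * (X ^ 4 * (X - C 1728) ^ 3)) *
        expand k p (deltaS k) =
      (p : LaurentSeries k) ^ 6 *
        aeval (expand k p (jqModC k)) ((X ^ 4 * (X - C 1728) ^ 3 : k[X]).comp A) *
        expand k (p ^ 2) (deltaS k) := by
  have h := congrArg (expand k p) (theta_relation hp0 A hA)
  have hE2 : expand k p (expand k p (jqModC k)) = aeval (expand k p (jqModC k)) A := by
    conv_lhs => rw [← hA]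
    exact expand_aeval p A (jqModC k)
  have hΔ2 : expand k p (expand k p (deltaS k)) = expand k (p ^ 2) (deltaS k) := by
    rw [expand_expand hp0 hp0, sq]
  rw [(expand k p).map_mul, (expand k p).map_mul, (expand k p).map_mul, (expand k p).map_pow,
    map_natCast, expand_aeval, expand_aeval, hE2, hΔ2] at h
  rw [aeval_comp]
  exact h

/-- the product of the scaled relations, with the product formula for `Δ`. -/
theorem theta_relation_prod {p : ℕ} (hp : p.Prime) {ζ : kˣ} (hζ : IsPrimitiveRoot ζ p) (A : k[X])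
    (hA : aeval (jqModC k) A = expand k p (jqModC k)) :
    (∏ b ∈ Finset.range p,
        aeval (scale (ζ ^ b) (jqModC k)) (derivative A ^ 6 * (X ^ 4 * (X - C 1728) ^ 3))) *
        (-1) ^ (p + 1) * expand k p (deltaS k) =
      (p : LaurentSeries k) ^ (6 * p) *
        aeval (expand k p (jqModC k)) (X ^ 4 * (X - C 1728) ^ 3 : k[X]) ^ p *
        expand k (p ^ 2) (deltaS k) := by
  have hp0 : p ≠ 0 := hp.ne_zero
  have hB : (∏ b ∈ Finset.range p,
        aeval (scale (ζ ^ b) (jqModC k)) (derivative A ^ 6 * (X ^ 4 * (X - C 1728) ^ 3))) *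
        (∏ b ∈ Finset.range p, scale (ζ ^ b) (deltaS k)) =
      ((p : LaurentSeries k) ^ 6 *
        aeval (expand k p (jqModC k)) (X ^ 4 * (X - C 1728) ^ 3 : k[X]) *
        expand k p (deltaS k)) ^ p := by
    rw [← Finset.prod_mul_distrib,
      Finset.prod_congr rfl (fun b _ => theta_relation_scale hζ hp0 A hA b), Finset.prod_const,
      Finset.card_range]
  have hΔ := deltaS_prod k p hp ζ hζ
  have hΔp0 : expand k p (deltaS k) ≠ 0 := fun h =>
    deltaS_ne_zero k (expand_injective hp0 (by rw [h, map_zero]))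
  generalize (∏ b ∈ Finset.range p,
        aeval (scale (ζ ^ b) (jqModC k)) (derivative A ^ 6 * (X ^ 4 * (X - C 1728) ^ 3))) = Pi0
    at hB ⊢
  generalize (∏ b ∈ Finset.range p, scale (ζ ^ b) (deltaS k)) = D at hB hΔ
  generalize expand k p (deltaS k) = D1 at hB hΔ hΔp0 ⊢
  generalize expand k (p ^ 2) (deltaS k) = D2 at hΔ ⊢
  generalize aeval (expand k p (jqModC k)) (X ^ 4 * (X - C 1728) ^ 3 : k[X]) = PE at hB ⊢
  apply mul_right_cancel₀ (pow_ne_zero p hΔp0)
  calc Pi0 * (-1) ^ (p + 1) * D1 * D1 ^ p = Pi0 * ((-1) ^ (p + 1) * D1 ^ (p + 1)) := by ring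
    _ = Pi0 * D * D2 := by rw [← hΔ]; ring
    _ = ((p : LaurentSeries k) ^ 6 * PE * D1) ^ p * D2 := by rw [hB]
    _ = (p : LaurentSeries k) ^ (6 * p) * PE ^ p * D2 * D1 ^ p := by ring

/-- the product over the conjugates of a split polynomial in `j`, in terms of `j(q^p)`. -/
theorem prod_aeval_scale {p : ℕ} {ζ : kˣ} (A U : k[X]) (hU : U.Splits)
    (hprod : A.map (algebraMap k (LaurentSeries k)) - C (expand k p (jqModC k)) =
      ∏ b ∈ Finset.range p, (X - C (scale (ζ ^ b) (jqModC k)))) :
    ∏ b ∈ Finset.range p, aeval (scale (ζ ^ b) (jqModC k)) U =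
      algebraMap k (LaurentSeries k)
          (U.leadingCoeff ^ p * ((-1) ^ p) ^ (Multiset.card U.roots)) *
        aeval (expand k p (jqModC k)) ((U.roots.map (fun r => C (A.eval r) - X)).prod) := by
  have hroot : ∀ r : k, ∏ b ∈ Finset.range p,
      (scale (ζ ^ b) (jqModC k) - algebraMap k (LaurentSeries k) r) =
      (-1) ^ p * (algebraMap k (LaurentSeries k) (A.eval r) - expand k p (jqModC k)) := by
    intro r
    have := congrArg (fun P : (LaurentSeries k)[X] => P.eval (algebraMap k (LaurentSeries k) r))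
      hprod
    simp only [eval_sub, eval_map_algebraMap, eval_C, eval_prod, eval_X] at this
    rw [aeval_algebraMap_apply_eq_algebraMap_eval] at this
    have hneg : ∀ b : ℕ, scale (ζ ^ b) (jqModC k) - algebraMap k (LaurentSeries k) r =
        -(algebraMap k (LaurentSeries k) r - scale (ζ ^ b) (jqModC k)) := fun b => by ring
    rw [Finset.prod_congr rfl (fun b _ => hneg b), Finset.prod_neg, Finset.card_range, this]
  have hb : ∀ b : ℕ, aeval (scale (ζ ^ b) (jqModC k)) U =
      algebraMap k (LaurentSeries k) U.leadingCoeff *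
        (U.roots.map (fun r => scale (ζ ^ b) (jqModC k) - algebraMap k (LaurentSeries k) r)).prod := by
    intro b
    conv_lhs => rw [hU.eq_prod_roots]
    rw [map_mul, aeval_C, map_multiset_prod, Multiset.map_map]
    congr 2
    refine Multiset.map_congr rfl fun r _ => ?_
    simp
  rw [Finset.prod_congr rfl (fun b _ => hb b), Finset.prod_mul_distrib, Finset.prod_const,
    Finset.card_range, prod_range_multiset_prod]
  simp only [hroot]
  rw [Multiset.prod_map_mul, Multiset.map_const', Multiset.prod_replicate, map_multiset_prod,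
    Multiset.map_map]
  have hmap : Multiset.map ((aeval (expand k p (jqModC k))) ∘ fun r => C (A.eval r) - X) U.roots =
      Multiset.map (fun r => algebraMap k (LaurentSeries k) (A.eval r) - expand k p (jqModC k))
        U.roots := by
    refine Multiset.map_congr rfl fun r _ => ?_
    simp
  rw [hmap]
  simp only [map_mul, map_pow, map_neg, map_one]
  ring

/-- [Prime5], core: the case `char k ∉ {2, 3}`, given the modular equation of level `p`. -/
theorem expand_jq_not_mem_of_ne_of_modEq [IsAlgClosed k] (h2 : (2 : k) ≠ 0) (h3 : (3 : k) ≠ 0)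
    {p : ℕ} (hp : p.Prime) (hpk : (p : k) ≠ 0) {ζ : kˣ} (hζ : IsPrimitiveRoot ζ p)
    (M : ModEq k p ζ) :
    expand k p (jqModC k) ∉ IntermediateField.adjoin k {jqModC k} := by
  intro hmem
  have hp0 : p ≠ 0 := hp.ne_zero
  obtain ⟨A, hAm, hAdeg, hA, hAb, hprod⟩ := exists_lift_poly_of_modEq M hp hζ hmem
  -- the polynomials
  have hA' : derivative A ≠ 0 := by
    intro h0
    have hc := coeff_derivative A (p - 1)
    rw [h0, coeff_zero] at hc
    have hp1 : p - 1 + 1 = p := Nat.sub_add_cancel hp.one_le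
    have hlead : A.coeff (p - 1 + 1) = 1 := by
      rw [hp1, ← hAdeg]; exact hAm.coeff_natDegree
    rw [hlead, one_mul] at hc
    apply hpk
    have : ((p - 1 : ℕ) : k) + 1 = (p : k) := by
      rw [← Nat.cast_succ, Nat.succ_eq_add_one, hp1]
    rw [← this]
    exact hc.symm
  have h1728 : (1728 : k) ≠ 0 := by
    have : (1728 : k) = 2 ^ 6 * 3 ^ 3 := by norm_num
    rw [this]
    exact mul_ne_zero (pow_ne_zero _ h2) (pow_ne_zero _ h3)
  have hP0 : (X ^ 4 * (X - C 1728) ^ 3 : k[X]) ≠ 0 :=
    mul_ne_zero (pow_ne_zero _ X_ne_zero) (pow_ne_zero _ (X_sub_C_ne_zero _))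
  have hU0 : derivative A ^ 6 * (X ^ 4 * (X - C 1728) ^ 3 : k[X]) ≠ 0 :=
    mul_ne_zero (pow_ne_zero _ hA') hP0
  -- the three relations
  have hI := theta_relation_prod hp hζ A hA
  have hII := theta_relation_expand hp0 A hA
  have hIII := prod_aeval_scale A (derivative A ^ 6 * (X ^ 4 * (X - C 1728) ^ 3 : k[X]))
    (IsAlgClosed.splits _) hprod
  have hΔp0 : expand k p (deltaS k) ≠ 0 := fun h =>
    deltaS_ne_zero k (expand_injective hp0 (by rw [h, map_zero]))
  have hΔp20 : expand k (p ^ 2) (deltaS k) ≠ 0 := fun h =>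
    deltaS_ne_zero k (expand_injective (pow_ne_zero 2 hp0) (by rw [h, map_zero]))
  have htr : Transcendental k (expand k p (jqModC k)) := transcendental_expand_jq hp0
  have key : ∀ (P A' R : k[X]) (c1 : k), c1 ≠ 0 →
      (∏ b ∈ Finset.range p, aeval (scale (ζ ^ b) (jqModC k)) (A' ^ 6 * P)) * (-1) ^ (p + 1) *
          expand k p (deltaS k) =
        (p : LaurentSeries k) ^ (6 * p) * aeval (expand k p (jqModC k)) P ^ p *
          expand k (p ^ 2) (deltaS k) →
      aeval (expand k p (jqModC k)) (A' ^ 6 * P) * expand k p (deltaS k) =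
        (p : LaurentSeries k) ^ 6 * aeval (expand k p (jqModC k)) (P.comp A) *
          expand k (p ^ 2) (deltaS k) →
      ∏ b ∈ Finset.range p, aeval (scale (ζ ^ b) (jqModC k)) (A' ^ 6 * P) =
        algebraMap k (LaurentSeries k) c1 * aeval (expand k p (jqModC k)) R →
      ∃ c : k, c ≠ 0 ∧ R * P.comp A = C c * (A' ^ 6 * P ^ (p + 1)) := by
    intro P A' R c1 hc10 hI hII hIII
    have hF : aeval (expand k p (jqModC k))
        (C (c1 * (-1) ^ (p + 1) * (p : k) ^ 6) * (R * P.comp A) -
          C ((p : k) ^ (6 * p)) * (A' ^ 6 * P ^ (p + 1))) = 0 := by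
      rw [hIII] at hI
      rw [map_mul, map_pow] at hII
      simp only [map_sub, map_mul, aeval_C, map_pow, map_neg, map_one, map_natCast]
      generalize aeval (expand k p (jqModC k)) R = RE at hI ⊢
      generalize aeval (expand k p (jqModC k)) P = PE at hI hII ⊢
      generalize aeval (expand k p (jqModC k)) (P.comp A) = PE2 at hII ⊢
      generalize aeval (expand k p (jqModC k)) A' = AE at hII ⊢
      generalize expand k p (deltaS k) = D1 at hI hII hΔp0
      generalize expand k (p ^ 2) (deltaS k) = D2 at hI hII hΔp20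
      generalize algebraMap k (LaurentSeries k) c1 = C1 at hI ⊢
      have hD : D1 * D2 ≠ 0 := mul_ne_zero hΔp0 hΔp20
      apply mul_right_cancel₀ hD
      rw [zero_mul]
      linear_combination ((p : LaurentSeries k) ^ 6 * PE2 * D2) * hI -
        ((p : LaurentSeries k) ^ (6 * p) * PE ^ p * D2) * hII
    have hF0 : C (c1 * (-1) ^ (p + 1) * (p : k) ^ 6) * (R * P.comp A) -
        C ((p : k) ^ (6 * p)) * (A' ^ 6 * P ^ (p + 1)) = 0 := by
      by_contra hne
      exact htr ⟨_, hne, hF⟩
    have ha0 : c1 * (-1) ^ (p + 1) * (p : k) ^ 6 ≠ 0 :=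
      mul_ne_zero (mul_ne_zero hc10 (pow_ne_zero _ (neg_ne_zero.mpr one_ne_zero)))
        (pow_ne_zero _ hpk)
    refine ⟨(c1 * (-1) ^ (p + 1) * (p : k) ^ 6)⁻¹ * (p : k) ^ (6 * p),
      mul_ne_zero (inv_ne_zero ha0) (pow_ne_zero _ hpk), ?_⟩
    have h1 := sub_eq_zero.mp hF0
    calc R * P.comp A
        = C ((c1 * (-1) ^ (p + 1) * (p : k) ^ 6)⁻¹) *
            (C (c1 * (-1) ^ (p + 1) * (p : k) ^ 6) * (R * P.comp A)) := by
          rw [← mul_assoc, ← C_mul, inv_mul_cancel₀ ha0, C_1, one_mul]
      _ = _ := by rw [h1, ← mul_assoc, ← C_mul]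
  have hc10 : (derivative A ^ 6 * (X ^ 4 * (X - C 1728) ^ 3 : k[X])).leadingCoeff ^ p *
      ((-1) ^ p) ^ (Multiset.card
        (derivative A ^ 6 * (X ^ 4 * (X - C 1728) ^ 3 : k[X])).roots) ≠ 0 :=
    mul_ne_zero (pow_ne_zero _ (leadingCoeff_ne_zero.mpr hU0))
      (pow_ne_zero _ (pow_ne_zero _ (neg_ne_zero.mpr one_ne_zero)))
  obtain ⟨c, hc, hfin⟩ := key _ _ _ _ hc10 hI hII hIII
  exact noLift h2 h3 p hp.two_le hpk A hAm hAdeg c hc hfin

/-- (P), core: the prime case, given the modular equation of level `p`. -/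
theorem expand_jq_not_mem_of_modEq [IsAlgClosed k]
    {p : ℕ} (hp : p.Prime) (hpk : (p : k) ≠ 0) {ζ : kˣ} (hζ : IsPrimitiveRoot ζ p)
    (M : ModEq k p ζ) :
    expand k p (jqModC k) ∉ IntermediateField.adjoin k {jqModC k} := by
  by_cases h2 : (2 : k) = 0
  · exact expand_jq_not_mem_of_eq_of_modEq (Or.inl h2) hp hpk hζ M
  by_cases h3 : (3 : k) = 0
  · exact expand_jq_not_mem_of_eq_of_modEq (Or.inr h3) hp hpk hζ M
  exact expand_jq_not_mem_of_ne_of_modEq h2 h3 hp hpk hζ M

end Prime

end Fermat.Agent.S28
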