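/-
S28 [Tower] (helper32): the degree bound in characteristic `ℓ ∤ N`.

* `exists_linearIndependent_closed` (T): over an algebraically closed field `k` with `(N : k) ≠ 0`
  there are `ψ(N)` elements of `ℤ[j(q^d) : d ∣ N]` whose reductions are linearly independent
  over `k(j)`.
* `exists_linearIndependent` (L): the same over the prime field `𝔽_ℓ`, `ℓ ∤ N`.

Both statements are verbatim from the S28 plan (helper26).  The proof is in the layers
`S28/Tower/Basic.lean` (rank helpers, valuation argument), `S28/Tower/Step.lean` (the induction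
`N = p·M`) and `S28/Tower/Top.lean` (extraction, descent), all conditional on `TowerInputs`;
here the inputs [ModEqK] (`S28/ModEqK.lean`, helper79) and [Prime] (`S28/Prime5Core.lean`,
helper36) are plugged in.
-/
import Mathlib
import Fermat.Prelude.Def_ModularCurve_IgusaScheme
import Fermat.Prelude.Def_ModularCurve_X0ModL
import Fermat.Agent.S28.Defs
import Fermat.Agent.S28.ModEqK
import Fermat.Agent.S28.Prime5Core
import Fermat.Agent.S28.Tower.Top

set_option autoImplicit false

noncomputable section

namespace Fermat.Agent.S28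

open ModularCurve Polynomial IntermediateField

open Tower

section Tower

/-- the inputs of the tower induction: packages [ModEqK] (helper79) and [Prime] (helper36). -/
theorem Tower.towerInputs (k : Type*) [Field k] [IsAlgClosed k] : Tower.TowerInputs k :=
  ⟨fun p hp ζ hζ => exists_modEq k p hp ζ hζ,
    fun _ _ M hp ξ _ hm => M.factor_subst hp ξ hm,
    fun _ _ M hp ξ _ hm => M.aeval_eq_zero hp ξ hm,
    fun _ _ M hp ξ _ hm => M.aeval_eq_zero' hp ξ hm,
    fun p hp hpk => by
      obtain ⟨ζ, hζ⟩ := Prime.exists_primitiveRoot_unit p hp.ne_zero hpk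
      obtain ⟨M⟩ := exists_modEq k p hp ζ hζ
      exact Prime.expand_jq_not_mem_of_modEq hp hpk hζ M⟩

/-- (T) over an algebraically closed field of characteristic prime to `N` there are `ψ(N)`
monomials in the `j(q^d)`, `d ∣ N`, linearly independent over `k(j)`. -/
theorem exists_linearIndependent_closed (k : Type*) [Field k] [IsAlgClosed k] (N : ℕ) [NeZero N]
    (hN : (N : k) ≠ 0) :
    ∃ B : Fin (dedekindPsi N) → LaurentSeries ℤ,
      (∀ i, B i ∈ Subring.closure {x | ∃ d : ℕ, d ∣ N ∧ x = expand ℤ d (jqModC ℤ)}) ∧
      LinearIndependent (IntermediateField.adjoin k {jqModC k})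
        (fun i => coeffMap (Int.castRingHom k) (B i)) :=
  exists_linearIndependent_closed_of_inputs k (Tower.towerInputs k) N hN

/-- (L) descent to the prime field: the interface consumed by [Chart]. -/
theorem exists_linearIndependent (N : ℕ) [NeZero N] (ℓ : ℕ) [Fact ℓ.Prime] (hℓN : ¬ ℓ ∣ N) :
    ∃ B : Fin (dedekindPsi N) → LaurentSeries ℤ,
      (∀ i, B i ∈ Subring.closure {x | ∃ d : ℕ, d ∣ N ∧ x = expand ℤ d (jqModC ℤ)}) ∧
      LinearIndependent (IntermediateField.adjoin (ZMod ℓ) {jqModC (ZMod ℓ)})
        (fun i => coeffMap (Int.castRingHom (ZMod ℓ)) (B i)) :=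
  exists_linearIndependent_of_inputs N ℓ hℓN (Tower.towerInputs _)

end Tower

end Fermat.Agent.S28
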